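/-
GATE-L / THICK-SERIES (helper63), file 2: the Euler operator `θ = Q d/dQ` on LAURENT series
`R((Q))` over an arbitrary commutative ring, as an `R`-derivation.

* `thetaL R : Derivation R (LaurentSeries R) (LaurentSeries R)`, `coeff_thetaL : (θ f)_n = n f_n`;
* compatibility with coefficient maps (`thetaL_coeffMap`), with `Q ↦ Q^N`
  (`thetaL_qExpand : θ (f(Q^N)) = N (θ f)(Q^N)`), with power series (`thetaL_ofPowerSeries`);
* `thetaL_pow_char : θ (f^q) = 0` in characteristic `q`; chain rule `thetaL_aeval`.
Mathlib + prelude (`ModularCurve.qExpand`, `ModularCurve.coeffMap`) + the S16 `theta` only.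
-/
import Mathlib
import Fermat.Prelude.Def_ModularCurve_X0
import Fermat.Prelude.Def_ModularCurve_LaurentCoeff
import Fermat.Agent.S16.RAM.Theta

set_option autoImplicit false

noncomputable section

namespace Fermat.Agent.GL.Thick

open HahnSeries ModularCurve

variable (R : Type*) [CommRing R]

/-- the underlying function of `θ` -/
def thetaLFun (f : LaurentSeries R) : LaurentSeries R where
  coeff n := (n : R) * f.coeff n
  isPWO_support' := f.isPWO_support.mono (fun n hn => by
    simp only [Function.mem_support, ne_eq] at hn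
    intro h
    exact hn (by rw [h, mul_zero]))

variable {R}

@[simp]
theorem coeff_thetaLFun (f : LaurentSeries R) (n : ℤ) :
    (thetaLFun R f).coeff n = (n : R) * f.coeff n := rfl

theorem support_thetaLFun_subset (f : LaurentSeries R) :
    (thetaLFun R f).support ⊆ f.support := by
  intro n hn
  simp only [HahnSeries.mem_support, coeff_thetaLFun, ne_eq] at hn ⊢
  intro h
  exact hn (by rw [h, mul_zero])

theorem thetaLFun_mul (f g : LaurentSeries R) :
    thetaLFun R (f * g) = thetaLFun R f * g + f * thetaLFun R g := by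
  ext n
  rw [coeff_add, coeff_thetaLFun, coeff_mul,
    coeff_mul_left' f.isPWO_support (support_thetaLFun_subset f),
    coeff_mul_right' g.isPWO_support (support_thetaLFun_subset g), Finset.mul_sum,
    ← Finset.sum_add_distrib]
  refine Finset.sum_congr rfl fun ij hij => ?_
  have hsum : ij.1 + ij.2 = n := (Finset.mem_antidiagonal.mp hij).2.2
  rw [coeff_thetaLFun, coeff_thetaLFun, ← hsum]
  push_cast
  ring

theorem thetaLFun_add (f g : LaurentSeries R) :
    thetaLFun R (f + g) = thetaLFun R f + thetaLFun R g := by
  ext n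
  simp only [coeff_thetaLFun, coeff_add]
  ring

theorem thetaLFun_smul (c : R) (f : LaurentSeries R) :
    thetaLFun R (c • f) = c • thetaLFun R f := by
  ext n
  simp only [coeff_thetaLFun, coeff_smul, smul_eq_mul]
  ring

variable (R)

theorem algebraMap_laurent_eq_single (c : R) :
    algebraMap R (LaurentSeries R) c = HahnSeries.single 0 c := by
  have h1 : algebraMap R (PowerSeries R) c = PowerSeries.C c := by
    simp
  rw [HahnSeries.algebraMap_apply', h1, HahnSeries.ofPowerSeries_C]
  rfl

/-- `θ` as a linear map (`Algebra.toModule` structure on the source, as `Derivation` wants) -/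
def thetaLLin : @LinearMap R R _ _ (RingHom.id R) (LaurentSeries R) (LaurentSeries R) _ _
    Algebra.toModule _ :=
  @LinearMap.mk R R _ _ (RingHom.id R) (LaurentSeries R) (LaurentSeries R) _ _
    Algebra.toModule _ ⟨thetaLFun R, thetaLFun_add⟩
    (fun c f => by
      dsimp only [RingHom.id_apply]
      rw [Algebra.smul_def, algebraMap_laurent_eq_single]
      ext n
      rw [coeff_thetaLFun, coeff_single_zero_mul, coeff_smul, coeff_thetaLFun, smul_eq_mul]
      ring)

/-- **the Euler operator `θ = Q d/dQ` on `R((Q))`** -/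
def thetaL : Derivation R (LaurentSeries R) (LaurentSeries R) :=
  Derivation.mk' (thetaLLin R)
    (fun f g => by
      show thetaLFun R (f * g) = f • thetaLFun R g + g • thetaLFun R f
      rw [thetaLFun_mul, smul_eq_mul, smul_eq_mul]
      ring)

variable {R}

@[simp]
theorem coeff_thetaL (f : LaurentSeries R) (n : ℤ) :
    (thetaL R f).coeff n = (n : R) * f.coeff n := rfl

theorem thetaL_mul (f g : LaurentSeries R) :
    thetaL R (f * g) = thetaL R f * g + f * thetaL R g := thetaLFun_mul f g

theorem thetaL_pow (f : LaurentSeries R) (n : ℕ) :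
    thetaL R (f ^ n) = (n : LaurentSeries R) * f ^ (n - 1) * thetaL R f := by
  rw [Derivation.leibniz_pow, nsmul_eq_mul, smul_eq_mul, mul_assoc]

theorem thetaL_single (n : ℤ) (r : R) :
    thetaL R (single n r) = single n ((n : R) * r) := by
  ext m
  rw [coeff_thetaL]
  rcases eq_or_ne m n with rfl | h
  · rw [coeff_single_same, coeff_single_same]
  · rw [coeff_single_of_ne h, coeff_single_of_ne h, mul_zero]

theorem thetaL_C (r : R) : thetaL R (HahnSeries.C r) = 0 := by
  rw [HahnSeries.C_apply, thetaL_single]
  simp

/-- `θ` commutes with coefficient maps -/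
theorem thetaL_coeffMap {S : Type*} [CommRing S] (φ : R →+* S) (f : LaurentSeries R) :
    thetaL S (coeffMap φ f) = coeffMap φ (thetaL R f) := by
  ext n
  simp only [coeff_thetaL, coeffMap_coeff, map_mul, map_intCast]

/-- `θ (f(Q^N)) = N · (θ f)(Q^N)` -/
theorem thetaL_qExpand (N : ℕ) [NeZero N] (f : LaurentSeries R) :
    thetaL R (qExpand R N f) = (N : LaurentSeries R) * qExpand R N (thetaL R f) := by
  have hN : (N : LaurentSeries R) = HahnSeries.C (N : R) := by
    rw [map_natCast]
  ext n
  rw [coeff_thetaL, hN, HahnSeries.C_apply, coeff_single_zero_mul]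
  by_cases hn : (N : ℤ) ∣ n
  · obtain ⟨m, rfl⟩ := hn
    rw [qExpand_coeff_mul, qExpand_coeff_mul, coeff_thetaL]
    push_cast
    ring
  · rw [qExpand_coeff_of_not_dvd N f hn, qExpand_coeff_of_not_dvd N _ hn, mul_zero, mul_zero]

/-- `θ` on power series is the S16 `theta` -/
theorem thetaL_ofPowerSeries (p : PowerSeries R) :
    thetaL R (ofPowerSeries ℤ R p) = ofPowerSeries ℤ R (Fermat.Agent.S16.RAM.theta R p) := by
  ext n
  rw [coeff_thetaL]
  rcases le_or_gt 0 n with hn | hn
  · lift n to ℕ using hn
    rw [ofPowerSeries_apply_coeff, ofPowerSeries_apply_coeff, Fermat.Agent.S16.RAM.coeff_theta]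
    push_cast
    rfl
  · rw [ofPowerSeries_coeff_of_neg _ hn, ofPowerSeries_coeff_of_neg _ hn, mul_zero]

/-- in characteristic `q`, `θ` kills `q`-th powers -/
theorem thetaL_pow_char (q : ℕ) [CharP R q] (f : LaurentSeries R) : thetaL R (f ^ q) = 0 := by
  rw [thetaL_pow]
  have h : (q : LaurentSeries R) = 0 := by
    have h1 : (q : LaurentSeries R) = HahnSeries.C (q : R) := by rw [map_natCast]
    rw [h1, CharP.cast_eq_zero, map_zero]
  rw [h, zero_mul, zero_mul]

/-- chain rule for polynomials in a Laurent series -/
theorem thetaL_aeval (f : LaurentSeries R) (P : Polynomial R) :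
    thetaL R (Polynomial.aeval f P) =
      Polynomial.aeval f (Polynomial.derivative P) * thetaL R f := by
  rw [Derivation.map_aeval, smul_eq_mul]

end Fermat.Agent.GL.Thick
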