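import Fermat.Agent.GK.QS.BTilde
import Fermat.Agent.GK.Val.TwoVal
import Fermat.Agent.GK.Red.TwoRed

/-!
# GATE-L / L5b-ASM (a) (helper65): K-RED for the ring `B` of `GK/QS/BTilde.lean`

`ℓ ∥ N = N' ℓ`, `A` a valuation subring of `ℚ̄` over `ℓ`, `B = BRing N' ℓ A h`
(`= {x ∈ F_N | x regular off the cusps, w₁ x ≥ 0, w₂ x ≥ 0}`), `C = CRing N' A` the coordinate ring
of the affine special fibre of level `N'`, `rho1`, `rho2 : B →+* k((Q))` the two reductions.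

* `fresBar_mul_eq` : `FresBar (N' ℓ) A = FresBar N' A` inside `k((Q))` (K1 RES, helper45);
* `rho1_mem_range`, `rho2_mem_range` : **every `x ∈ B` reduces into `C`** on both components
  (K-RED, helper96's `redRegFinOn_ball2`);
* `redC1`, `redC2 : B → C` with `cVal (redC_i x) = rho_i x`, and `pair_mem_BT`;
* `mem_ideal_of_rho2_eq_zero` : if `B~ = gluedAlg Ψ J'` and `rho2 x = 0` then `redC1 x ∈ J'`
  (the common consumer of the `κ`-route and of the `η`-quotient route to (THICK_q));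
* `eval_redC1_eq_zero` : hence `φ (redC1 x) = 0` at every node `φ : C →ₐ[k] k`, `J' ≤ ker φ`.
-/

set_option autoImplicit false
set_option linter.unusedSectionVars false

noncomputable section

namespace Fermat.Agent.GL.Thick

open HahnSeries ModularCurve IntermediateField
open Fermat.Agent.S24 Fermat.Agent.GJ.J1 Fermat.Agent.GJ.J1.Val Fermat.Agent.GJ.J1.Haupt
open Fermat.Agent.GK.AL Fermat.Agent.GK.QS Fermat.Agent.GK.FrobGlue Fermat.Agent.GK.Red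
open Fermat.Agent.GK.MultiVal

variable (N' : ℕ) [NeZero N'] (ℓ : ℕ) [Fact ℓ.Prime] [NeZero ℓ]
variable (A : ValuationSubring Kbar) (h : ExactDvd ℓ (N' * ℓ))

local notation "kA" => IsLocalRing.ResidueField A

/-- **RES**: the residue field of level `N' ℓ` is the residue field of level `N'` -/
theorem fresBar_mul_eq (hℓN : ¬ ℓ ∣ N') (hA : A.LiesOverPrime ℓ) :
    FresBar (N' * ℓ) A = FresBar N' A := by
  have h := Fermat.Agent.GK.Val.TwoVal.exactDvd N' ℓ hℓN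
  have h1 := (Fermat.Agent.GK.Val.TwoVal.degrees N' ℓ A h hℓN hA
    (isGaussChart_jF_1 (N' * ℓ) A).1 (isGaussChart_jF_2 (N' * ℓ) A h).1).2.2.1
  rw [h1, Fermat.Agent.GJ.J1.Res.FresBar_eq_fullC N' A hℓN hA]

/-- the inclusion `F̃_{N'ℓ} → F̃_{N'}` (an equality of subfields of `k((Q))`) -/
def fresIncl (hℓN : ¬ ℓ ∣ N') (hA : A.LiesOverPrime ℓ) :
    FresBar (N' * ℓ) A →ₐ[kA] FresBar N' A :=
  IntermediateField.inclusion (le_of_eq (fresBar_mul_eq N' ℓ A hℓN hA))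

@[simp]
theorem coe_fresIncl (hℓN : ¬ ℓ ∣ N') (hA : A.LiesOverPrime ℓ) (y : FresBar (N' * ℓ) A) :
    ((fresIncl N' ℓ A hℓN hA y : FresBar N' A) : LaurentSeries kA) = (y : LaurentSeries kA) :=
  IntermediateField.coe_inclusion (le_of_eq (fresBar_mul_eq N' ℓ A hℓN hA)) y

/-- the relative integrality transfer for both Gauss valuations on `Rw₁ ⊓ Rw₂` -/
theorem redRegFinOn_jF (hℓN : ¬ ℓ ∣ N') (hA : A.LiesOverPrime ℓ) :
    RedRegFinOn (redDataBar (N' * ℓ) A)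
        (ball2 (redDataBar (N' * ℓ) A) (redData2 (N' * ℓ) A h)) (jF (N' * ℓ)) ∧
      RedRegFinOn (redData2 (N' * ℓ) A h)
        (ball2 (redDataBar (N' * ℓ) A) (redData2 (N' * ℓ) A h)) (jF (N' * ℓ)) := by
  have := Fermat.Agent.GJ.J1.Val.finiteDimensional_jF (N' * ℓ)
  exact redRegFinOn_ball2 (Fermat.Agent.GK.Val.TwoVal.redCompat N' ℓ A h)
    (Rw1_ne_Rw2 (N' * ℓ) A h hA) (isGaussChart_jF_1 (N' * ℓ) A) (isGaussChart_jF_2 (N' * ℓ) A h)
    (Fermat.Agent.GK.Val.TwoVal.degrees N' ℓ A h hℓN hA _ _).2.2.2.ge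

/-- `RegFin` along an algebra homomorphism (local copy) -/
theorem regFin_map_of_algHom {K F F' : Type*} [Field K] [Field F] [Field F'] [Algebra K F]
    [Algebra K F'] (φ : F →ₐ[K] F') {s x : F} (hx : RegFin K s x) : RegFin K (φ s) (φ x) := by
  have hmem : ∀ y ∈ Algebra.adjoin K {s}, φ y ∈ Algebra.adjoin K {φ s} := by
    intro y hy
    have h1 : φ y ∈ (Algebra.adjoin K {s}).map φ := ⟨y, hy, rfl⟩
    rwa [AlgHom.map_adjoin, Set.image_singleton] at h1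
  let ψ : Algebra.adjoin K {s} →+* Algebra.adjoin K {φ s} :=
    { toFun := fun y => ⟨φ y.1, hmem y.1 y.2⟩
      map_one' := Subtype.ext (map_one φ)
      map_mul' := fun a b => Subtype.ext (map_mul φ a.1 b.1)
      map_zero' := Subtype.ext (map_zero φ)
      map_add' := fun a b => Subtype.ext (map_add φ a.1 b.1) }
  exact IsIntegral.map_of_comp_eq ψ φ.toRingHom (RingHom.ext fun y => rfl) hx

variable {N' ℓ A h}

/-- `F̃_{N'ℓ} ∋ red₁ j ↦ j~ ∈ F̃_{N'}` -/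
theorem fresIncl_red1_jF (hℓN : ¬ ℓ ∣ N') (hA : A.LiesOverPrime ℓ)
    (hj : jF (N' * ℓ) ∈ (redDataBar (N' * ℓ) A).Rw) :
    fresIncl N' ℓ A hℓN hA ((redDataBar (N' * ℓ) A).red ⟨jF (N' * ℓ), hj⟩) = jt N' A := by
  apply Subtype.ext
  rw [coe_fresIncl, coe_jt]
  exact Fermat.Agent.GK.Val.Degrees.coe_red_jF' (N' * ℓ) A hj

/-- `F̃_{N'ℓ} ∋ red₂ j ↦ j~ ^ ℓ ∈ F̃_{N'}` -/
theorem fresIncl_red2_jF (hℓN : ¬ ℓ ∣ N') (hA : A.LiesOverPrime ℓ)
    (hj : jF (N' * ℓ) ∈ (redData2 (N' * ℓ) A h).Rw) :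
    fresIncl N' ℓ A hℓN hA ((redData2 (N' * ℓ) A h).red ⟨jF (N' * ℓ), hj⟩) = jt N' A ^ ℓ := by
  have : CharP kA ℓ := charP_residue A Fact.out hA
  have hq : jdF (N' * ℓ) ℓ (dvd_mul_left ℓ N') ∈ (redDataBar (N' * ℓ) A).Rw :=
    Fermat.Agent.GK.Val.Degrees.jdF_mem_Rw (N' * ℓ) A _
  apply Subtype.ext
  rw [coe_fresIncl, Fermat.Agent.GK.Val.TwoVal.red2_jF N' ℓ A h hj hq,
    Fermat.Agent.GK.Val.Degrees.coe_red_jdF]
  push_cast
  rw [coe_jt]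
  exact Fermat.Agent.GJ.J3.QS.qExpand_jqModC_char ℓ

/-- **K-RED, first component**: every `x ∈ B` reduces under `w₁` into the coordinate ring `C` -/
theorem rho1_mem_range (hℓN : ¬ ℓ ∣ N') (hA : A.LiesOverPrime ℓ) (x : BRing N' ℓ A h) :
    ∃ c : CRing N' A, cVal N' A c = rho1 N' ℓ A h x := by
  have hJ := isGaussChart_jF_1 (N' * ℓ) A
  have hreg := (redRegFinOn_jF N' ℓ A h hℓN hA).1 hJ.1 x.1 x.2.2.1
    (mem_ball2.mpr ⟨x.2.2.1, x.2.2.2⟩) x.2.1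
  have h2 := regFin_map_of_algHom (fresIncl N' ℓ A hℓN hA) hreg
  rw [fresIncl_red1_jF hℓN hA] at h2
  refine ⟨⟨fresIncl N' ℓ A hℓN hA ((redDataBar (N' * ℓ) A).red ⟨x.1, x.2.2.1⟩), h2⟩, ?_⟩
  rw [cVal_apply, rho1_apply]
  exact coe_fresIncl N' ℓ A hℓN hA _

/-- **K-RED, second component**: every `x ∈ B` reduces under `w₂` into the coordinate ring `C` -/
theorem rho2_mem_range (hℓN : ¬ ℓ ∣ N') (hA : A.LiesOverPrime ℓ) (x : BRing N' ℓ A h) :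
    ∃ c : CRing N' A, cVal N' A c = rho2 N' ℓ A h x := by
  have hJ := isGaussChart_jF_2 (N' * ℓ) A h
  have hreg := (redRegFinOn_jF N' ℓ A h hℓN hA).2 hJ.1 x.1 x.2.2.2
    (mem_ball2.mpr ⟨x.2.2.1, x.2.2.2⟩) x.2.1
  have h2 := regFin_map_of_algHom (fresIncl N' ℓ A hℓN hA) hreg
  rw [fresIncl_red2_jF hℓN hA] at h2
  have h3 : RegFin kA (jt N' A)
      (fresIncl N' ℓ A hℓN hA ((redData2 (N' * ℓ) A h).red ⟨x.1, x.2.2.2⟩)) :=
    Fermat.Agent.GJ.J1.Disc.regFin_of_adjoin_le (s' := jt N' A) (by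
      refine Algebra.adjoin_le ?_
      rintro _ rfl
      exact pow_mem (Algebra.self_mem_adjoin_singleton kA _) ℓ) h2
  refine ⟨⟨fresIncl N' ℓ A hℓN hA ((redData2 (N' * ℓ) A h).red ⟨x.1, x.2.2.2⟩), h3⟩, ?_⟩
  rw [cVal_apply, rho2_apply]
  exact coe_fresIncl N' ℓ A hℓN hA _

/-- the `w₁`-reduction of `x ∈ B` as an element of the coordinate ring `C` -/
def redC1 (hℓN : ¬ ℓ ∣ N') (hA : A.LiesOverPrime ℓ) (x : BRing N' ℓ A h) : CRing N' A :=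
  (rho1_mem_range hℓN hA x).choose

/-- the `w₂`-reduction of `x ∈ B` as an element of the coordinate ring `C` -/
def redC2 (hℓN : ¬ ℓ ∣ N') (hA : A.LiesOverPrime ℓ) (x : BRing N' ℓ A h) : CRing N' A :=
  (rho2_mem_range hℓN hA x).choose

theorem cVal_redC1 (hℓN : ¬ ℓ ∣ N') (hA : A.LiesOverPrime ℓ) (x : BRing N' ℓ A h) :
    cVal N' A (redC1 hℓN hA x) = rho1 N' ℓ A h x := (rho1_mem_range hℓN hA x).choose_spec

theorem cVal_redC2 (hℓN : ¬ ℓ ∣ N') (hA : A.LiesOverPrime ℓ) (x : BRing N' ℓ A h) :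
    cVal N' A (redC2 hℓN hA x) = rho2 N' ℓ A h x := (rho2_mem_range hℓN hA x).choose_spec

/-- `redC1 x` is characterised by its Laurent series -/
theorem redC1_eq_of_cVal (hℓN : ¬ ℓ ∣ N') (hA : A.LiesOverPrime ℓ) (x : BRing N' ℓ A h)
    {c : CRing N' A} (hc : cVal N' A c = rho1 N' ℓ A h x) : redC1 hℓN hA x = c :=
  cVal_injective N' A ((cVal_redC1 hℓN hA x).trans hc.symm)

theorem redC2_eq_of_cVal (hℓN : ¬ ℓ ∣ N') (hA : A.LiesOverPrime ℓ) (x : BRing N' ℓ A h)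
    {c : CRing N' A} (hc : cVal N' A c = rho2 N' ℓ A h x) : redC2 hℓN hA x = c :=
  cVal_injective N' A ((cVal_redC2 hℓN hA x).trans hc.symm)

/-- **`(red₁ x, red₂ x) ∈ B~`** for every `x ∈ B` -/
theorem pair_mem_BT (hℓN : ¬ ℓ ∣ N') (hA : A.LiesOverPrime ℓ) (x : BRing N' ℓ A h) :
    (redC1 hℓN hA x, redC2 hℓN hA x) ∈ BT N' ℓ A h :=
  (mem_BT N' ℓ A h).mpr ⟨x, (cVal_redC1 hℓN hA x).symm, (cVal_redC2 hℓN hA x).symm⟩

/-- `redC1` is a ring homomorphism (packaged) -/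
def redC1Hom (hℓN : ¬ ℓ ∣ N') (hA : A.LiesOverPrime ℓ) : BRing N' ℓ A h →+* CRing N' A where
  toFun := redC1 hℓN hA
  map_one' := redC1_eq_of_cVal hℓN hA 1 (by rw [map_one, map_one])
  map_mul' x y := redC1_eq_of_cVal hℓN hA (x * y) (by
    rw [map_mul, map_mul, cVal_redC1, cVal_redC1])
  map_zero' := redC1_eq_of_cVal hℓN hA 0 (by rw [map_zero, map_zero])
  map_add' x y := redC1_eq_of_cVal hℓN hA (x + y) (by
    rw [map_add, map_add, cVal_redC1, cVal_redC1])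

/-- `redC2` is a ring homomorphism (packaged) -/
def redC2Hom (hℓN : ¬ ℓ ∣ N') (hA : A.LiesOverPrime ℓ) : BRing N' ℓ A h →+* CRing N' A where
  toFun := redC2 hℓN hA
  map_one' := redC2_eq_of_cVal hℓN hA 1 (by rw [map_one, map_one])
  map_mul' x y := redC2_eq_of_cVal hℓN hA (x * y) (by
    rw [map_mul, map_mul, cVal_redC2, cVal_redC2])
  map_zero' := redC2_eq_of_cVal hℓN hA 0 (by rw [map_zero, map_zero])
  map_add' x y := redC2_eq_of_cVal hℓN hA (x + y) (by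
    rw [map_add, map_add, cVal_redC2, cVal_redC2])

@[simp] theorem redC1Hom_apply (hℓN : ¬ ℓ ∣ N') (hA : A.LiesOverPrime ℓ) (x : BRing N' ℓ A h) :
    redC1Hom hℓN hA x = redC1 hℓN hA x := rfl

@[simp] theorem redC2Hom_apply (hℓN : ¬ ℓ ∣ N') (hA : A.LiesOverPrime ℓ) (x : BRing N' ℓ A h) :
    redC2Hom hℓN hA x = redC2 hℓN hA x := rfl

/-- **the glueing condition for `x ∈ B`**: `red₁ x − Ψ (red₂ x) ∈ J'` -/
theorem sub_psi_mem_of_BT_eq (hℓN : ¬ ℓ ∣ N') (hA : A.LiesOverPrime ℓ)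
    {J' : Ideal (CRing N' A)} (hJ' : BT N' ℓ A h = gluedAlg (psiC N' ℓ A hℓN hA) J')
    (x : BRing N' ℓ A h) :
    redC1 hℓN hA x - psiC N' ℓ A hℓN hA (redC2 hℓN hA x) ∈ J' := by
  have h1 := pair_mem_BT hℓN hA x
  rw [hJ'] at h1
  exact h1

/-- **the consumer**: `x ∈ B` with `red₂ x = 0` has `red₁ x ∈ J'` -/
theorem mem_ideal_of_rho2_eq_zero (hℓN : ¬ ℓ ∣ N') (hA : A.LiesOverPrime ℓ)
    {J' : Ideal (CRing N' A)} (hJ' : BT N' ℓ A h = gluedAlg (psiC N' ℓ A hℓN hA) J')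
    (x : BRing N' ℓ A h) (hx : rho2 N' ℓ A h x = 0) : redC1 hℓN hA x ∈ J' := by
  have h0 : redC2 hℓN hA x = 0 := redC2_eq_of_cVal hℓN hA x (by rw [map_zero, hx])
  have h1 := sub_psi_mem_of_BT_eq hℓN hA hJ' x
  rwa [h0, map_zero, sub_zero] at h1

/-- ... hence `red₁ x` vanishes at every node -/
theorem eval_redC1_eq_zero (hℓN : ¬ ℓ ∣ N') (hA : A.LiesOverPrime ℓ)
    {J' : Ideal (CRing N' A)} (hJ' : BT N' ℓ A h = gluedAlg (psiC N' ℓ A hℓN hA) J')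
    (x : BRing N' ℓ A h) (hx : rho2 N' ℓ A h x = 0) (φ : CRing N' A →ₐ[kA] kA)
    (hφ : J' ≤ RingHom.ker φ.toRingHom) : φ (redC1 hℓN hA x) = 0 :=
  hφ (mem_ideal_of_rho2_eq_zero hℓN hA hJ' x hx)

/-- the two branches of a node carry the same value of `x ∈ B`: `φ (red₁ x) = φ (Ψ (red₂ x))` -/
theorem eval_redC1_eq_eval_psi (hℓN : ¬ ℓ ∣ N') (hA : A.LiesOverPrime ℓ)
    {J' : Ideal (CRing N' A)} (hJ' : BT N' ℓ A h = gluedAlg (psiC N' ℓ A hℓN hA) J')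
    (x : BRing N' ℓ A h) (φ : CRing N' A →ₐ[kA] kA) (hφ : J' ≤ RingHom.ker φ.toRingHom) :
    φ (redC1 hℓN hA x) = φ (psiC N' ℓ A hℓN hA (redC2 hℓN hA x)) := by
  have h1 : φ (redC1 hℓN hA x - psiC N' ℓ A hℓN hA (redC2 hℓN hA x)) = 0 :=
    hφ (sub_psi_mem_of_BT_eq hℓN hA hJ' x)
  rwa [map_sub, sub_eq_zero] at h1

end Fermat.Agent.GL.Thick
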