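/-
GATE-L / THICK-SERIES (helper63), file 3: isobaric polynomials of weight `12 n` in `(E₄, E₆)` are
`Δ^n · P(j)`.  ABSTRACT form, Mathlib only.

`S` a commutative `k`-algebra, `Q R D J : S` with `Q³ = J D`, `R² = (J - 1728) D`
(`Q = E₄, R = E₆, D = Δ, J = j`).  For `f ∈ k[X₀, X₁]` isobaric of weight `12 n` (weights `4, 6`):

  `f(Q, R) = D^n · (toJ f)(J)`,   `toJ f := ∑_d f_d X^(d₀/3) (X - 1728)^(d₁/2)`.
-/
import Mathlib

set_option autoImplicit false

noncomputable section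

namespace Fermat.Agent.GL.Thick

open MvPolynomial

variable {k : Type*} [CommRing k]

theorem weight46_eq (d : Fin 2 →₀ ℕ) :
    Finsupp.weight (![4, 6] : Fin 2 → ℕ) d = d 0 * 4 + d 1 * 6 := by
  simp [Finsupp.weight_apply, Finsupp.sum_fintype, Fin.sum_univ_two]

/-- the `J`-polynomial of a polynomial in `(Q, R)` -/
def toJ (f : MvPolynomial (Fin 2) k) : Polynomial k :=
  ∑ d ∈ f.support, Polynomial.C (f.coeff d) * Polynomial.X ^ (d 0 / 3) *
    (Polynomial.X - Polynomial.C 1728) ^ (d 1 / 2)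

variable {S : Type*} [CommRing S] [Algebra k S]

/-- **isobaric of weight `12 n` ⟹ `D^n · P(J)`** -/
theorem aeval_isobaric_twelve (Q R D J : S) (hQ : Q ^ 3 = J * D)
    (hR : R ^ 2 = (J - algebraMap k S 1728) * D) (f : MvPolynomial (Fin 2) k) (n : ℕ)
    (hf : f.IsWeightedHomogeneous (![4, 6] : Fin 2 → ℕ) (12 * n)) :
    aeval ![Q, R] f = D ^ n * Polynomial.aeval J (toJ f) := by
  rw [aeval_def, eval₂_eq', toJ, map_sum, Finset.mul_sum]
  refine Finset.sum_congr rfl fun d hd => ?_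
  have hw : d 0 * 4 + d 1 * 6 = 12 * n := by
    have := hf (mem_support_iff.mp hd)
    rwa [weight46_eq] at this
  obtain ⟨a, ha⟩ : ∃ a, d 0 = 3 * a := ⟨d 0 / 3, by omega⟩
  obtain ⟨b, hb⟩ : ∃ b, d 1 = 2 * b := ⟨d 1 / 2, by omega⟩
  have hab : a + b = n := by omega
  have e0 : d 0 / 3 = a := by omega
  have e1 : d 1 / 2 = b := by omega
  rw [Fin.prod_univ_two, e0, e1]
  simp only [Matrix.cons_val_zero, Matrix.cons_val_one]
  rw [ha, hb, pow_mul, pow_mul, hQ, hR, ← hab, map_mul, map_mul, Polynomial.aeval_C, map_pow,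
    map_pow, Polynomial.aeval_X, map_sub, Polynomial.aeval_X, Polynomial.aeval_C, mul_pow, mul_pow,
    pow_add]
  ring

end Fermat.Agent.GL.Thick
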