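/-
GATE-L / THICK-SERIES (helper63), file 4: the `q`-series identities.

Over an arbitrary commutative ring `A`, with `j = jqModC A`, `E₂, E₄, E₆, Δ` the Laurent images of
the S16/RAM series:

* `jL_mul_DL      : j · Δ = E₄³`
* `thetaL_jL      : θ j · Δ = - E₄² E₆`        (`θ = Q d/dQ`)

Kronecker: `GZ q ∈ ℤ((Q))` with `q · GZ q = j^q - j(Q^q)` (`natCast_mul_GZ`), and

* `thetaL_GZ : θ (GZ q) = j^(q-1) θ j - (θ j)(Q^q)`            over `ℤ`;
* `thetaL_Gk : θ G̃ = J^(q-1) θ J - (θ J)^q`                     over any `k` of characteristic `q`,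
  `G̃ = Gk k q = GZ q mod q`, `J = jqModC k`.
-/
import Fermat.Agent.GL.Thick.ThetaL
import Fermat.Agent.GJ.J3.QSeries
import Fermat.Agent.S16.RAM.Series
import Fermat.Agent.GJ.Haupt.Formal2

set_option autoImplicit false

noncomputable section

namespace Fermat.Agent.GL.Thick

open HahnSeries ModularCurve Fermat.Agent.S16.RAM Fermat.Agent.S16.L1h67

/-! ### the Laurent images of `E₂, E₄, E₆, Δ` -/

section Series

variable (A : Type*) [CommRing A]

/-- `E₂` in `A((Q))` -/
def E2L : LaurentSeries A := ofPowerSeries ℤ A (e2 A)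
/-- `E₄` in `A((Q))` -/
def E4L : LaurentSeries A := ofPowerSeries ℤ A (e4 A)
/-- `E₆` in `A((Q))` -/
def E6L : LaurentSeries A := ofPowerSeries ℤ A (e6 A)
/-- `Δ` in `A((Q))` -/
def DL : LaurentSeries A := ofPowerSeries ℤ A (delta A)

theorem E4L_cube_sub_E6L_sq : E4L A ^ 3 - E6L A ^ 2 = 1728 * DL A := by
  have h := congrArg (ofPowerSeries ℤ A) (e4_cube_sub_e6_sq A)
  rw [map_sub, map_pow, map_pow, map_mul, map_ofNat] at h
  exact h

theorem thetaL_E4L : 3 * thetaL A (E4L A) = E2L A * E4L A - E6L A := by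
  have h := congrArg (ofPowerSeries ℤ A) (theta_e4 A)
  rw [map_mul, map_sub, map_mul, map_ofNat] at h
  rw [E4L, thetaL_ofPowerSeries]
  exact h

theorem thetaL_E6L : 2 * thetaL A (E6L A) = E2L A * E6L A - E4L A ^ 2 := by
  have h := congrArg (ofPowerSeries ℤ A) (theta_e6 A)
  rw [map_mul, map_sub, map_mul, map_pow, map_ofNat] at h
  rw [E6L, thetaL_ofPowerSeries]
  exact h

theorem thetaL_DL : thetaL A (DL A) = E2L A * DL A := by
  have h := congrArg (ofPowerSeries ℤ A) (theta_delta A)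
  rw [map_mul] at h
  rw [DL, thetaL_ofPowerSeries]
  exact h

/-- **`j · Δ = E₄³`** -/
theorem jL_mul_DL : jqModC A * DL A = E4L A ^ 3 := by
  have h1 : (jNum * deltaZ : PowerSeries ℤ) = PowerSeries.X * e4Z ^ 3 := by
    rw [Fermat.Agent.GJ.Haupt.deltaZ_eq, jNum, Fermat.Agent.GJ.Haupt.e4Z_eq_eisenstein4]
    have h2 := dedekindEtaUnit_mul_inv
    linear_combination (PowerSeries.X * eisenstein4 ^ 3) * h2
  have h3 := congrArg (PowerSeries.map (Int.castRingHom A)) h1
  rw [map_mul, map_mul, PowerSeries.map_X, map_pow] at h3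
  have h4 := congrArg (ofPowerSeries ℤ A) h3
  rw [map_mul, map_mul, ofPowerSeries_X, map_pow] at h4
  have h5 : (single (-1 : ℤ) (1 : A) : LaurentSeries A) * single 1 1 = 1 := by
    rw [single_mul_single]
    simp
  rw [jqModC, DL, delta, E4L, e4, mul_assoc, h4, ← mul_assoc, h5, one_mul]

/-- **`θ j · Δ = - E₄² E₆`** -/
theorem thetaL_jL : thetaL A (jqModC A) * DL A = -(E4L A ^ 2 * E6L A) := by
  have hd := congrArg (thetaL A) (jL_mul_DL A)
  rw [thetaL_mul, thetaL_pow, thetaL_DL] at hd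
  have hc := thetaL_E4L A
  have ha := jL_mul_DL A
  have h3 : ((3 : ℕ) : LaurentSeries A) = 3 := by norm_num
  rw [h3] at hd
  have h2 : E4L A ^ (3 - 1) = E4L A ^ 2 := by norm_num
  rw [h2] at hd
  linear_combination hd + (E4L A ^ 2) * hc - (E2L A) * ha

end Series

/-! ### coefficientwise division by `q` -/

section Div

/-- coefficientwise division by `q` of an integral Laurent series -/
def divNat (q : ℕ) (f : LaurentSeries ℤ) : LaurentSeries ℤ where
  coeff n := f.coeff n / (q : ℤ)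
  isPWO_support' := f.isPWO_support.mono (fun n hn => by
    simp only [Function.mem_support, ne_eq] at hn
    intro h
    exact hn (by rw [h, Int.zero_ediv]))

@[simp]
theorem coeff_divNat (q : ℕ) (f : LaurentSeries ℤ) (n : ℤ) :
    (divNat q f).coeff n = f.coeff n / (q : ℤ) := rfl

theorem coeff_natCast_mul {A : Type*} [CommRing A] (q : ℕ) (f : LaurentSeries A) (n : ℤ) :
    ((q : LaurentSeries A) * f).coeff n = (q : A) * f.coeff n := by
  have hq : (q : LaurentSeries A) = HahnSeries.C (q : A) := by rw [map_natCast]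
  rw [hq, HahnSeries.C_apply, coeff_single_zero_mul]

theorem natCast_mul_divNat (q : ℕ) [NeZero q] (f : LaurentSeries ℤ)
    (hf : coeffMap (Int.castRingHom (ZMod q)) f = 0) : (q : LaurentSeries ℤ) * divNat q f = f := by
  ext n
  rw [coeff_natCast_mul, coeff_divNat]
  have h := congrArg (fun g => g.coeff n) hf
  simp only [coeffMap_coeff, coeff_zero, eq_intCast] at h
  have hdvd : (q : ℤ) ∣ f.coeff n := (ZMod.intCast_zmod_eq_zero_iff_dvd _ _).mp h
  exact Int.mul_ediv_cancel' hdvd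

theorem natCast_mul_cancel (q : ℕ) (hq : q ≠ 0) {f g : LaurentSeries ℤ}
    (h : (q : LaurentSeries ℤ) * f = (q : LaurentSeries ℤ) * g) : f = g := by
  ext n
  have h1 := congrArg (fun x => x.coeff n) h
  simp only [coeff_natCast_mul] at h1
  have hq' : ((q : ℕ) : ℤ) ≠ 0 := by exact_mod_cast hq
  exact mul_left_cancel₀ hq' h1

end Div

/-! ### Kronecker's `G = (j^q - j(Q^q))/q` -/

section Kronecker

variable (q : ℕ) [Fact q.Prime] [NeZero q]

/-- `G = (j^q - j(Q^q))/q ∈ ℤ((Q))` -/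
def GZ : LaurentSeries ℤ := divNat q (jqModC ℤ ^ q - qExpand ℤ q (jqModC ℤ))

/-- **Kronecker's congruence**: `q · G = j^q - j(Q^q)` -/
theorem natCast_mul_GZ : (q : LaurentSeries ℤ) * GZ q = jqModC ℤ ^ q - qExpand ℤ q (jqModC ℤ) := by
  apply natCast_mul_divNat
  have : CharP (ZMod q) q := ZMod.charP q
  rw [map_sub, map_pow, coeffMap_qExpand, coeffMap_jqModC,
    Fermat.Agent.GJ.J3.QS.qExpand_jqModC_char q, sub_self]

/-- `θ G = j^(q-1) θ j - (θ j)(Q^q)` over `ℤ` -/
theorem thetaL_GZ : thetaL ℤ (GZ q) =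
    jqModC ℤ ^ (q - 1) * thetaL ℤ (jqModC ℤ) - qExpand ℤ q (thetaL ℤ (jqModC ℤ)) := by
  apply natCast_mul_cancel q (NeZero.ne q)
  have h := congrArg (thetaL ℤ) (natCast_mul_GZ q)
  rw [map_sub, thetaL_pow, thetaL_qExpand, thetaL_mul] at h
  have h0 : thetaL ℤ (q : LaurentSeries ℤ) = 0 := by
    have : (q : LaurentSeries ℤ) = HahnSeries.C (q : ℤ) := by rw [map_natCast]
    rw [this, thetaL_C]
  rw [h0, zero_mul, zero_add] at h
  rw [h]
  ring

variable (k : Type*) [CommRing k]

/-- `G̃ = G mod q` with coefficients in `k` -/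
def Gk : LaurentSeries k := coeffMap (Int.castRingHom k) (GZ q)

omit [NeZero q] in
/-- a series coming from `ℤ((Q))` is fixed by the coefficientwise Frobenius -/
theorem coeffMap_frobenius_intCast [CharP k q] (f : LaurentSeries ℤ) :
    coeffMap (frobenius k q) (coeffMap (Int.castRingHom k) f) = coeffMap (Int.castRingHom k) f := by
  rw [coeffMap_coeffMap]
  exact coeffMap_congr (RingHom.ext_int _ _) f

/-- **(S1)**: `θ G̃ = J^(q-1) θ J - (θ J)^q` in characteristic `q` -/
theorem thetaL_Gk [CharP k q] : thetaL k (Gk q k) =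
    jqModC k ^ (q - 1) * thetaL k (jqModC k) - thetaL k (jqModC k) ^ q := by
  have hJ : thetaL k (jqModC k) = coeffMap (Int.castRingHom k) (thetaL ℤ (jqModC ℤ)) := by
    rw [← thetaL_coeffMap, coeffMap_jqModC]
  rw [Gk, thetaL_coeffMap, thetaL_GZ, map_sub, map_mul, map_pow, coeffMap_qExpand, coeffMap_jqModC,
    ← hJ]
  congr 1
  apply Fermat.Agent.GJ.J3.QS.qExpand_char_of_fixed q
  rw [hJ, coeffMap_frobenius_intCast]

end Kronecker

end Fermat.Agent.GL.Thick
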