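/-
GATE-L / THICK-SERIES (helper63), file 5: the Hasse invariant in the variable `J`.

`k` a field of characteristic `q ≥ 5`, `J = jqModC k`, `Δ = DL k`, `θ = thetaL k`.  From the frozen
S16 Hasse polynomial (`a(E₄, E₆) = 1`, isobaric of weight `q - 1`) we get `pH, U₂ ∈ k[X]` with

* `hasse_pH  : Δ^(q-1) · pH(J) = 1`                       (`pH = ssPoly`: its roots are the
                                                           supersingular `j`-invariants);
* `hasse_U₂  : (θJ)^(q-1) · U₂(J) = J^(q-1) · (J - 1728)^((q-1)/2)`;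
* `hasse_rel : U₂^12 = X^(4(q-1)) · pH²`.
-/
import Fermat.Agent.GL.Thick.ThetaG
import Fermat.Agent.GL.Thick.IsoJ
import Fermat.Agent.S16.SD.Hasse
import Fermat.Agent.S16.RAM.Bridge
import Fermat.Agent.S28.PolyDescent

set_option autoImplicit false

noncomputable section

namespace Fermat.Agent.GL.Thick

open HahnSeries ModularCurve Fermat.Agent.S16.RAM Fermat.Agent.S16.L1h67

section Field

variable (k : Type*) [Field k]

theorem DL_ne_zero : DL k ≠ 0 := by
  intro h
  have h1 := congrArg (fun f => f.coeff ((1 : ℕ) : ℤ)) h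
  simp only [DL, ofPowerSeries_apply_coeff, coeff_one_delta, coeff_zero] at h1
  exact one_ne_zero h1

theorem thetaL_jL_ne_zero : thetaL k (jqModC k) ≠ 0 := by
  intro h
  have h1 := congrArg (fun f => f.coeff (-1 : ℤ)) h
  simp only [coeff_thetaL, coeff_jqModC_neg_one, coeff_zero] at h1
  simp at h1

/-- `E₄³ = J Δ` -/
theorem E4L_cube : E4L k ^ 3 = jqModC k * DL k := (jL_mul_DL k).symm

/-- `E₆² = (J - 1728) Δ` -/
theorem E6L_sq : E6L k ^ 2 =
    (jqModC k - algebraMap k (LaurentSeries k) 1728) * DL k := by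
  have h1 := E4L_cube_sub_E6L_sq k
  have h2 := E4L_cube k
  have h3 : algebraMap k (LaurentSeries k) 1728 = 1728 := map_ofNat _ 1728
  rw [h3]
  linear_combination h2 - h1

/-- transfer of a polynomial identity in `(E₄, E₆)` from power series to Laurent series -/
theorem ofPowerSeries_aeval (f : MvPolynomial (Fin 2) k) :
    ofPowerSeries ℤ k (MvPolynomial.aeval ![e4 k, e6 k] f) =
      MvPolynomial.aeval ![E4L k, E6L k] f := by
  have hf : (ofPowerSeries ℤ k).comp (algebraMap k (PowerSeries k)) =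
      algebraMap k (LaurentSeries k) :=
    RingHom.ext fun c => (HahnSeries.algebraMap_apply' (Γ := ℤ) c).symm
  have hg : ⇑(ofPowerSeries ℤ k) ∘ ![e4 k, e6 k] = ![E4L k, E6L k] := by
    funext i
    fin_cases i <;> rfl
  rw [MvPolynomial.aeval_def, MvPolynomial.aeval_def, MvPolynomial.eval₂_comp_left, hf, hg]

end Field

section Hasse

variable (q : ℕ) [Fact q.Prime] (k : Type*) [Field k] [CharP k q]

/-- the data extracted from the Hasse invariant -/
theorem exists_hasse_polys (hq5 : 5 ≤ q) :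
    ∃ pH U₂ : Polynomial k,
      DL k ^ (q - 1) * Polynomial.aeval (jqModC k) pH = 1 ∧
      E4L k ^ (q - 1) = DL k ^ ((q - 1) / 2) * Polynomial.aeval (jqModC k) U₂ := by
  obtain ⟨a, ha, h1⟩ := Fermat.Agent.S16.SD.Hasse.exists_hasse_field q hq5 k
  rw [← e4_eq_map_E4Z, ← e6_eq_map_E6Z] at h1
  have hL : MvPolynomial.aeval ![E4L k, E6L k] a = 1 := by
    rw [← ofPowerSeries_aeval, h1, map_one]
  have hodd : q - 1 = 2 * ((q - 1) / 2) := by
    have hp : q.Prime := Fact.out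
    rcases hp.eq_two_or_odd with h2 | h2
    · omega
    · omega
  set m := (q - 1) / 2 with hm
  -- `pH` from `a^12`
  have h12 : (a ^ 12).IsWeightedHomogeneous (![4, 6] : Fin 2 → ℕ) (12 * (q - 1)) := by
    have := ha.pow 12
    simpa [smul_eq_mul] using this
  have e12 := aeval_isobaric_twelve (k := k) (E4L k) (E6L k) (DL k) (jqModC k) (E4L_cube k)
    (E6L_sq k) (a ^ 12) (q - 1) h12
  rw [map_pow, hL, one_pow] at e12
  -- `U₂` from `X₀^(q-1) a²`
  have hX : (MvPolynomial.X 0 ^ (q - 1) * a ^ 2 :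
      MvPolynomial (Fin 2) k).IsWeightedHomogeneous (![4, 6] : Fin 2 → ℕ) (12 * m) := by
    have h0 := (MvPolynomial.isWeightedHomogeneous_X k (![4, 6] : Fin 2 → ℕ) (0 : Fin 2)).pow
      (q - 1)
    have h2 := ha.pow 2
    have h3 := h0.mul h2
    have e : (q - 1) • (![4, 6] : Fin 2 → ℕ) 0 + 2 • (q - 1) = 12 * m := by
      simp only [Matrix.cons_val_zero, smul_eq_mul]
      omega
    rw [e] at h3
    exact h3
  have eU := aeval_isobaric_twelve (k := k) (E4L k) (E6L k) (DL k) (jqModC k) (E4L_cube k)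
    (E6L_sq k) (MvPolynomial.X 0 ^ (q - 1) * a ^ 2) m hX
  rw [map_mul, map_pow, map_pow, hL, one_pow, mul_one, MvPolynomial.aeval_X] at eU
  simp only [Matrix.cons_val_zero] at eU
  exact ⟨toJ (a ^ 12), toJ (MvPolynomial.X 0 ^ (q - 1) * a ^ 2), e12.symm, eU⟩

/-- **the supersingular polynomial** `pH`: `Δ^(q-1) · pH(J) = 1` -/
def ssPoly (hq5 : 5 ≤ q) : Polynomial k := (exists_hasse_polys q k hq5).choose

/-- the denominator `U₂` of `(E₆/E₄)^(q-1)` as a function of `J` -/
def hasseU₂ (hq5 : 5 ≤ q) : Polynomial k := (exists_hasse_polys q k hq5).choose_spec.choose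

/-- the numerator `U₁ = (X - 1728)^((q-1)/2)` of `(E₆/E₄)^(q-1)` -/
def hasseU₁ : Polynomial k := (Polynomial.X - Polynomial.C 1728) ^ ((q - 1) / 2)

theorem hasse_pH (hq5 : 5 ≤ q) :
    DL k ^ (q - 1) * Polynomial.aeval (jqModC k) (ssPoly q k hq5) = 1 :=
  (exists_hasse_polys q k hq5).choose_spec.choose_spec.1

theorem E4L_pow (hq5 : 5 ≤ q) :
    E4L k ^ (q - 1) = DL k ^ ((q - 1) / 2) * Polynomial.aeval (jqModC k) (hasseU₂ q k hq5) :=
  (exists_hasse_polys q k hq5).choose_spec.choose_spec.2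

omit [CharP k q] in
theorem two_mul_half (hq5 : 5 ≤ q) : q - 1 = 2 * ((q - 1) / 2) := by
  have hp : q.Prime := Fact.out
  rcases hp.eq_two_or_odd with h2 | h2
  · omega
  · omega

omit [CharP k q] in
theorem E6L_pow (hq5 : 5 ≤ q) :
    E6L k ^ (q - 1) = DL k ^ ((q - 1) / 2) * Polynomial.aeval (jqModC k) (hasseU₁ q k) := by
  have h := two_mul_half q hq5
  rw [hasseU₁, map_pow, map_sub, Polynomial.aeval_X, Polynomial.aeval_C]
  conv_lhs => rw [h, pow_mul, E6L_sq, mul_pow]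
  ring

/-- **`(θJ)^(q-1) · U₂(J) = J^(q-1) · U₁(J)`** -/
theorem hasse_U₂ (hq5 : 5 ≤ q) :
    thetaL k (jqModC k) ^ (q - 1) * Polynomial.aeval (jqModC k) (hasseU₂ q k hq5) =
      jqModC k ^ (q - 1) * Polynomial.aeval (jqModC k) (hasseU₁ q k) := by
  have hD : DL k ^ (q - 1) * DL k ^ ((q - 1) / 2) ≠ 0 :=
    mul_ne_zero (pow_ne_zero _ (DL_ne_zero k)) (pow_ne_zero _ (DL_ne_zero k))
  apply mul_left_cancel₀ hD
  have h4 := E4L_pow q k hq5
  have h6 := E6L_pow q k hq5
  have hθ := thetaL_jL k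
  have hj := jL_mul_DL k
  have heven : Even (q - 1) := by
    rw [even_iff_two_dvd]
    exact ⟨(q - 1) / 2, two_mul_half q hq5⟩
  calc DL k ^ (q - 1) * DL k ^ ((q - 1) / 2) *
        (thetaL k (jqModC k) ^ (q - 1) * Polynomial.aeval (jqModC k) (hasseU₂ q k hq5))
      = (thetaL k (jqModC k) * DL k) ^ (q - 1) *
        (DL k ^ ((q - 1) / 2) * Polynomial.aeval (jqModC k) (hasseU₂ q k hq5)) := by
        rw [mul_pow]; ring
    _ = (E4L k ^ 2 * E6L k) ^ (q - 1) * E4L k ^ (q - 1) := by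
        rw [hθ, heven.neg_pow, ← h4]
    _ = (E4L k ^ 3) ^ (q - 1) * E6L k ^ (q - 1) := by
        rw [mul_pow, ← pow_mul, ← pow_mul]
        have e : E4L k ^ (3 * (q - 1)) = E4L k ^ (2 * (q - 1)) * E4L k ^ (q - 1) := by
          rw [← _root_.pow_add]; congr 1; ring
        rw [e]; ring
    _ = (jqModC k * DL k) ^ (q - 1) *
        (DL k ^ ((q - 1) / 2) * Polynomial.aeval (jqModC k) (hasseU₁ q k)) := by
        rw [← hj, ← h6]
    _ = DL k ^ (q - 1) * DL k ^ ((q - 1) / 2) *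
        (jqModC k ^ (q - 1) * Polynomial.aeval (jqModC k) (hasseU₁ q k)) := by
        rw [mul_pow]; ring

/-- **`U₂^12 = X^(4(q-1)) · pH²`** -/
theorem hasse_rel (hq5 : 5 ≤ q) :
    hasseU₂ q k hq5 ^ 12 = Polynomial.X ^ (4 * (q - 1)) * ssPoly q k hq5 ^ 2 := by
  apply Fermat.Agent.S28.PolyDescent.aeval_jqModC_injective k
  rw [map_pow, map_mul, map_pow, map_pow, Polynomial.aeval_X]
  have hD : DL k ^ (6 * (q - 1)) ≠ 0 := pow_ne_zero _ (DL_ne_zero k)
  apply mul_left_cancel₀ hD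
  have h4 := E4L_pow q k hq5
  have hp := hasse_pH q k hq5
  have hj := jL_mul_DL k
  have h := two_mul_half q hq5
  set m := (q - 1) / 2 with hm
  set n := q - 1 with hn
  have e1 : DL k ^ (6 * n) = (DL k ^ m) ^ 12 := by
    rw [← pow_mul]; congr 1; omega
  have e2 : DL k ^ (6 * n) = (DL k ^ n) ^ 2 * DL k ^ (4 * n) := by
    rw [← pow_mul, ← _root_.pow_add]; congr 1; ring
  calc DL k ^ (6 * n) * Polynomial.aeval (jqModC k) (hasseU₂ q k hq5) ^ 12
      = (DL k ^ m * Polynomial.aeval (jqModC k) (hasseU₂ q k hq5)) ^ 12 := by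
        rw [e1, mul_pow]
    _ = (E4L k ^ 3) ^ (4 * n) := by
        rw [← h4, ← pow_mul, ← pow_mul]; congr 1; ring
    _ = jqModC k ^ (4 * n) * DL k ^ (4 * n) := by
        rw [← hj, mul_pow]
    _ = jqModC k ^ (4 * n) *
        ((DL k ^ n * Polynomial.aeval (jqModC k) (ssPoly q k hq5)) ^ 2 * DL k ^ (4 * n)) := by
        rw [hp, one_pow, one_mul]
    _ = DL k ^ (6 * n) * (jqModC k ^ (4 * n) *
        Polynomial.aeval (jqModC k) (ssPoly q k hq5) ^ 2) := by
        rw [e2, mul_pow]; ring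

end Hasse

end Fermat.Agent.GL.Thick
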