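/-
GATE-L / MU-LOWER (helper75): root multiplicities of the supersingular polynomial `pH = ssPoly`
at `0` and `1728`, from helper63's polynomial identity `hasse_rel : U₂^12 = X^(4(q-1)) · pH²`.

* `six_dvd_rootMultiplicity_ssPoly` : `6 ∣ mult_a pH` for every `a ≠ 0`
  (so `mult_1728 pH ≥ 6` as soon as `1728` is supersingular);
* `rootMultiplicity_zero_ssPoly`    : `mult_0 pH + 2 (q - 1) = 6 m` for some `m`;
* `four_le_rootMultiplicity_zero`   : `q ≡ 2 mod 3 ⟹ mult_0 pH ≥ 4` (and `≡ 4 mod 6`; in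
  particular `0` is supersingular);
* `six_dvd_rootMultiplicity_zero`   : `q ≡ 1 mod 3 ⟹ 6 ∣ mult_0 pH`.

These are the only arithmetic inputs on `pH` needed at the nodes over `j = 0, 1728`
(FIX C of the thickness count: `mult_a pH · e_P ≤ 12`, `e_P ∈ c ℕ`, `c = 3, 2`).
-/
import Fermat.Agent.GL.Thick.HasseJ

set_option autoImplicit false

noncomputable section

namespace Fermat.Agent.GL.Thick.MuLower

open Polynomial Fermat.Agent.GL.Thick

section Generic

variable {R : Type*} [CommRing R] [IsDomain R]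

/-- `mult_a (p ^ n) = n · mult_a p` -/
theorem rootMultiplicity_pow' {p : R[X]} (hp : p ≠ 0) (a : R) (n : ℕ) :
    rootMultiplicity a (p ^ n) = n * rootMultiplicity a p := by
  induction n with
  | zero =>
    rw [pow_zero, Nat.zero_mul]
    exact rootMultiplicity_eq_zero (by simp [IsRoot])
  | succ n ih =>
    rw [pow_succ, rootMultiplicity_mul (mul_ne_zero (pow_ne_zero n hp) hp), ih]
    ring

/-- `mult_0 (X ^ n) = n` -/
theorem rootMultiplicity_X_pow_zero (n : ℕ) :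
    rootMultiplicity (0 : R) ((X : R[X]) ^ n) = n := by
  have h : (X : R[X]) ^ n = (X - C (0 : R)) ^ n := by rw [C_0, sub_zero]
  rw [h, rootMultiplicity_X_sub_C_pow]

/-- `mult_a (X ^ n) = 0` for `a ≠ 0` -/
theorem rootMultiplicity_X_pow_ne {a : R} (ha : a ≠ 0) (n : ℕ) :
    rootMultiplicity a ((X : R[X]) ^ n) = 0 := by
  apply rootMultiplicity_eq_zero
  rw [IsRoot, eval_pow, eval_X]
  exact pow_ne_zero n ha

end Generic

variable (q : ℕ) [Fact q.Prime] (k : Type*) [Field k] [CharP k q]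

theorem ssPoly_ne_zero (hq5 : 5 ≤ q) : ssPoly q k hq5 ≠ 0 := by
  intro h
  have := hasse_pH q k hq5
  rw [h, map_zero, mul_zero] at this
  exact zero_ne_one this

theorem hasseU₂_ne_zero (hq5 : 5 ≤ q) : hasseU₂ q k hq5 ≠ 0 := by
  intro h
  have := hasse_rel q k hq5
  rw [h, zero_pow (by norm_num)] at this
  exact mul_ne_zero (pow_ne_zero _ X_ne_zero) (pow_ne_zero 2 (ssPoly_ne_zero q k hq5)) this.symm

/-- the multiplicity relation at `a ≠ 0`: `12 · mult_a U₂ = 2 · mult_a pH` -/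
theorem rootMultiplicity_rel_ne (hq5 : 5 ≤ q) {a : k} (ha : a ≠ 0) :
    12 * rootMultiplicity a (hasseU₂ q k hq5) = 2 * rootMultiplicity a (ssPoly q k hq5) := by
  have h := congrArg (rootMultiplicity a) (hasse_rel q k hq5)
  rw [rootMultiplicity_pow' (hasseU₂_ne_zero q k hq5),
    rootMultiplicity_mul (mul_ne_zero (pow_ne_zero _ X_ne_zero)
      (pow_ne_zero 2 (ssPoly_ne_zero q k hq5))),
    rootMultiplicity_X_pow_ne ha, rootMultiplicity_pow' (ssPoly_ne_zero q k hq5), zero_add] at h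
  exact h

/-- the multiplicity relation at `0`: `12 · mult_0 U₂ = 4 (q-1) + 2 · mult_0 pH` -/
theorem rootMultiplicity_rel_zero (hq5 : 5 ≤ q) :
    12 * rootMultiplicity (0 : k) (hasseU₂ q k hq5) =
      4 * (q - 1) + 2 * rootMultiplicity (0 : k) (ssPoly q k hq5) := by
  have h := congrArg (rootMultiplicity (0 : k)) (hasse_rel q k hq5)
  rw [rootMultiplicity_pow' (hasseU₂_ne_zero q k hq5),
    rootMultiplicity_mul (mul_ne_zero (pow_ne_zero _ X_ne_zero)
      (pow_ne_zero 2 (ssPoly_ne_zero q k hq5))),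
    rootMultiplicity_X_pow_zero, rootMultiplicity_pow' (ssPoly_ne_zero q k hq5)] at h
  exact h

/-- **`6 ∣ mult_a pH` for `a ≠ 0`** -/
theorem six_dvd_rootMultiplicity_ssPoly (hq5 : 5 ≤ q) {a : k} (ha : a ≠ 0) :
    6 ∣ rootMultiplicity a (ssPoly q k hq5) := by
  have h := rootMultiplicity_rel_ne q k hq5 ha
  exact ⟨rootMultiplicity a (hasseU₂ q k hq5), by omega⟩

/-- a root `a ≠ 0` of `pH` has multiplicity at least `6` -/
theorem six_le_rootMultiplicity_ssPoly (hq5 : 5 ≤ q) {a : k} (ha : a ≠ 0)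
    (hroot : (ssPoly q k hq5).IsRoot a) : 6 ≤ rootMultiplicity a (ssPoly q k hq5) := by
  have hpos : 0 < rootMultiplicity a (ssPoly q k hq5) :=
    (rootMultiplicity_pos (ssPoly_ne_zero q k hq5)).mpr hroot
  obtain ⟨m, hm⟩ := six_dvd_rootMultiplicity_ssPoly q k hq5 ha
  omega

/-- **`mult_0 pH + 2 (q - 1) = 6 m`** -/
theorem rootMultiplicity_zero_ssPoly (hq5 : 5 ≤ q) :
    ∃ m : ℕ, rootMultiplicity (0 : k) (ssPoly q k hq5) + 2 * (q - 1) = 6 * m := by
  have h := rootMultiplicity_rel_zero q k hq5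
  exact ⟨rootMultiplicity (0 : k) (hasseU₂ q k hq5), by omega⟩

/-- **`q ≡ 2 mod 3`: `mult_0 pH ≡ 4 mod 6`**, in particular `mult_0 pH ≥ 4` (`0` is
supersingular) -/
theorem rootMultiplicity_zero_mod_six (hq5 : 5 ≤ q) (hq3 : q % 3 = 2) :
    rootMultiplicity (0 : k) (ssPoly q k hq5) % 6 = 4 := by
  obtain ⟨m, hm⟩ := rootMultiplicity_zero_ssPoly q k hq5
  omega

theorem four_le_rootMultiplicity_zero (hq5 : 5 ≤ q) (hq3 : q % 3 = 2) :
    4 ≤ rootMultiplicity (0 : k) (ssPoly q k hq5) := by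
  have := rootMultiplicity_zero_mod_six q k hq5 hq3
  omega

/-- **`q ≡ 1 mod 3`: `6 ∣ mult_0 pH`** -/
theorem six_dvd_rootMultiplicity_zero (hq5 : 5 ≤ q) (hq3 : q % 3 = 1) :
    6 ∣ rootMultiplicity (0 : k) (ssPoly q k hq5) := by
  obtain ⟨m, hm⟩ := rootMultiplicity_zero_ssPoly q k hq5
  exact ⟨m - (q - 1) / 3, by omega⟩

end Fermat.Agent.GL.Thick.MuLower
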