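/-
GATE-L / SMALL-Q (helper95), file 2: ramification of `j̃` over the supersingular point `j = 0`
in characteristic `2` and `3`, from the Hauptmodul identities of levels `3` and `2`
(GJ/Haupt/Formal3, Formal2; valid over every commutative ring).

* `jq_mul_tM3_cube_char_two   : j̃ · t̃₃³ = (t̃₃ + 1)⁴`  (`CharP k 2`;  `27 = 243 = 1`);
* `jq_mul_tM2_sq_char_three   : j̃ · t̃₂² = (t̃₂ + 1)³`  (`CharP k 3`;  `256 = 1`);
* `valuation_of_mul_pow_eq` : for ANY valuation `v` on a field, `x · tᵃ = (t + 1)ᵇ`, `0 < a < b`,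
  `v x < 1`  ⟹  `v t = 1 ∧ v x = v (t + 1) ^ b`;
* `Place.ord_of_mul_pow_eq` : the same for a prelude `AlgebraicCurve.Place`:
  `0 < P.ord x ⟹ P.ord t = 0 ∧ P.ord x = b * P.ord (t + 1)` — so `b ∣ ord_P x`.

USE (FIX C of 2815 at `q = 2`): the tame-chart condition forces `3 ∣ level`, so `t₃` lies in the
function field of the level; at a point `P` with `j̃(P) = 0`:  `4 ∣ ord_P j̃`; together with
`3 ∣ ord_P j̃` ((S4) at `a = 0`) and `ord_P j̃ ≤ 12` this gives `ord_P j̃ = 12` (thickness `1`).
-/
import Fermat.Agent.GJ.Haupt.Formal3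
import Fermat.Agent.GJ.Haupt.Formal2
import Fermat.Prelude.Def_AlgebraicCurve_DivisorClassGroup

set_option autoImplicit false

noncomputable section

namespace Fermat.Agent.GL.SmallQ

open ModularCurve Fermat.Agent.GJ.Haupt

section Series

variable (k : Type*) [CommRing k]

/-- **characteristic `2`**: `j̃ · t̃₃³ = (t̃₃ + 1)⁴` -/
theorem jq_mul_tM3_cube_char_two [CharP k 2] :
    jqModC k * tM3 k ^ 3 = (tM3 k + 1) ^ 4 := by
  have h27 : (27 : LaurentSeries k) = 1 := by
    have h2 : (2 : LaurentSeries k) = 0 := by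
      have h0 : ((2 : ℕ) : k) = 0 := CharP.cast_eq_zero k 2
      have h := congrArg (algebraMap k (LaurentSeries k)) h0
      rw [map_natCast, map_zero] at h
      exact_mod_cast h
    linear_combination (13 : LaurentSeries k) * h2
  have h243 : (243 : LaurentSeries k) = 1 := by
    have h2 : (2 : LaurentSeries k) = 0 := by
      have h0 : ((2 : ℕ) : k) = 0 := CharP.cast_eq_zero k 2
      have h := congrArg (algebraMap k (LaurentSeries k)) h0
      rw [map_natCast, map_zero] at h
      exact_mod_cast h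
    linear_combination (121 : LaurentSeries k) * h2
  rw [jq_mul_tM3_cube, h27, h243]
  ring

/-- **characteristic `3`**: `j̃ · t̃₂² = (t̃₂ + 1)³` -/
theorem jq_mul_tM2_sq_char_three [CharP k 3] :
    jqModC k * tM2 k ^ 2 = (tM2 k + 1) ^ 3 := by
  have h256 : (256 : LaurentSeries k) = 1 := by
    have h3 : (3 : LaurentSeries k) = 0 := by
      have h0 : ((3 : ℕ) : k) = 0 := CharP.cast_eq_zero k 3
      have h := congrArg (algebraMap k (LaurentSeries k)) h0
      rw [map_natCast, map_zero] at h
      exact_mod_cast h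
    linear_combination (85 : LaurentSeries k) * h3
  rw [jq_mul_tM2_sq, h256]

end Series

section Val

variable {L Γ₀ : Type*} [Field L] [LinearOrderedCommGroupWithZero Γ₀] (v : Valuation L Γ₀)

/-- `x · tᵃ = (t + 1)ᵇ` with `0 < a < b` and `v x < 1`: then `t` is a `v`-unit and
`v x = v (t + 1) ^ b`. -/
theorem valuation_of_mul_pow_eq {x t : L} {a b : ℕ} (ha : 0 < a) (hab : a < b)
    (h : x * t ^ a = (t + 1) ^ b) (hx : v x < 1) :
    v t = 1 ∧ v x = v (t + 1) ^ b := by
  have hv : v x * v t ^ a = v (t + 1) ^ b := by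
    rw [← map_pow, ← map_pow, ← map_mul, h]
  have ht1 : v t = 1 := by
    rcases lt_trichotomy (v t) 1 with hlt | heq | hgt
    · -- `v t < 1`: `v (t + 1) = 1`
      exfalso
      have h1 : v (t + 1) = 1 := by
        have := v.map_add_eq_of_lt_left (x := (1 : L)) (y := t) (by rw [map_one]; exact hlt)
        rw [add_comm, this, map_one]
      rw [h1, one_pow] at hv
      have h2 : v t ^ a < 1 := pow_lt_one₀ zero_le hlt ha.ne'
      have h3 : v x * v t ^ a < 1 := by
        calc v x * v t ^ a ≤ v x * 1 := mul_le_mul_right h2.le _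
          _ = v x := mul_one _
          _ < 1 := hx
      rw [hv] at h3
      exact lt_irrefl _ h3
    · exact heq
    · -- `v t > 1`: `v (t + 1) = v t`
      exfalso
      have h1 : v (t + 1) = v t :=
        v.map_add_eq_of_lt_left (x := t) (y := (1 : L)) (by rw [map_one]; exact hgt)
      rw [h1] at hv
      have ht0 : v t ≠ 0 := (zero_lt_one.trans hgt).ne'
      have hba : b = a + (b - a) := by omega
      rw [hba, pow_add, mul_comm] at hv
      have h2 : v x = v t ^ (b - a) := mul_left_cancel₀ (pow_ne_zero a ht0) hv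
      have h3 : 1 < v t ^ (b - a) := one_lt_pow₀ hgt (by omega)
      rw [← h2] at h3
      exact lt_irrefl _ (h3.trans hx)
  refine ⟨ht1, ?_⟩
  rw [ht1, one_pow, mul_one] at hv
  exact hv

end Val

section PlaceOrd

open AlgebraicCurve WithZero

variable {K F : Type*} [Field K] [Field F] [Algebra K F] (P : Place K F)

/-- `x · tᵃ = (t + 1)ᵇ` with `0 < a < b` at a place `P` with `ord_P x > 0`:
`ord_P t = 0` and `ord_P x = b · ord_P (t + 1)`. -/
theorem Place.ord_of_mul_pow_eq {x t : F} {a b : ℕ} (ha : 0 < a) (hab : a < b)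
    (h : x * t ^ a = (t + 1) ^ b) (hx : 0 < P.ord x) :
    P.ord t = 0 ∧ P.ord x = b * P.ord (t + 1) := by
  have hx0 : x ≠ 0 := by
    rintro rfl
    rw [Place.ord_zero] at hx
    exact lt_irrefl _ hx
  have hvx : P.adicValuation x < 1 := by
    have h1 : log (P.adicValuation x) < 0 := by
      have : P.ord x = -(log (P.adicValuation x)) := rfl
      omega
    have := (log_lt_iff_lt_exp (P.adicValuation_ne_zero hx0)).1 h1
    rwa [exp_zero] at this
  obtain ⟨h1, h2⟩ := valuation_of_mul_pow_eq P.adicValuation ha hab h hvx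
  constructor
  · show -(log (P.adicValuation t)) = 0
    rw [h1, log_one, neg_zero]
  · show -(log (P.adicValuation x)) = b * -(log (P.adicValuation (t + 1)))
    rw [h2, log_pow, nsmul_eq_mul]
    ring

/-- the divisibility consequence -/
theorem Place.dvd_ord_of_mul_pow_eq {x t : F} {a b : ℕ} (ha : 0 < a) (hab : a < b)
    (h : x * t ^ a = (t + 1) ^ b) (hx : 0 < P.ord x) : (b : ℤ) ∣ P.ord x :=
  ⟨_, (Place.ord_of_mul_pow_eq P ha hab h hx).2⟩

end PlaceOrd

end Fermat.Agent.GL.SmallQ
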