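/-
GATE-L / SMALL-Q (helper95), file 3: the chart relations of GJ/J1/Haupt/ChartRed on the special
fibre in characteristic `2` and `3`, inside the residue field `FresBar N A` of the Gauss valuation:

* `red_rel_three_char_two (h : 3 ∣ N) [CharP 𝕜 2] : j̃ · t̃₃³ = (t̃₃ + 1)⁴`;
* `red_rel_two_char_three (h : 2 ∣ N) [CharP 𝕜 3] : j̃ · t̃₂² = (t̃₂ + 1)³`;
* valuation consequences for ANY valuation `v` of `FresBar N A` (in particular the point
  valuations of the residue curve): `v j̃ < 1 ⟹ v t̃₃ = 1 ∧ v j̃ = v (t̃₃ + 1) ^ 4`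
  (so `4 ∣ ord_P j̃` at every point over the supersingular `j = 0` in characteristic `2`),
  and the twin with `3` in characteristic `3`.

This is the `q = 2` repair of FIX C (2815 / cell ruling 2851 (R2) candidate (i)): the tame-chart
condition of J1 forces `3 ∣ level` when `q = 2`, and `4 ∣ e_P`, `3 ∣ e_P`, `e_P ≤ 12` give
`e_P = 12`.
-/
import Fermat.Agent.GJ.J1.Haupt.ChartRed
import Fermat.Agent.GL.Thick.SmallQRam

set_option autoImplicit false

noncomputable section

namespace Fermat.Agent.GL.SmallQ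

open ModularCurve Fermat.Agent.S24 Fermat.Agent.GJ.J1 Fermat.Agent.GJ.J1.Val
  Fermat.Agent.GJ.J1.Haupt

variable (N : ℕ) [NeZero N] (A : ValuationSubring Kbar)

local notation "𝕜" => IsLocalRing.ResidueField A

/-- **characteristic `2`, `3 ∣ N`**: `j̃ · t̃₃³ = (t̃₃ + 1)⁴` in the residue field of the Gauss
valuation of `F_N`. -/
theorem red_rel_three_char_two (h : 3 ∣ N) [CharP 𝕜 2] :
    (redDataBar N A).red ⟨jF N, jF_mem_Rw N A⟩ *
        (redDataBar N A).red ⟨tThreeF N h, tThreeF_mem_Rw N A h⟩ ^ 3 =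
      ((redDataBar N A).red ⟨tThreeF N h, tThreeF_mem_Rw N A h⟩ + 1) ^ 4 := by
  have h2 : (2 : FresBar N A) = 0 := by
    have h0 : ((2 : ℕ) : 𝕜) = 0 := CharP.cast_eq_zero 𝕜 2
    have h' := congrArg (algebraMap 𝕜 (FresBar N A)) h0
    rw [map_natCast, map_zero] at h'
    exact_mod_cast h'
  have h27 : (27 : FresBar N A) = 1 := by linear_combination (13 : FresBar N A) * h2
  have h243 : (243 : FresBar N A) = 1 := by linear_combination (121 : FresBar N A) * h2
  rw [red_rel_three N A h, h27, h243]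
  ring

/-- **characteristic `3`, `2 ∣ N`**: `j̃ · t̃₂² = (t̃₂ + 1)³`. -/
theorem red_rel_two_char_three (h : 2 ∣ N) [CharP 𝕜 3] :
    (redDataBar N A).red ⟨jF N, jF_mem_Rw N A⟩ *
        (redDataBar N A).red ⟨tTwoF N h, tTwoF_mem_Rw N A h⟩ ^ 2 =
      ((redDataBar N A).red ⟨tTwoF N h, tTwoF_mem_Rw N A h⟩ + 1) ^ 3 := by
  have h3 : (3 : FresBar N A) = 0 := by
    have h0 : ((3 : ℕ) : 𝕜) = 0 := CharP.cast_eq_zero 𝕜 3
    have h' := congrArg (algebraMap 𝕜 (FresBar N A)) h0
    rw [map_natCast, map_zero] at h'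
    exact_mod_cast h'
  have h256 : (256 : FresBar N A) = 1 := by linear_combination (85 : FresBar N A) * h3
  rw [red_rel_two N A h, h256]

variable {Γ₀ : Type*} [LinearOrderedCommGroupWithZero Γ₀]

/-- characteristic `2`: at every valuation of the residue field with `v j̃ < 1` (a point over the
supersingular `j = 0`), `t̃₃` is a unit and `v j̃ = v (t̃₃ + 1) ^ 4`. -/
theorem valuation_red_jF_char_two (h : 3 ∣ N) [CharP 𝕜 2] (v : Valuation (FresBar N A) Γ₀)
    (hv : v ((redDataBar N A).red ⟨jF N, jF_mem_Rw N A⟩) < 1) :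
    v ((redDataBar N A).red ⟨tThreeF N h, tThreeF_mem_Rw N A h⟩) = 1 ∧
      v ((redDataBar N A).red ⟨jF N, jF_mem_Rw N A⟩) =
        v ((redDataBar N A).red ⟨tThreeF N h, tThreeF_mem_Rw N A h⟩ + 1) ^ 4 :=
  valuation_of_mul_pow_eq v (by norm_num) (by norm_num) (red_rel_three_char_two N A h) hv

/-- characteristic `3`: at every valuation of the residue field with `v j̃ < 1`,
`t̃₂` is a unit and `v j̃ = v (t̃₂ + 1) ^ 3`. -/
theorem valuation_red_jF_char_three (h : 2 ∣ N) [CharP 𝕜 3] (v : Valuation (FresBar N A) Γ₀)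
    (hv : v ((redDataBar N A).red ⟨jF N, jF_mem_Rw N A⟩) < 1) :
    v ((redDataBar N A).red ⟨tTwoF N h, tTwoF_mem_Rw N A h⟩) = 1 ∧
      v ((redDataBar N A).red ⟨jF N, jF_mem_Rw N A⟩) =
        v ((redDataBar N A).red ⟨tTwoF N h, tTwoF_mem_Rw N A h⟩ + 1) ^ 3 :=
  valuation_of_mul_pow_eq v (by norm_num) (by norm_num) (red_rel_two_char_three N A h) hv

end Fermat.Agent.GL.SmallQ
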