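/-
GATE-L / PREP KAPPA (1)(2) (helper84; board 2465, 2505, 2557): the Laurent-series half of
(THICK_q), `Φ_q`-free.

`q ∥ N`, `A` a valuation subring of `ℚ̄` over `q`, `w₁ = redDataBar N A`, `w₂ = w₁ ∘ W_q`.
Let `kap ∈ F_N` be the function `dj / dj_q`, i.e. ANY element with `D j = kap • D j_q` in
`Ω[F_N / ℚ̄]`.  Then `κ := q · kap` lies in the ball `Rw₁ ∩ Rw₂` and

  `red (q · kap) = (1 / T, 0)`,   `T = (θ j~)^(q-1)`,   `θ = Q d/dQ`.

* `w₁`: lift the derivation `θ` of `ℚ̄((Q))` (restricted to `F_N`) to `Ω[F_N / ℚ̄]`: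
  `θ j = kap · θ (j(Q^q)) = kap · q · (θ j)(Q^q)`, so `q · kap = (θ j)(Q) / (θ j)(Q^q)` is a quotient
  of two series with INTEGRAL coefficients, the denominator of nonzero reduction, and
  `(θ j~)(Q^q) = (θ j~)^q` in characteristic `q`.
* `w₂`: `W_q` swaps `j` and `j_q`, so `W_q kap = kap⁻¹` (conjugate a derivation `F → F` by `W_q`);
  hence `W_q (q · kap) = q² · (q · kap)⁻¹` reduces to `0`.
-/
import Fermat.Agent.GK.Flat.BallTwo
import Fermat.Agent.GJ.Haupt.Theta
import Fermat.Agent.S24_helper38.EssFiniteGen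
import Fermat.Agent.GJ.J1.Val.DegExport
import Fermat.Agent.GK.AL.SecondValGal

set_option autoImplicit false

noncomputable section

namespace Fermat.Agent.GL.Thick.Kappa

open HahnSeries ModularCurve KaehlerDifferential
open Fermat.Agent.GJ.Haupt

/-! ### `θ = Q d/dQ` and `f(Q) ↦ f(Q^n)` -/

section Series

variable {R : Type*} [CommRing R]

/-- `θ (f(Q^n)) = n · (θ f)(Q^n)` -/
theorem thetaL_qExpand (n : ℕ) [NeZero n] (f : LaurentSeries R) :
    thetaL (qExpand R n f) = (n : LaurentSeries R) * qExpand R n (thetaL f) := by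
  have hC : (n : LaurentSeries R) = HahnSeries.C (n : R) := by rw [map_natCast]
  ext k
  rw [thetaL_coeff, hC, HahnSeries.C_mul_eq_smul, HahnSeries.coeff_smul, smul_eq_mul]
  by_cases hk : (n : ℤ) ∣ k
  · obtain ⟨m, rfl⟩ := hk
    rw [qExpand_coeff_mul, qExpand_coeff_mul, thetaL_coeff]
    push_cast
    ring
  · rw [qExpand_coeff_of_not_dvd n _ hk, qExpand_coeff_of_not_dvd n _ hk, mul_zero, mul_zero]

theorem thetaL_C_mul (c : R) (f : LaurentSeries R) :
    thetaL (HahnSeries.C c * f) = HahnSeries.C c * thetaL f := by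
  rw [thetaL_mul, thetaL_C, zero_mul, zero_add]

/-- the coefficient of `Q⁻¹` in `θ j` is `-1` -/
theorem thetaL_jqModC_coeff_neg_one : (thetaL (jqModC R)).coeff (-1) = -1 := by
  rw [thetaL_coeff, ModularCurve.coeff_jqModC_neg_one]
  push_cast
  ring

theorem thetaL_jqModC_ne_zero [Nontrivial R] : thetaL (jqModC R) ≠ 0 := by
  intro h
  have := thetaL_jqModC_coeff_neg_one (R := R)
  rw [h, HahnSeries.coeff_zero] at this
  exact one_ne_zero (neg_eq_zero.mp this.symm)

end Series

/-! ### Derivations -/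

section AbstractDer

variable {K F M : Type*} [Field K] [Field F] [CommRing M] [Algebra K F] [Algebra K M]
  [Algebra F M] [IsScalarTower K F M]

/-- a `K`-derivation of `M` from the Leibniz rule and the vanishing on constants -/
def derOfLeibniz (f : M → M) (hadd : ∀ a b, f (a + b) = f a + f b)
    (hmul : ∀ a b, f (a * b) = f a * b + a * f b) (hC : ∀ c : K, f (algebraMap K M c) = 0) :
    Derivation K M M where
  toFun := f
  map_add' := hadd
  map_smul' c a := by
    rw [RingHom.id_apply, Algebra.smul_def, Algebra.smul_def, hmul, hC, zero_mul, zero_add]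
  map_one_eq_zero' := by
    have := hC 1
    rwa [map_one] at this
  leibniz' a b := by
    show f (a * b) = a • f b + b • f a
    rw [hmul, smul_eq_mul, smul_eq_mul]
    ring

@[simp] theorem derOfLeibniz_apply (f : M → M) (hadd : ∀ a b, f (a + b) = f a + f b)
    (hmul : ∀ a b, f (a * b) = f a * b + a * f b) (hC : ∀ c : K, f (algebraMap K M c) = 0)
    (a : M) : derOfLeibniz (K := K) f hadd hmul hC a = f a := rfl

/-- **Kähler lift**: a relation `D x = kap • D y` in `Ω[F / K]` is respected by every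
`K`-derivation of an `F`-algebra `M`. -/
theorem der_eq_mul_of_D_eq (δ : Derivation K M M) {x y kap : F}
    (hk : D K F x = kap • D K F y) :
    δ (algebraMap F M x) = algebraMap F M kap * δ (algebraMap F M y) := by
  have h1 := congrArg (δ.compAlgebraMap F).liftKaehlerDifferential hk
  rw [map_smul, Derivation.liftKaehlerDifferential_comp_D,
    Derivation.liftKaehlerDifferential_comp_D] at h1
  rw [Derivation.compAlgebraMap_apply, Derivation.compAlgebraMap_apply, Algebra.smul_def] at h1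
  exact h1

end AbstractDer

section Der

variable (K : Type*) [Field K]

theorem algebraMap_eq_C (c : K) : algebraMap K (LaurentSeries K) c = HahnSeries.C c := by
  rw [ModularCurve.algebraMap_laurentSeries_eq_single]
  rfl

/-- `θ = Q d/dQ` as a `K`-derivation of `K((Q))` -/
def thetaDer := derOfLeibniz (K := K) (M := LaurentSeries K) thetaL thetaL_add thetaL_mul
  (fun c => by rw [algebraMap_eq_C, thetaL_C])

variable {K}

set_option synthInstance.maxHeartbeats 200000 in
/-- a relation `D x = kap • D y` in `Ω[F / K]`, `F ⊂ K((Q))`, gives `θ x = kap · θ y` in `K((Q))` -/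
theorem thetaL_eq_mul_of_D_eq {F : IntermediateField K (LaurentSeries K)} {x y kap : F}
    (hk : D K F x = kap • D K F y) :
    thetaL (x : LaurentSeries K) = (kap : LaurentSeries K) * thetaL (y : LaurentSeries K) :=
  der_eq_mul_of_D_eq (thetaDer K) hk

end Der

/-! ### `dx / dy` under an automorphism swapping `x` and `y` -/

section Conj

variable {K F : Type*} [Field K] [Field F] [Algebra K F]

/-- the conjugate `σ⁻¹ ∘ d ∘ σ` of a derivation `F → F` by a `K`-automorphism `σ` -/
def conjDer (σ : F ≃ₐ[K] F) (d : Derivation K F F) : Derivation K F F where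
  toFun x := σ.symm (d (σ x))
  map_add' a b := by simp only [map_add]
  map_smul' c a := by
    show σ.symm (d (σ (c • a))) = c • σ.symm (d (σ a))
    rw [map_smul, Derivation.map_smul, map_smul]
  map_one_eq_zero' := by
    show σ.symm (d (σ 1)) = 0
    rw [map_one, Derivation.map_one_eq_zero, map_zero]
  leibniz' a b := by
    show σ.symm (d (σ (a * b))) = a • σ.symm (d (σ b)) + b • σ.symm (d (σ a))
    rw [map_mul, Derivation.leibniz, map_add, smul_eq_mul, smul_eq_mul, map_mul, map_mul,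
      AlgEquiv.symm_apply_apply, AlgEquiv.symm_apply_apply, smul_eq_mul, smul_eq_mul]

@[simp] theorem conjDer_apply (σ : F ≃ₐ[K] F) (d : Derivation K F F) (x : F) :
    conjDer σ d x = σ.symm (d (σ x)) := rfl

/-- **functoriality of `dx / dy` under an automorphism swapping `x` and `y`**: if
`D x = kap • D y`, `σ x = y`, `σ y = x` and `D x ≠ 0` then `kap · σ kap = 1`. -/
theorem mul_apply_eq_one_of_swap (σ : F ≃ₐ[K] F) {x y kap : F} (hxy : σ x = y) (hyx : σ y = x)
    (hDx : D K F x ≠ 0) (hk : D K F x = kap • D K F y) : kap * σ kap = 1 := by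
  obtain ⟨φ, hφ⟩ := Module.Projective.exists_dual_ne_zero F hDx
  set d : Derivation K F F := φ.compDer (D K F) with hd
  have hdx : d x ≠ 0 := hφ
  -- the relation for `d`
  have h1 : d x = kap * d y := by
    have := congrArg φ hk
    rw [map_smul, smul_eq_mul] at this
    exact this
  -- the relation for the conjugate of `d`
  have h2 : conjDer σ d x = kap * conjDer σ d y := by
    have := congrArg (conjDer σ d).liftKaehlerDifferential hk
    rw [map_smul, Derivation.liftKaehlerDifferential_comp_D,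
      Derivation.liftKaehlerDifferential_comp_D, smul_eq_mul] at this
    exact this
  rw [conjDer_apply, conjDer_apply, hxy, hyx] at h2
  have h3 : d y = σ kap * d x := by
    have := congrArg σ h2
    rwa [AlgEquiv.apply_symm_apply, map_mul, AlgEquiv.apply_symm_apply] at this
  rw [h3, ← mul_assoc] at h1
  have h4 : (kap * σ kap - 1) * d x = 0 := by rw [sub_mul, one_mul, ← h1, sub_self]
  rcases mul_eq_zero.mp h4 with h5 | h5
  · exact sub_eq_zero.mp h5
  · exact absurd h5 hdx

end Conj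

/-! ### The concrete statement at `F_N`, `q ∥ N` -/

section Concrete

open IsLocalRing AlgebraicCurve
open Fermat.Agent.S24 Fermat.Agent.S24_helper62 Fermat.Agent.GJ.J1 Fermat.Agent.GJ.J1.Val
open Fermat.Agent.GK.AL Fermat.Agent.GK.CuspSep Fermat.Agent.GK.BallTwo Fermat.Agent.GJ.J1.Disc

variable {q : ℕ} (N : ℕ) [NeZero N] [NeZero q] (A : ValuationSubring Kbar) (h : ExactDvd q N)

local notation "𝕜" => ResidueField A

/-- `j`, as a Laurent series, is the coefficientwise image of `j ∈ A((Q))` -/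
theorem coe_jF_eq_emb : ((jF N : FN N) : LaurentSeries Kbar) = emb A (jqModC A) := by
  rw [jF_eq_gen N, gen_eq_emb N A]
  show emb A (qExpand A 1 (jqModC A)) = _
  rw [qExpand_one_apply]

/-- `j_q = j(Q^q)`, as a Laurent series, is the coefficientwise image of `j(Q^q) ∈ A((Q))` -/
theorem coe_jq_eq_emb :
    ((jdF N q h.dvd : FN N) : LaurentSeries Kbar) = emb A (qExpand A q (jqModC A)) := by
  rw [jq_eq_gen N h, gen_eq_emb N A]
  rfl

/-- the reduction of `(θ j)(Q^q)` is nonzero -/
theorem rd_qExpand_thetaL_ne_zero : rd A (qExpand A q (thetaL (jqModC A))) ≠ 0 := by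
  rw [rd, coeffMap_qExpand, coeffMap_thetaL, coeffMap_jqModC]
  intro h0
  exact thetaL_jqModC_ne_zero (R := 𝕜) (qExpand_injective q (by rw [h0, map_zero]))

set_option synthInstance.maxHeartbeats 200000 in
/-- **the series identity** `(q · kap) · (θ j)(Q^q) = θ j`, with both series in `A((Q))` -/
theorem kappa_mul_emb {kap : FN N}
    (hk : D Kbar (FN N) (jF N) = kap • D Kbar (FN N) (jdF N q h.dvd)) :
    ((((q : FN N) * kap : FN N)) : LaurentSeries Kbar) *
        emb A (qExpand A q (thetaL (jqModC A))) = emb A (thetaL (jqModC A)) := by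
  have h1 := thetaL_eq_mul_of_D_eq hk
  rw [coe_jF_eq_emb N A, coe_jq_eq_emb N A h, emb, ← coeffMap_thetaL, ← coeffMap_thetaL,
    thetaL_qExpand, map_mul, map_natCast] at h1
  rw [h1]
  push_cast
  ring

set_option synthInstance.maxHeartbeats 200000 in
/-- **(K1a)** `w₁(q · kap) ≥ 0` -/
theorem kappa_mem_Rw1 {kap : FN N}
    (hk : D Kbar (FN N) (jF N) = kap • D Kbar (FN N) (jdF N q h.dvd)) :
    (q : FN N) * kap ∈ (redDataBar N A).Rw :=
  mem_Rw_of_frac (hGF := hasGaussFrac_bar N A) (rd_qExpand_thetaL_ne_zero A)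
    (kappa_mul_emb N A h hk)

variable (hA : A.LiesOverPrime q)

omit [NeZero N] in
include h hA in
/-- in characteristic `q`, `(θ j~)(Q^q) = (θ j~)^q` -/
theorem qExpand_thetaL_jqModC_char :
    qExpand 𝕜 q (thetaL (jqModC 𝕜)) = thetaL (jqModC 𝕜) ^ q := by
  have : Fact q.Prime := ⟨h.prime⟩
  have : CharP 𝕜 q := charP_residue A h.prime hA
  apply Fermat.Agent.GJ.J3.QS.qExpand_char_of_fixed q
  rw [coeffMap_thetaL, coeffMap_jqModC]

set_option synthInstance.maxHeartbeats 200000 in
include hA in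
/-- **(K1b)** `red₁ (q · kap) · (θ j~)^(q-1) = 1` in `k((Q))` -/
theorem coe_red1_kappa {kap : FN N}
    (hk : D Kbar (FN N) (jF N) = kap • D Kbar (FN N) (jdF N q h.dvd))
    (hx : (q : FN N) * kap ∈ (redDataBar N A).Rw) :
    (((redDataBar N A).red ⟨(q : FN N) * kap, hx⟩ : FresBar N A) : LaurentSeries 𝕜) *
      thetaL (jqModC 𝕜) ^ (q - 1) = 1 := by
  have h1 := redL_mul_rd_of_frac (hGF := hasGaussFrac_bar N A)
    (x := ⟨(q : FN N) * kap, hx⟩) (kappa_mul_emb N A h hk)
  rw [rd, coeffMap_qExpand, coeffMap_thetaL, coeffMap_jqModC,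
    qExpand_thetaL_jqModC_char (N := N) A h hA] at h1
  have hq : q = (q - 1) + 1 := (Nat.sub_add_cancel h.pos).symm
  have hθ : thetaL (jqModC 𝕜) ≠ 0 := thetaL_jqModC_ne_zero
  have h2 : (redL A (modularFunctionFieldBar N) (hasGaussFrac_bar N A)
      ⟨(q : FN N) * kap, hx⟩ * thetaL (jqModC 𝕜) ^ (q - 1)) * thetaL (jqModC 𝕜) =
      1 * thetaL (jqModC 𝕜) := by
    rw [one_mul, mul_assoc, ← pow_succ, ← hq]
    exact h1
  exact mul_right_cancel₀ hθ h2

/-! #### the second valuation -/

omit [NeZero q] in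
/-- `red₂ x = red₁ (W_q x)` in `IsRed` form -/
theorem isRed2_iff {x : FN N} {y : FresBar N A} :
    (redData2 N A h).IsRed x y ↔ (redDataBar N A).IsRed (wAut h x) y := Iff.rfl

set_option synthInstance.maxHeartbeats 200000 in
/-- `dj ≠ 0` -/
theorem D_jF_ne_zero : D Kbar (FN N) (jF N) ≠ 0 := by
  intro h0
  have h1 := thetaL_eq_mul_of_D_eq (x := jF N) (y := jF N) (kap := 0) (by rw [h0, zero_smul])
  rw [ZeroMemClass.coe_zero, zero_mul, coe_jF_eq_emb N (⊤ : ValuationSubring Kbar), emb,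
    ← coeffMap_thetaL] at h1
  have h2 := congrArg (fun z : LaurentSeries Kbar => z.coeff (-1)) h1
  simp only [coeffMap_coeff, thetaL_jqModC_coeff_neg_one, HahnSeries.coeff_zero, map_neg,
    map_one] at h2
  exact one_ne_zero (neg_eq_zero.mp h2)

set_option synthInstance.maxHeartbeats 200000 in
omit [NeZero q] in
/-- `kap = dj / dj_q ≠ 0` -/
theorem kappa_ne_zero [NeZero q] {kap : FN N}
    (hk : D Kbar (FN N) (jF N) = kap • D Kbar (FN N) (jdF N q h.dvd)) : kap ≠ 0 := by
  rintro rfl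
  rw [zero_smul] at hk
  exact D_jF_ne_zero N hk

set_option synthInstance.maxHeartbeats 200000 in
/-- **(K2a)** `W_q (dj / dj_q) = dj_q / dj` -/
theorem wAut_kappa {kap : FN N}
    (hk : D Kbar (FN N) (jF N) = kap • D Kbar (FN N) (jdF N q h.dvd)) :
    wAut h kap = kap⁻¹ := by
  have h1 : kap * wAut h kap = 1 :=
    mul_apply_eq_one_of_swap (wAut h) (x := jF N) (y := jdF N q h.dvd)
      (by rw [wAut_jF, jQ_eq_jdF]) (by rw [← jQ_eq_jdF N h, wAut_jQ]) (D_jF_ne_zero N) hk
  exact eq_inv_of_mul_eq_one_right h1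

/-- the reduction `1 / T` of `q · kap` for `w₁` -/
def Tinv {kap : FN N} (hx : (q : FN N) * kap ∈ (redDataBar N A).Rw) : FresBar N A :=
  (redDataBar N A).red ⟨(q : FN N) * kap, hx⟩

set_option synthInstance.maxHeartbeats 200000 in
include hA in
/-- **(K1)** `q · kap` is `w₁`-integral with reduction `1 / T`, `T = (θ j~)^(q-1)` -/
theorem isRed1_kappa {kap : FN N}
    (hk : D Kbar (FN N) (jF N) = kap • D Kbar (FN N) (jdF N q h.dvd)) :
    ∃ Ti : FresBar N A, (redDataBar N A).IsRed ((q : FN N) * kap) Ti ∧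
      (Ti : LaurentSeries 𝕜) * thetaL (jqModC 𝕜) ^ (q - 1) = 1 ∧ Ti ≠ 0 := by
  have hx := kappa_mem_Rw1 N A h hk
  have h1 := coe_red1_kappa N A h hA hk hx
  refine ⟨(redDataBar N A).red ⟨(q : FN N) * kap, hx⟩, ⟨hx, rfl⟩, h1, ?_⟩
  intro h0
  rw [h0, ZeroMemClass.coe_zero, zero_mul] at h1
  exact zero_ne_one h1

omit [NeZero N] [NeZero q] in
/-- reduction of a natural number constant -/
theorem isRed_natCast {K F k Ft : Type*} [Field K] [Field F] [Algebra K F] [Field k] [Field Ft]
    [Algebra k Ft] (R : RedData K F k Ft) (n : ℕ) : R.IsRed (n : F) (n : Ft) := by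
  have h1 := isRed_algebraMap R ((n : ℕ) : R.A)
  rwa [map_natCast, map_natCast, SubringClass.coe_natCast, map_natCast] at h1

include hA in
omit [NeZero q] in
/-- `red₁ q = 0` -/
theorem isRed1_q : (redDataBar N A).IsRed (q : FN N) 0 := by
  have h1 := isRed_natCast (redDataBar N A) q
  have h2 : ((q : ℕ) : FresBar N A) = 0 := by
    rw [← map_natCast (algebraMap 𝕜 (FresBar N A)) q, residue_natCast_eq_zero A hA, map_zero]
  rwa [h2] at h1

set_option synthInstance.maxHeartbeats 200000 in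
include hA in
/-- **(K2)** `q · kap` is `w₂`-integral with reduction `0` (indeed `w₂(q · kap) = 2 v(q)`) -/
theorem isRed2_kappa {kap : FN N}
    (hk : D Kbar (FN N) (jF N) = kap • D Kbar (FN N) (jdF N q h.dvd)) :
    (redData2 N A h).IsRed ((q : FN N) * kap) 0 := by
  obtain ⟨Ti, hTi, -, hTi0⟩ := isRed1_kappa N A h hA hk
  have hkap0 := kappa_ne_zero N h hk
  have hq0 : (q : FN N) ≠ 0 := Nat.cast_ne_zero.mpr (NeZero.ne q)
  rw [isRed2_iff]
  have h1 : wAut h ((q : FN N) * kap) = (q : FN N) * (q : FN N) * ((q : FN N) * kap)⁻¹ := by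
    rw [map_mul, map_natCast, wAut_kappa N h hk]
    field_simp
  rw [h1]
  have h2 := isRed_mul (isRed_mul (isRed1_q N A hA) (isRed1_q N A hA))
    (Select.isRed_inv hTi hTi0)
  rwa [zero_mul, zero_mul] at h2

set_option synthInstance.maxHeartbeats 200000 in
include hA in
/-- **(K3)** `κ = q · dj/dj_q` lies in the ball `Rw₁ ∩ Rw₂` and `red κ = (1/T, 0)`,
`T = (θ j~)^(q-1)`. -/
theorem red_kappa {kap : FN N}
    (hk : D Kbar (FN N) (jF N) = kap • D Kbar (FN N) (jdF N q h.dvd)) :
    ∃ (Ti : FresBar N A) (hx : (q : FN N) * kap ∈ (ballFN N A h).B),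
      (ballFN N A h).red ⟨(q : FN N) * kap, hx⟩ = (Ti, 0) ∧
      (Ti : LaurentSeries 𝕜) * thetaL (jqModC 𝕜) ^ (q - 1) = 1 ∧ Ti ≠ 0 := by
  obtain ⟨Ti, hTi, h1, hTi0⟩ := isRed1_kappa N A h hA hk
  have h2 := isRed2_kappa N A h hA hk
  have hx : (q : FN N) * kap ∈ (ballFN N A h).B := mem_B_of_isRed _ hTi h2
  exact ⟨Ti, hx, red_ballFN N A h hTi h2 hx, h1, hTi0⟩

set_option synthInstance.maxHeartbeats 200000 in
include hA in
/-- **(K3')** the element `s · κ`, `s = j_q (j_q - 1728)` (regular at all finite places by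
KAPPA-REG), reduces to `(s₁ / T, 0)` with `s₁ = τ^q (τ^q - 1728)`. -/
theorem red_s_mul_kappa {kap : FN N}
    (hk : D Kbar (FN N) (jF N) = kap • D Kbar (FN N) (jdF N q h.dvd)) :
    ∃ (Ti : FresBar N A)
      (hx : jdF N q h.dvd * (jdF N q h.dvd - 1728) * ((q : FN N) * kap) ∈ (ballFN N A h).B),
      (ballFN N A h).red ⟨jdF N q h.dvd * (jdF N q h.dvd - 1728) * ((q : FN N) * kap), hx⟩ =
        (tauF N A ^ q * (tauF N A ^ q - 1728) * Ti, 0) ∧
      (Ti : LaurentSeries 𝕜) * thetaL (jqModC 𝕜) ^ (q - 1) = 1 ∧ Ti ≠ 0 := by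
  obtain ⟨Ti, hTi, h1, hTi0⟩ := isRed1_kappa N A h hA hk
  have h2 := isRed2_kappa N A h hA hk
  have hc1 : (redDataBar N A).IsRed (1728 : FN N) 1728 := by
    have := isRed_natCast (redDataBar N A) 1728
    rwa [Nat.cast_ofNat, Nat.cast_ofNat] at this
  have hc2 : (redData2 N A h).IsRed (1728 : FN N) 1728 := by
    have := isRed_natCast (redData2 N A h) 1728
    rwa [Nat.cast_ofNat, Nat.cast_ofNat] at this
  have hs1 := isRed_mul (isRed_mul (isRed1_jq N A h hA) (isRed_sub (isRed1_jq N A h hA) hc1)) hTi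
  have hs2 := isRed_mul (isRed_mul (isRed2_jq N A h) (isRed_sub (isRed2_jq N A h) hc2)) h2
  rw [mul_zero] at hs2
  have hx := mem_B_of_isRed (redCompatFN N A h) hs1 hs2
  exact ⟨Ti, hx, red_ballFN N A h hs1 hs2 hx, h1, hTi0⟩

end Concrete

end Fermat.Agent.GL.Thick.Kappa
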