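/-
GATE-L / PREP (helper65): KAPPA-REG = step (3) of helper84's proof of (THICK_q) (board 2465),
in a form that does NOT use the modular polynomial `Φ_q`.

For `q ∥ N` put `j = jF N`, `j_q = jQ N h` and let `κ₀ = dj / dj_q ∈ F_N` be defined by the Kähler
relation `D j = κ₀ • D j_q` in `Ω[F_N ⁄ ℚ̄]`.  Then

  `j_q (j_q - 1728) κ₀`  is integral over `ℚ̄[j]`   (`regFin_mul_kappa0`),

because `j_q : X₀(N) → X(1)` is unramified off `{0, 1728, ∞}` (S24 `InteriorCounts.unramified`,
transported by the Atkin–Lehner automorphism `wAut h`), and at a place `v` with `j_q(v) = c ∈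
{0, 1728}` the factor `j_q - c` has order `e_v ≥ e_v - 1 ≥ -ord_v κ₀`.

Abstract part (`one_le_ord_add`): for a function field `F / K` (`K` algebraically closed of
characteristic `0`), a place `v`, `x ∈ O_v`, `ord_v (t - c) > 0` and `D x = κ • D t`:
`1 ≤ ord_v κ + ord_v (t - c)`.
-/
import Fermat.Agent.S24_helper38.EssFiniteGen
import Fermat.Agent.S24.InteriorCounts
import Fermat.Agent.GJ.J1.PlaceLattice
import Fermat.Agent.GK.AL.SecondValGal
import Fermat.Agent.GK.CuspSep.Poles

set_option autoImplicit false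

noncomputable section

namespace Fermat.Agent.GL.Thick

open AlgebraicCurve KaehlerDifferential
open Fermat.Agent.S24 Fermat.Agent.S24_helper38

section Abstract

variable {K F : Type*} [Field K] [Field F] [Algebra K F] [IsAlgClosed K] [CharZero K]

omit [IsAlgClosed K] [CharZero K] in
/-- a function with a zero of positive order at `v` (after subtracting a constant) is not
constant -/
theorem notMem_range_of_ord_sub_pos (v : Place K F) {t : F} {c : K}
    (hc : 0 < v.ord (t - algebraMap K F c)) : t ∉ Set.range (algebraMap K F) := by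
  rintro ⟨d, rfl⟩
  rw [← map_sub, Hurwitz.ord_algebraMap] at hc
  exact lt_irrefl _ hc

/-- **Local bound for `dx/dt`.**  If `x` is regular at `v`, `t - c` vanishes at `v` to order `e`
and `dx = κ dt`, then `ord_v κ ≥ 1 - e`. -/
theorem one_le_ord_add (x₀ : F) [IsGen K x₀] (v : Place K F) {x t κ : F} {c : K}
    (hx : x ∈ v.toValuationSubring) (hc : 0 < v.ord (t - algebraMap K F c))
    (hκ : D K F x = κ • D K F t) : 1 ≤ v.ord κ + v.ord (t - algebraMap K F c) := by
  rcases eq_or_ne κ 0 with rfl | hκ0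
  · rw [Place.ord_zero]; omega
  have htr := trdeg_le_one_of_isGen (K := K) x₀
  have htc : t ∉ Set.range (algebraMap K F) := notMem_range_of_ord_sub_pos v hc
  have h1 : v.ordDifferential (D K F x) = v.ord (dd htr v x) := ordDifferential_D htr v x
  have h2 : 0 ≤ v.ord (dd htr v x) := ord_nonneg_of_mem v (dd_mem' x₀ hx)
  have h3 : v.ordDifferential (κ • D K F t) = v.ord κ + v.ordDifferential (D K F t) :=
    ordDifferential_smul_D htr hκ0 htc
  have h4 := ordDifferential_D_of_pos' x₀ hc
  rw [hκ, h3, h4] at h1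
  omega

omit [IsAlgClosed K] [CharZero K] in
/-- if `x - c` vanishes at `v` then `x - c'` is a unit at `v` for every other constant `c'` -/
theorem ord_sub_eq_zero_of_ne (v : Place K F) {x : F} {c c' : K} (hcc : c ≠ c')
    (hc : 0 < v.ord (x - algebraMap K F c)) : v.ord (x - algebraMap K F c') = 0 := by
  have h1 : ¬ 0 < v.ord (x - algebraMap K F c') := Hurwitz.not_pos_ord_sub_of_ne v x hcc hc
  have hxc : x - algebraMap K F c ∈ v.toValuationSubring := mem_of_ord_nonneg v hc.le
  have hx : x - algebraMap K F c' ∈ v.toValuationSubring := by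
    have : x - algebraMap K F c' = (x - algebraMap K F c) + algebraMap K F (c - c') := by
      rw [map_sub]; ring
    rw [this]
    exact add_mem hxc (v.algebraMap_mem' _)
  have h2 : 0 ≤ v.ord (x - algebraMap K F c') := ord_nonneg_of_mem v hx
  omega

end Abstract

/-! ### Functoriality of `dx = κ dt` under a `K`-automorphism -/

section Twist

variable {K F : Type*} [Field K] [Field F] [Algebra K F]

/-- `Ω[F⁄K]` with `F` acting through the automorphism `σ` -/
def TwOmega (_σ : F ≃ₐ[K] F) : Type _ := Ω[F⁄K]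

namespace TwOmega

variable (σ : F ≃ₐ[K] F)

instance : AddCommGroup (TwOmega σ) := inferInstanceAs (AddCommGroup Ω[F⁄K])

instance : Module K (TwOmega σ) := inferInstanceAs (Module K Ω[F⁄K])

instance : Module F (TwOmega σ) := Module.compHom Ω[F⁄K] (σ : F →+* F)

/-- the identity map `Ω[F⁄K] → TwOmega σ` -/
def of (ω : Ω[F⁄K]) : TwOmega σ := ω

/-- the identity map `TwOmega σ → Ω[F⁄K]` -/
def out (ω : TwOmega σ) : Ω[F⁄K] := ω

theorem out_smul (a : F) (ω : TwOmega σ) : out σ (a • ω) = σ a • out σ ω := rfl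

theorem out_add (ω₁ ω₂ : TwOmega σ) : out σ (ω₁ + ω₂) = out σ ω₁ + out σ ω₂ := rfl

theorem out_of (ω : Ω[F⁄K]) : out σ (of σ ω) = ω := rfl

theorem out_injective : Function.Injective (out σ) := fun _ _ h => h

instance : IsScalarTower K F (TwOmega σ) := ⟨fun c a ω => by
  apply out_injective σ
  show σ (c • a) • out σ ω = c • (σ a • out σ ω)
  rw [map_smul, smul_assoc]⟩

/-- the twisted universal derivation `x ↦ d(σ x)` -/
def twD : Derivation K F (TwOmega σ) where
  toFun x := of σ (D K F (σ x))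
  map_add' x y := by
    apply out_injective σ
    show D K F (σ (x + y)) = D K F (σ x) + D K F (σ y)
    rw [map_add, map_add]
  map_smul' c x := by
    apply out_injective σ
    show D K F (σ (c • x)) = c • D K F (σ x)
    rw [map_smul, Derivation.map_smul]
  map_one_eq_zero' := by
    apply out_injective σ
    show D K F (σ 1) = 0
    rw [map_one, Derivation.map_one_eq_zero]
  leibniz' a b := by
    apply out_injective σ
    show D K F (σ (a * b)) = σ a • D K F (σ b) + σ b • D K F (σ a)
    rw [map_mul, Derivation.leibniz]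

theorem out_twD (x : F) : out σ (twD σ x) = D K F (σ x) := rfl

end TwOmega

/-- **Functoriality.**  If `dx = κ dt` then `d(σ x) = σ κ · d(σ t)` for every `K`-automorphism
`σ` of `F`. -/
theorem D_map_eq_smul (σ : F ≃ₐ[K] F) {x t κ : F} (hκ : D K F x = κ • D K F t) :
    D K F (σ x) = σ κ • D K F (σ t) := by
  have h1 := congrArg (TwOmega.twD σ).liftKaehlerDifferential hκ
  rw [map_smul, Derivation.liftKaehlerDifferential_comp_D,
    Derivation.liftKaehlerDifferential_comp_D] at h1
  exact congrArg (TwOmega.out σ) h1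

end Twist

section Modular

open ModularCurve
open Fermat.Agent.GK.AL Fermat.Agent.S24_helper62 Fermat.Agent.GJ.J1
open Fermat.Agent.GJ.J1.PlaceLattice Fermat.Agent.GK.CuspSep

variable {q : ℕ} (N : ℕ) [NeZero N] (h : ExactDvd q N)

set_option synthInstance.maxHeartbeats 400000 in
/-- instance shortcut (the generic search for this instance is very slow on `FN N`) -/
instance instModuleOmegaFN : Module (FN N) Ω[FN N⁄Kbar] := inferInstance

/-- instance shortcut -/
instance instSMulOmegaFN : SMul (FN N) Ω[FN N⁄Kbar] := (instModuleOmegaFN N).toSMul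

/-- `j_q = j(q^q)` is transcendental over `ℚ̄` -/
theorem transcendental_jQ : Transcendental Kbar (jQ N h) := by
  have : NeZero q := ⟨h.prime.ne_zero⟩
  rw [jQ_eq_jdF]
  exact transcendental_jdF N q h.dvd

/-- `j_q` is regular wherever `j` is -/
theorem ord_jQ_nonneg (v : Place Kbar (FN N)) (hv : 0 ≤ v.ord (jF N)) : 0 ≤ v.ord (jQ N h) := by
  have : NeZero q := ⟨h.prime.ne_zero⟩
  rw [jQ_eq_jdF]
  exact ord_jdF_nonneg N q h.dvd v hv

/-- **`j_q : X₀(N) → X(1)` is unramified off `{0, 1728, ∞}`** (transport of S24's statement for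
`j` along the Atkin–Lehner automorphism `W_q`). -/
theorem ord_jQ_sub_eq_one (c : Kbar) (h0 : c ≠ 0) (h1 : c ≠ 1728) (v : Place Kbar (FN N))
    (hv : 0 < v.ord (jQ N h - algebraMap Kbar (FN N) c)) :
    v.ord (jQ N h - algebraMap Kbar (FN N) c) = 1 := by
  have key : (wAut h • v).ord (jF N - algebraMap Kbar (FN N) c) =
      v.ord (jQ N h - algebraMap Kbar (FN N) c) := by
    have := Place.ord_smul (wAut h) v (jQ N h - algebraMap Kbar (FN N) c)
    rwa [map_sub, wAut_jQ, AlgEquiv.commutes] at this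
  rw [← key]
  exact InteriorCounts.unramified N c h0 h1 ⟨wAut h • v, by rw [key]; exact hv⟩

/-- **KAPPA-REG.**  If `dj = κ dj_q` then `j_q (j_q - 1728) κ` is integral over `ℚ̄[j]`, i.e.
regular at every non-cuspidal place of `X₀(N)`. -/
theorem regFin_mul_kappa0 {κ : FN N}
    (hκ : D Kbar (FN N) (jF N) = κ • D Kbar (FN N) (jQ N h)) :
    RegFin Kbar (jF N) (jQ N h * (jQ N h - algebraMap Kbar (FN N) 1728) * κ) := by
  have := isGen_jF N
  rw [regFin_iff_ord (jF N)]
  intro v hv
  rcases eq_or_ne κ 0 with rfl | hκ0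
  · simp
  have hjq : 0 ≤ v.ord (jQ N h) := ord_jQ_nonneg N h v hv
  have htrans := transcendental_jQ N h
  have hne : ∀ c : Kbar, jQ N h - algebraMap Kbar (FN N) c ≠ 0 := by
    intro c hc
    apply htrans
    rw [sub_eq_zero] at hc
    rw [hc]
    exact isAlgebraic_algebraMap c
  have hjq0 : jQ N h ≠ 0 := by simpa using hne 0
  obtain ⟨c, hc | hc⟩ := residueTrivial_of_isGen (jF N) v (jQ N h) (mem_of_ord_nonneg v hjq)
  · exact absurd (sub_eq_zero.mpr hc) (hne c)
  have hx : jF N ∈ v.toValuationSubring := mem_of_ord_nonneg v hv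
  have key := one_le_ord_add (jF N) v hx hc hκ
  rw [v.ord_mul (mul_ne_zero hjq0 (hne 1728)) hκ0, v.ord_mul hjq0 (hne 1728)]
  by_cases h0 : c = 0
  · subst h0
    have h1728 : v.ord (jQ N h - algebraMap Kbar (FN N) 1728) = 0 :=
      ord_sub_eq_zero_of_ne v (by norm_num) hc
    simp only [map_zero, sub_zero] at hc key
    omega
  by_cases h1 : c = 1728
  · subst h1
    have h00 : v.ord (jQ N h - algebraMap Kbar (FN N) 0) = 0 := ord_sub_eq_zero_of_ne v h0 hc
    simp only [map_zero, sub_zero] at h00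
    omega
  · have h00 : v.ord (jQ N h - algebraMap Kbar (FN N) 0) = 0 := ord_sub_eq_zero_of_ne v h0 hc
    simp only [map_zero, sub_zero] at h00
    have h1728 : v.ord (jQ N h - algebraMap Kbar (FN N) 1728) = 0 :=
      ord_sub_eq_zero_of_ne v h1 hc
    have hone := ord_jQ_sub_eq_one N h c h0 h1 v hc
    omega

/-- `j_q` is not constant -/
theorem jQ_notMem_range : jQ N h ∉ Set.range (algebraMap Kbar (FN N)) := by
  rintro ⟨c, hc⟩
  exact transcendental_jQ N h (hc ▸ isAlgebraic_algebraMap c)

/-- `j` is not constant -/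
theorem jF_notMem_range : jF N ∉ Set.range (algebraMap Kbar (FN N)) := by
  rintro ⟨c, hc⟩
  exact (isGen_jF N).transcendental (hc ▸ isAlgebraic_algebraMap c)

/-- existence of `κ₀ = dj/dj_q` -/
theorem exists_kappa0 : ∃ κ : FN N, D Kbar (FN N) (jF N) = κ • D Kbar (FN N) (jQ N h) := by
  have := isGen_jF N
  exact exists_eq_smul_D (trdeg_le_one_of_isGen (K := Kbar) (jF N)) (jQ_notMem_range N h) _

/-- **`κ₀ = dj / dj_q ∈ F_N`** (for `q ∥ N`). -/
def kappa0 : FN N := (exists_kappa0 N h).choose

/-- the defining relation `dj = κ₀ dj_q` -/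
theorem D_jF_eq : D Kbar (FN N) (jF N) = kappa0 N h • D Kbar (FN N) (jQ N h) :=
  (exists_kappa0 N h).choose_spec

theorem kappa0_ne_zero : kappa0 N h ≠ 0 := by
  intro h0
  have := isGen_jF N
  have h1 := D_jF_eq N h
  rw [h0, zero_smul] at h1
  exact D_ne_zero (trdeg_le_one_of_isGen (K := Kbar) (jF N)) (jF_notMem_range N) h1

/-- uniqueness of `κ₀` -/
theorem eq_kappa0 {κ : FN N} (hκ : D Kbar (FN N) (jF N) = κ • D Kbar (FN N) (jQ N h)) :
    κ = kappa0 N h := by
  have := isGen_jF N
  have h1 : (κ - kappa0 N h) • D Kbar (FN N) (jQ N h) = 0 := by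
    rw [sub_smul, ← hκ, ← D_jF_eq N h, sub_self]
  rcases smul_eq_zero.mp h1 with h2 | h2
  · exact sub_eq_zero.mp h2
  · exact absurd h2
      (D_ne_zero (trdeg_le_one_of_isGen (K := Kbar) (jF N)) (jQ_notMem_range N h))

/-- **`W_q κ₀ = κ₀⁻¹`**: the Atkin–Lehner automorphism swaps `j` and `j_q`. -/
theorem wAut_kappa0 : wAut h (kappa0 N h) = (kappa0 N h)⁻¹ := by
  have := isGen_jF N
  have h1 := D_map_eq_smul (wAut h) (D_jF_eq N h)
  rw [wAut_jF, wAut_jQ] at h1
  -- `dj_q = W κ₀ • dj = (W κ₀ * κ₀) • dj_q`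
  have h2 : (wAut h (kappa0 N h) * kappa0 N h - 1) • D Kbar (FN N) (jQ N h) = 0 := by
    rw [sub_smul, one_smul, mul_smul, ← D_jF_eq N h, ← h1, sub_self]
  rcases smul_eq_zero.mp h2 with h3 | h3
  · exact eq_inv_of_mul_eq_one_left (sub_eq_zero.mp h3)
  · exact absurd h3
      (D_ne_zero (trdeg_le_one_of_isGen (K := Kbar) (jF N)) (jQ_notMem_range N h))

/-- **KAPPA-REG** for `κ₀ = dj/dj_q`. -/
theorem regFin_kappa0 :
    RegFin Kbar (jF N) (jQ N h * (jQ N h - algebraMap Kbar (FN N) 1728) * kappa0 N h) :=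
  regFin_mul_kappa0 N h (D_jF_eq N h)

/-- the relation `δ j = κ₀ • δ j_q` for EVERY `ℚ̄`-derivation `δ` of `F_N` (e.g. `Q d/dQ` on
`q`-expansions, with values in `ℚ̄((Q))`). -/
theorem derivation_jF_eq {M : Type*} [AddCommGroup M] [Module Kbar M] [Module (FN N) M]
    [IsScalarTower Kbar (FN N) M] (δ : Derivation Kbar (FN N) M) :
    δ (jF N) = kappa0 N h • δ (jQ N h) := by
  have h1 := congrArg δ.liftKaehlerDifferential (D_jF_eq N h)
  rwa [map_smul, Derivation.liftKaehlerDifferential_comp_D,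
    Derivation.liftKaehlerDifferential_comp_D] at h1

end Modular

end Fermat.Agent.GL.Thick
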