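/-
GATE-L / THICK-SERIES (helper63), step (S2): the PURE POLYNOMIAL LEMMA.

`k` a field of characteristic `q`, `T := X - X^(q²)` (so `T' = 1`, simple roots `= 𝔽_{q²}`).
If `g = Pol / T` has derivative `X^(q-1) (1 - U₁/U₂)`, i.e.

  `(Pol' * T - Pol) * U₂ = T² * X^(q-1) * (U₂ - U₁)`,

then at every `a ≠ 0` with `U₂(a) = 0`, `U₁(a) ≠ 0`:

  `a^(q²) = a`,   `Pol(a) ≠ 0`,   `rootMultiplicity a U₂ = 2`.

(`g` has at most simple poles; its derivative has a pole at `a`; so `g` has a simple pole at `a`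
and the derivative a double one.)  In the application `g = red((j^q - j(Q^q))/q)` as a rational
function of `J = j̃`, `Pol = Ψ̃(J, J^q)`, `U₁/U₂ = (E₆/E₄)^(q-1)`, `U₂(a) = 0 ⟺ a` supersingular:
`Pol(a) ≠ 0` is THICKNESS ONE of `X₀(q)` at `a`.  Mathlib only.
-/
import Mathlib

set_option autoImplicit false

open Polynomial

namespace Fermat.Agent.GL.Thick

variable {k : Type*} [Field k]

/-- `T = X - X^(q²)` -/
noncomputable def polT (k : Type*) [Field k] (q : ℕ) : k[X] := X - X ^ (q ^ 2)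

theorem derivative_polT (q : ℕ) [CharP k q] : derivative (polT k q) = 1 := by
  unfold polT
  rw [derivative_sub, derivative_X, derivative_X_pow]
  have h0 : ((q ^ 2 : ℕ) : k) = 0 := by
    rw [Nat.cast_pow, CharP.cast_eq_zero k q]
    exact zero_pow (by norm_num)
  rw [h0, map_zero, zero_mul, sub_zero]

theorem polT_ne_zero (q : ℕ) (hq : 2 ≤ q) : polT k q ≠ 0 := by
  intro h
  have h1 := congrArg (fun f => Polynomial.coeff f 1) h
  unfold polT at h1
  have hq2 : q ^ 2 ≠ 1 := by nlinarith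
  simp only [coeff_sub, coeff_X_one, coeff_X_pow, coeff_zero] at h1
  rw [if_neg (fun h => hq2 h.symm)] at h1
  simp at h1

theorem eval_polT (q : ℕ) (a : k) : (polT k q).eval a = a - a ^ (q ^ 2) := by
  unfold polT
  simp

/-- **the polynomial lemma**, general form: `g = Pol / T` with `g' = X^(q-1) - V₁/V₂`; at a pole
`a` of `V₁/V₂` (`V₂(a) = 0 ≠ V₁(a)`): `a ∈ 𝔽_{q²}`, `Pol(a) ≠ 0`, and the pole is exactly double. -/
theorem thick_poly_gen (q : ℕ) [CharP k q] (hq : 2 ≤ q) (Pol V₁ V₂ : k[X])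
    (hid : (derivative Pol * polT k q - Pol) * V₂ = polT k q ^ 2 * (X ^ (q - 1) * V₂ - V₁))
    (a : k) (hV₂ : V₂.eval a = 0) (hV₁ : V₁.eval a ≠ 0) :
    a ^ (q ^ 2) = a ∧ Pol.eval a ≠ 0 ∧ rootMultiplicity a V₂ = 2 := by
  classical
  set T := polT k q with hT
  set W := derivative Pol * T - Pol with hW
  have hT0 : T ≠ 0 := polT_ne_zero q hq
  have hT' : derivative T = 1 := derivative_polT q
  -- `X^(q-1) V₂ - V₁` does not vanish at `a`
  have hdiff : (X ^ (q - 1) * V₂ - V₁).eval a ≠ 0 := by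
    rw [eval_sub, eval_mul, hV₂, mul_zero, zero_sub]
    exact neg_ne_zero.mpr hV₁
  have hdiff0 : X ^ (q - 1) * V₂ - V₁ ≠ 0 := fun h => hdiff (by rw [h, eval_zero])
  have hRHS0 : T ^ 2 * (X ^ (q - 1) * V₂ - V₁) ≠ 0 :=
    mul_ne_zero (pow_ne_zero _ hT0) hdiff0
  have hLHS0 : W * V₂ ≠ 0 := by rw [hid]; exact hRHS0
  have hW0 : W ≠ 0 := left_ne_zero_of_mul hLHS0
  have hV₂0 : V₂ ≠ 0 := right_ne_zero_of_mul hLHS0
  -- multiplicities on the right
  have hmD : rootMultiplicity a (X ^ (q - 1) * V₂ - V₁) = 0 := rootMultiplicity_eq_zero hdiff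
  have hmR : rootMultiplicity a (T ^ 2 * (X ^ (q - 1) * V₂ - V₁)) = 2 * rootMultiplicity a T := by
    rw [rootMultiplicity_mul hRHS0, hmD, add_zero, pow_two,
      rootMultiplicity_mul (mul_ne_zero hT0 hT0)]
    ring
  have hmL : rootMultiplicity a (W * V₂) = rootMultiplicity a W + rootMultiplicity a V₂ :=
    rootMultiplicity_mul hLHS0
  have hμ : 0 < rootMultiplicity a V₂ := (rootMultiplicity_pos hV₂0).mpr hV₂
  have hsum : rootMultiplicity a W + rootMultiplicity a V₂ = 2 * rootMultiplicity a T := by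
    rw [← hmL, hid, hmR]
  -- `T` has at most simple roots
  have hτ : rootMultiplicity a T ≤ 1 := by
    by_contra h
    push Not at h
    have := ((one_lt_rootMultiplicity_iff_isRoot hT0).mp h).2
    rw [hT', IsRoot.def, eval_one] at this
    exact one_ne_zero this
  have hτ1 : rootMultiplicity a T = 1 := by omega
  have hTa : T.eval a = 0 := by
    have : 0 < rootMultiplicity a T := by omega
    exact (rootMultiplicity_pos hT0).mp this
  have ha2 : a ^ (q ^ 2) = a := by
    rw [hT, eval_polT] at hTa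
    exact (sub_eq_zero.mp hTa).symm
  -- `Pol(a) ≠ 0`
  have hPol : Pol.eval a ≠ 0 := by
    intro hP
    have hWa : W.IsRoot a := by
      rw [IsRoot.def, hW, eval_sub, eval_mul, hTa, hP, mul_zero, sub_zero]
    have hW' : derivative W = derivative (derivative Pol) * T := by
      rw [hW, derivative_sub, derivative_mul, hT']
      ring
    have hW'a : (derivative W).IsRoot a := by
      rw [IsRoot.def, hW', eval_mul, hTa, mul_zero]
    have h2 : 1 < rootMultiplicity a W :=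
      (one_lt_rootMultiplicity_iff_isRoot hW0).mpr ⟨hWa, hW'a⟩
    omega
  refine ⟨ha2, hPol, ?_⟩
  have hWa : ¬ W.IsRoot a := by
    rw [IsRoot.def, hW, eval_sub, eval_mul, hTa, mul_zero, zero_sub]
    exact neg_ne_zero.mpr hPol
  have hmW : rootMultiplicity a W = 0 := rootMultiplicity_eq_zero hWa
  omega

/-- **the polynomial lemma**, Hasse form: `g' = X^(q-1) (1 - U₁/U₂)`. -/
theorem thick_poly (q : ℕ) [CharP k q] (hq : 2 ≤ q) (Pol U₁ U₂ : k[X])
    (hid : (derivative Pol * polT k q - Pol) * U₂ = polT k q ^ 2 * X ^ (q - 1) * (U₂ - U₁))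
    (a : k) (ha : a ≠ 0) (hU₂ : U₂.eval a = 0) (hU₁ : U₁.eval a ≠ 0) :
    a ^ (q ^ 2) = a ∧ Pol.eval a ≠ 0 ∧ rootMultiplicity a U₂ = 2 := by
  refine thick_poly_gen q hq Pol (X ^ (q - 1) * U₁) U₂ ?_ a hU₂ ?_
  · rw [hid]; ring
  · rw [eval_mul, eval_pow, eval_X]
    exact mul_ne_zero (pow_ne_zero _ ha) hU₁

/-- converse direction (no pole): if `V₂(a) ≠ 0` and `a ∈ 𝔽_{q²}` then `Pol(a) = 0`:
`g = Pol / T` has NO pole where its derivative has none. -/
theorem pol_eval_eq_zero_of_ne (q : ℕ) [CharP k q] (Pol V₁ V₂ : k[X])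
    (hid : (derivative Pol * polT k q - Pol) * V₂ = polT k q ^ 2 * (X ^ (q - 1) * V₂ - V₁))
    (a : k) (hV₂ : V₂.eval a ≠ 0) (ha : a ^ (q ^ 2) = a) : Pol.eval a = 0 := by
  have hTa : (polT k q).eval a = 0 := by rw [eval_polT, ha, sub_self]
  have h := congrArg (Polynomial.eval a) hid
  simp only [eval_mul, eval_sub, eval_pow, hTa] at h
  have h2 : (0 : k) ^ 2 = 0 := by norm_num
  rw [h2, zero_mul, mul_zero, zero_sub, neg_mul, neg_eq_zero] at h
  exact (mul_eq_zero.mp h).resolve_right hV₂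

end Fermat.Agent.GL.Thick
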