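/-
GATE-L / THICK-SERIES (helper63), file 6: ASSEMBLY = the `q`-series core of (THICK_q).

`k` a field of characteristic `q ≥ 5`, `J = jqModC k`, `G̃ = Gk q k = ((j^q - j(Q^q))/q mod q)`,
`pH = ssPoly q k` the supersingular polynomial (`Δ^(q-1) · pH(J) = 1`).

CONSUMER INPUT: a polynomial `Pol ∈ k[X]` with  `G̃ · (J - J^(q²)) = Pol(J)`  in `k((Q))`
(from Kronecker's `Φ_q = (X^q - Y)(X - Y^q) + q Ψ` and `Φ_q(j, j(Q^q)) = 0`:  `Pol = -Ψ̃(X, X^q)`).

OUTPUT (`thick_series`): for every `a ∈ k`, `a ≠ 0, 1728`, with `pH(a) = 0` (supersingular):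

  `a^(q²) = a`,   `Pol(a) ≠ 0`  (= THICKNESS ONE of `X₀(q)` at `a`),   `rootMultiplicity a pH = 12`
  (Igusa: the Hasse invariant has simple zeros);

and (`thick_series_ordinary`) for `a ≠ 0` with `a^(q²) = a`, `pH(a) ≠ 0`:  `Pol(a) = 0`.
-/
import Fermat.Agent.GL.Thick.HasseJ
import Fermat.Agent.GL.Thick.PolyLemma

set_option autoImplicit false

noncomputable section

namespace Fermat.Agent.GL.Thick

open HahnSeries ModularCurve Polynomial

variable (q : ℕ) [Fact q.Prime] [NeZero q] (k : Type*) [Field k] [CharP k q]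

theorem rootMultiplicity_pow' {R : Type*} [CommRing R] [IsDomain R] (a : R) {p : R[X]}
    (hp : p ≠ 0) (n : ℕ) : rootMultiplicity a (p ^ n) = n * rootMultiplicity a p := by
  induction n with
  | zero => simp
  | succ n ih =>
    rw [pow_succ, rootMultiplicity_mul (mul_ne_zero (pow_ne_zero _ hp) hp), ih]
    ring

omit [Fact q.Prime] [NeZero q] [CharP k q] in
theorem aeval_polT : aeval (jqModC k) (polT k q) = jqModC k - jqModC k ^ (q ^ 2) := by
  rw [polT, map_sub, aeval_X, map_pow, aeval_X]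

/-- **the polynomial identity** behind (THICK_q) -/
theorem thick_identity (hq5 : 5 ≤ q) (Pol : k[X])
    (hPol : Gk q k * (jqModC k - jqModC k ^ (q ^ 2)) = aeval (jqModC k) Pol) :
    (derivative Pol * polT k q - Pol) * hasseU₂ q k hq5 =
      polT k q ^ 2 * (X ^ (q - 1) * hasseU₂ q k hq5 - X ^ (q - 1) * hasseU₁ q k) := by
  apply Fermat.Agent.S28.PolyDescent.aeval_jqModC_injective k
  set J := jqModC k with hJ
  set θJ := thetaL k J with hθJ
  have hT : aeval J (polT k q) = J - J ^ (q ^ 2) := aeval_polT q k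
  rw [← hT] at hPol
  -- differentiate
  have h1 := congrArg (thetaL k) hPol
  rw [thetaL_mul, thetaL_aeval, thetaL_aeval, derivative_polT, map_one, one_mul, ← hθJ] at h1
  -- (S1)
  have hS1 : thetaL k (Gk q k) = θJ * (J ^ (q - 1) - θJ ^ (q - 1)) := by
    rw [thetaL_Gk, ← hJ, ← hθJ]
    have hq1 : q = (q - 1) + 1 := by omega
    conv_lhs => rw [hq1, pow_succ]
    simp only [Nat.add_sub_cancel]
    ring
  have hθ0 : θJ ≠ 0 := thetaL_jL_ne_zero k
  have hU := hasse_U₂ q k hq5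
  rw [← hJ, ← hθJ] at hU
  -- cancel `θJ`
  apply mul_left_cancel₀ hθ0
  simp only [map_mul, map_sub, map_pow, aeval_X]
  rw [hS1] at h1
  linear_combination (-(aeval J (polT k q) * aeval J (hasseU₂ q k hq5))) * h1 +
    (θJ * aeval J (hasseU₂ q k hq5)) * hPol - (θJ * aeval J (polT k q) ^ 2) * hU

/-- **(THICK_q), `q`-series core.** -/
theorem thick_series (hq5 : 5 ≤ q) (Pol : k[X])
    (hPol : Gk q k * (jqModC k - jqModC k ^ (q ^ 2)) = aeval (jqModC k) Pol)
    (a : k) (ha0 : a ≠ 0) (ha1728 : a ≠ 1728) (hss : (ssPoly q k hq5).eval a = 0) :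
    a ^ (q ^ 2) = a ∧ Pol.eval a ≠ 0 ∧ rootMultiplicity a (ssPoly q k hq5) = 12 := by
  have hq2 : 2 ≤ q := by omega
  have hid := thick_identity q k hq5 Pol hPol
  have hrel := hasse_rel q k hq5
  -- `U₂(a) = 0`
  have hU₂ : (hasseU₂ q k hq5).eval a = 0 := by
    have h := congrArg (Polynomial.eval a) hrel
    rw [eval_pow, eval_mul, eval_pow, eval_pow, hss] at h
    have h0 : (0 : k) ^ 2 = 0 := by norm_num
    rw [h0, mul_zero] at h
    exact pow_eq_zero_iff (by norm_num) |>.mp h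
  -- `U₁(a) ≠ 0`
  have hU₁ : (X ^ (q - 1) * hasseU₁ q k).eval a ≠ 0 := by
    rw [eval_mul, eval_pow, eval_X, hasseU₁, eval_pow, eval_sub, eval_X, eval_C]
    exact mul_ne_zero (pow_ne_zero _ ha0) (pow_ne_zero _ (sub_ne_zero.mpr ha1728))
  obtain ⟨h1, h2, h3⟩ := thick_poly_gen q hq2 Pol (X ^ (q - 1) * hasseU₁ q k) (hasseU₂ q k hq5)
    hid a hU₂ hU₁
  refine ⟨h1, h2, ?_⟩
  -- multiplicities: `12 μ(U₂) = 2 μ(pH)`
  have hU₂0 : hasseU₂ q k hq5 ≠ 0 := by
    intro h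
    rw [h, rootMultiplicity_zero] at h3
    omega
  have hpH0 : ssPoly q k hq5 ≠ 0 := by
    intro h
    rw [h] at hrel
    have : hasseU₂ q k hq5 ^ 12 = 0 := by rw [hrel]; simp
    exact hU₂0 (pow_eq_zero_iff (by norm_num) |>.mp this)
  have hX0 : (X ^ (4 * (q - 1)) : k[X]) ≠ 0 := pow_ne_zero _ X_ne_zero
  have hmX : rootMultiplicity a (X ^ (4 * (q - 1)) : k[X]) = 0 := by
    apply rootMultiplicity_eq_zero
    rw [IsRoot.def, eval_pow, eval_X]
    exact pow_ne_zero _ ha0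
  have hm := congrArg (rootMultiplicity a) hrel
  rw [rootMultiplicity_pow' a hU₂0, rootMultiplicity_mul (mul_ne_zero hX0 (pow_ne_zero _ hpH0)),
    hmX, rootMultiplicity_pow' a hpH0, h3] at hm
  omega

/-- at an ORDINARY `a ∈ 𝔽_{q²}`, `a ≠ 0`: `Pol(a) = 0` (no pole of `G̃`). -/
theorem thick_series_ordinary (hq5 : 5 ≤ q) (Pol : k[X])
    (hPol : Gk q k * (jqModC k - jqModC k ^ (q ^ 2)) = aeval (jqModC k) Pol)
    (a : k) (ha0 : a ≠ 0) (ha : a ^ (q ^ 2) = a) (hord : (ssPoly q k hq5).eval a ≠ 0) :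
    Pol.eval a = 0 := by
  have hid := thick_identity q k hq5 Pol hPol
  have hrel := hasse_rel q k hq5
  have hU₂ : (hasseU₂ q k hq5).eval a ≠ 0 := by
    intro h0
    have h := congrArg (Polynomial.eval a) hrel
    rw [eval_pow, eval_mul, eval_pow, eval_pow, eval_X, h0] at h
    have h00 : (0 : k) ^ 12 = 0 := by norm_num
    rw [h00] at h
    exact (mul_ne_zero (pow_ne_zero _ ha0) (pow_ne_zero _ hord)) h.symm
  exact pol_eval_eq_zero_of_ne q Pol (X ^ (q - 1) * hasseU₁ q k) (hasseU₂ q k hq5) hid a hU₂ ha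

end Fermat.Agent.GL.Thick
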