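/-
GATE-L / THICK-SERIES (helper63), file 7: ADAPTERS for the consumers of `thick_series`
(helper65 L5b-ASM, helper84 Kappa).

* `thetaL_eq_haupt` : the derivation `GL.Thick.thetaL R` and the plain function
  `GJ.Haupt.thetaL` agree (`rfl`);
* `hasse_T`  : `(θJ)^(q-1) · U₂(J) = V₁(J)`, `V₁ := X^(q-1) · U₁`  (`T = (θJ)^(q-1) = V₁(J)/U₂(J)`);
* `hasse_T_haupt` : the same with `GJ.Haupt.thetaL`;
* `eval_hasseV₁_ne_zero` : `V₁(a) ≠ 0` for `a ≠ 0, 1728`;
* `thick_of_hasseU₂` : `G̃ · (J - J^(q²)) = Pol(J)`, `a ≠ 0, 1728`, `U₂(a) = 0`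
  ⟹ `a^(q²) = a ∧ Pol(a) ≠ 0`   (the κ-route produces `U₂(a) = 0` at the nodes);
* `ssPoly_eval_eq_zero_iff` : for `a ≠ 0`: `pH(a) = 0 ↔ U₂(a) = 0`.
-/
import Fermat.Agent.GL.Thick.ThickSeries
import Fermat.Agent.GJ.Haupt.Theta

set_option autoImplicit false

noncomputable section

namespace Fermat.Agent.GL.Thick

open HahnSeries ModularCurve Polynomial

theorem thetaL_eq_haupt {R : Type*} [CommRing R] (x : LaurentSeries R) :
    thetaL R x = Fermat.Agent.GJ.Haupt.thetaL x := rfl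

variable (q : ℕ) [Fact q.Prime] [NeZero q] (k : Type*) [Field k] [CharP k q]

/-- the numerator `V₁ = X^(q-1) (X - 1728)^((q-1)/2)` of `T = (θJ)^(q-1)` -/
def hasseV₁ : k[X] := X ^ (q - 1) * hasseU₁ q k

omit [NeZero q] in
/-- **`T · U₂(J) = V₁(J)`**, `T = (θJ)^(q-1)` -/
theorem hasse_T (hq5 : 5 ≤ q) :
    thetaL k (jqModC k) ^ (q - 1) * aeval (jqModC k) (hasseU₂ q k hq5) =
      aeval (jqModC k) (hasseV₁ q k) := by
  rw [hasse_U₂ q k hq5, hasseV₁, map_mul, map_pow, aeval_X]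

omit [NeZero q] in
theorem hasse_T_haupt (hq5 : 5 ≤ q) :
    Fermat.Agent.GJ.Haupt.thetaL (jqModC k) ^ (q - 1) * aeval (jqModC k) (hasseU₂ q k hq5) =
      aeval (jqModC k) (hasseV₁ q k) :=
  hasse_T q k hq5

omit [Fact q.Prime] [NeZero q] [CharP k q] in
theorem eval_hasseV₁_ne_zero {a : k} (ha0 : a ≠ 0) (ha1728 : a ≠ 1728) :
    (hasseV₁ q k).eval a ≠ 0 := by
  rw [hasseV₁, eval_mul, eval_pow, eval_X, hasseU₁, eval_pow, eval_sub, eval_X, eval_C]
  exact mul_ne_zero (pow_ne_zero _ ha0) (pow_ne_zero _ (sub_ne_zero.mpr ha1728))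

/-- the polynomial identity in the `V₁` form (input shape of `thick_poly_gen`) -/
theorem thick_identity' (hq5 : 5 ≤ q) (Pol : k[X])
    (hPol : Gk q k * (jqModC k - jqModC k ^ (q ^ 2)) = aeval (jqModC k) Pol) :
    (derivative Pol * polT k q - Pol) * hasseU₂ q k hq5 =
      polT k q ^ 2 * (X ^ (q - 1) * hasseU₂ q k hq5 - hasseV₁ q k) :=
  thick_identity q k hq5 Pol hPol

/-- **(THICK_q) from `U₂(a) = 0`** (κ-route: the nodes are poles of `T`) -/
theorem thick_of_hasseU₂ (hq5 : 5 ≤ q) (Pol : k[X])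
    (hPol : Gk q k * (jqModC k - jqModC k ^ (q ^ 2)) = aeval (jqModC k) Pol)
    (a : k) (ha0 : a ≠ 0) (ha1728 : a ≠ 1728) (hU₂ : (hasseU₂ q k hq5).eval a = 0) :
    a ^ (q ^ 2) = a ∧ Pol.eval a ≠ 0 := by
  have hq2 : 2 ≤ q := by omega
  obtain ⟨h1, h2, -⟩ := thick_poly_gen q hq2 Pol (hasseV₁ q k) (hasseU₂ q k hq5)
    (thick_identity' q k hq5 Pol hPol) a hU₂ (eval_hasseV₁_ne_zero q k ha0 ha1728)
  exact ⟨h1, h2⟩

omit [NeZero q] in
/-- for `a ≠ 0`: `a` is a root of the supersingular polynomial iff `U₂(a) = 0` -/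
theorem ssPoly_eval_eq_zero_iff (hq5 : 5 ≤ q) {a : k} (ha0 : a ≠ 0) :
    (ssPoly q k hq5).eval a = 0 ↔ (hasseU₂ q k hq5).eval a = 0 := by
  have h := congrArg (Polynomial.eval a) (hasse_rel q k hq5)
  rw [eval_pow, eval_mul, eval_pow, eval_pow, eval_X] at h
  constructor
  · intro hss
    rw [hss] at h
    have h0 : (0 : k) ^ 2 = 0 := by norm_num
    rw [h0, mul_zero] at h
    exact pow_eq_zero_iff (by norm_num) |>.mp h
  · intro hU
    rw [hU] at h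
    have h0 : (0 : k) ^ 12 = 0 := by norm_num
    rw [h0] at h
    have h1 := (mul_eq_zero.mp h.symm).resolve_left (pow_ne_zero _ ha0)
    exact pow_eq_zero_iff (by norm_num) |>.mp h1

end Fermat.Agent.GL.Thick
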