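import Fermat.Agent.GL.Thick.BetaElt
import Fermat.Agent.GL.Thick.KappaReg
import Fermat.Agent.GL.Thick.Kappa
import Fermat.Agent.GL.Thick.ThickAdapters

/-!
# GATE-L / L5b-ASM (c) (helper65): (THICK_q) at the nodes of level `N' q` — the `κ`-route assembled

`ℓ ∥ N = N' ℓ`, `ℓ ≥ 5`, `A` a valuation subring of `ℚ̄` over `ℓ`, `k` its residue field,
`C = CRing N' A`, `B = BRing N' ℓ A h`, `B~ = BT = gluedAlg Ψ J'` (helper15 N6).
A NODE is a `k`-point `φ : C →ₐ[k] k` with `J' ≤ ker φ`; `a := φ j~` its `j`-invariant.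

* `kapB` : the element `j_ℓ (j_ℓ − 1728) · ℓ · dj/dj_ℓ ∈ B` (KAPPA-REG + helper84 Kappa), with
  `rho2 kapB = 0` and `rho1 kapB · (θJ)^(ℓ−1) = J^ℓ (J^ℓ − 1728)`;
* `hasseU₂_eval_node` : **every node with `a ≠ 0, 1728` is a zero of the Hasse polynomial `U₂`**
  (`T = (θJ)^(ℓ−1)` has a pole at the node);
* `thick_q` : **(THICK_q)**: at every such node `a^(ℓ²) = a` and `φ (red₁ β) ≠ 0`,
  `β = ((j^ℓ − j_ℓ)/ℓ)(j − j_ℓ^ℓ)` — i.e. `β` is a UNIT at the node: thickness one.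
-/

set_option autoImplicit false
set_option linter.unusedSectionVars false

noncomputable section

namespace Fermat.Agent.GL.Thick

open HahnSeries ModularCurve IntermediateField IsLocalRing Polynomial KaehlerDifferential
open Fermat.Agent.S24 Fermat.Agent.S24_helper62 Fermat.Agent.GJ.J1 Fermat.Agent.GJ.J1.Val
open Fermat.Agent.GJ.J1.Haupt Fermat.Agent.GK.AL Fermat.Agent.GK.CuspSep Fermat.Agent.GK.BallTwo
open Fermat.Agent.GK.QS Fermat.Agent.GK.FrobGlue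

variable (N' : ℕ) [NeZero N'] (ℓ : ℕ) [Fact ℓ.Prime] [NeZero ℓ]
variable (A : ValuationSubring Kbar) (h : ExactDvd ℓ (N' * ℓ))
variable (hℓN : ¬ ℓ ∣ N') (hA : A.LiesOverPrime ℓ)

local notation "kA" => IsLocalRing.ResidueField A

/-- `j~` as an element of the coordinate ring -/
def jtC : CRing N' A := ⟨Fermat.Agent.GK.QS.jt N' A, jt_mem_CRing N' A⟩

theorem cVal_jtC : cVal N' A (jtC N' A) = jqModC kA := Fermat.Agent.GK.QS.coe_jt N' A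

theorem cVal_aeval (P : kA[X]) : cVal N' A (aeval (jtC N' A) P) = aeval (jqModC kA) P := by
  rw [← aeval_algHom_apply, cVal_jtC]

/-- the hypothesis of helper84's `Kappa.lean` for `κ₀` -/
theorem hk_kappa0 :
    D Kbar (FN (N' * ℓ)) (jF (N' * ℓ)) =
      kappa0 (N' * ℓ) h • D Kbar (FN (N' * ℓ)) (jdF (N' * ℓ) ℓ h.dvd) := by
  have := D_jF_eq (N' * ℓ) h
  rwa [jQ_eq_jdF] at this

/-- the element `s · κ = j_ℓ (j_ℓ − 1728) · (ℓ · dj/dj_ℓ)` of `F_N` -/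
def kapE : FN (N' * ℓ) :=
  jdF (N' * ℓ) ℓ h.dvd * (jdF (N' * ℓ) ℓ h.dvd - 1728) * ((ℓ : FN (N' * ℓ)) * kappa0 (N' * ℓ) h)

/-- `s · κ` is regular off the cusps (KAPPA-REG) -/
theorem regFin_kapE : RegFin Kbar (jF (N' * ℓ)) (kapE N' ℓ h) := by
  have h1 := regFin_kappa0 (N' * ℓ) h
  rw [jQ_eq_jdF, map_ofNat] at h1
  have h2 : RegFin Kbar (jF (N' * ℓ)) (ℓ : FN (N' * ℓ)) := by
    rw [← map_natCast (algebraMap Kbar (FN (N' * ℓ)))]
    exact regFin_algebraMap _ _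
  have h3 := h2.mul h1
  have e : kapE N' ℓ h = (ℓ : FN (N' * ℓ)) *
      (jdF (N' * ℓ) ℓ h.dvd * (jdF (N' * ℓ) ℓ h.dvd - 1728) * kappa0 (N' * ℓ) h) := by
    rw [kapE]; ring
  rw [e]
  exact h3

include hA in
/-- the two reductions of `s · κ` (helper84's `red_s_mul_kappa`) -/
theorem exists_isRed_kapE :
    ∃ Ti : FresBar (N' * ℓ) A,
      (redDataBar (N' * ℓ) A).IsRed (kapE N' ℓ h)
        (tauF (N' * ℓ) A ^ ℓ * (tauF (N' * ℓ) A ^ ℓ - 1728) * Ti) ∧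
      (redData2 (N' * ℓ) A h).IsRed (kapE N' ℓ h) 0 ∧
      (Ti : LaurentSeries kA) * Fermat.Agent.GJ.Haupt.thetaL (jqModC kA) ^ (ℓ - 1) = 1 := by
  obtain ⟨Ti, hx, hred, hT, -⟩ :=
    Fermat.Agent.GL.Thick.Kappa.red_s_mul_kappa (N' * ℓ) A h hA (hk_kappa0 N' ℓ h)
  obtain ⟨h1, h2⟩ := isRed_of_red_eq (redCompatFN (N' * ℓ) A h) hx hred
  exact ⟨Ti, h1, h2, hT⟩

include hA in
theorem kapE_mem_BRing : kapE N' ℓ h ∈ BRing N' ℓ A h := by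
  obtain ⟨Ti, h1, h2, -⟩ := exists_isRed_kapE N' ℓ A h hA
  exact ⟨regFin_kapE N' ℓ h, h1.1, h2.1⟩

/-- `s · κ` as an element of `B` -/
def kapB : BRing N' ℓ A h := ⟨kapE N' ℓ h, kapE_mem_BRing N' ℓ A h hA⟩

/-- **`red₂ (s κ) = 0`** -/
theorem rho2_kapB : rho2 N' ℓ A h (kapB N' ℓ A h hA) = 0 := by
  obtain ⟨Ti, -, h2, -⟩ := exists_isRed_kapE N' ℓ A h hA
  obtain ⟨hx, hred⟩ := h2
  rw [rho2_apply]
  have := congrArg (fun y : FresBar (N' * ℓ) A => (y : LaurentSeries kA)) hred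
  exact this

/-- **`red₁ (s κ) · (θJ)^(ℓ−1) = J^ℓ (J^ℓ − 1728)`** -/
theorem rho1_kapB_mul :
    rho1 N' ℓ A h (kapB N' ℓ A h hA) * Fermat.Agent.GJ.Haupt.thetaL (jqModC kA) ^ (ℓ - 1) =
      jqModC kA ^ ℓ * (jqModC kA ^ ℓ - 1728) := by
  obtain ⟨Ti, h1, -, hT⟩ := exists_isRed_kapE N' ℓ A h hA
  obtain ⟨hx, hred⟩ := h1
  have h3 : rho1 N' ℓ A h (kapB N' ℓ A h hA) =
      jqModC kA ^ ℓ * (jqModC kA ^ ℓ - 1728) * (Ti : LaurentSeries kA) := by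
    rw [rho1_apply]
    have h4 : (((redDataBar (N' * ℓ) A).red ⟨kapE N' ℓ h, hx⟩ : FresBar (N' * ℓ) A) :
        LaurentSeries kA) = ((tauF (N' * ℓ) A ^ ℓ * (tauF (N' * ℓ) A ^ ℓ - 1728) * Ti :
        FresBar (N' * ℓ) A) : LaurentSeries kA) :=
      congrArg (fun y : FresBar (N' * ℓ) A => (y : LaurentSeries kA)) hred
    refine h4.trans ?_
    push_cast
    rw [coe_tauF]
    rfl
  rw [h3, mul_assoc, hT, mul_one]

variable {N' ℓ A h}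

/-- `φ (P(j~)) = P(a)`, `a = φ j~` -/
theorem eval_aeval_jtC (φ : CRing N' A →ₐ[kA] kA) (P : kA[X]) :
    φ (aeval (jtC N' A) P) = P.eval (φ (jtC N' A)) := by
  rw [← aeval_algHom_apply, coe_aeval_eq_eval]

/-- **the identity in `C`**: `red₁ (s κ) · V₁(j~) = j~^ℓ (j~^ℓ − 1728) · U₂(j~)` -/
theorem redC1_kapB_mul (hq5 : 5 ≤ ℓ) :
    redC1 hℓN hA (kapB N' ℓ A h hA) * aeval (jtC N' A) (hasseV₁ ℓ kA) =
      jtC N' A ^ ℓ * (jtC N' A ^ ℓ - 1728) *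
        aeval (jtC N' A) (@hasseU₂ ℓ _ kA _ (charP_residue A Fact.out hA) hq5) := by
  have : CharP kA ℓ := charP_residue A Fact.out hA
  apply cVal_injective N' A
  rw [map_mul, map_mul, map_mul, map_sub, map_pow, cVal_aeval, cVal_aeval, cVal_jtC, cVal_redC1,
    map_ofNat]
  have hT := hasse_T_haupt ℓ kA hq5
  have h1 := rho1_kapB_mul N' ℓ A h hA
  calc rho1 N' ℓ A h (kapB N' ℓ A h hA) * aeval (jqModC kA) (hasseV₁ ℓ kA)
      = (rho1 N' ℓ A h (kapB N' ℓ A h hA) *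
          Fermat.Agent.GJ.Haupt.thetaL (jqModC kA) ^ (ℓ - 1)) *
          aeval (jqModC kA) (hasseU₂ ℓ kA hq5) := by rw [← hT]; ring
    _ = _ := by rw [h1]

/-- **every node with `a ≠ 0, 1728` is a zero of the Hasse polynomial `U₂`**: the function
`T = (θ j~)^(ℓ−1)` has a pole at the node. -/
theorem hasseU₂_eval_node (hq5 : 5 ≤ ℓ) {J' : Ideal (CRing N' A)}
    (hJ' : BT N' ℓ A h = gluedAlg (psiC N' ℓ A hℓN hA) J')
    (φ : CRing N' A →ₐ[kA] kA) (hφ : J' ≤ RingHom.ker φ.toRingHom)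
    (h0 : φ (jtC N' A) ≠ 0) (h1728 : φ (jtC N' A) ≠ 1728) :
    (@hasseU₂ ℓ _ kA _ (charP_residue A Fact.out hA) hq5).eval (φ (jtC N' A)) = 0 := by
  have hchar : CharP kA ℓ := charP_residue A Fact.out hA
  have hzero : φ (redC1 hℓN hA (kapB N' ℓ A h hA)) = 0 :=
    eval_redC1_eq_zero hℓN hA hJ' _ (rho2_kapB N' ℓ A h hA) φ hφ
  have h1 := congrArg φ (redC1_kapB_mul (h := h) hℓN hA hq5)
  rw [map_mul, hzero, zero_mul, map_mul, map_mul, map_sub, map_pow, eval_aeval_jtC,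
    map_ofNat] at h1
  set a := φ (jtC N' A) with ha
  have ha1 : a ^ ℓ ≠ 0 := pow_ne_zero _ h0
  have ha2 : a ^ ℓ - 1728 ≠ 0 := by
    have e : (1728 : kA) = (1728 : kA) ^ ℓ := by
      have := map_ofNat (frobenius kA ℓ) 1728
      rw [frobenius_def] at this
      exact this.symm
    rw [e, ← sub_pow_char]
    exact pow_ne_zero _ (sub_ne_zero.mpr h1728)
  exact ((mul_eq_zero.mp h1.symm).resolve_left (mul_ne_zero ha1 ha2))

/-- **(THICK_q)**: at every node `φ` of level `N' ℓ` with `a = φ j~ ∉ {0, 1728}`: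
`a ∈ 𝔽_{ℓ²}`, and `β = ((j^ℓ − j_ℓ)/ℓ)(j − j_ℓ^ℓ)` does not vanish at the node (`φ (red₁ β) ≠ 0`):
the node has THICKNESS ONE. -/
theorem thick_q (hq5 : 5 ≤ ℓ) {J' : Ideal (CRing N' A)}
    (hJ' : BT N' ℓ A h = gluedAlg (psiC N' ℓ A hℓN hA) J')
    (φ : CRing N' A →ₐ[kA] kA) (hφ : J' ≤ RingHom.ker φ.toRingHom)
    (h0 : φ (jtC N' A) ≠ 0) (h1728 : φ (jtC N' A) ≠ 1728) :
    φ (jtC N' A) ^ (ℓ ^ 2) = φ (jtC N' A) ∧
      φ (redC1 hℓN hA (betaB N' ℓ A h hA)) ≠ 0 := by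
  have hchar : CharP kA ℓ := charP_residue A Fact.out hA
  obtain ⟨Pol, hPol⟩ := exists_pol ℓ A hA
  have hU := hasseU₂_eval_node hℓN hA hq5 hJ' φ hφ h0 h1728
  obtain ⟨ha, hP⟩ := thick_of_hasseU₂ ℓ kA hq5 Pol hPol _ h0 h1728 hU
  refine ⟨ha, ?_⟩
  have e : redC1 hℓN hA (betaB N' ℓ A h hA) = aeval (jtC N' A) Pol := by
    apply cVal_injective N' A
    rw [cVal_redC1, rho1_betaB, cVal_aeval, hPol]
  rw [e, eval_aeval_jtC]
  exact hP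

/-- the same with the second reduction: `φ (red₂ β) ≠ 0` -/
theorem thick_q' (hq5 : 5 ≤ ℓ) {J' : Ideal (CRing N' A)}
    (hJ' : BT N' ℓ A h = gluedAlg (psiC N' ℓ A hℓN hA) J')
    (φ : CRing N' A →ₐ[kA] kA) (hφ : J' ≤ RingHom.ker φ.toRingHom)
    (h0 : φ (jtC N' A) ≠ 0) (h1728 : φ (jtC N' A) ≠ 1728) :
    φ (redC2 hℓN hA (betaB N' ℓ A h hA)) ≠ 0 := by
  have e : redC2 hℓN hA (betaB N' ℓ A h hA) = redC1 hℓN hA (betaB N' ℓ A h hA) := by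
    apply cVal_injective N' A
    rw [cVal_redC2, cVal_redC1, rho1_betaB, rho2_betaB]
  rw [e]
  exact (thick_q hℓN hA hq5 hJ' φ hφ h0 h1728).2

/-- **(THICK_q), packaged with the glueing ideal**: `B~ = gluedAlg Ψ J'` for an ideal
`J' ⊇ fixIdeal Ψ` (helper15 N6), and at every node `φ` (a `k`-point of `V(J')`) with
`a = φ j~ ∉ {0, 1728}`: `a^(ℓ²) = a`, the Hasse polynomial `U₂` vanishes at `a`, and `β` is a unit
at the node on both branches. -/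
theorem exists_ideal_thick_q (hq5 : 5 ≤ ℓ) :
    ∃ J' : Ideal (CRing N' A), fixIdeal (psiC N' ℓ A hℓN hA) ≤ J' ∧
      BT N' ℓ A h = gluedAlg (psiC N' ℓ A hℓN hA) J' ∧
      ∀ φ : CRing N' A →ₐ[kA] kA, J' ≤ RingHom.ker φ.toRingHom →
        φ (jtC N' A) ≠ 0 → φ (jtC N' A) ≠ 1728 →
        φ (jtC N' A) ^ (ℓ ^ 2) = φ (jtC N' A) ∧
          φ (redC1 hℓN hA (betaB N' ℓ A h hA)) ≠ 0 ∧
          φ (redC2 hℓN hA (betaB N' ℓ A h hA)) ≠ 0 := by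
  obtain ⟨J', hle, hJ'⟩ := exists_ideal_BT N' ℓ A h hℓN hA (fun h2 => by omega) (fun h3 => by omega)
  refine ⟨J', hle, hJ', fun φ hφ h0 h1728 => ?_⟩
  obtain ⟨ha, hb⟩ := thick_q hℓN hA hq5 hJ' φ hφ h0 h1728
  exact ⟨ha, hb, thick_q' hℓN hA hq5 hJ' φ hφ h0 h1728⟩

end Fermat.Agent.GL.Thick
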