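/-
GATE-L / SMALL-Q (helper95), file 6: the `q = 2` ramification input in COORDINATE-RING language
(helper15 `CRing N' A` = integral closure of `k[j~]` in `F̃'`, helper65 `jtC`).

`A` over `2`, `3 ∣ N'` (forced by the J1 tame chart at `q = 2`), `t = t3C` the reduction of the
level-3 Hauptmodul:

* `t3C N' A h3 : CRing N' A`, a UNIT of `C` (`isUnit_t3C`; inverse `t3CInv`);
* `jtC_mul_t3C_cube : j~ · t³ = (t + 1)⁴` in `C`;
* `span_jtC_eq : (j~) = (t + 1)⁴` as ideals of `C`;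
* `jtC_mem_pow (P) (n) : t + 1 ∈ P ^ n → j~ ∈ P ^ (4 n)`;  `t3C_add_one_mem (P prime) : j~ ∈ P → t + 1 ∈ P`.

So at a node `P` (where `j~ ∈ P`, GL/Thick/EtaNodesAll.jtC_node_eq_zero): `ord_P(j~) = 4·ord_P(t+1)`.
-/
import Fermat.Agent.GL.Thick.SmallQRamF
import Fermat.Agent.GL.Thick.ThickQ

set_option autoImplicit false
set_option linter.unusedSectionVars false

noncomputable section

namespace Fermat.Agent.GL.SmallQ

open ModularCurve Polynomial IsLocalRing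
open Fermat.Agent.S24 Fermat.Agent.GJ.J1 Fermat.Agent.GJ.J1.Val Fermat.Agent.GJ.J1.Haupt
open Fermat.Agent.GK.QS Fermat.Agent.GL.Thick

variable (N' : ℕ) [NeZero N'] (A : ValuationSubring Kbar) (h3 : 3 ∣ N')

local notation "𝕜A" => IsLocalRing.ResidueField A

/-- the reduction of the level-3 Hauptmodul, in `F̃'` -/
def t3F : FresBar N' A := (redDataBar N' A).red ⟨tThreeF N' h3, tThreeF_mem_Rw N' A h3⟩

variable [CharP (IsLocalRing.ResidueField A) 2]

theorem jt_mul_t3F_cube : jt N' A * t3F N' A h3 ^ 3 = (t3F N' A h3 + 1) ^ 4 :=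
  red_rel_three_char_two N' A h3

theorem t3F_ne_zero : t3F N' A h3 ≠ 0 := by
  intro h0
  have h := jt_mul_t3F_cube N' A h3
  rw [h0] at h
  norm_num at h

/-- `j~ · s = (s + 1)⁴` for `s = 1/t` -/
theorem jt_mul_t3F_inv : jt N' A * (t3F N' A h3)⁻¹ = ((t3F N' A h3)⁻¹ + 1) ^ 4 := by
  have h := jt_mul_t3F_cube N' A h3
  have h0 := t3F_ne_zero N' A h3
  field_simp
  linear_combination h

/-- a root of `(X + 1)⁴ - c·Xⁱ` (`i < 4`) is integral over any subalgebra containing `c` -/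
theorem isIntegral_of_rel {k F : Type*} [Field k] [Field F] [Algebra k F] {c y : F} {i : ℕ}
    (hi : i < 4) (h : c * y ^ i = (y + 1) ^ 4) : IsIntegral (Algebra.adjoin k {c}) y := by
  set S := Algebra.adjoin k {c} with hS
  let c' : S := ⟨c, Algebra.self_mem_adjoin_singleton k c⟩
  refine ⟨(X + C (1 : S)) ^ 4 - C c' * X ^ i, ?_, ?_⟩
  · apply Monic.sub_of_left ((monic_X_add_C (1 : S)).pow 4)
    have h1 : ((X + C (1 : S)) ^ 4).degree = 4 := by
      rw [degree_pow, degree_X_add_C]; rfl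
    rw [h1]
    calc (C c' * X ^ i).degree ≤ (i : WithBot ℕ) := degree_C_mul_X_pow_le i c'
      _ < 4 := by exact_mod_cast hi
  · rw [eval₂_sub, eval₂_pow, eval₂_add, eval₂_X, eval₂_C, eval₂_mul, eval₂_C, eval₂_pow, eval₂_X,
      map_one]
    show (y + 1) ^ 4 - c * y ^ i = 0
    rw [h, sub_self]

theorem regFin_t3F : RegFin 𝕜A (jt N' A) (t3F N' A h3) :=
  isIntegral_of_rel (by norm_num) (jt_mul_t3F_cube N' A h3)

theorem regFin_t3F_inv : RegFin 𝕜A (jt N' A) (t3F N' A h3)⁻¹ :=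
  isIntegral_of_rel (i := 1) (by norm_num) (by rw [pow_one]; exact jt_mul_t3F_inv N' A h3)

/-- **the level-3 Hauptmodul in the coordinate ring `C`** -/
def t3C : CRing N' A := ⟨t3F N' A h3, regFin_t3F N' A h3⟩

/-- its inverse in `C` -/
def t3CInv : CRing N' A := ⟨(t3F N' A h3)⁻¹, regFin_t3F_inv N' A h3⟩

theorem t3C_mul_inv : t3C N' A h3 * t3CInv N' A h3 = 1 :=
  Subtype.ext (mul_inv_cancel₀ (t3F_ne_zero N' A h3))

theorem isUnit_t3C : IsUnit (t3C N' A h3) :=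
  IsUnit.of_mul_eq_one _ (t3C_mul_inv N' A h3)

/-- **`j~ · t³ = (t + 1)⁴` in `C`** -/
theorem jtC_mul_t3C_cube : jtC N' A * t3C N' A h3 ^ 3 = (t3C N' A h3 + 1) ^ 4 :=
  Subtype.ext (jt_mul_t3F_cube N' A h3)

/-- **`(j~) = (t + 1)⁴`** as ideals of `C` -/
theorem span_jtC_eq :
    Ideal.span {jtC N' A} = Ideal.span {t3C N' A h3 + 1} ^ 4 := by
  rw [Ideal.span_singleton_pow, ← jtC_mul_t3C_cube]
  exact (Ideal.span_singleton_mul_right_unit ((isUnit_t3C N' A h3).pow 3) _).symm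

/-- `t + 1 ∈ Pⁿ ⟹ j~ ∈ P^(4n)` -/
theorem jtC_mem_pow (P : Ideal (CRing N' A)) (n : ℕ) (hP : t3C N' A h3 + 1 ∈ P ^ n) :
    jtC N' A ∈ P ^ (4 * n) := by
  have h1 : Ideal.span {jtC N' A} ≤ P ^ (4 * n) := by
    rw [span_jtC_eq N' A h3, mul_comm, pow_mul]
    exact Ideal.pow_right_mono ((Ideal.span_singleton_le_iff_mem _).2 hP) 4
  exact h1 (Ideal.mem_span_singleton_self _)

/-- at a prime `P` containing `j~` (a node): `t + 1 ∈ P` -/
theorem t3C_add_one_mem (P : Ideal (CRing N' A)) [P.IsPrime] (hP : jtC N' A ∈ P) :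
    t3C N' A h3 + 1 ∈ P := by
  have h1 : (t3C N' A h3 + 1) ^ 4 ∈ P := by
    rw [← jtC_mul_t3C_cube]
    exact P.mul_mem_right _ hP
  exact Ideal.IsPrime.mem_of_pow_mem inferInstance 4 h1

include h3 in
/-- conversely `j~ ∈ P⁴` at every prime `P` containing `j~` -/
theorem jtC_mem_pow_four (P : Ideal (CRing N' A)) [P.IsPrime] (hP : jtC N' A ∈ P) :
    jtC N' A ∈ P ^ 4 := by
  have := jtC_mem_pow N' A h3 P 1 (by rw [pow_one]; exact t3C_add_one_mem N' A h3 P hP)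
  simpa using this

end Fermat.Agent.GL.SmallQ
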