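/-
GATE-L / SMALL-Q (helper95), file 7: PRODUCER of (III) of helper28's ETA-route contract
(`rd₁ g = pH(j~) ∈ P ^ 12` at a node `P`, GL/Reg/EtaThick.exists_lift_pow_eq) for `ℓ ∈ {2, 3}`.

ABSTRACT (`C` Dedekind): `j · tᵃ = (t + 1)ᵇ`, `t` a unit, `j ∈ P`, `j ≠ 0`, and the (DIV_c) fact
`c ∣ ord_P j` with `gcd(b, c) = 1`  ⟹  `j ∈ P ^ (b c)`   (`mem_pow_of_rel`).

CONCRETE (`C = CRing N' A`, `j = jtC`):
* `ℓ = 2`, `3 ∣ N'`: `t = t3C`, `(a, b, c) = (3, 4, 3)`: `3 ∣ ord_P j~ ⟹ pH(j~) = j~ ∈ P ^ 12`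
  (`ssPolyAll_mem_pow_twelve_two`);
* `ℓ = 3`, `2 ∣ N'`: `t = t2C`, `(a, b, c) = (2, 3, 2)`: `2 ∣ ord_P j~ ⟹ j~ ∈ P ^ 6`,
  `pH(j~) = j~² ∈ P ^ 12` (`ssPolyAll_mem_pow_twelve_three`).

The divisibility hypothesis is `hdiv : ∀ n : ℕ, v.intValuation j = exp (-n) → c ∣ n`
(`v` the height-one prime `P`): FIX C (S4) at `a = 0` gives it with `c = 3`, at the lift
`a = 1728` with `c = 2`.
-/
import Fermat.Agent.GL.Thick.SmallQRamC
import Fermat.Agent.GL.Thick.SsPolyAll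

set_option autoImplicit false
set_option linter.unusedSectionVars false

noncomputable section

namespace Fermat.Agent.GL.SmallQ

open IsDedekindDomain IsDedekindDomain.HeightOneSpectrum WithZero

section Abstract

variable {C : Type*} [CommRing C] [IsDedekindDomain C] (v : HeightOneSpectrum C)

theorem intValuation_of_isUnit {t : C} (ht : IsUnit t) : v.intValuation t = 1 := by
  obtain ⟨s, hs⟩ := ht.exists_right_inv
  have h1 : v.intValuation t * v.intValuation s = 1 := by rw [← map_mul, hs, map_one]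
  have ht1 := v.intValuation_le_one t
  have hs1 := v.intValuation_le_one s
  rcases ht1.lt_or_eq with hlt | heq
  · exfalso
    have : v.intValuation t * v.intValuation s < 1 := by
      calc v.intValuation t * v.intValuation s ≤ v.intValuation t * 1 := mul_le_mul_right hs1 _
        _ = v.intValuation t := mul_one _
        _ < 1 := hlt
    rw [h1] at this
    exact lt_irrefl _ this
  · exact heq

/-- **abstract (III)**: `j · tᵃ = (t + 1)ᵇ`, `t` a unit, `j ∈ P` nonzero, `c ∣ ord_P j`,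
`gcd(b, c) = 1`  ⟹  `j ∈ P ^ (b c)`. -/
theorem mem_pow_of_rel {j t : C} (ht : IsUnit t) {a b c : ℕ} (hbc : Nat.Coprime b c)
    (hrel : j * t ^ a = (t + 1) ^ b) (hj : j ∈ v.asIdeal) (hj0 : j ≠ 0)
    (hdiv : ∀ n : ℕ, v.intValuation j = exp (-(n : ℤ)) → c ∣ n) :
    j ∈ v.asIdeal ^ (b * c) := by
  have hvt : v.intValuation t = 1 := intValuation_of_isUnit v ht
  have hvj : v.intValuation j = v.intValuation (t + 1) ^ b := by
    have := congrArg v.intValuation hrel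
    rwa [map_mul, map_pow, hvt, one_pow, mul_one, map_pow] at this
  have ht1 : t + 1 ≠ 0 := by
    intro h0
    rw [h0] at hvj
    have hb0 : b ≠ 0 := by
      rintro rfl
      rw [pow_zero] at hvj
      have := (v.intValuation_lt_one_iff_mem j).2 hj
      rw [hvj] at this
      exact lt_irrefl _ this
    rw [map_zero, zero_pow hb0] at hvj
    exact v.intValuation_ne_zero j hj0 hvj
  set m := (Associates.mk v.asIdeal).count (Associates.mk (Ideal.span {t + 1} : Ideal C)).factors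
    with hm
  have hvt1 : v.intValuation (t + 1) = exp (-(m : ℤ)) := v.intValuation_if_neg ht1
  have hvj' : v.intValuation j = exp (-((b * m : ℕ) : ℤ)) := by
    rw [hvj, hvt1, ← exp_nsmul]
    congr 1
    push_cast
    ring
  have hcm : c ∣ m := (Nat.Coprime.dvd_mul_left hbc.symm).1 (hdiv _ hvj')
  -- `m ≥ 1` since `j ∈ P`
  have hm1 : 1 ≤ b * m := by
    by_contra hlt
    have h0 : b * m = 0 := by omega
    rw [h0] at hvj'
    have := (v.intValuation_lt_one_iff_mem j).2 hj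
    rw [hvj'] at this
    simp at this
  have hmpos : 1 ≤ m := by
    rcases Nat.eq_zero_or_pos m with h0 | hpos
    · rw [h0, mul_zero] at hm1; omega
    · exact hpos
  have hcle : c ≤ m := Nat.le_of_dvd hmpos hcm
  rw [← v.intValuation_le_pow_iff_mem, hvj', exp_le_exp, neg_le_neg_iff]
  exact_mod_cast Nat.mul_le_mul_left b hcle

end Abstract

section Concrete

open ModularCurve Polynomial
open Fermat.Agent.S24 Fermat.Agent.GJ.J1 Fermat.Agent.GJ.J1.Val Fermat.Agent.GJ.J1.Haupt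
open Fermat.Agent.GK.QS Fermat.Agent.GL.Thick

variable (N' : ℕ) [NeZero N'] (A : ValuationSubring Kbar)

local notation "𝕜A" => IsLocalRing.ResidueField A

theorem jtC_ne_zero : jtC N' A ≠ 0 := by
  intro h0
  have h1 : (jt N' A : FresBar N' A) = 0 := congrArg Subtype.val h0
  have h2 := congrArg (fun x : FresBar N' A => (x : LaurentSeries 𝕜A)) h1
  simp only [coe_jt] at h2
  exact Fermat.Agent.S28.jqModC_ne_zero 𝕜A (by simpa using h2)

section Two

variable (h3 : 3 ∣ N') [CharP (IsLocalRing.ResidueField A) 2]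
  [IsDedekindDomain (CRing N' A)] (v : HeightOneSpectrum (CRing N' A))

include h3 in
/-- **(III) at `ℓ = 2`**: at a node `P` (`j~ ∈ P`) with `3 ∣ ord_P j~`: `j~ ∈ P ^ 12`. -/
theorem jtC_mem_pow_twelve_two (hj : jtC N' A ∈ v.asIdeal)
    (hdiv : ∀ n : ℕ, v.intValuation (jtC N' A) = exp (-(n : ℤ)) → 3 ∣ n) :
    jtC N' A ∈ v.asIdeal ^ 12 :=
  mem_pow_of_rel v (isUnit_t3C N' A h3) (a := 3) (b := 4) (c := 3) (by norm_num)
    (jtC_mul_t3C_cube N' A h3) hj (jtC_ne_zero N' A) hdiv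

include h3 in
/-- **(III) at `ℓ = 2`** in helper28's shape: `pH(j~) ∈ P ^ 12`, `pH = ssPolyAll 2 k = X`. -/
theorem ssPolyAll_mem_pow_twelve_two (hj : jtC N' A ∈ v.asIdeal)
    (hdiv : ∀ n : ℕ, v.intValuation (jtC N' A) = exp (-(n : ℤ)) → 3 ∣ n) :
    aeval (jtC N' A) (ssPolyAll 2 𝕜A) ∈ v.asIdeal ^ 12 := by
  rw [ssPolyAll_of_not_le 2 𝕜A (by norm_num), map_pow, aeval_X]
  simpa using jtC_mem_pow_twelve_two N' A h3 v hj hdiv

end Two

section Three

variable (h2 : 2 ∣ N') [CharP (IsLocalRing.ResidueField A) 3]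

/-- the reduction of the level-2 Hauptmodul, in `F̃'` -/
def t2F : FresBar N' A := (redDataBar N' A).red ⟨tTwoF N' h2, tTwoF_mem_Rw N' A h2⟩

theorem jt_mul_t2F_sq : jt N' A * t2F N' A h2 ^ 2 = (t2F N' A h2 + 1) ^ 3 :=
  red_rel_two_char_three N' A h2

theorem t2F_ne_zero : t2F N' A h2 ≠ 0 := by
  intro h0
  have h := jt_mul_t2F_sq N' A h2
  rw [h0] at h
  norm_num at h

theorem jt_mul_t2F_inv : jt N' A * (t2F N' A h2)⁻¹ = ((t2F N' A h2)⁻¹ + 1) ^ 3 := by
  have h := jt_mul_t2F_sq N' A h2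
  have h0 := t2F_ne_zero N' A h2
  field_simp
  linear_combination h

/-- a root of `(X + 1)³ - c·Xⁱ` (`i < 3`) is integral over any subalgebra containing `c` -/
theorem isIntegral_of_rel_three {k F : Type*} [Field k] [Field F] [Algebra k F] {c y : F} {i : ℕ}
    (hi : i < 3) (h : c * y ^ i = (y + 1) ^ 3) : IsIntegral (Algebra.adjoin k {c}) y := by
  set S := Algebra.adjoin k {c} with hS
  let c' : S := ⟨c, Algebra.self_mem_adjoin_singleton k c⟩
  refine ⟨(X + C (1 : S)) ^ 3 - C c' * X ^ i, ?_, ?_⟩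
  · apply Monic.sub_of_left ((monic_X_add_C (1 : S)).pow 3)
    have h1 : ((X + C (1 : S)) ^ 3).degree = 3 := by
      rw [degree_pow, degree_X_add_C]; rfl
    rw [h1]
    calc (C c' * X ^ i).degree ≤ (i : WithBot ℕ) := degree_C_mul_X_pow_le i c'
      _ < 3 := by exact_mod_cast hi
  · rw [eval₂_sub, eval₂_pow, eval₂_add, eval₂_X, eval₂_C, eval₂_mul, eval₂_C, eval₂_pow, eval₂_X,
      map_one]
    show (y + 1) ^ 3 - c * y ^ i = 0
    rw [h, sub_self]

theorem regFin_t2F : RegFin 𝕜A (jt N' A) (t2F N' A h2) :=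
  isIntegral_of_rel_three (by norm_num) (jt_mul_t2F_sq N' A h2)

theorem regFin_t2F_inv : RegFin 𝕜A (jt N' A) (t2F N' A h2)⁻¹ :=
  isIntegral_of_rel_three (i := 1) (by norm_num) (by rw [pow_one]; exact jt_mul_t2F_inv N' A h2)

/-- **the level-2 Hauptmodul in the coordinate ring `C`** (characteristic `3`) -/
def t2C : CRing N' A := ⟨t2F N' A h2, regFin_t2F N' A h2⟩

/-- its inverse in `C` -/
def t2CInv : CRing N' A := ⟨(t2F N' A h2)⁻¹, regFin_t2F_inv N' A h2⟩

theorem t2C_mul_inv : t2C N' A h2 * t2CInv N' A h2 = 1 :=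
  Subtype.ext (mul_inv_cancel₀ (t2F_ne_zero N' A h2))

theorem isUnit_t2C : IsUnit (t2C N' A h2) :=
  IsUnit.of_mul_eq_one _ (t2C_mul_inv N' A h2)

/-- **`j~ · t² = (t + 1)³` in `C`** (characteristic `3`) -/
theorem jtC_mul_t2C_sq : jtC N' A * t2C N' A h2 ^ 2 = (t2C N' A h2 + 1) ^ 3 :=
  Subtype.ext (jt_mul_t2F_sq N' A h2)

/-- **`(j~) = (t + 1)³`** as ideals of `C` (characteristic `3`) -/
theorem span_jtC_eq_three :
    Ideal.span {jtC N' A} = Ideal.span {t2C N' A h2 + 1} ^ 3 := by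
  rw [Ideal.span_singleton_pow, ← jtC_mul_t2C_sq]
  exact (Ideal.span_singleton_mul_right_unit ((isUnit_t2C N' A h2).pow 2) _).symm

variable [IsDedekindDomain (CRing N' A)] (v : HeightOneSpectrum (CRing N' A))

include h2 in
/-- **`ℓ = 3`**: at a node `P` (`j~ ∈ P`) with `2 ∣ ord_P j~`: `j~ ∈ P ^ 6`. -/
theorem jtC_mem_pow_six_three (hj : jtC N' A ∈ v.asIdeal)
    (hdiv : ∀ n : ℕ, v.intValuation (jtC N' A) = exp (-(n : ℤ)) → 2 ∣ n) :
    jtC N' A ∈ v.asIdeal ^ 6 :=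
  mem_pow_of_rel v (isUnit_t2C N' A h2) (a := 2) (b := 3) (c := 2) (by norm_num)
    (jtC_mul_t2C_sq N' A h2) hj (jtC_ne_zero N' A) hdiv

include h2 in
/-- **(III) at `ℓ = 3`** in helper28's shape: `pH(j~) ∈ P ^ 12`, `pH = ssPolyAll 3 k = X²`. -/
theorem ssPolyAll_mem_pow_twelve_three (hj : jtC N' A ∈ v.asIdeal)
    (hdiv : ∀ n : ℕ, v.intValuation (jtC N' A) = exp (-(n : ℤ)) → 2 ∣ n) :
    aeval (jtC N' A) (ssPolyAll 3 𝕜A) ∈ v.asIdeal ^ 12 := by
  rw [ssPolyAll_of_not_le 3 𝕜A (by norm_num), map_pow, aeval_X]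
  have h6 := jtC_mem_pow_six_three N' A h2 v hj hdiv
  have : jtC N' A ^ 2 ∈ (v.asIdeal ^ 6) ^ 2 := Ideal.pow_mem_pow h6 2
  rwa [← pow_mul] at this

end Three

end Concrete

end Fermat.Agent.GL.SmallQ
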