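import Fermat.Agent.GL.Thick.EtaSharp
import Fermat.Agent.GL.Thick.MuLower
import Fermat.Agent.GL.Thick.SmallQThick
import Fermat.Agent.GJ.J1.ResidueAlgClosed

/-!
# GATE-L / L5-III (helper65): (DIV_c) ⟹ (III) ⟹ (T1) at EVERY node, in `C`

Setting of `GL/Thick/EtaSharp.lean`: `ℓ ∥ N = N' ℓ`, `A` over `ℓ`, `C = CRing N' A` (Dedekind),
`B~ = gluedAlg Ψ J'`, `pH = ssPolyAll ℓ k`, nodes = maximal ideals `P ⊇ J'` = zeros of `pH(j~)`.

The ONLY geometric input left is (DIV_c) of the cell ruling 2876 (FIX C, "no elliptic points"), in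
helper95's shape, for `v : HeightOneSpectrum C`:

* `hdiv0    : j~ ∈ P → ∀ n, v.intValuation j~ = exp (-n) → 3 ∣ n`              (`3 ∣ ord_P j~`)
* `hdiv1728 : j~ - 1728 ∈ P → ∀ n, v.intValuation (j~ - 1728) = exp (-n) → 2 ∣ n`  (`2 ∣ ord_P (j~ - 1728)`)

Then
* `exists_root_sub_mem` : a prime `P ∋ p(j)` contains `j - a` for a root `a` of `p` (`k = k̄`);
* `mem_pow_of_intValuation_dvd` : `x ∈ P`, `c ∣ ord_P x` ⟹ `x ∈ P ^ c`;
* `ssPoly_mem_pow_twelve_zero`, `ssPoly_mem_pow_twelve_1728` : (III) over `0`, `1728` for `ℓ ≥ 5`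
  (helper75 `MuLower`: `μ₀ ≥ 4`, `μ₁₇₂₈ ≥ 6`; helper28 `aeval_mem_pow`);
* **`ssPoly_mem_pow_twelve_of_div`** (`ℓ ≥ 5`), **`ssPolyAll_mem_pow_twelve_of_div`** (EVERY `ℓ`,
  with helper95 `SmallQThick` at `ℓ ∈ {2, 3}`) : (III) `pH(j~) ∈ P ^ 12` at every node;
* **`exists_pow_eq_mul_notMem_all_nodes`** : (T1) in `C` at every node: `∃ a ∈ J', ∃ c,
  a ^ 12 = pH(j~) * c ∧ c ∉ P`.
-/

set_option autoImplicit false
set_option linter.unusedSectionVars false
set_option linter.style.haveILetI false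

noncomputable section

namespace Fermat.Agent.GL.Thick

open HahnSeries ModularCurve IsLocalRing Polynomial
open IsDedekindDomain IsDedekindDomain.HeightOneSpectrum WithZero
open Fermat.Agent.S24 Fermat.Agent.GJ.J1 Fermat.Agent.GJ.J1.Val Fermat.Agent.S28
open Fermat.Agent.GK.AL Fermat.Agent.GK.QS Fermat.Agent.GK.FrobGlue Fermat.Agent.GL.Eta
open Fermat.Agent.GL.SmallQ

/-! ### abstract lemmas -/

section Abstract

/-- over an algebraically closed field, a prime ideal containing `p(j)` contains `j - a` for some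
root `a` of `p` -/
theorem exists_root_sub_mem {k C : Type*} [Field k] [IsAlgClosed k] [CommRing C] [Algebra k C]
    {p : k[X]} (hp : p.Monic) (j : C) (P : Ideal C) [hP : P.IsPrime] (hmem : aeval j p ∈ P) :
    ∃ a : k, p.IsRoot a ∧ j - algebraMap k C a ∈ P := by
  have hs := IsAlgClosed.splits p
  have e : aeval j p = (p.roots.map (fun a => j - algebraMap k C a)).prod := by
    conv_lhs => rw [hs.eq_prod_roots_of_monic hp]
    rw [map_multiset_prod, Multiset.map_map]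
    congr 1
    refine Multiset.map_congr rfl fun a _ => ?_
    simp
  rw [e, hP.multiset_prod_mem_iff_exists_mem] at hmem
  obtain ⟨x, hx, hxP⟩ := hmem
  obtain ⟨a, ha, rfl⟩ := Multiset.mem_map.mp hx
  exact ⟨a, (mem_roots hp.ne_zero).mp ha, hxP⟩

variable {C : Type*} [CommRing C] [IsDedekindDomain C] (v : HeightOneSpectrum C)

/-- `x ∈ P`, `x ≠ 0`, `c ∣ ord_P x` ⟹ `x ∈ P ^ c` -/
theorem mem_pow_of_intValuation_dvd {x : C} (hx : x ∈ v.asIdeal) (hx0 : x ≠ 0) {c : ℕ}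
    (hdiv : ∀ n : ℕ, v.intValuation x = exp (-(n : ℤ)) → c ∣ n) : x ∈ v.asIdeal ^ c := by
  set m := (Associates.mk v.asIdeal).count (Associates.mk (Ideal.span {x} : Ideal C)).factors
    with hm
  have hvx : v.intValuation x = exp (-(m : ℤ)) := v.intValuation_if_neg hx0
  have hcm : c ∣ m := hdiv m hvx
  have hm1 : 1 ≤ m := by
    by_contra hlt
    have h0 : m = 0 := by omega
    rw [h0] at hvx
    have := (v.intValuation_lt_one_iff_mem x).2 hx
    rw [hvx] at this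
    simp at this
  have hcle : c ≤ m := Nat.le_of_dvd hm1 hcm
  rw [← v.intValuation_le_pow_iff_mem, hvx, exp_le_exp, neg_le_neg_iff]
  exact_mod_cast hcle

end Abstract

/-! ### `1728 ≠ 0` in characteristic `≥ 5` -/

theorem cast_1728_ne_zero (q : ℕ) [Fact q.Prime] (k : Type*) [Field k] [CharP k q] (hq5 : 5 ≤ q) :
    (1728 : k) ≠ 0 := by
  have hq : q.Prime := Fact.out
  intro h0
  have h1 : ((1728 : ℕ) : k) = 0 := by exact_mod_cast h0
  rw [CharP.cast_eq_zero_iff k q] at h1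
  have h2 : q ∣ 12 := by
    have : (1728 : ℕ) = 12 ^ 3 := by norm_num
    rw [this] at h1
    exact hq.dvd_of_dvd_pow h1
  have h3 : q ≤ 12 := Nat.le_of_dvd (by norm_num) h2
  interval_cases q <;> first | (revert h2; decide) | (revert hq; decide)

variable {N' : ℕ} [NeZero N'] {ℓ : ℕ} [Fact ℓ.Prime] [NeZero ℓ]
variable {A : ValuationSubring Kbar} {h : ExactDvd ℓ (N' * ℓ)}
variable (hℓN : ¬ ℓ ∣ N') (hA : A.LiesOverPrime ℓ)

local notation "kA" => IsLocalRing.ResidueField A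

/-! ### (III) over `0` and `1728`, `ℓ ≥ 5` -/

section Large

variable [IsDedekindDomain (CRing N' A)] (v : HeightOneSpectrum (CRing N' A))

/-- **(III) over `j~ = 0`, `ℓ ≥ 5`**: `0` supersingular, `j~ ∈ P`, `3 ∣ ord_P j~` ⟹
`pH(j~) ∈ P ^ 12` -/
theorem ssPoly_mem_pow_twelve_zero (hq5 : 5 ≤ ℓ)
    (hroot : (@ssPoly ℓ _ kA _ (charP_residue A Fact.out hA) hq5).IsRoot 0)
    (hj : jtC N' A ∈ v.asIdeal)
    (hdiv : ∀ n : ℕ, v.intValuation (jtC N' A) = exp (-(n : ℤ)) → 3 ∣ n) :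
    aeval (jtC N' A) (@ssPoly ℓ _ kA _ (charP_residue A Fact.out hA) hq5) ∈ v.asIdeal ^ 12 := by
  have : CharP kA ℓ := charP_residue A Fact.out hA
  have hq : ℓ.Prime := Fact.out
  set μ := rootMultiplicity (0 : kA) (ssPoly ℓ kA hq5) with hμ
  -- `μ ≥ 4`
  have hμ4 : 4 ≤ μ := by
    have hpos : 0 < μ := (rootMultiplicity_pos (ssPoly_ne_zero ℓ kA hq5)).mpr hroot
    have h3 : ℓ % 3 = 1 ∨ ℓ % 3 = 2 := by
      have : ℓ % 3 ≠ 0 := by
        intro h0
        have h3 : 3 ∣ ℓ := Nat.dvd_of_mod_eq_zero h0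
        have := (Nat.prime_dvd_prime_iff_eq Nat.prime_three hq).mp h3
        omega
      omega
    rcases h3 with h1 | h2
    · obtain ⟨m, hm⟩ := MuLower.six_dvd_rootMultiplicity_zero ℓ kA hq5 h1
      omega
    · exact MuLower.four_le_rootMultiplicity_zero ℓ kA hq5 h2
  have hj3 : jtC N' A ∈ v.asIdeal ^ 3 :=
    mem_pow_of_intValuation_dvd v hj (jtC_ne_zero N' A) hdiv
  have h1 := Fermat.Agent.GL.EtaReg.aeval_mem_pow (pH := ssPoly ℓ kA hq5) (a := (0 : kA)) (μ := μ)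
    (pow_rootMultiplicity_dvd _ _) (j := jtC N' A) (P := v.asIdeal) (c := 3)
    (by rwa [map_zero, sub_zero])
  exact Ideal.pow_le_pow_right (by omega) h1

/-- **(III) over `j~ = 1728`, `ℓ ≥ 5`**: `j~ - 1728 ∈ P` a node, `2 ∣ ord_P (j~ - 1728)` ⟹
`pH(j~) ∈ P ^ 12` -/
theorem ssPoly_mem_pow_twelve_1728 (hq5 : 5 ≤ ℓ)
    (hroot : (@ssPoly ℓ _ kA _ (charP_residue A Fact.out hA) hq5).IsRoot 1728)
    (hj : jtC N' A - 1728 ∈ v.asIdeal)
    (hdiv : ∀ n : ℕ, v.intValuation (jtC N' A - 1728) = exp (-(n : ℤ)) → 2 ∣ n) :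
    aeval (jtC N' A) (@ssPoly ℓ _ kA _ (charP_residue A Fact.out hA) hq5) ∈ v.asIdeal ^ 12 := by
  have : CharP kA ℓ := charP_residue A Fact.out hA
  set μ := rootMultiplicity (1728 : kA) (ssPoly ℓ kA hq5) with hμ
  have hμ6 : 6 ≤ μ :=
    MuLower.six_le_rootMultiplicity_ssPoly ℓ kA hq5 (cast_1728_ne_zero ℓ kA hq5) hroot
  have hne : jtC N' A - 1728 ≠ 0 := by
    intro h0
    have h1 : aeval (jtC N' A) (X - Polynomial.C (1728 : kA)) = 0 := by
      rw [map_sub, aeval_X, aeval_C, map_ofNat]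
      exact h0
    exact aeval_jtC_ne_zero (N' := N') (A := A) (X_sub_C_ne_zero _) h1
  have hj2 : jtC N' A - 1728 ∈ v.asIdeal ^ 2 := mem_pow_of_intValuation_dvd v hj hne hdiv
  have h1 := Fermat.Agent.GL.EtaReg.aeval_mem_pow (pH := ssPoly ℓ kA hq5) (a := (1728 : kA))
    (μ := μ) (pow_rootMultiplicity_dvd _ _) (j := jtC N' A) (P := v.asIdeal) (c := 2)
    (by rwa [map_ofNat])
  exact Ideal.pow_le_pow_right (by omega) h1

end Large

/-! ### (III) at every node -/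

/-- **(III) at EVERY node, `ℓ ≥ 5`**, from (DIV_3) over `0` and (DIV_2) over `1728` -/
theorem ssPoly_mem_pow_twelve_of_div (hq5 : 5 ≤ ℓ) {J' : Ideal (CRing N' A)}
    (hJ' : BT N' ℓ A h = gluedAlg (psiC N' ℓ A hℓN hA) J')
    [IsDedekindDomain (CRing N' A)] (v : HeightOneSpectrum (CRing N' A))
    (hnode : J' ≤ v.asIdeal)
    (hdiv0 : jtC N' A ∈ v.asIdeal →
      ∀ n : ℕ, v.intValuation (jtC N' A) = exp (-(n : ℤ)) → 3 ∣ n)
    (hdiv1728 : jtC N' A - 1728 ∈ v.asIdeal →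
      ∀ n : ℕ, v.intValuation (jtC N' A - 1728) = exp (-(n : ℤ)) → 2 ∣ n) :
    aeval (jtC N' A) (@ssPoly ℓ _ kA _ (charP_residue A Fact.out hA) hq5) ∈ v.asIdeal ^ 12 := by
  have : CharP kA ℓ := charP_residue A Fact.out hA
  haveI : IsAlgClosed kA := Fermat.Agent.GJ.ResidueAlgClosed.isAlgClosed_residueField A
  haveI : v.asIdeal.IsPrime := v.isPrime
  have hmem : aeval (jtC N' A) (ssPoly ℓ kA hq5) ∈ v.asIdeal :=
    hnode (ssPoly_mem_ideal hℓN hA hq5 hJ')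
  obtain ⟨a, hroot, haP⟩ := exists_root_sub_mem (monic_ssPoly ℓ kA hq5) (jtC N' A) v.asIdeal hmem
  by_cases h0 : a = 0
  · subst h0
    rw [map_zero, sub_zero] at haP
    exact ssPoly_mem_pow_twelve_zero hA v hq5 hroot haP (hdiv0 haP)
  by_cases h1728 : a = 1728
  · subst h1728
    rw [map_ofNat] at haP
    exact ssPoly_mem_pow_twelve_1728 hA v hq5 hroot haP (hdiv1728 haP)
  · -- FIX A
    obtain ⟨Pol, hPol⟩ := exists_pol ℓ A hA
    obtain ⟨-, -, h3⟩ := thick_series ℓ kA hq5 Pol hPol a h0 h1728 hroot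
    exact Fermat.Agent.GL.EtaReg.aeval_mem_pow_of_rootMultiplicity h3 haP

/-- **(III) at EVERY node, EVERY prime `ℓ`** (`ℓ ∈ {2, 3}`: helper95 `SmallQThick`) -/
theorem ssPolyAll_mem_pow_twelve_of_div (h2 : ℓ = 2 → 3 ∣ N') (h3 : ℓ = 3 → 2 ∣ N')
    {J' : Ideal (CRing N' A)}
    (hJ' : BT N' ℓ A h = gluedAlg (psiC N' ℓ A hℓN hA) J')
    [IsDedekindDomain (CRing N' A)] (v : HeightOneSpectrum (CRing N' A))
    (hnode : J' ≤ v.asIdeal)
    (hdiv0 : jtC N' A ∈ v.asIdeal →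
      ∀ n : ℕ, v.intValuation (jtC N' A) = exp (-(n : ℤ)) → 3 ∣ n)
    (hdiv1728 : jtC N' A - 1728 ∈ v.asIdeal →
      ∀ n : ℕ, v.intValuation (jtC N' A - 1728) = exp (-(n : ℤ)) → 2 ∣ n) :
    aeval (jtC N' A) (@ssPolyAll ℓ _ kA _ (charP_residue A Fact.out hA)) ∈ v.asIdeal ^ 12 := by
  have hC : CharP kA ℓ := charP_residue A Fact.out hA
  have hq : ℓ.Prime := Fact.out
  haveI : v.asIdeal.IsPrime := v.isPrime
  by_cases hq5 : 5 ≤ ℓ
  · rw [ssPolyAll_of_le ℓ kA hq5]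
    exact ssPoly_mem_pow_twelve_of_div hℓN hA hq5 hJ' v hnode hdiv0 hdiv1728
  · -- `ℓ ∈ {2, 3}`: every node lies over `j~ = 0`
    have hjP : jtC N' A ∈ v.asIdeal := by
      have h1 := hnode (jtC_pow_mem_ideal hℓN hA hq5 hJ')
      exact Ideal.IsPrime.mem_of_pow_mem inferInstance _ h1
    have hℓ23 : ℓ = 2 ∨ ℓ = 3 := by
      have h2le := hq.two_le
      have : ℓ ≠ 4 := by
        rintro rfl
        exact absurd hq (by decide)
      omega
    rcases hℓ23 with rfl | rfl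
    · exact ssPolyAll_mem_pow_twelve_two N' A (h2 rfl) v hjP (hdiv0 hjP)
    · -- `1728 = 0` in characteristic `3`
      have e : (1728 : CRing N' A) = 0 := by
        have h1 : ((1728 : ℕ) : kA) = 0 := by
          rw [CharP.cast_eq_zero_iff kA 3]
          norm_num
        have h2' : (1728 : CRing N' A) = algebraMap kA (CRing N' A) ((1728 : ℕ) : kA) := by
          rw [map_natCast]
          norm_num
        rw [h2', h1, map_zero]
      have hjP' : jtC N' A - 1728 ∈ v.asIdeal := by rwa [e, sub_zero]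
      have hd := hdiv1728 hjP'
      rw [e, sub_zero] at hd
      exact ssPolyAll_mem_pow_twelve_three N' A (h3 rfl) v hjP hd

/-! ### (T1) in `C` at every node -/

/-- **(T1) in `C` at EVERY node, EVERY prime `ℓ`**: given (DIV_3) over `0` and (DIV_2) over `1728`,
at every node `P` there is `a ∈ J'` with `a ^ 12 = pH(j~) * c`, `c ∉ P`. -/
theorem exists_pow_eq_mul_notMem_all_nodes (h2 : ℓ = 2 → 3 ∣ N') (h3 : ℓ = 3 → 2 ∣ N')
    {J' : Ideal (CRing N' A)}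
    (hJ : fixIdeal (psiC N' ℓ A hℓN hA) ≤ J')
    (hJ' : BT N' ℓ A h = gluedAlg (psiC N' ℓ A hℓN hA) J')
    [IsDedekindDomain (CRing N' A)] (v : HeightOneSpectrum (CRing N' A))
    (hnode : J' ≤ v.asIdeal)
    (hdiv0 : jtC N' A ∈ v.asIdeal →
      ∀ n : ℕ, v.intValuation (jtC N' A) = exp (-(n : ℤ)) → 3 ∣ n)
    (hdiv1728 : jtC N' A - 1728 ∈ v.asIdeal →
      ∀ n : ℕ, v.intValuation (jtC N' A - 1728) = exp (-(n : ℤ)) → 2 ∣ n) :
    ∃ a ∈ J', ∃ c : CRing N' A,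
      a ^ 12 = aeval (jtC N' A) (@ssPolyAll ℓ _ kA _ (charP_residue A Fact.out hA)) * c ∧
        c ∉ v.asIdeal :=
  exists_pow_eq_mul_notMem_node hℓN hA hJ hJ' v.asIdeal v.isMaximal
    (ssPolyAll_mem_pow_twelve_of_div hℓN hA h2 h3 hJ' v hnode hdiv0 hdiv1728)

end Fermat.Agent.GL.Thick
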