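/-
GATE-L / THICK-SERIES (helper63), file 8: the supersingular polynomial `pH = ssPoly q k` for the
ETA-route (BLUEPRINT v2, 2677 (V2) III (1)):

  `red₁ (Δ(z)/Δ(qz)) = Δ̃^{-(q-1)} = pH(j̃)`,   `pH` MONIC of degree `q - 1`.

* `DL_eq_deltaS`, `E4L_eq_e4S` : my Laurent `Δ`, `E₄` are the S28 `deltaS`, `e4S`;
* `deltaInvS_pow_eq_ssPoly : deltaInvS k ^ (q-1) = pH(J)`;  `uInvS_eq_ssPoly : uInvS k q = pH(J)`
  (`uInvS k q = Δ(Q)/Δ(Q^q)` = helper16's `red₁ etaQ`, `GL/Eta/Gauss.coe_red1_etaQ`);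
* `natDegree_ssPoly : pH.natDegree = q - 1`, `monic_ssPoly`, `ssPoly_ne_zero`.
-/
import Fermat.Agent.GL.Thick.HasseJ
import Fermat.Agent.GK.Cusp.SepFun

set_option autoImplicit false

noncomputable section

namespace Fermat.Agent.GL.Thick

open HahnSeries ModularCurve Polynomial Fermat.Agent.S28 Fermat.Agent.S16.RAM
  Fermat.Agent.S16.L1h67

section Bridge

variable (A : Type*) [CommRing A]

theorem DL_eq_deltaS : DL A = deltaS A := by
  rw [DL, delta, Fermat.Agent.GJ.Haupt.deltaZ_eq, map_mul, PowerSeries.map_X, map_mul,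
    ofPowerSeries_X, deltaS]

theorem E4L_eq_e4S : E4L A = e4S A := by
  rw [E4L, e4, Fermat.Agent.GJ.Haupt.e4Z_eq_eisenstein4, e4S]

/-- coefficients of the powers of `Δ⁻¹ = Q⁻¹ (1 + …)` -/
theorem deltaInvS_pow (n : ℕ) :
    deltaInvS A ^ n = HahnSeries.single (-(n : ℤ)) 1 *
      HahnSeries.ofPowerSeries ℤ A ((dedekindEtaUnitInv.map (Int.castRingHom A)) ^ n) := by
  have h : n • (-1 : ℤ) = -(n : ℤ) := by simp
  rw [deltaInvS, mul_pow, HahnSeries.single_pow, one_pow, h, ← map_pow]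

theorem constantCoeff_etaInv_map_pow (n : ℕ) :
    PowerSeries.constantCoeff ((dedekindEtaUnitInv.map (Int.castRingHom A)) ^ n) = 1 := by
  rw [map_pow, ← PowerSeries.coeff_zero_eq_constantCoeff_apply, PowerSeries.coeff_map,
    PowerSeries.coeff_zero_eq_constantCoeff_apply, constantCoeff_dedekindEtaUnitInv]
  simp

theorem coeff_deltaInvS_pow_self (n : ℕ) : (deltaInvS A ^ n).coeff (-(n : ℤ)) = 1 := by
  rw [deltaInvS_pow, HahnSeries.coeff_single_mul, one_mul, sub_neg_eq_add, neg_add_cancel,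
    show (0 : ℤ) = ((0 : ℕ) : ℤ) from rfl, HahnSeries.ofPowerSeries_apply_coeff,
    PowerSeries.coeff_zero_eq_constantCoeff_apply, constantCoeff_etaInv_map_pow]

theorem coeff_deltaInvS_pow_of_lt {n : ℕ} {m : ℤ} (hm : m < -(n : ℤ)) :
    (deltaInvS A ^ n).coeff m = 0 := by
  rw [deltaInvS_pow, HahnSeries.coeff_single_mul, one_mul]
  exact ofPowerSeries_coeff_of_neg _ (by omega)

end Bridge

section SsPoly

variable (q : ℕ) [Fact q.Prime] (k : Type*) [Field k] [CharP k q]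

/-- **`Δ̃^{-(q-1)} = pH(J)`** -/
theorem deltaInvS_pow_eq_ssPoly (hq5 : 5 ≤ q) :
    deltaInvS k ^ (q - 1) = aeval (jqModC k) (ssPoly q k hq5) := by
  have h := hasse_pH q k hq5
  rw [DL_eq_deltaS] at h
  calc deltaInvS k ^ (q - 1)
      = deltaInvS k ^ (q - 1) * (deltaS k ^ (q - 1) * aeval (jqModC k) (ssPoly q k hq5)) := by
        rw [h, mul_one]
    _ = (deltaInvS k * deltaS k) ^ (q - 1) * aeval (jqModC k) (ssPoly q k hq5) := by
        rw [mul_pow]; ring
    _ = aeval (jqModC k) (ssPoly q k hq5) := by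
        rw [deltaInvS_mul_deltaS, one_pow, one_mul]

/-- **`Δ(Q)/Δ(Q^q) = pH(J)`** in characteristic `q` (`= red₁` of the eta quotient) -/
theorem uInvS_eq_ssPoly [NeZero q] (hq5 : 5 ≤ q) :
    uInvS k q = aeval (jqModC k) (ssPoly q k hq5) := by
  rw [Fermat.Agent.GK.Cusp.uInvS_char, deltaInvS_pow_eq_ssPoly]

/-- **`deg pH = q - 1`** -/
theorem natDegree_ssPoly (hq5 : 5 ≤ q) : (ssPoly q k hq5).natDegree = q - 1 := by
  have h := deltaInvS_pow_eq_ssPoly q k hq5
  set P := ssPoly q k hq5 with hP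
  have h1 : (aeval (jqModC k) P).coeff (-((q - 1 : ℕ) : ℤ)) = 1 := by
    rw [← h, coeff_deltaInvS_pow_self]
  have h2 := Fermat.Agent.S28.PolyDescent.coeff_aeval_jqModC_neg_natDegree k P
  have hP0 : P ≠ 0 := by
    intro h0
    rw [h0, map_zero, HahnSeries.coeff_zero] at h1
    exact zero_ne_one h1
  apply le_antisymm
  · by_contra hlt
    push Not at hlt
    have h3 : (aeval (jqModC k) P).coeff (-(P.natDegree : ℤ)) = 0 := by
      rw [← h]
      exact coeff_deltaInvS_pow_of_lt k (by omega)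
    rw [h2] at h3
    exact hP0 (leadingCoeff_eq_zero.mp h3)
  · by_contra hlt
    push Not at hlt
    have h3 := Fermat.Agent.S28.PolyDescent.coeff_aeval_jqModC_of_lt k P
      (m := -((q - 1 : ℕ) : ℤ)) (by omega)
    rw [h1] at h3
    exact one_ne_zero h3

theorem monic_ssPoly (hq5 : 5 ≤ q) : (ssPoly q k hq5).Monic := by
  have h := deltaInvS_pow_eq_ssPoly q k hq5
  have h2 := Fermat.Agent.S28.PolyDescent.coeff_aeval_jqModC_neg_natDegree k (ssPoly q k hq5)
  rw [natDegree_ssPoly q k hq5, ← h, coeff_deltaInvS_pow_self] at h2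
  exact h2.symm

theorem ssPoly_ne_zero (hq5 : 5 ≤ q) : ssPoly q k hq5 ≠ 0 := (monic_ssPoly q k hq5).ne_zero

end SsPoly

end Fermat.Agent.GL.Thick
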