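import Fermat.Agent.GL.Thick.ThickQ
import Fermat.Agent.GL.Thick.SsPoly
import Fermat.Agent.GL.Eta.BRingEta

/-!
# GATE-L / L5-III inputs (helper65): the nodes of level `N' ℓ` and the supersingular polynomial

`ℓ ∥ N = N' ℓ`, `ℓ ≥ 5`, `A` over `ℓ`, `C = CRing N' A`, `B = BRing N' ℓ A h`, `B~ = gluedAlg Ψ J'`,
`pH = ssPoly ℓ k` (helper63: `Δ~^(ℓ-1) · pH(J) = 1`), `g = etaQ = Δ(z)/Δ(ℓ z)` (helper16).
A NODE is a `k`-point `φ : C →ₐ[k] k` with `J' ≤ ker φ`.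

* `redC1_etaB : red₁ g = pH(j~)` in `C`;  `ssPoly_mem_ideal : pH(j~) ∈ J'`;
* `ssPoly_eval_node` : **EVERY node is a zero of `pH`** (also over `j = 0, 1728`);
* `ssPoly_dvd_pow` : `y ∈ B`, `w₂(y) ≥ w(ℓ)` ⟹ `pH(j~) ∣ (red₁ y)^12` in `C`  (the L-REG power trick
  of helper28 2469 (1) / helper16 `pow_div_etaQ_mem_BRing`, pushed into `C`);
* `rootMultiplicity_ssPoly_node` : **FIX A** — at a node with `a = φ j~ ∉ {0, 1728}`:
  `rootMultiplicity a pH = 12`, `a ∈ 𝔽_{ℓ²}` (helper63 `thick_series` + `exists_pol`).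
-/

set_option autoImplicit false
set_option linter.unusedSectionVars false

noncomputable section

namespace Fermat.Agent.GL.Thick

open HahnSeries ModularCurve IsLocalRing Polynomial
open Fermat.Agent.S24 Fermat.Agent.GJ.J1 Fermat.Agent.GJ.J1.Val Fermat.Agent.S28
open Fermat.Agent.GK.AL Fermat.Agent.GK.QS Fermat.Agent.GK.FrobGlue Fermat.Agent.GL.Eta

variable {N' : ℕ} [NeZero N'] {ℓ : ℕ} [Fact ℓ.Prime] [NeZero ℓ]
variable {A : ValuationSubring Kbar} {h : ExactDvd ℓ (N' * ℓ)}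
variable (hℓN : ¬ ℓ ∣ N') (hA : A.LiesOverPrime ℓ)

local notation "kA" => IsLocalRing.ResidueField A

/-- **`red₁ g = pH(j~)`** in the coordinate ring -/
theorem redC1_etaB (hq5 : 5 ≤ ℓ) :
    redC1 hℓN hA (etaB N' ℓ A h (ValuationSubring.nonunits_le hA)) =
      aeval (jtC N' A) (@ssPoly ℓ _ kA _ (charP_residue A Fact.out hA) hq5) := by
  have : CharP kA ℓ := charP_residue A Fact.out hA
  apply cVal_injective N' A
  rw [cVal_redC1, rho1_etaB, cVal_aeval, uInvS_eq_ssPoly ℓ kA hq5]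

/-- **`pH(j~) ∈ J'`** -/
theorem ssPoly_mem_ideal (hq5 : 5 ≤ ℓ) {J' : Ideal (CRing N' A)}
    (hJ' : BT N' ℓ A h = gluedAlg (psiC N' ℓ A hℓN hA) J') :
    aeval (jtC N' A) (@ssPoly ℓ _ kA _ (charP_residue A Fact.out hA) hq5) ∈ J' := by
  rw [← redC1_etaB (h := h) hℓN hA hq5]
  exact mem_ideal_of_rho2_eq_zero hℓN hA hJ' _ (rho2_etaB N' ℓ A h hA)

/-- **every node is a zero of the supersingular polynomial** -/
theorem ssPoly_eval_node (hq5 : 5 ≤ ℓ) {J' : Ideal (CRing N' A)}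
    (hJ' : BT N' ℓ A h = gluedAlg (psiC N' ℓ A hℓN hA) J')
    (φ : CRing N' A →ₐ[kA] kA) (hφ : J' ≤ RingHom.ker φ.toRingHom) :
    (@ssPoly ℓ _ kA _ (charP_residue A Fact.out hA) hq5).eval (φ (jtC N' A)) = 0 := by
  have h1 : φ (aeval (jtC N' A) (@ssPoly ℓ _ kA _ (charP_residue A Fact.out hA) hq5)) = 0 :=
    hφ (ssPoly_mem_ideal hℓN hA hq5 hJ')
  rwa [eval_aeval_jtC] at h1

/-- **the power trick in `C`**: `y ∈ B` with `w₂(y) ≥ w(ℓ)` ⟹ `pH(j~) ∣ (red₁ y)^12` -/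
theorem ssPoly_dvd_pow (hq5 : 5 ≤ ℓ) (y : BRing N' ℓ A h)
    (hy2 : (y : FN (N' * ℓ)) / (ℓ : FN (N' * ℓ)) ∈ (redData2 (N' * ℓ) A h).Rw) :
    aeval (jtC N' A) (@ssPoly ℓ _ kA _ (charP_residue A Fact.out hA) hq5) ∣
      redC1 hℓN hA y ^ 12 := by
  have : CharP kA ℓ := charP_residue A Fact.out hA
  refine ⟨redC1 hℓN hA ⟨_, pow_div_etaQ_mem_BRing y.2 hy2⟩, ?_⟩
  apply cVal_injective N' A
  rw [map_mul, map_pow, cVal_aeval, cVal_redC1, cVal_redC1, rho1_pow_div_etaQ y.2 hy2,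
    ← uInvS_eq_ssPoly ℓ kA hq5]
  have h1 := uS_mul_uInvS kA ℓ
  calc rho1 N' ℓ A h y ^ 12 = rho1 N' ℓ A h ⟨y.1, y.2⟩ ^ 12 * (uS kA ℓ * uInvS kA ℓ) := by
        rw [h1, mul_one]
    _ = _ := by ring

/-- **FIX A**: at a node with `a = φ j~ ∉ {0, 1728}` the supersingular polynomial has a root of
multiplicity EXACTLY `12` at `a`, and `a ∈ 𝔽_{ℓ²}`. -/
theorem rootMultiplicity_ssPoly_node (hq5 : 5 ≤ ℓ) {J' : Ideal (CRing N' A)}
    (hJ' : BT N' ℓ A h = gluedAlg (psiC N' ℓ A hℓN hA) J')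
    (φ : CRing N' A →ₐ[kA] kA) (hφ : J' ≤ RingHom.ker φ.toRingHom)
    (h0 : φ (jtC N' A) ≠ 0) (h1728 : φ (jtC N' A) ≠ 1728) :
    φ (jtC N' A) ^ (ℓ ^ 2) = φ (jtC N' A) ∧
      rootMultiplicity (φ (jtC N' A))
        (@ssPoly ℓ _ kA _ (charP_residue A Fact.out hA) hq5) = 12 := by
  have : CharP kA ℓ := charP_residue A Fact.out hA
  obtain ⟨Pol, hPol⟩ := exists_pol ℓ A hA
  obtain ⟨h1, -, h3⟩ := thick_series ℓ kA hq5 Pol hPol _ h0 h1728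
    (ssPoly_eval_node hℓN hA hq5 hJ' φ hφ)
  exact ⟨h1, h3⟩

end Fermat.Agent.GL.Thick
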