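/-
GATE-L / SMALL-Q (helper95): the supersingular polynomial for EVERY prime `q`, including
`q ∈ {2, 3}` (frozen S36 quantifies over all primes `q ≠ lam` with `q² ∥ M`).

helper63's `ssPoly q k hq5` (GL/Thick/HasseJ, SsPoly) and helper16's `red1_etaQ_eq_aeval`
(GL/Eta/Hasse) need `5 ≤ q` because they use `E_{q-1}` as Hasse invariant.  For the ETA-route
(BLUEPRINT v2, 2677 (V2)-III (1)) only

  `red₁ (Δ(z)/Δ(qz)) = Δ̃^{-(q-1)} = pH(j̃)`,  `pH` monic of degree `q - 1`

is consumed.  For `q ∈ {2, 3}` this is elementary: `240 = 0` in `k`, hence `Ẽ₄ = 1`,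
`j̃ = Δ̃⁻¹` and `Δ̃^{-(q-1)} = j̃^{q-1}`, i.e. `pH = X^{q-1}`.

* `e4S_eq_one : (240 : R) = 0 → e4S R = 1`, `jqModC_eq_deltaInvS`;
* `ssPolyAll q k : k[X]` for every prime `q` (`= ssPoly q k hq5` if `5 ≤ q`, `= X^(q-1)` else);
* `deltaInvS_pow_eq_aeval_all`, `uInvS_eq_ssPolyAll`, `natDegree_ssPolyAll`, `monic_ssPolyAll`,
  `ssPolyAll_ne_zero`;
* `red1_etaQ_eq_aeval_all` : helper16's `red1_etaQ_eq_aeval` without `hq5`.
-/
import Fermat.Agent.GL.Eta.Hasse
import Fermat.Agent.GL.Thick.SsPoly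

set_option autoImplicit false

noncomputable section

namespace Fermat.Agent.GL.SmallQ

open HahnSeries ModularCurve Polynomial IsLocalRing
open Fermat.Agent.S28 Fermat.Agent.S24 Fermat.Agent.GJ.Haupt Fermat.Agent.GL.Thick
open Fermat.Agent.GL.Eta Fermat.Agent.GK.AL Fermat.Agent.GJ.J1 Fermat.Agent.GJ.J1.Val

section Series

variable (R : Type*) [CommRing R]

/-- `E₄ = 1 + 240 ∑ σ₃(n) qⁿ` is `1` as soon as `240 = 0` in the coefficient ring. -/
theorem eisenstein4_map_eq_one (h240 : (240 : R) = 0) :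
    eisenstein4.map (Int.castRingHom R) = 1 := by
  ext n
  rw [PowerSeries.coeff_map, eisenstein4, PowerSeries.coeff_mk, PowerSeries.coeff_one]
  split_ifs with hn
  · simp
  · rw [map_mul]
    have : (Int.castRingHom R) (240 : ℤ) = 0 := by
      rw [eq_intCast]; push_cast; exact h240
    rw [this, zero_mul]

theorem e4S_eq_one (h240 : (240 : R) = 0) : e4S R = 1 := by
  rw [e4S, eisenstein4_map_eq_one R h240, map_one]

/-- in characteristic `2`, `3` (or `5`): `j̃ = Δ̃⁻¹` -/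
theorem jqModC_eq_deltaInvS (h240 : (240 : R) = 0) : jqModC R = deltaInvS R := by
  rw [jqModC_eq_e4S_deltaInvS, e4S_eq_one R h240, one_pow, one_mul]

end Series

section CharSmall

variable (q : ℕ) [hqp : Fact q.Prime] (k : Type*) [Field k] [CharP k q]

/-- `240 = 0` in characteristic `q < 5` -/
theorem cast_240_eq_zero (hq : ¬ 5 ≤ q) : (240 : k) = 0 := by
  have hq2 : 2 ≤ q := hqp.out.two_le
  have hdvd : q ∣ 240 := by
    have : q = 2 ∨ q = 3 ∨ q = 4 := by omega
    rcases this with h | h | h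
    · subst h; norm_num
    · subst h; norm_num
    · subst h; exact absurd hqp.out (by norm_num)
  have := (CharP.cast_eq_zero_iff k q 240).2 hdvd
  exact_mod_cast this

/-- **the supersingular polynomial for EVERY prime `q`** -/
def ssPolyAll : k[X] := if h : 5 ≤ q then ssPoly q k h else X ^ (q - 1)

theorem ssPolyAll_of_le (hq5 : 5 ≤ q) : ssPolyAll q k = ssPoly q k hq5 := dif_pos hq5

theorem ssPolyAll_of_not_le (hq : ¬ 5 ≤ q) : ssPolyAll q k = X ^ (q - 1) := dif_neg hq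

/-- **`Δ̃^{-(q-1)} = pH(J)`**, every prime `q` -/
theorem deltaInvS_pow_eq_aeval_all :
    deltaInvS k ^ (q - 1) = aeval (jqModC k) (ssPolyAll q k) := by
  by_cases hq5 : 5 ≤ q
  · rw [ssPolyAll_of_le q k hq5, deltaInvS_pow_eq_ssPoly q k hq5]
  · rw [ssPolyAll_of_not_le q k hq5, map_pow, aeval_X,
      jqModC_eq_deltaInvS k (cast_240_eq_zero q k hq5)]

/-- **`Δ(Q)/Δ(Q^q) = pH(J)`** in characteristic `q`, every prime `q` -/
theorem uInvS_eq_ssPolyAll [NeZero q] : uInvS k q = aeval (jqModC k) (ssPolyAll q k) := by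
  rw [Fermat.Agent.GK.Cusp.uInvS_char, deltaInvS_pow_eq_aeval_all]

/-- **`deg pH = q - 1`**, every prime `q` -/
theorem natDegree_ssPolyAll : (ssPolyAll q k).natDegree = q - 1 := by
  by_cases hq5 : 5 ≤ q
  · rw [ssPolyAll_of_le q k hq5, Fermat.Agent.GL.Thick.natDegree_ssPoly q k hq5]
  · rw [ssPolyAll_of_not_le q k hq5, natDegree_X_pow]

theorem monic_ssPolyAll : (ssPolyAll q k).Monic := by
  by_cases hq5 : 5 ≤ q
  · rw [ssPolyAll_of_le q k hq5]; exact Fermat.Agent.GL.Thick.monic_ssPoly q k hq5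
  · rw [ssPolyAll_of_not_le q k hq5]; exact monic_X_pow _

theorem ssPolyAll_ne_zero : ssPolyAll q k ≠ 0 := (monic_ssPolyAll q k).ne_zero

/-- for `q ∈ {2, 3}` the only root of `pH` is `0` (the unique supersingular `j`-invariant) -/
theorem ssPolyAll_eval_eq_zero_iff (hq : ¬ 5 ≤ q) (a : k) :
    (ssPolyAll q k).eval a = 0 ↔ a = 0 := by
  rw [ssPolyAll_of_not_le q k hq, eval_pow, eval_X]
  have hq2 : 2 ≤ q := hqp.out.two_le
  exact pow_eq_zero_iff (by omega)

end CharSmall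

section Red

variable (N : ℕ) [NeZero N] (A : ValuationSubring Kbar) (q : ℕ) [Fact q.Prime] [NeZero q]
  (hq : q ∣ N) [CharP (ResidueField A) q]

local notation "𝕜" => ResidueField A

/-- **`red₁ (Δ(z)/Δ(qz)) = pH(j~)`** in the residue field of the Gauss valuation, for EVERY
prime `q ∣ N` (helper16's `red1_etaQ_eq_aeval` without `5 ≤ q`). -/
theorem red1_etaQ_eq_aeval_all (hm : etaQ N q hq ∈ (redDataBar N A).Rw)
    (hj : jF N ∈ (redDataBar N A).Rw) :
    (redDataBar N A).red ⟨etaQ N q hq, hm⟩ =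
      aeval ((redDataBar N A).red ⟨jF N, hj⟩) (ssPolyAll q 𝕜) := by
  apply Subtype.ext
  have h2 : (((aeval ((redDataBar N A).red ⟨jF N, hj⟩) (ssPolyAll q 𝕜) : FresBar N A)) :
      LaurentSeries 𝕜) =
      aeval (((redDataBar N A).red ⟨jF N, hj⟩ : FresBar N A) : LaurentSeries 𝕜)
        (ssPolyAll q 𝕜) :=
    (aeval_algHom_apply (FresBar N A).val _ _).symm
  rw [h2, coe_red1_jF, coe_red1_etaQ_char, deltaInvS_pow_eq_aeval_all q 𝕜]

end Red

end Fermat.Agent.GL.SmallQ
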