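/-
GATE-L / SMALL-Q (helper95), file 5: helper65's L5-III inputs (GL/Thick/EtaNodes.lean) for EVERY
prime `ℓ ∥ N = N' ℓ`, stated with `ssPolyAll ℓ k` (`= ssPoly ℓ k hq5` for `5 ≤ ℓ`, `= X^(ℓ-1)` for
`ℓ ∈ {2, 3}`) — no hypothesis `5 ≤ ℓ`.

`A` over `ℓ`, `C = CRing N' A`, `B = BRing N' ℓ A h`, `B~ = gluedAlg Ψ J'`, `g = etaB = Δ(z)/Δ(ℓ z)`.
A NODE is a `k`-point `φ : C →ₐ[k] k` with `J' ≤ ker φ`.

* `redC1_etaB_all : red₁ g = pH(j~)` in `C`;  `ssPolyAll_mem_ideal : pH(j~) ∈ J'`;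
* `ssPolyAll_eval_node` : every node is a zero of `pH`;
* `ssPolyAll_dvd_pow` : `y ∈ B`, `y/ℓ ∈ Rw₂` ⟹ `pH(j~) ∣ (red₁ y)^12` in `C` (power trick);
* `jtC_node_eq_zero` : for `ℓ ∈ {2, 3}` every node lies over `j~ = 0`;
* `jtC_pow_dvd_pow` : for `ℓ ∈ {2, 3}`: `j~^(ℓ-1) ∣ (red₁ y)^12`.
-/
import Fermat.Agent.GL.Thick.EtaNodes
import Fermat.Agent.GL.Thick.SsPolyAll

set_option autoImplicit false
set_option linter.unusedSectionVars false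

noncomputable section

namespace Fermat.Agent.GL.SmallQ

open HahnSeries ModularCurve IsLocalRing Polynomial
open Fermat.Agent.S24 Fermat.Agent.GJ.J1 Fermat.Agent.GJ.J1.Val Fermat.Agent.S28
open Fermat.Agent.GK.AL Fermat.Agent.GK.QS Fermat.Agent.GK.FrobGlue Fermat.Agent.GL.Eta
open Fermat.Agent.GL.Thick

variable {N' : ℕ} [NeZero N'] {ℓ : ℕ} [Fact ℓ.Prime] [NeZero ℓ]
variable {A : ValuationSubring Kbar} {h : ExactDvd ℓ (N' * ℓ)}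
variable (hℓN : ¬ ℓ ∣ N') (hA : A.LiesOverPrime ℓ)

local notation "kA" => IsLocalRing.ResidueField A

/-- **`red₁ g = pH(j~)`** in the coordinate ring, every prime `ℓ` -/
theorem redC1_etaB_all :
    redC1 hℓN hA (etaB N' ℓ A h (ValuationSubring.nonunits_le hA)) =
      aeval (jtC N' A) (@ssPolyAll ℓ _ kA _ (charP_residue A Fact.out hA)) := by
  have : CharP kA ℓ := charP_residue A Fact.out hA
  apply cVal_injective N' A
  rw [cVal_redC1, rho1_etaB, cVal_aeval, uInvS_eq_ssPolyAll ℓ kA]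

/-- **`pH(j~) ∈ J'`**, every prime `ℓ` -/
theorem ssPolyAll_mem_ideal {J' : Ideal (CRing N' A)}
    (hJ' : BT N' ℓ A h = gluedAlg (psiC N' ℓ A hℓN hA) J') :
    aeval (jtC N' A) (@ssPolyAll ℓ _ kA _ (charP_residue A Fact.out hA)) ∈ J' := by
  rw [← redC1_etaB_all (h := h) hℓN hA]
  exact mem_ideal_of_rho2_eq_zero hℓN hA hJ' _ (rho2_etaB N' ℓ A h hA)

/-- **every node is a zero of the supersingular polynomial**, every prime `ℓ` -/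
theorem ssPolyAll_eval_node {J' : Ideal (CRing N' A)}
    (hJ' : BT N' ℓ A h = gluedAlg (psiC N' ℓ A hℓN hA) J')
    (φ : CRing N' A →ₐ[kA] kA) (hφ : J' ≤ RingHom.ker φ.toRingHom) :
    (@ssPolyAll ℓ _ kA _ (charP_residue A Fact.out hA)).eval (φ (jtC N' A)) = 0 := by
  have h1 : φ (aeval (jtC N' A) (@ssPolyAll ℓ _ kA _ (charP_residue A Fact.out hA))) = 0 :=
    hφ (ssPolyAll_mem_ideal hℓN hA hJ')
  rwa [eval_aeval_jtC] at h1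

/-- **the power trick in `C`**, every prime `ℓ`: `y ∈ B` with `y/ℓ ∈ Rw₂` ⟹
`pH(j~) ∣ (red₁ y)^12` -/
theorem ssPolyAll_dvd_pow (y : BRing N' ℓ A h)
    (hy2 : (y : FN (N' * ℓ)) / (ℓ : FN (N' * ℓ)) ∈ (redData2 (N' * ℓ) A h).Rw) :
    aeval (jtC N' A) (@ssPolyAll ℓ _ kA _ (charP_residue A Fact.out hA)) ∣
      redC1 hℓN hA y ^ 12 := by
  have : CharP kA ℓ := charP_residue A Fact.out hA
  refine ⟨redC1 hℓN hA ⟨_, pow_div_etaQ_mem_BRing y.2 hy2⟩, ?_⟩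
  apply cVal_injective N' A
  rw [map_mul, map_pow, cVal_aeval, cVal_redC1, cVal_redC1, rho1_pow_div_etaQ y.2 hy2,
    ← uInvS_eq_ssPolyAll ℓ kA]
  have h1 := uS_mul_uInvS kA ℓ
  calc rho1 N' ℓ A h y ^ 12 = rho1 N' ℓ A h ⟨y.1, y.2⟩ ^ 12 * (uS kA ℓ * uInvS kA ℓ) := by
        rw [h1, mul_one]
    _ = _ := by ring

/-- for `ℓ ∈ {2, 3}` **every node lies over the supersingular value `j~ = 0`** -/
theorem jtC_node_eq_zero (hℓ : ¬ 5 ≤ ℓ) {J' : Ideal (CRing N' A)}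
    (hJ' : BT N' ℓ A h = gluedAlg (psiC N' ℓ A hℓN hA) J')
    (φ : CRing N' A →ₐ[kA] kA) (hφ : J' ≤ RingHom.ker φ.toRingHom) :
    φ (jtC N' A) = 0 := by
  have : CharP kA ℓ := charP_residue A Fact.out hA
  exact (ssPolyAll_eval_eq_zero_iff ℓ kA hℓ _).1 (ssPolyAll_eval_node hℓN hA hJ' φ hφ)

/-- for `ℓ ∈ {2, 3}`: `j~^(ℓ-1) ∈ J'` -/
theorem jtC_pow_mem_ideal (hℓ : ¬ 5 ≤ ℓ) {J' : Ideal (CRing N' A)}
    (hJ' : BT N' ℓ A h = gluedAlg (psiC N' ℓ A hℓN hA) J') :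
    jtC N' A ^ (ℓ - 1) ∈ J' := by
  have : CharP kA ℓ := charP_residue A Fact.out hA
  have h1 := ssPolyAll_mem_ideal (h := h) hℓN hA hJ'
  rwa [ssPolyAll_of_not_le ℓ kA hℓ, map_pow, aeval_X] at h1

/-- for `ℓ ∈ {2, 3}`: the power trick reads `j~^(ℓ-1) ∣ (red₁ y)^12` -/
theorem jtC_pow_dvd_pow (hℓ : ¬ 5 ≤ ℓ) (y : BRing N' ℓ A h)
    (hy2 : (y : FN (N' * ℓ)) / (ℓ : FN (N' * ℓ)) ∈ (redData2 (N' * ℓ) A h).Rw) :
    jtC N' A ^ (ℓ - 1) ∣ redC1 hℓN hA y ^ 12 := by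
  have : CharP kA ℓ := charP_residue A Fact.out hA
  have h1 := ssPolyAll_dvd_pow (h := h) hℓN hA y hy2
  rwa [ssPolyAll_of_not_le ℓ kA hℓ, map_pow, aeval_X] at h1

end Fermat.Agent.GL.SmallQ
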