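/-
GATE-L / hedge (B) tail (helper92): **the number of zeros of `b(s)` on the affine curve `Spec B`**.

`K` algebraically closed, `s : F` transcendental over `K`, `F` finite separable over `K(s)`,
`B := integralClosure K[s] F` (a Dedekind domain, J1 `ChartAKLB`).  Then for every polynomial
`b ≠ 0` the principal ideal `(b(s)) ⊂ B` has exactly `deg b · [F : K(s)]` prime factors, counted
with multiplicity:

* `card_normalizedFactors_map` : abstract `Σ e = rank` when all residue degrees are `1`
  (Mathlib `Ideal.sum_ramification_inertia_eq_finrank`);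
* `inertiaDeg_eq_one_of_isAlgClosed` : residue degree `1` over an algebraically closed residue field;
* `card_normalizedFactors_linear` : `(s - a) B` has `[F : K(s)]` prime factors;
* `card_normalizedFactors_aeval` : `(b(s)) B` has `deg b · [F : K(s)]` prime factors.

Consumer: `ThickCount.span_eq_pow_of_card_le` (its `hcard`), with `b := ssPoly`, `s := j~`.
-/
import Mathlib
import Fermat.Agent.GJ.J1.ChartAKLB

set_option autoImplicit false
set_option linter.style.haveILetI false
set_option linter.unusedSectionVars false

open Polynomial Ideal UniqueFactorizationMonoid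
open scoped IntermediateField.algebraAdjoinAdjoin

namespace Fermat.Agent.GL.Thick.ZeroCount

open Fermat.Agent.GJ.J1

universe u v

/-! ### Abstract: `Σ e = rank` when all residue degrees are `1` -/

section Abs

variable {R S : Type*} [CommRing R] [CommRing S] [IsDedekindDomain R] [IsDedekindDomain S]
  [Algebra R S] [Module.Finite R S] [Module.IsTorsionFree R S]

open Classical in
/-- if every prime over the maximal ideal `p` has residue degree `1`, then `p S` has exactly
`rank_R S` prime factors (with multiplicity). -/
theorem card_normalizedFactors_map (p : Ideal R) [hpm : p.IsMaximal] (hp0 : p ≠ ⊥)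
    (hf : ∀ q : Ideal S, q.IsMaximal → q.LiesOver p → q.inertiaDeg R = 1) :
    (normalizedFactors (p.map (algebraMap R S))).card = Module.finrank R S := by
  have hpS : p.map (algebraMap R S) ≠ ⊥ := map_ne_bot_of_ne_bot hp0
  have hsum := Ideal.sum_ramification_inertia_eq_finrank p S
  rw [← hsum]
  have h1 : ∀ q : p.primesOver S, (q : Ideal S).ramificationIdx R * (q : Ideal S).inertiaDeg R
      = Multiset.count (q : Ideal S) (normalizedFactors (p.map (algebraMap R S))) := by
    rintro ⟨q, hq, hqp⟩
    have hq0 : q ≠ ⊥ := ne_bot_of_le_ne_bot hpS (map_le_of_le_comap (q.over_def p).le)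
    have hqm : q.IsMaximal := hq.isMaximal hq0
    rw [hf q hqm hqp, mul_one,
      Ideal.IsDedekindDomain.ramificationIdx_eq_normalizedFactors_count p q hpS]
  rw [Finset.sum_congr rfl (fun q _ => h1 q)]
  rw [← Multiset.toFinset_sum_count_eq (normalizedFactors (p.map (algebraMap R S)))]
  have hcoe := IsDedekindDomain.coe_primesOverFinset hp0 S
  symm
  rw [Finset.sum_set_coe (s := p.primesOver S)
    (f := fun q => Multiset.count q (normalizedFactors (p.map (algebraMap R S))))]
  apply Finset.sum_congr _ (fun _ _ => rfl)
  apply Finset.coe_injective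
  rw [Set.coe_toFinset, ← hcoe]
  unfold IsDedekindDomain.primesOverFinset
  rw [factors_eq_normalizedFactors]

end Abs

/-- residue degree `1` over an algebraically closed residue field. -/
theorem inertiaDeg_eq_one_of_isAlgClosed {R S : Type*} [CommRing R] [CommRing S] [Algebra R S]
    [Module.Finite R S] (p : Ideal R) [hp : p.IsMaximal] (q : Ideal S)
    [hq : q.IsMaximal] [hqp : q.LiesOver p]
    (halg : @IsAlgClosed (R ⧸ p) (Ideal.Quotient.field p)) : q.inertiaDeg R = 1 := by
  rw [Ideal.inertiaDeg_eq_of_isMaximal p q]
  letI : Field (R ⧸ p) := Ideal.Quotient.field p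
  letI : Field (S ⧸ q) := Ideal.Quotient.field q
  haveI : IsAlgClosed (R ⧸ p) := halg
  haveI : Module.Finite (R ⧸ p) (S ⧸ q) := inferInstance
  haveI : Algebra.IsIntegral (R ⧸ p) (S ⧸ q) := inferInstance
  have hbij := IsAlgClosed.algebraMap_bijective_of_isIntegral (k := R ⧸ p) (K := S ⧸ q)
  have e : (R ⧸ p) ≃ₗ[R ⧸ p] (S ⧸ q) :=
    LinearEquiv.ofBijective (Algebra.linearMap (R ⧸ p) (S ⧸ q)) hbij
  rw [← e.finrank_eq, Module.finrank_self]

/-- universe-polymorphic transport of algebraic closedness along a ring isomorphism. -/
theorem isAlgClosed_of_ringEquiv' {k : Type u} {k' : Type v} [Field k] [Field k'] (e : k ≃+* k')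
    [IsAlgClosed k] : IsAlgClosed k' := by
  apply IsAlgClosed.of_exists_root
  intro p hmp hp
  have hpe : degree (p.map e.symm.toRingHom) ≠ 0 := by
    rw [degree_map]
    exact ne_of_gt (degree_pos_of_irreducible hp)
  rcases IsAlgClosed.exists_root (k := k) (p.map e.symm.toRingHom) hpe with ⟨x, hx⟩
  use e x
  rw [IsRoot] at hx
  apply e.symm.injective
  rw [map_zero, ← hx]
  clear hx hpe hp hmp
  induction p using Polynomial.induction_on <;> simp_all

/-! ### The chart `K[s] ⊂ B = integralClosure K[s] F` -/

variable {K : Type u} {F : Type v} [Field K] [Field F] [Algebra K F] (s : F)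

/-- the element `s - a` of `K[s]` -/
noncomputable def adjoinLin (a : K) : Algebra.adjoin K {s} := aevalAdjoin s (X - C a)

theorem adjoinLin_ne_zero (hs : Transcendental K s) (a : K) : adjoinLin s a ≠ 0 := by
  intro h
  have := aevalAdjoinHom_injective hs (a₁ := X - C a) (a₂ := 0) (by rw [map_zero]; exact h)
  exact X_sub_C_ne_zero a this

theorem irreducible_adjoinLin (hs : Transcendental K s) (a : K) : Irreducible (adjoinLin s a) := by
  let e : K[X] ≃+* Algebra.adjoin K {s} :=
    RingEquiv.ofBijective (aevalAdjoinHom s) ⟨aevalAdjoinHom_injective hs, aevalAdjoin_surjective s⟩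
  have : adjoinLin s a = e (X - C a) := rfl
  rw [this]
  exact (MulEquiv.irreducible_iff e.toMulEquiv).mpr (irreducible_X_sub_C a)

theorem isMaximal_span_adjoinLin (hs : Transcendental K s) (a : K) :
    (Ideal.span {adjoinLin s a}).IsMaximal :=
  PrincipalIdealRing.isMaximal_of_irreducible (irreducible_adjoinLin s hs a)

theorem span_adjoinLin_ne_bot (hs : Transcendental K s) (a : K) :
    Ideal.span {adjoinLin s a} ≠ ⊥ := by
  rw [Ne, Ideal.span_singleton_eq_bot]
  exact adjoinLin_ne_zero s hs a

/-- every element of `K[s]` is congruent to a constant modulo `s - a` -/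
theorem exists_sub_mem_span_adjoinLin (a : K) (x : Algebra.adjoin K {s}) :
    ∃ c : K, x - algebraMap K (Algebra.adjoin K {s}) c ∈ Ideal.span {adjoinLin s a} := by
  obtain ⟨b, rfl⟩ := aevalAdjoin_surjective s x
  refine ⟨b.eval a, ?_⟩
  rw [Ideal.mem_span_singleton]
  have h1 : b = (X - C a) * (b /ₘ (X - C a)) + C (b.eval a) := by
    conv_lhs => rw [← modByMonic_add_div b (X - C a), modByMonic_X_sub_C_eq_C_eval]
    ring
  refine ⟨aevalAdjoin s (b /ₘ (X - C a)), ?_⟩
  apply Subtype.ext
  simp only [adjoinLin, Subalgebra.coe_sub, coe_aevalAdjoin, Subalgebra.coe_algebraMap,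
    MulMemClass.coe_mul]
  conv_lhs => rw [h1]
  simp

/-- the residue field `K[s]/(s - a)` is `K`, hence algebraically closed. -/
theorem isAlgClosed_quotient_adjoinLin [IsAlgClosed K] (hs : Transcendental K s) (a : K) :
    haveI := isMaximal_span_adjoinLin s hs a
    @IsAlgClosed (Algebra.adjoin K {s} ⧸ Ideal.span {adjoinLin s a})
      (Ideal.Quotient.field (Ideal.span {adjoinLin s a})) := by
  haveI := isMaximal_span_adjoinLin s hs a
  letI : Field (Algebra.adjoin K {s} ⧸ Ideal.span {adjoinLin s a}) :=
    Ideal.Quotient.field (Ideal.span {adjoinLin s a})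
  let f : K →+* (Algebra.adjoin K {s} ⧸ Ideal.span {adjoinLin s a}) :=
    (Ideal.Quotient.mk (Ideal.span {adjoinLin s a})).comp (algebraMap K (Algebra.adjoin K {s}))
  have hsurj : Function.Surjective f := by
    intro y
    obtain ⟨x, rfl⟩ := Ideal.Quotient.mk_surjective y
    obtain ⟨c, hc⟩ := exists_sub_mem_span_adjoinLin s a x
    refine ⟨c, ?_⟩
    show Ideal.Quotient.mk _ (algebraMap K (Algebra.adjoin K {s}) c) = Ideal.Quotient.mk _ x
    exact ((Ideal.Quotient.mk_eq_mk_iff_sub_mem _ _).mpr hc).symm
  exact isAlgClosed_of_ringEquiv' (RingEquiv.ofBijective f ⟨f.injective, hsurj⟩)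

/-- the image of `b(s)` in the integral closure `B` of `K[s]` -/
noncomputable def aevalB (b : K[X]) : integralClosure (Algebra.adjoin K {s}) F :=
  algebraMap (Algebra.adjoin K {s}) (integralClosure (Algebra.adjoin K {s}) F) (aevalAdjoin s b)

@[simp] theorem coe_aevalB (b : K[X]) :
    ((aevalB s b : integralClosure (Algebra.adjoin K {s}) F) : F) = Polynomial.aeval s b := rfl

theorem aevalB_mul (a b : K[X]) : aevalB s (a * b) = aevalB s a * aevalB s b := by
  apply Subtype.ext; simp

theorem aevalB_C (c : K) :
    aevalB s (C c) = algebraMap K (integralClosure (Algebra.adjoin K {s}) F) c := by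
  apply Subtype.ext; simp

theorem aevalB_ne_zero (hs : Transcendental K s) {b : K[X]} (hb : b ≠ 0) : aevalB s b ≠ 0 := by
  intro h
  have h1 : Polynomial.aeval s b = 0 := by
    have := congrArg Subtype.val h
    simpa using this
  exact hb ((transcendental_iff.mp hs) b h1)

variable [FiniteDimensional (IntermediateField.adjoin K {s}) F]
  [Algebra.IsSeparable (IntermediateField.adjoin K {s}) F]

/-- **`(s - a) B` has exactly `[F : K(s)]` prime factors** (with multiplicity). -/
theorem card_normalizedFactors_linear [IsAlgClosed K] (hs : Transcendental K s) (a : K) :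
    (normalizedFactors (Ideal.span {aevalB s (X - C a)})).card
      = Module.finrank (IntermediateField.adjoin K {s}) F := by
  haveI := isMaximal_span_adjoinLin s hs a
  have h := card_normalizedFactors_map (R := Algebra.adjoin K {s})
    (S := integralClosure (Algebra.adjoin K {s}) F) (Ideal.span {adjoinLin s a})
    (span_adjoinLin_ne_bot s hs a)
    (fun q hq hqp => by
      haveI := hq
      haveI := hqp
      exact inertiaDeg_eq_one_of_isAlgClosed _ q (isAlgClosed_quotient_adjoinLin s hs a))
  rw [Ideal.map_span, Set.image_singleton] at h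
  have e : aevalB s (X - C a) = algebraMap (Algebra.adjoin K {s})
      (integralClosure (Algebra.adjoin K {s}) F) (adjoinLin s a) := rfl
  rw [e, h]
  exact (IsFractionRing.finrank_eq (Algebra.adjoin K {s}) (IntermediateField.adjoin K {s})
    (integralClosure (Algebra.adjoin K {s}) F) F).symm

theorem card_normalizedFactors_aux [IsAlgClosed K] (hs : Transcendental K s) {c : K} (hc : c ≠ 0)
    (m : Multiset K) :
    (normalizedFactors (Ideal.span {aevalB s (C c * (m.map (fun a => X - C a)).prod)})).card
      = m.card * Module.finrank (IntermediateField.adjoin K {s}) F := by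
  induction m using Multiset.induction with
  | empty =>
    simp only [Multiset.map_zero, Multiset.prod_zero, mul_one, Multiset.card_zero, zero_mul]
    have hu : IsUnit (aevalB s (C c)) := by
      rw [aevalB_C]
      exact (IsUnit.mk0 c hc).map _
    rw [Ideal.span_singleton_eq_top.mpr hu, ← Ideal.one_eq_top, normalizedFactors_one]
    rfl
  | cons a m ih =>
    have hne1 : (X - C a : K[X]) ≠ 0 := X_sub_C_ne_zero a
    have hne2 : (C c * (m.map (fun a => X - C a)).prod : K[X]) ≠ 0 := by
      apply mul_ne_zero (C_ne_zero.mpr hc)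
      apply Multiset.prod_ne_zero
      intro h0
      obtain ⟨b, _, hb⟩ := Multiset.mem_map.mp h0
      exact X_sub_C_ne_zero b hb
    have hrew : (C c * ((a ::ₘ m).map (fun a => X - C a)).prod : K[X])
        = (X - C a) * (C c * (m.map (fun a => X - C a)).prod) := by
      rw [Multiset.map_cons, Multiset.prod_cons]; ring
    rw [hrew, aevalB_mul, ← Ideal.span_singleton_mul_span_singleton,
      normalizedFactors_mul, Multiset.card_add, ih, Multiset.card_cons,
      card_normalizedFactors_linear s hs a]
    · ring
    · rw [Ne, Ideal.zero_eq_bot, Ideal.span_singleton_eq_bot]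
      exact aevalB_ne_zero s hs hne1
    · rw [Ne, Ideal.zero_eq_bot, Ideal.span_singleton_eq_bot]
      exact aevalB_ne_zero s hs hne2

/-- **`(b(s)) B` has exactly `deg b · [F : K(s)]` prime factors** (with multiplicity): the
degree of the divisor of zeros of `b(s)` on the affine curve `Spec B`. -/
theorem card_normalizedFactors_aeval [IsAlgClosed K] (hs : Transcendental K s) {b : K[X]}
    (hb : b ≠ 0) :
    (normalizedFactors (Ideal.span {aevalB s b})).card
      = b.natDegree * Module.finrank (IntermediateField.adjoin K {s}) F := by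
  have hsp : b.Splits := IsAlgClosed.splits b
  have h1 := hsp.eq_prod_roots
  have hlc : b.leadingCoeff ≠ 0 := leadingCoeff_ne_zero.mpr hb
  have := card_normalizedFactors_aux s hs hlc b.roots
  rw [← h1] at this
  rw [this, hsp.natDegree_eq_card_roots]

end Fermat.Agent.GL.Thick.ZeroCount
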