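/-
GATE-L / hedge (B) tail, part 2 (helper92): **thickness `12` at EVERY node from the node COUNT**,
uniformly in the prime `ℓ` (no `(S4)`, no local analysis over `j = 0, 1728`).

Setting of helper65/helper95 `EtaNodes(All)`: `A | ℓ`, `ℓ ∤ N'`, `C = CRing N' A`,
`B~ = gluedAlg Ψ J'`, `pH = ssPolyAll ℓ k`, `g~ = pH(j~) ∈ C`.

* `card_zeros_aeval_jtC` : `(b(j~))` has `deg b · ψ(N')` prime factors in `C` (`ZeroCount`);
* `card_zeros_ssPolyAll` : `#zeros (pH(j~)) = (ℓ - 1) · ψ(N')`;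
* `span_ssPolyAll_eq_pow` : `(∀ a ∈ J', g~ ∣ a^12)`, `J'` radical, `12 · #nodes ≤ (ℓ-1) ψ(N')`
  ⟹ `(g~) = J'^12`;
* `ssPolyAll_mem_pow_node` : … ⟹ `g~ ∈ P^12` at every node `P` (= (III) of helper28 2874);
* `twelve_mul_ncard_nodes_le` : the numerical hypothesis from `DeltaNodes.card_nodes_le` and the
  three genus facts (`GL/Genus`, J1 `GenusEq`) in hypothesis form.
-/
import Fermat.Agent.GL.Thick.EtaNodesAll
import Fermat.Agent.GL.Thick.ZeroCount
import Fermat.Agent.GL.Alg.ThickCount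
import Fermat.Agent.GK.SS.CRingFacts
import Fermat.Agent.GJ.J1.Gauss.DegAtJUse
import Fermat.Agent.GK.Flat.DeltaNodes

set_option autoImplicit false
set_option linter.unusedSectionVars false
set_option linter.style.haveILetI false

noncomputable section

namespace Fermat.Agent.GL.Thick.CountB

open HahnSeries ModularCurve IsLocalRing Polynomial UniqueFactorizationMonoid IntermediateField
open Fermat.Agent.S24 Fermat.Agent.GJ.J1 Fermat.Agent.GJ.J1.Val Fermat.Agent.S28 Fermat.Agent.GJ.J1.Haupt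
open Fermat.Agent.GK.AL Fermat.Agent.GK.QS Fermat.Agent.GK.FrobGlue Fermat.Agent.GL.Eta
open Fermat.Agent.GL.Thick Fermat.Agent.GL.SmallQ Fermat.Agent.GL.ThickCount

variable {N' : ℕ} [NeZero N'] {ℓ : ℕ} [Fact ℓ.Prime] [NeZero ℓ]
variable {A : ValuationSubring Kbar} {h : ExactDvd ℓ (N' * ℓ)}
variable (hℓN : ¬ ℓ ∣ N') (hA : A.LiesOverPrime ℓ)

local notation "kA" => IsLocalRing.ResidueField A

include hℓN hA in
/-- `(b(j~))` has `deg b · ψ(N')` prime factors in the coordinate ring. -/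
theorem card_zeros_aeval_jtC [IsDedekindDomain (CRing N' A)] {b : kA[X]}
    (hb : b ≠ 0) :
    (normalizedFactors (Ideal.span {aeval (jtC N' A) b})).card = b.natDegree * dedekindPsi N' := by
  have hℓ : ℓ.Prime := Fact.out
  haveI : CharP kA ℓ := charP_residue A hℓ hA
  haveI : FiniteDimensional kA⟮Fermat.Agent.GK.QS.jt N' A⟯ (FresBar N' A) :=
    (Fermat.Agent.GK.Val.Degrees.finiteDimensional_f1 N' A (jF_mem_Rw N' A)).1
  haveI : Algebra.IsSeparable kA⟮Fermat.Agent.GK.QS.jt N' A⟯ (FresBar N' A) :=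
    Fermat.Agent.GJ.J1.G1.isSeparable_adjoin_of_embedding ℓ (FresBar N' A).val (Fermat.Agent.GK.QS.jt N' A)
      (hord_jF N' A hℓ _)
  have htr : Transcendental kA (Fermat.Agent.GK.QS.jt N' A) := by
    apply Fres.transcendental_of_coe
    rw [Fermat.Agent.GK.QS.coe_jt]
    exact transcendental_jqModC _
  have key := ZeroCount.card_normalizedFactors_aeval (Fermat.Agent.GK.QS.jt N' A) htr hb
  rw [show Module.finrank kA⟮Fermat.Agent.GK.QS.jt N' A⟯ (FresBar N' A) = dedekindPsi N' from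
    Fermat.Agent.GJ.GaussDeg.finrank_Fres_eq_psi N' A hℓN hA] at key
  have e : aeval (jtC N' A) b = (show CRing N' A from ZeroCount.aevalB (Fermat.Agent.GK.QS.jt N' A) b) := by
    apply Subtype.ext
    show ((aeval (jtC N' A) b : CRing N' A) : FresBar N' A) = aeval (Fermat.Agent.GK.QS.jt N' A) b
    rw [← Subalgebra.coe_val, ← aeval_algHom_apply]
    rfl
  rw [e]
  exact key

include hℓN hA in
/-- **`#zeros (pH(j~)) = (ℓ - 1) · ψ(N')`**, every prime `ℓ`. -/
theorem card_zeros_ssPolyAll [IsDedekindDomain (CRing N' A)] :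
    (normalizedFactors (Ideal.span
      {aeval (jtC N' A) (@ssPolyAll ℓ _ kA _ (charP_residue A Fact.out hA))})).card
      = (ℓ - 1) * dedekindPsi N' := by
  haveI : CharP kA ℓ := charP_residue A Fact.out hA
  rw [card_zeros_aeval_jtC hℓN hA (ssPolyAll_ne_zero ℓ kA), natDegree_ssPolyAll]

include hℓN hA in
/-- **thickness from the count, global form**: `(pH(j~)) = J'^12`. -/
theorem span_ssPolyAll_eq_pow [IsDedekindDomain (CRing N' A)]
    {J' : Ideal (CRing N' A)} (hJ0 : J' ≠ ⊥) (hrad : J'.IsRadical)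
    (hdvd : ∀ a ∈ J',
      aeval (jtC N' A) (@ssPolyAll ℓ _ kA _ (charP_residue A Fact.out hA)) ∣ a ^ 12)
    (hnum : 12 * (nodes J').ncard ≤ (ℓ - 1) * dedekindPsi N') :
    Ideal.span {aeval (jtC N' A) (@ssPolyAll ℓ _ kA _ (charP_residue A Fact.out hA))}
      = J' ^ 12 := by
  apply span_eq_pow_of_card_le (by norm_num) hJ0 hdvd
  rw [card_normalizedFactors_eq_ncard hJ0 hrad, card_zeros_ssPolyAll hℓN hA]
  exact hnum

include hℓN hA in
/-- **(III) of the ETA-route at EVERY node** (helper28 2874), from the count: `pH(j~) ∈ P^12`. -/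
theorem ssPolyAll_mem_pow_node [IsDedekindDomain (CRing N' A)]
    {J' : Ideal (CRing N' A)} (hJ0 : J' ≠ ⊥) (hrad : J'.IsRadical)
    (hdvd : ∀ a ∈ J',
      aeval (jtC N' A) (@ssPolyAll ℓ _ kA _ (charP_residue A Fact.out hA)) ∣ a ^ 12)
    (hnum : 12 * (nodes J').ncard ≤ (ℓ - 1) * dedekindPsi N')
    {P : Ideal (CRing N' A)} (hP : P ∈ nodes J') :
    aeval (jtC N' A) (@ssPolyAll ℓ _ kA _ (charP_residue A Fact.out hA)) ∈ P ^ 12 := by
  have h1 := span_ssPolyAll_eq_pow hℓN hA hJ0 hrad hdvd hnum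
  have h2 : aeval (jtC N' A) (@ssPolyAll ℓ _ kA _ (charP_residue A Fact.out hA)) ∈ J' ^ 12 := by
    rw [← h1]; exact Ideal.mem_span_singleton_self _
  exact Ideal.pow_right_mono hP.2 12 h2

section Genus

open Fermat.Agent.GK.DeltaNodes AlgebraicCurve

variable [Fermat.Agent.RRh45.FiniteResidues Kbar (FN (N' * ℓ))]
  [HasPrincipalDivisors Kbar (FN (N' * ℓ))] [Nonempty (Place Kbar (FN (N' * ℓ)))]
  [Fermat.Agent.RRh45.FiniteResidues (IsLocalRing.ResidueField A) (FresBar (N' * ℓ) A)]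
  [HasPrincipalDivisors (IsLocalRing.ResidueField A) (FresBar (N' * ℓ) A)]
  [Nonempty (Place (IsLocalRing.ResidueField A) (FresBar (N' * ℓ) A))]

include hℓN hA in
/-- **the numerical hypothesis `hnum` from the genus**: K's upper bound
`#Σ' + 2 g(F̃) ≤ g(F_{N'ℓ}) + 1` (`DeltaNodes.card_nodes_le`) and the three genus facts
(`GL/Genus` for `hgF`, J1 `GenusEq` + `GL/Genus` for `hgR`, numerics under `ν₂ = ν₃ = 0` for
`hnumerics`). -/
theorem twelve_mul_ncard_nodes_le {J' : Ideal (CRing N' A)}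
    (hBT : BT N' ℓ A h = gluedAlg (psiC N' ℓ A hℓN hA) J')
    (hcount : Module.finrank kA ((CRing N' A × CRing N' A) ⧸
      Subalgebra.toSubmodule (gluedAlg (psiC N' ℓ A hℓN hA) J')) = (nodes J').ncard)
    {g1 g0 : ℤ}
    (hgF : InstGen.genusRR Kbar (FN (N' * ℓ)) = g1)
    (hgR : InstGen.genusRR kA (FresBar (N' * ℓ) A) = g0)
    (hnumerics : 12 * (g1 + 1 - 2 * g0) = (((ℓ - 1) * dedekindPsi N' : ℕ) : ℤ)) :
    12 * (nodes J').ncard ≤ (ℓ - 1) * dedekindPsi N' := by
  have h1 := card_nodes_le N' ℓ A h hℓN hA hBT hcount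
  rw [hgF, hgR] at h1
  have h2 : (12 * ((nodes J').ncard : ℤ)) ≤ 12 * (g1 + 1 - 2 * g0) := by linarith
  rw [hnumerics] at h2
  exact_mod_cast h2

end Genus

end Fermat.Agent.GL.Thick.CountB
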