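import Fermat.Agent.GL.Thick.NodesSS
import Fermat.Agent.GL.Red.RatBRing
import Fermat.Agent.GL.Val.OrthK0
import Fermat.Agent.GK.SS.CRingFacts
import Fermat.Agent.GL.Reg.EtaThick

/-!
# GATE-L / L5-III (helper65): contract (I) + (II) of the ETA-route, UNCONDITIONAL, in `C`

Setting of `GL/Thick/{KRedB,EtaNodes,NodesSS}.lean`: `ℓ ∥ N = N' ℓ`, `A` over `ℓ`, `C = CRing N' A`
(a Dedekind domain), `B = BRing N' ℓ A h`, `B~ = BT = gluedAlg Ψ J'`, `pH = ssPolyAll ℓ k`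
(helper95; `= ssPoly` of helper63 for `ℓ ≥ 5`), `g = etaQ` with `red₁ g = pH(j~)`.

Inputs, all LANDED: helper96 `RatBRing.exists_rat_lift_BRing` (`rd(B_R) = rd(B_A)`), helper45
`OrthK0.hasOrthoBasesK0` (ORTH over `K₀`) and `SecondK0.exists_eq_q_mul₂` (`e₂ = 1` over `K₀`),
helper95 `ssPolyAll_dvd_pow` (the power trick in `C`), `GK/Nodal/FrobGlue.fixIdeal_not_le_sq`,
`GK/QS/FrobStable.exists_pow_eq_psiC`, `GK/SS/CRingFacts.isDedekindDomain_CRing`, helper28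
`GL/Reg/EtaThick`.

* `exists_rat_lift_of_mem_ideal` : every `a ∈ J'` is `red₁` of (the image of) a `K₀`-RATIONAL
  `x0`, integral over `K₀[j]`, `w₁ x0 ≥ 0`, `red₂ x0 = 0` **and `x0 / ℓ ∈ Rw₂`** (`w₂ x0 ≥ w₂ ℓ`);
* **`ssPolyAll_dvd_pow_of_mem_ideal`** : (I) `∀ a ∈ J', pH(j~) ∣ a ^ 12` in `C`, every prime `ℓ`;
* `not_ideal_le_sq`, `isRadical_ideal` : (II) `J' ⊄ P²` at every maximal `P`, `J'` radical;
* `exists_pow_eq_mul_notMem_node` : at a maximal `P` with (III) `pH(j~) ∈ P ^ 12`: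
  `∃ a ∈ J', ∃ c, a ^ 12 = pH(j~) * c ∧ c ∉ P`;
* `ssPolyAll_notMem_pow_succ` : `ord_P pH(j~) ≤ 12` at every maximal `P` (from (I) + (II)), so
  (III) is EQUIVALENT to `ord_P pH(j~) = 12`;
* `ssPoly_mem_pow_node_of_ne`, `exists_pow_eq_mul_notMem_node_of_ne` : (III) and the pointwise
  identity UNCONDITIONALLY at nodes `φ` with `φ j~ ∉ {0, 1728}`, `ℓ ≥ 5` (FIX A:
  `rootMultiplicity_ssPoly_node`).
-/

set_option autoImplicit false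
set_option linter.unusedSectionVars false
set_option linter.style.haveILetI false

noncomputable section

namespace Fermat.Agent.GL.Thick

open HahnSeries ModularCurve IsLocalRing Polynomial
open Fermat.Agent.S24 Fermat.Agent.GJ.J1 Fermat.Agent.GJ.J1.Val Fermat.Agent.S28
open Fermat.Agent.GK.AL Fermat.Agent.GK.QS Fermat.Agent.GK.FrobGlue Fermat.Agent.GL.Eta
open Fermat.Agent.GL.SmallQ
open Fermat.Agent.GL.Val.GaussK0 Fermat.Agent.GL.Val.SecondK0 Fermat.Agent.GL.Val.DegBase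
open Fermat.Agent.GL.RatBRing Fermat.Agent.GL.Val.OrthK0

variable {N' : ℕ} [NeZero N'] {ℓ : ℕ} [Fact ℓ.Prime] [NeZero ℓ]
variable {A : ValuationSubring Kbar} {h : ExactDvd ℓ (N' * ℓ)}
variable (hℓN : ¬ ℓ ∣ N') (hA : A.LiesOverPrime ℓ)

local notation "kA" => IsLocalRing.ResidueField A

/-! ### rational lifts of the elements of `J'`, with `w₂ ≥ w₂(ℓ)` -/

/-- a `K₀`-rational nonunit of `w₂` is divisible by `ℓ` in `Rw₂` (`e₂ = 1`) -/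
theorem mapK0Bar_div_mem_Rw2 (hA : A.LiesOverPrime ℓ) (N : ℕ) [NeZero N] (h' : ExactDvd ℓ N)
    {x0 : modularFunctionFieldFullC (K0 A) N}
    (hx0 : mapK0Bar A N x0 ∈ (redData2 N A h').Rw.nonunits) :
    mapK0Bar A N x0 / (ℓ : FN N) ∈ (redData2 N A h').Rw := by
  have hq : ℓ.Prime := Fact.out
  have hx : x0 ∈ (redData2K0 A N h').Rw.nonunits := (mem_nonunits_Rw2K0_iff A N h' x0).mpr hx0
  obtain ⟨y, hy, hxy⟩ := exists_eq_q_mul₂ A N h' hq hA x0 hx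
  have hℓ0 : (ℓ : FN N) ≠ 0 := Nat.cast_ne_zero.mpr hq.ne_zero
  have e : mapK0Bar A N x0 = (ℓ : FN N) * mapK0Bar A N y := by
    rw [hxy, map_mul, mapK0Bar_algebraMap, ι0_q0, map_natCast]
  rw [e, mul_div_cancel_left₀ _ hℓ0]
  exact (mem_Rw2K0_iff A N h' y).mp hy

/-- **`J' ⊆ rd₁(P'₂)` over `R`**: every `a ∈ J'` is `red₁` of a `K₀`-rational `x0`, integral over
`K₀[j]`, with `w₁ x0 ≥ 0`, `red₂ x0 = 0` and `x0 / ℓ ∈ Rw₂`. -/
theorem exists_rat_lift_of_mem_ideal {J' : Ideal (CRing N' A)}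
    (hJ' : BT N' ℓ A h = gluedAlg (psiC N' ℓ A hℓN hA) J') {a : CRing N' A} (ha : a ∈ J') :
    ∃ x0 : modularFunctionFieldFullC (K0 A) (N' * ℓ),
      RegFin (K0 A) (jC (N' * ℓ) (K0 A)) x0 ∧ x0 ∈ RwK0 A (N' * ℓ) ∧
      x0 ∈ (redData2K0 A (N' * ℓ) h).Rw ∧
      ∃ hB : mapK0Bar A (N' * ℓ) x0 ∈ BRing N' ℓ A h,
        redC1 hℓN hA ⟨mapK0Bar A (N' * ℓ) x0, hB⟩ = a ∧
        rho2 N' ℓ A h ⟨mapK0Bar A (N' * ℓ) x0, hB⟩ = 0 ∧
        mapK0Bar A (N' * ℓ) x0 / (ℓ : FN (N' * ℓ)) ∈ (redData2 (N' * ℓ) A h).Rw := by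
  obtain ⟨x, hx1, hx2⟩ := exists_lift_of_mem_ideal hℓN hA hJ' ha
  obtain ⟨x0, hreg, h1, h2, hB, e1, e2⟩ :=
    exists_rat_lift_BRing N' ℓ A h hA (hasOrthoBasesK0 A (N' * ℓ) h hA) x
  have hr2 : rho2 N' ℓ A h ⟨mapK0Bar A (N' * ℓ) x0, hB⟩ = 0 := e2.trans hx2
  refine ⟨x0, hreg, h1, h2, hB, ?_, hr2, ?_⟩
  · apply redC1_eq_of_cVal
    rw [e1, ← cVal_redC1 hℓN hA x, hx1]
  · apply mapK0Bar_div_mem_Rw2 hA
    rw [RedData_mem_nonunits_iff]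
    refine ⟨hB.2.2, ?_⟩
    rw [rho2_apply] at hr2
    exact Subtype.ext hr2

/-! ### (I) : `pH(j~) ∣ a ^ 12` for every `a ∈ J'` -/

/-- **(I) of the ETA-route, in `C`, every prime `ℓ`**: `pH(j~) ∣ a ^ 12` for every `a ∈ J'` -/
theorem ssPolyAll_dvd_pow_of_mem_ideal {J' : Ideal (CRing N' A)}
    (hJ' : BT N' ℓ A h = gluedAlg (psiC N' ℓ A hℓN hA) J') {a : CRing N' A} (ha : a ∈ J') :
    aeval (jtC N' A) (@ssPolyAll ℓ _ kA _ (charP_residue A Fact.out hA)) ∣ a ^ 12 := by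
  obtain ⟨x0, -, -, -, hB, hx1, -, hy2⟩ := exists_rat_lift_of_mem_ideal hℓN hA hJ' ha
  have h1 := ssPolyAll_dvd_pow hℓN hA ⟨mapK0Bar A (N' * ℓ) x0, hB⟩ hy2
  rwa [hx1] at h1

/-- (I) for `ℓ ≥ 5` with helper63's `ssPoly` -/
theorem ssPoly_dvd_pow_of_mem_ideal (hq5 : 5 ≤ ℓ) {J' : Ideal (CRing N' A)}
    (hJ' : BT N' ℓ A h = gluedAlg (psiC N' ℓ A hℓN hA) J') {a : CRing N' A} (ha : a ∈ J') :
    aeval (jtC N' A) (@ssPoly ℓ _ kA _ (charP_residue A Fact.out hA) hq5) ∣ a ^ 12 := by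
  have : CharP kA ℓ := charP_residue A Fact.out hA
  have h1 := ssPolyAll_dvd_pow_of_mem_ideal hℓN hA hJ' ha
  rwa [ssPolyAll_of_le ℓ kA hq5] at h1

/-- `J' ^ 12 ≤ (pH(j~))` -/
theorem ideal_pow_le_span_ssPolyAll {J' : Ideal (CRing N' A)}
    (hJ' : BT N' ℓ A h = gluedAlg (psiC N' ℓ A hℓN hA) J') :
    ∀ a ∈ J', a ^ 12 ∈ Ideal.span {aeval (jtC N' A)
      (@ssPolyAll ℓ _ kA _ (charP_residue A Fact.out hA))} := fun _ ha =>
  Ideal.mem_span_singleton.mpr (ssPolyAll_dvd_pow_of_mem_ideal hℓN hA hJ' ha)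

/-! ### (II) : `J' ⊄ P²` -/

/-- **(II)**: `J'` lies in no square of a maximal ideal of `C` -/
theorem not_ideal_le_sq {J' : Ideal (CRing N' A)}
    (hJ : fixIdeal (psiC N' ℓ A hℓN hA) ≤ J') (P : Ideal (CRing N' A)) (hP : P.IsMaximal) :
    ¬ J' ≤ P ^ 2 := by
  have hD : IsDedekindDomain (CRing N' A) :=
    Fermat.Agent.GK.SS.Modular.isDedekindDomain_CRing N' ℓ A hA
  intro hle
  exact fixIdeal_not_le_sq (psiC N' ℓ A hℓN hA)
    (Fermat.Agent.GK.SS.Modular.not_isField_CRing N' A) (Fact.out : ℓ.Prime).two_le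
    (exists_pow_eq_psiC N' ℓ A hℓN hA) P hP (hJ.trans hle)

/-- `J'` is radical -/
theorem isRadical_ideal {J' : Ideal (CRing N' A)}
    (hJ : fixIdeal (psiC N' ℓ A hℓN hA) ≤ J') : J'.IsRadical := by
  have hD : IsDedekindDomain (CRing N' A) :=
    Fermat.Agent.GK.SS.Modular.isDedekindDomain_CRing N' ℓ A hA
  exact isRadical_of_fixIdeal_le (psiC N' ℓ A hℓN hA)
    (Fermat.Agent.GK.SS.Modular.not_isField_CRing N' A) (Fact.out : ℓ.Prime).two_le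
    (exists_pow_eq_psiC N' ℓ A hℓN hA) hJ

/-! ### the pointwise conclusion at a node -/

/-- **the pointwise thickness identity in `C`**: at a maximal ideal `P` with (III)
`pH(j~) ∈ P ^ 12` there is `a ∈ J'` with `a ^ 12 = pH(j~) * c`, `c ∉ P`. -/
theorem exists_pow_eq_mul_notMem_node {J' : Ideal (CRing N' A)}
    (hJ : fixIdeal (psiC N' ℓ A hℓN hA) ≤ J')
    (hJ' : BT N' ℓ A h = gluedAlg (psiC N' ℓ A hℓN hA) J')
    (P : Ideal (CRing N' A)) (hP : P.IsMaximal)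
    (hg : aeval (jtC N' A) (@ssPolyAll ℓ _ kA _ (charP_residue A Fact.out hA)) ∈ P ^ 12) :
    ∃ a ∈ J', ∃ c : CRing N' A,
      a ^ 12 = aeval (jtC N' A) (@ssPolyAll ℓ _ kA _ (charP_residue A Fact.out hA)) * c ∧
        c ∉ P := by
  have hD : IsDedekindDomain (CRing N' A) :=
    Fermat.Agent.GK.SS.Modular.isDedekindDomain_CRing N' ℓ A hA
  exact Fermat.Agent.GL.EtaReg.exists_pow_eq_mul_notMem_of_mem_pow hP
    (not_ideal_le_sq hℓN hA hJ P hP)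
    (fun a ha => ssPolyAll_dvd_pow_of_mem_ideal hℓN hA hJ' ha) hg

/-- **`ord_P pH(j~) ≤ 12`** at every maximal ideal: `pH(j~) ∉ P ^ 13` -/
theorem ssPolyAll_notMem_pow_succ {J' : Ideal (CRing N' A)}
    (hJ : fixIdeal (psiC N' ℓ A hℓN hA) ≤ J')
    (hJ' : BT N' ℓ A h = gluedAlg (psiC N' ℓ A hℓN hA) J')
    (P : Ideal (CRing N' A)) (hP : P.IsMaximal) :
    aeval (jtC N' A) (@ssPolyAll ℓ _ kA _ (charP_residue A Fact.out hA)) ∉ P ^ 13 := by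
  have hD : IsDedekindDomain (CRing N' A) :=
    Fermat.Agent.GK.SS.Modular.isDedekindDomain_CRing N' ℓ A hA
  intro hmem
  have h2 := not_ideal_le_sq hℓN hA hJ P hP
  rw [SetLike.not_le_iff_exists] at h2
  obtain ⟨a, haJ, haP⟩ := h2
  obtain ⟨c, hc⟩ := ssPolyAll_dvd_pow_of_mem_ideal hℓN hA hJ' haJ
  apply Fermat.Agent.GL.EtaReg.pow_notMem_pow_succ hP haP 12
  rw [hc]
  exact Ideal.mul_mem_right _ _ hmem

/-! ### FIX A plugged: nodes with `j~ ∉ {0, 1728}`, `ℓ ≥ 5` -/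

/-- the kernel of a `k`-point of `C` is a maximal ideal -/
theorem isMaximal_ker_point (φ : CRing N' A →ₐ[kA] kA) :
    (RingHom.ker φ.toRingHom).IsMaximal :=
  RingHom.ker_isMaximal_of_surjective φ.toRingHom (fun c => ⟨algebraMap kA _ c, φ.commutes c⟩)

/-- **(III) at a node with `a = φ j~ ∉ {0, 1728}`** (`ℓ ≥ 5`): `pH(j~) ∈ P ^ 12`, `P = ker φ` -/
theorem ssPoly_mem_pow_node_of_ne (hq5 : 5 ≤ ℓ) {J' : Ideal (CRing N' A)}
    (hJ' : BT N' ℓ A h = gluedAlg (psiC N' ℓ A hℓN hA) J')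
    (φ : CRing N' A →ₐ[kA] kA) (hφ : J' ≤ RingHom.ker φ.toRingHom)
    (h0 : φ (jtC N' A) ≠ 0) (h1728 : φ (jtC N' A) ≠ 1728) :
    aeval (jtC N' A) (@ssPoly ℓ _ kA _ (charP_residue A Fact.out hA) hq5) ∈
      RingHom.ker φ.toRingHom ^ 12 := by
  have hm := (rootMultiplicity_ssPoly_node hℓN hA hq5 hJ' φ hφ h0 h1728).2
  refine Fermat.Agent.GL.EtaReg.aeval_mem_pow_of_rootMultiplicity hm ?_
  rw [RingHom.mem_ker]
  show φ (jtC N' A - algebraMap kA (CRing N' A) (φ (jtC N' A))) = 0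
  rw [map_sub, φ.commutes, Algebra.algebraMap_self_apply, sub_self]

/-- **the pointwise thickness identity, UNCONDITIONAL** at nodes with `φ j~ ∉ {0, 1728}`, `ℓ ≥ 5`:
there is `a ∈ J'` with `a ^ 12 = pH(j~) * c`, `φ c ≠ 0`. -/
theorem exists_pow_eq_mul_notMem_node_of_ne (hq5 : 5 ≤ ℓ) {J' : Ideal (CRing N' A)}
    (hJ : fixIdeal (psiC N' ℓ A hℓN hA) ≤ J')
    (hJ' : BT N' ℓ A h = gluedAlg (psiC N' ℓ A hℓN hA) J')
    (φ : CRing N' A →ₐ[kA] kA) (hφ : J' ≤ RingHom.ker φ.toRingHom)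
    (h0 : φ (jtC N' A) ≠ 0) (h1728 : φ (jtC N' A) ≠ 1728) :
    ∃ a ∈ J', ∃ c : CRing N' A,
      a ^ 12 = aeval (jtC N' A) (@ssPoly ℓ _ kA _ (charP_residue A Fact.out hA) hq5) * c ∧
        φ c ≠ 0 := by
  have : CharP kA ℓ := charP_residue A Fact.out hA
  have hg := ssPoly_mem_pow_node_of_ne hℓN hA hq5 hJ' φ hφ h0 h1728
  rw [← ssPolyAll_of_le ℓ kA hq5] at hg
  obtain ⟨a, haJ, c, hc, hcP⟩ := exists_pow_eq_mul_notMem_node hℓN hA hJ hJ'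
    (RingHom.ker φ.toRingHom) (isMaximal_ker_point φ) hg
  rw [ssPolyAll_of_le ℓ kA hq5] at hc
  exact ⟨a, haJ, c, hc, fun h0' => hcP ((RingHom.mem_ker).mpr h0')⟩

end Fermat.Agent.GL.Thick
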