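/-
GATE-L / SMALL-Q + L5-III (helper95): PLACE DICTIONARY.

`C` a Dedekind domain, a `k`-algebra with fraction field `F`.  Every maximal ideal
`v : HeightOneSpectrum C` defines a prelude `AlgebraicCurve.Place k F` whose `ord` is the `v`-adic
order.  Consequence: a divisibility statement `c ∣ ord_Q x` at EVERY place `Q` of `F / k`
(Place language: helper85 `SpecDiv` (SP3), helper25 `EllMult`) gives the `intValuation` binder
`∀ n, v.intValuation x = exp (-n) → c ∣ n` consumed by the (III)-producers
(`SmallQThick.ssPolyAll_mem_pow_twelve_two/_three`).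

Concrete instance: `C = CRing N' A`, `F = FresBar N' A`, `k = kA`.
-/
import Mathlib
import Fermat.Prelude.Def_AlgebraicCurve_DivisorClassGroup

set_option autoImplicit false

noncomputable section

namespace Fermat.Agent.GL.SmallQ

open IsDedekindDomain AlgebraicCurve WithZero

section Generic

variable {k F : Type*} [Field k] [Field F] [Algebra k F]

/-- **`ord` from any `ℤᵐ⁰`-valuation with the same valuation ring and a value `exp (-1)`** -/
theorem Place.ord_eq_neg_log_of_valuationSubring_eq (Q : Place k F) (w : Valuation F ℤᵐ⁰)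
    (hw : w.valuationSubring = Q.toValuationSubring) {π : F} (hπ : w π = exp (-1 : ℤ))
    {f : F} (hf : f ≠ 0) : Q.ord f = -(log (w f)) := by
  have hmemV : ∀ x : F, x ∈ Q.toValuationSubring ↔ w x ≤ 1 := by
    intro x
    rw [← hw]
    exact Valuation.mem_valuationSubring_iff _ _
  have hπ0 : π ≠ 0 := by
    rintro rfl
    rw [map_zero] at hπ
    exact exp_ne_zero hπ.symm
  have hπV : π ∈ Q.toValuationSubring := by
    rw [hmemV, hπ, ← exp_zero, exp_le_exp]
    norm_num
  -- units of the valuation ring have value `1`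
  have hunit : ∀ y : Q.toValuationSubring, IsUnit y → w (y : F) = 1 := by
    intro y hy
    obtain ⟨u, rfl⟩ := hy
    have h1 : w ((u : Q.toValuationSubring) : F) ≤ 1 := (hmemV _).1 (u : Q.toValuationSubring).2
    have h2 : w (((u⁻¹ : (Q.toValuationSubring)ˣ) : Q.toValuationSubring) : F) ≤ 1 :=
      (hmemV _).1 ((u⁻¹ : (Q.toValuationSubring)ˣ) : Q.toValuationSubring).2
    have h3 : ((u : Q.toValuationSubring) : F) *
        (((u⁻¹ : (Q.toValuationSubring)ˣ) : Q.toValuationSubring) : F) = 1 := by
      have := congrArg Subtype.val (Units.mul_inv u)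
      exact this
    have h4 := congrArg w h3
    rw [map_mul, map_one] at h4
    apply le_antisymm h1
    by_contra hlt
    rw [not_le] at hlt
    have h5 : w ((u : Q.toValuationSubring) : F) *
        w (((u⁻¹ : (Q.toValuationSubring)ˣ) : Q.toValuationSubring) : F) < 1 * 1 :=
      mul_lt_mul_of_lt_of_le_of_nonneg_of_pos hlt h2 zero_le one_pos
    rw [h4, one_mul] at h5
    exact lt_irrefl _ h5
  -- `π` generates the maximal ideal
  have hmax : IsLocalRing.maximalIdeal Q.toValuationSubring = Ideal.span {⟨π, hπV⟩} := by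
    apply le_antisymm
    · intro y hy
      rw [Ideal.mem_span_singleton]
      have hy1 : w (y : F) < 1 := by
        by_contra hlt
        have h1 : w (y : F) = 1 := le_antisymm ((hmemV _).1 y.2) (not_lt.1 hlt)
        have hy0 : (y : F) ≠ 0 := by
          intro h0
          rw [h0, map_zero] at h1
          exact zero_ne_one h1
        have hinv : (y : F)⁻¹ ∈ Q.toValuationSubring := by
          rw [hmemV, map_inv₀, h1, inv_one]
        have hu : IsUnit y := by
          refine IsUnit.of_mul_eq_one (⟨(y : F)⁻¹, hinv⟩ : Q.toValuationSubring) ?_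
          apply Subtype.ext
          show (y : F) * (y : F)⁻¹ = 1
          exact mul_inv_cancel₀ hy0
        exact (IsLocalRing.mem_maximalIdeal y).1 hy hu
      have hyπ : w ((y : F) * π⁻¹) ≤ 1 := by
        rw [map_mul, map_inv₀, hπ]
        rcases eq_or_ne (w (y : F)) 0 with h0 | h0
        · rw [h0, zero_mul]; exact zero_le_one
        · obtain ⟨m, hm⟩ : ∃ m : ℤ, w (y : F) = exp m := ⟨log (w (y : F)), (exp_log h0).symm⟩
          rw [hm, ← exp_zero, exp_lt_exp] at hy1
          rw [hm, ← exp_neg, neg_neg, ← exp_add, ← exp_zero, exp_le_exp]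
          omega
      have hmem : (y : F) * π⁻¹ ∈ Q.toValuationSubring := (hmemV _).2 hyπ
      refine ⟨⟨(y : F) * π⁻¹, hmem⟩, ?_⟩
      apply Subtype.ext
      show (y : F) = π * ((y : F) * π⁻¹)
      field_simp
    · rw [Ideal.span_singleton_le_iff_mem, IsLocalRing.mem_maximalIdeal, mem_nonunits_iff]
      intro hu
      have h1 := hunit _ hu
      change w π = 1 at h1
      rw [hπ, ← exp_zero, exp_inj] at h1
      omega
  have hirr : Irreducible (⟨π, hπV⟩ : Q.toValuationSubring) :=
    (IsDiscreteValuationRing.irreducible_iff_uniformizer _).2 hmax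
  -- write `f = u * π ^ (-m)` with `w f = exp m`
  have hwf : w f ≠ 0 := (Valuation.ne_zero_iff _).2 hf
  set m : ℤ := log (w f) with hm
  have hwf' : w f = exp m := (exp_log hwf).symm
  set u : F := f * π ^ m with hu
  have hwu : w u = 1 := by
    rw [hu, map_mul, map_zpow₀, hπ, hwf', ← exp_zsmul, ← exp_add, smul_eq_mul]
    rw [show m + m * -1 = 0 by ring, exp_zero]
  have hu0 : u ≠ 0 := by
    intro h0
    rw [h0, map_zero] at hwu
    exact zero_ne_one hwu
  have huV : u ∈ Q.toValuationSubring := by
    rw [hmemV, hwu]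
  have huV' : u⁻¹ ∈ Q.toValuationSubring := by
    rw [hmemV, map_inv₀, hwu, inv_one]
  let U : (Q.toValuationSubring)ˣ :=
    ⟨⟨u, huV⟩, ⟨u⁻¹, huV'⟩, Subtype.ext (mul_inv_cancel₀ hu0), Subtype.ext (inv_mul_cancel₀ hu0)⟩
  have hfu : f = ((U : Q.toValuationSubring) : F) *
      (((⟨π, hπV⟩ : Q.toValuationSubring) : F) ^ (-m)) := by
    show f = u * π ^ (-m)
    rw [hu, mul_assoc, ← zpow_add₀ hπ0, add_neg_cancel, zpow_zero, mul_one]
  rw [hfu, Q.ord_unit_smul_zpow U hirr (-m)]

end Generic

section Dedekind

variable {k C F : Type*} [Field k] [CommRing C] [IsDedekindDomain C] [Field F]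
  [Algebra k C] [Algebra C F] [IsFractionRing C F] [Algebra k F] [IsScalarTower k C F]

/-- **the place of `F / k` of a maximal ideal of the Dedekind `k`-algebra `C`, `F = Frac C`** -/
def placeOfHeightOne (v : HeightOneSpectrum C) : Place k F where
  toValuationSubring := (v.valuation F).valuationSubring
  algebraMap_mem' a := by
    rw [Valuation.mem_valuationSubring_iff, IsScalarTower.algebraMap_apply k C F]
    exact v.valuation_le_one _
  ne_top' := by
    intro htop
    obtain ⟨π, hπ⟩ := v.valuation_exists_uniformizer F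
    have hπ0 : π ≠ 0 := by
      rintro rfl
      rw [map_zero] at hπ
      exact exp_ne_zero hπ.symm
    have hmem : π⁻¹ ∈ (v.valuation F).valuationSubring := htop ▸ ValuationSubring.mem_top _
    rw [Valuation.mem_valuationSubring_iff, map_inv₀, hπ, ← exp_neg, neg_neg, ← exp_zero,
      exp_le_exp] at hmem
    omega
  isPrincipalIdealRing' := Valuation.valuationSubring_isPrincipalIdealRing (v.valuation F)

@[simp]
theorem placeOfHeightOne_toValuationSubring (v : HeightOneSpectrum C) :
    (placeOfHeightOne (k := k) (F := F) v).toValuationSubring =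
      (v.valuation F).valuationSubring := rfl

/-- `ord` at the place of `v` is the `v`-adic order -/
theorem ord_placeOfHeightOne_eq (v : HeightOneSpectrum C) {f : F} (hf : f ≠ 0) :
    (placeOfHeightOne (k := k) v).ord f = -(log (v.valuation F f)) := by
  obtain ⟨π, hπ⟩ := v.valuation_exists_uniformizer F
  exact Place.ord_eq_neg_log_of_valuationSubring_eq _ (v.valuation F) rfl hπ hf

/-- **(D2)** `ord` of an element of `C` -/
theorem ord_placeOfHeightOne_algebraMap (v : HeightOneSpectrum C) {x : C} (hx : x ≠ 0) :
    (placeOfHeightOne (k := k) v).ord (algebraMap C F x) = -(log (v.intValuation x)) := by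
  rw [ord_placeOfHeightOne_eq v
    (fun h => hx ((map_eq_zero_iff _ (IsFractionRing.injective C F)).1 h)),
    v.valuation_of_algebraMap]

/-- `v.intValuation x = exp (-n)` ⟹ `ord x = n` -/
theorem ord_placeOfHeightOne_of_intValuation (v : HeightOneSpectrum C) {x : C} {n : ℕ}
    (hn : v.intValuation x = exp (-(n : ℤ))) :
    (placeOfHeightOne (k := k) v).ord (algebraMap C F x) = n := by
  have hx : x ≠ 0 := by
    rintro rfl
    rw [map_zero] at hn
    exact exp_ne_zero hn.symm
  rw [ord_placeOfHeightOne_algebraMap v hx, hn, log_exp, neg_neg]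

/-- **(D3)** divisibility of `ord` at every place of `F / k` gives the `intValuation` binder of the
(III)-producers. -/
theorem dvd_of_forall_place (v : HeightOneSpectrum C) {x : C} {c : ℕ}
    (H : ∀ Q : Place k F, 0 < Q.ord (algebraMap C F x) → (c : ℤ) ∣ Q.ord (algebraMap C F x)) :
    ∀ n : ℕ, v.intValuation x = exp (-(n : ℤ)) → c ∣ n := by
  intro n hn
  rcases Nat.eq_zero_or_pos n with rfl | hpos
  · exact dvd_zero c
  · have hord := ord_placeOfHeightOne_of_intValuation (k := k) (F := F) v hn
    have h1 := H (placeOfHeightOne v) (by rw [hord]; exact_mod_cast hpos)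
    rw [hord] at h1
    exact_mod_cast h1

end Dedekind

end Fermat.Agent.GL.SmallQ
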