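/-
GATE-L / SMALL-Q + L5-III (helper95): PLACE DICTIONARY, concrete half.

`C = CRing N' A` (the integral closure of `k[j~]` in `FresBar N' A`), `F = FresBar N' A`, `k = kA`:

* `isFractionRing_CRing` : `FresBar N' A = Frac (CRing N' A)`;
* `dvd_intValuation_of_places` : (DIV_c) in Place language (`c ∣ Q.ord (x : FresBar N' A)` at
  every zero `Q` of `x` among the prelude places of `FresBar N' A / kA`) gives the `intValuation`
  binder at every maximal ideal `v` of `CRing N' A`;
* `ssPolyAll_mem_pow_twelve_two_of_places`, `ssPolyAll_mem_pow_twelve_three_of_places` :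
  **(III) for `ℓ = 2, 3`** from (DIV_c) in Place language: `pH(j~) ∈ P ^ 12` at every maximal
  ideal `P ∋ j~` (the `hg` of `EtaSharp.exists_pow_eq_mul_notMem_node`).
-/
import Fermat.Agent.GL.Thick.PlaceDict
import Fermat.Agent.GL.Thick.SmallQThick
import Fermat.Agent.GK.SS.CRingFacts

set_option autoImplicit false
set_option linter.unusedSectionVars false
set_option linter.style.haveILetI false

noncomputable section

namespace Fermat.Agent.GL.SmallQ

open IsDedekindDomain IsDedekindDomain.HeightOneSpectrum WithZero AlgebraicCurve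
open IntermediateField IsLocalRing ModularCurve Polynomial
open Fermat.Agent.S24 Fermat.Agent.GJ.J1 Fermat.Agent.GJ.J1.Val Fermat.Agent.GJ.J1.Haupt
open Fermat.Agent.GK.QS Fermat.Agent.GL.Thick
open scoped IntermediateField.algebraAdjoinAdjoin

variable (N' : ℕ) [NeZero N'] (A : ValuationSubring Kbar)

local notation "𝕜A" => IsLocalRing.ResidueField A

/-- **`FresBar N' A` is the fraction field of the coordinate ring `CRing N' A`** -/
theorem isFractionRing_CRing : IsFractionRing (CRing N' A) (FresBar N' A) := by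
  haveI : FiniteDimensional (ResidueField A)⟮jt N' A⟯ (FresBar N' A) :=
    (Fermat.Agent.GK.Val.Degrees.finiteDimensional_f1 N' A (jF_mem_Rw N' A)).1
  have hD : IsFractionRing
      (integralClosure (Algebra.adjoin (ResidueField A) {jt N' A}) (FresBar N' A))
      (FresBar N' A) :=
    integralClosure.isFractionRing_of_finite_extension (ResidueField A)⟮jt N' A⟯ (FresBar N' A)
  exact hD

section Div

variable [IsDedekindDomain (CRing N' A)] [IsFractionRing (CRing N' A) (FresBar N' A)]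

/-- **(DIV_c) : Place language ⟹ `intValuation` binder**, at every maximal ideal `v` of
`C = CRing N' A`. -/
theorem dvd_intValuation_of_places (v : HeightOneSpectrum (CRing N' A)) (x : CRing N' A) {c : ℕ}
    (H : ∀ Q : Place 𝕜A (FresBar N' A), 0 < Q.ord (x : FresBar N' A) →
      (c : ℤ) ∣ Q.ord (x : FresBar N' A)) :
    ∀ n : ℕ, v.intValuation x = exp (-(n : ℤ)) → c ∣ n :=
  dvd_of_forall_place (k := 𝕜A) (F := FresBar N' A) v H

/-- the same for `x = j~ - a`, `a : kA`, the hypothesis on `jt N' A - a ∈ FresBar N' A` -/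
theorem dvd_intValuation_jtC_sub_of_places (v : HeightOneSpectrum (CRing N' A)) (a : 𝕜A) {c : ℕ}
    (H : ∀ Q : Place 𝕜A (FresBar N' A),
      0 < Q.ord (jt N' A - algebraMap 𝕜A (FresBar N' A) a) →
      (c : ℤ) ∣ Q.ord (jt N' A - algebraMap 𝕜A (FresBar N' A) a)) :
    ∀ n : ℕ, v.intValuation (jtC N' A - algebraMap 𝕜A (CRing N' A) a) = exp (-(n : ℤ)) → c ∣ n :=
  dvd_intValuation_of_places N' A v _ H

/-- the same for `x = j~` -/
theorem dvd_intValuation_jtC_of_places (v : HeightOneSpectrum (CRing N' A)) {c : ℕ}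
    (H : ∀ Q : Place 𝕜A (FresBar N' A), 0 < Q.ord (jt N' A) → (c : ℤ) ∣ Q.ord (jt N' A)) :
    ∀ n : ℕ, v.intValuation (jtC N' A) = exp (-(n : ℤ)) → c ∣ n :=
  dvd_intValuation_of_places N' A v _ H

/-- **(III) at `ℓ = 2`** from (DIV_3) in Place language: `pH(j~) = j~ ∈ P ^ 12` at every maximal
ideal `P ∋ j~` of `CRing N' A` (`3 ∣ N'`). -/
theorem ssPolyAll_mem_pow_twelve_two_of_places (h3 : 3 ∣ N') [CharP 𝕜A 2]
    (v : HeightOneSpectrum (CRing N' A)) (hj : jtC N' A ∈ v.asIdeal)
    (H : ∀ Q : Place 𝕜A (FresBar N' A), 0 < Q.ord (jt N' A) → (3 : ℤ) ∣ Q.ord (jt N' A)) :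
    aeval (jtC N' A) (ssPolyAll 2 𝕜A) ∈ v.asIdeal ^ 12 :=
  ssPolyAll_mem_pow_twelve_two N' A h3 v hj
    (dvd_intValuation_jtC_of_places N' A v (c := 3) (by exact_mod_cast H))

/-- **(III) at `ℓ = 3`** from (DIV_2) in Place language: `pH(j~) = j~² ∈ P ^ 12` at every maximal
ideal `P ∋ j~` of `CRing N' A` (`2 ∣ N'`). -/
theorem ssPolyAll_mem_pow_twelve_three_of_places (h2 : 2 ∣ N') [CharP 𝕜A 3]
    (v : HeightOneSpectrum (CRing N' A)) (hj : jtC N' A ∈ v.asIdeal)
    (H : ∀ Q : Place 𝕜A (FresBar N' A), 0 < Q.ord (jt N' A) → (2 : ℤ) ∣ Q.ord (jt N' A)) :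
    aeval (jtC N' A) (ssPolyAll 3 𝕜A) ∈ v.asIdeal ^ 12 :=
  ssPolyAll_mem_pow_twelve_three N' A h2 v hj
    (dvd_intValuation_jtC_of_places N' A v (c := 2) (by exact_mod_cast H))

end Div

end Fermat.Agent.GL.SmallQ
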