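/-
GATE-L / REG3 level-1 inputs (helper63, for helper50 3003 (B)(C)): polynomial corollaries of
`hasse_rel : U₂^12 = X^(4(q-1)) · pH²` and `monic_ssPoly`, `natDegree_ssPoly`.

`U₂ := hasseU₂ q k hq5`, `V₁ := hasseV₁ q k = X^(q-1) (X - 1728)^((q-1)/2)`, `pH := ssPoly q k hq5`.

* `natDegree_hasseU₂ : U₂.natDegree = (q-1)/2`, `leadingCoeff_hasseU₂_pow : lc(U₂)^12 = 1`;
* `natDegree_hasseV₁`, `monic_hasseV₁`;
* `pH(0) ≠ 0 ⟹ 3 ∣ q - 1`, `U₂ = X^((q-1)/3) · U₂'`, `U₂'(0) ≠ 0`;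
* `pH(1728) ≠ 0 ⟹ U₂(1728) ≠ 0`;
* reversal (for the cusps): `P(x) = x^(deg P) · (reverse P)(y)` if `x y = 1`;
  `(reverse U₂)(0) = lc U₂`, `(reverse V₁)(0) = 1`.
-/
import Fermat.Agent.GL.Thick.SsPoly
import Fermat.Agent.GL.Thick.ThickAdapters

set_option autoImplicit false

noncomputable section

namespace Fermat.Agent.GL.Thick

open Polynomial

variable (q : ℕ) [Fact q.Prime] (k : Type*) [Field k] [CharP k q]

theorem hasseU₂_ne_zero' (hq5 : 5 ≤ q) : hasseU₂ q k hq5 ≠ 0 := by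
  intro h
  have h1 := hasse_rel q k hq5
  rw [h, zero_pow (by norm_num)] at h1
  exact (mul_ne_zero (pow_ne_zero _ X_ne_zero) (pow_ne_zero 2 (ssPoly_ne_zero q k hq5))) h1.symm

/-- **`deg U₂ = (q-1)/2`** -/
theorem natDegree_hasseU₂ (hq5 : 5 ≤ q) : (hasseU₂ q k hq5).natDegree = (q - 1) / 2 := by
  have h := congrArg natDegree (hasse_rel q k hq5)
  rw [natDegree_pow, natDegree_mul (pow_ne_zero _ X_ne_zero) (pow_ne_zero 2 (ssPoly_ne_zero q k hq5)),
    natDegree_pow, natDegree_X, natDegree_pow, natDegree_ssPoly] at h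
  have h2 := two_mul_half q hq5
  omega

/-- `lc(U₂)^12 = 1` -/
theorem leadingCoeff_hasseU₂_pow (hq5 : 5 ≤ q) : (hasseU₂ q k hq5).leadingCoeff ^ 12 = 1 := by
  have h := congrArg leadingCoeff (hasse_rel q k hq5)
  rw [leadingCoeff_pow, leadingCoeff_mul, leadingCoeff_pow, leadingCoeff_X, one_pow, one_mul,
    leadingCoeff_pow, (monic_ssPoly q k hq5).leadingCoeff, one_pow] at h
  exact h

theorem leadingCoeff_hasseU₂_ne_zero (hq5 : 5 ≤ q) : (hasseU₂ q k hq5).leadingCoeff ≠ 0 :=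
  leadingCoeff_ne_zero.mpr (hasseU₂_ne_zero' q k hq5)

omit [Fact q.Prime] [CharP k q] in
theorem monic_hasseU₁ : (hasseU₁ q k).Monic := by
  rw [hasseU₁]
  exact (monic_X_sub_C _).pow _

omit [Fact q.Prime] [CharP k q] in
theorem natDegree_hasseU₁ : (hasseU₁ q k).natDegree = (q - 1) / 2 := by
  rw [hasseU₁, natDegree_pow, natDegree_X_sub_C, mul_one]

omit [Fact q.Prime] [CharP k q] in
theorem monic_hasseV₁ : (hasseV₁ q k).Monic := by
  rw [hasseV₁]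
  exact (monic_X_pow _).mul (monic_hasseU₁ q k)

omit [Fact q.Prime] [CharP k q] in
theorem natDegree_hasseV₁ : (hasseV₁ q k).natDegree = (q - 1) + (q - 1) / 2 := by
  rw [hasseV₁, ((monic_X_pow (R := k) (q - 1)).natDegree_mul (monic_hasseU₁ q k)), natDegree_X_pow,
    natDegree_hasseU₁]

/-- `1728 ≠ 0` in characteristic `q ≥ 5` -/
theorem ne_zero_1728' (hq5 : 5 ≤ q) : (1728 : k) ≠ 0 := by
  have hq : q.Prime := Fact.out
  intro h
  have h1 : ((1728 : ℕ) : k) = 0 := by exact_mod_cast h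
  rw [CharP.cast_eq_zero_iff k q] at h1
  have h2 : (1728 : ℕ) = 2 ^ 6 * 3 ^ 3 := by norm_num
  rw [h2] at h1
  rcases (Nat.Prime.dvd_mul hq).mp h1 with h3 | h3
  · have := (Nat.prime_dvd_prime_iff_eq hq Nat.prime_two).mp (hq.dvd_of_dvd_pow h3)
    omega
  · have := (Nat.prime_dvd_prime_iff_eq hq Nat.prime_three).mp (hq.dvd_of_dvd_pow h3)
    omega

/-! ### the point `0` -/

/-- multiplicity of `0` in `U₂` when `0` is ordinary -/
theorem rootMultiplicity_zero_hasseU₂ (hq5 : 5 ≤ q) (h0 : (ssPoly q k hq5).eval 0 ≠ 0) :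
    3 * rootMultiplicity (0 : k) (hasseU₂ q k hq5) = q - 1 := by
  have h := congrArg (rootMultiplicity (0 : k)) (hasse_rel q k hq5)
  have hX : rootMultiplicity (0 : k) (X ^ (4 * (q - 1)) : k[X]) = 4 * (q - 1) := by
    have := rootMultiplicity_X_sub_C_pow (0 : k) (4 * (q - 1))
    rwa [C_0, sub_zero] at this
  rw [rootMultiplicity_pow' (0 : k) (hasseU₂_ne_zero' q k hq5),
    rootMultiplicity_mul (mul_ne_zero (pow_ne_zero _ X_ne_zero)
      (pow_ne_zero 2 (ssPoly_ne_zero q k hq5))), hX,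
    rootMultiplicity_pow' (0 : k) (ssPoly_ne_zero q k hq5),
    rootMultiplicity_eq_zero h0] at h
  omega

theorem three_dvd_of_ssPoly_zero (hq5 : 5 ≤ q) (h0 : (ssPoly q k hq5).eval 0 ≠ 0) :
    3 ∣ q - 1 :=
  ⟨_, (rootMultiplicity_zero_hasseU₂ q k hq5 h0).symm⟩

/-- **`U₂ = X^((q-1)/3) · U₂'`, `U₂'(0) ≠ 0`** when `pH(0) ≠ 0` -/
theorem exists_hasseU₂_factor_zero (hq5 : 5 ≤ q) (h0 : (ssPoly q k hq5).eval 0 ≠ 0) :
    ∃ U₂' : k[X], hasseU₂ q k hq5 = X ^ ((q - 1) / 3) * U₂' ∧ U₂'.eval 0 ≠ 0 := by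
  have hm := rootMultiplicity_zero_hasseU₂ q k hq5 h0
  obtain ⟨g, hg, hnd⟩ := exists_eq_pow_rootMultiplicity_mul_and_not_dvd (hasseU₂ q k hq5)
    (hasseU₂_ne_zero' q k hq5) (0 : k)
  have e : rootMultiplicity (0 : k) (hasseU₂ q k hq5) = (q - 1) / 3 := by omega
  rw [e, C_0, sub_zero] at hg
  refine ⟨g, hg, ?_⟩
  intro hg0
  apply hnd
  rw [C_0, sub_zero]
  exact X_dvd_iff.mpr (by rw [coeff_zero_eq_eval_zero]; exact hg0)

/-! ### the point `1728` -/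

theorem hasseU₂_eval_1728_ne_zero (hq5 : 5 ≤ q) (h : (ssPoly q k hq5).eval 1728 ≠ 0) :
    (hasseU₂ q k hq5).eval 1728 ≠ 0 := fun h0 =>
  h ((ssPoly_eval_eq_zero_iff q k hq5 (ne_zero_1728' q k hq5)).mpr h0)

/-! ### reversal (cusps) -/

omit [Fact q.Prime] [CharP k q] in
/-- `P(x) = x^(deg P) · (reverse P)(y)` whenever `x y = 1` -/
theorem aeval_eq_pow_mul_aeval_reverse {S : Type*} [CommRing S] [Algebra k S] (P : k[X])
    {x y : S} (hxy : x * y = 1) :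
    aeval x P = x ^ P.natDegree * aeval y P.reverse := by
  letI : Invertible x := ⟨y, by rw [mul_comm]; exact hxy, hxy⟩
  have h := eval₂_reverse_mul_pow (algebraMap k S) x P
  rw [aeval_def, aeval_def, ← h, mul_comm]
  rfl

omit [Fact q.Prime] [CharP k q] in
theorem eval_zero_reverse (P : k[X]) : P.reverse.eval 0 = P.leadingCoeff := by
  rw [← coeff_zero_eq_eval_zero, coeff_zero_reverse]

theorem eval_zero_reverse_hasseU₂ (hq5 : 5 ≤ q) :
    (hasseU₂ q k hq5).reverse.eval 0 ≠ 0 := by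
  rw [eval_zero_reverse]
  exact leadingCoeff_hasseU₂_ne_zero q k hq5

omit [Fact q.Prime] [CharP k q] in
theorem eval_zero_reverse_hasseV₁ : (hasseV₁ q k).reverse.eval 0 = 1 := by
  rw [eval_zero_reverse, (monic_hasseV₁ q k).leadingCoeff]

end Fermat.Agent.GL.Thick
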