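/-
GATE-L / HASSE-NATURALITY (helper63): the Hasse polynomials `pH = ssPoly q k hq5`,
`U₂ = hasseU₂ q k hq5`, `U₁`, `V₁` are NATURAL in the field `k` of characteristic `q`:

* `ssPoly_map   (f : k →+* k') : (ssPoly q k hq5).map f = ssPoly q k' hq5`;
* `hasseU₂_map  (f : k →+* k') : (hasseU₂ q k hq5).map f = hasseU₂ q k' hq5`;

(uniqueness: `Δ^(q-1) · pH(J) = 1`, `E₄^(q-1) = Δ^((q-1)/2) · U₂(J)`, `J` transcendental, and the
series `E₄, Δ, J` are images of integral series). Consequences:

* the coefficients lie in `𝔽_q`: `ssPoly_map_frobenius`, `hasseU₂_map_frobenius`,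
  `aeval_pow_char_ssPoly : pH(y^q) = pH(y)^q` in every `k`-algebra of characteristic `q`;
* INTEGER LIFTS: `exists_int_lift_ssPoly : ∃ P : ℤ[X], P.Monic ∧ P.natDegree = q - 1 ∧
  ∀ k, P.map (Int.castRingHom k) = ssPoly q k hq5`, `exists_int_lift_hasseU₂`, `intV₁`
  (= the "coefficient lift to `R₀`" of REG3 (A)).
-/
import Fermat.Agent.GL.Thick.HassePolyFacts

set_option autoImplicit false

noncomputable section

namespace Fermat.Agent.GL.Thick

open Polynomial ModularCurve HahnSeries Fermat.Agent.S16.RAM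

/-! ### coefficient maps on the series -/

section Series

variable {A B : Type*} [CommRing A] [CommRing B] (f : A →+* B)

theorem map_intCast_powerSeries (p : PowerSeries ℤ) :
    (p.map (Int.castRingHom A)).map f = p.map (Int.castRingHom B) := by
  rw [← RingHom.comp_apply (PowerSeries.map f) (PowerSeries.map (Int.castRingHom A)),
    ← PowerSeries.map_comp, RingHom.ext_int (f.comp (Int.castRingHom A)) (Int.castRingHom B)]

theorem coeffMap_E4L : coeffMap f (E4L A) = E4L B := by
  rw [E4L, coeffMap_ofPowerSeries, e4, map_intCast_powerSeries]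
  rfl

theorem coeffMap_E6L : coeffMap f (E6L A) = E6L B := by
  rw [E6L, coeffMap_ofPowerSeries, e6, map_intCast_powerSeries]
  rfl

theorem coeffMap_E2L : coeffMap f (E2L A) = E2L B := by
  rw [E2L, coeffMap_ofPowerSeries, e2, map_intCast_powerSeries]
  rfl

theorem coeffMap_DL : coeffMap f (DL A) = DL B := by
  rw [DL, coeffMap_ofPowerSeries, delta, map_intCast_powerSeries]
  rfl

theorem coeffMap_comp_algebraMap :
    (coeffMap f).comp (algebraMap A (LaurentSeries A)) =
      (algebraMap B (LaurentSeries B)).comp f := by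
  ext c : 1
  rw [RingHom.comp_apply, RingHom.comp_apply, algebraMap_laurent_eq_single,
    algebraMap_laurent_eq_single, coeffMap_single]

/-- `coeffMap f (P(x)) = (P.map f)(coeffMap f x)` -/
theorem coeffMap_aeval (P : A[X]) (x : LaurentSeries A) :
    coeffMap f (aeval x P) = aeval (coeffMap f x) (P.map f) := by
  rw [aeval_def, aeval_def, hom_eval₂, eval₂_map, coeffMap_comp_algebraMap]

end Series

/-! ### naturality of `pH`, `U₂`, `U₁`, `V₁` -/

section Natural

variable (q : ℕ) [Fact q.Prime] {k k' : Type*} [Field k] [Field k'] [CharP k q] [CharP k' q]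
  (f : k →+* k')

/-- **naturality of the supersingular polynomial** -/
theorem ssPoly_map (hq5 : 5 ≤ q) : (ssPoly q k hq5).map f = ssPoly q k' hq5 := by
  apply Fermat.Agent.S28.PolyDescent.aeval_jqModC_injective k'
  have h1 := congrArg (coeffMap f) (hasse_pH q k hq5)
  rw [map_mul, map_pow, coeffMap_DL, coeffMap_aeval, coeffMap_jqModC, map_one] at h1
  exact mul_left_cancel₀ (pow_ne_zero _ (DL_ne_zero k')) (h1.trans (hasse_pH q k' hq5).symm)

/-- **naturality of `U₂`** -/
theorem hasseU₂_map (hq5 : 5 ≤ q) : (hasseU₂ q k hq5).map f = hasseU₂ q k' hq5 := by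
  apply Fermat.Agent.S28.PolyDescent.aeval_jqModC_injective k'
  have h1 := congrArg (coeffMap f) (E4L_pow q k hq5)
  rw [map_mul, map_pow, map_pow, coeffMap_DL, coeffMap_E4L, coeffMap_aeval, coeffMap_jqModC] at h1
  exact mul_left_cancel₀ (pow_ne_zero _ (DL_ne_zero k')) (h1.symm.trans (E4L_pow q k' hq5))

omit [Fact q.Prime] [CharP k q] [CharP k' q] in
theorem hasseU₁_map : (hasseU₁ q k).map f = hasseU₁ q k' := by
  rw [hasseU₁, hasseU₁, Polynomial.map_pow, Polynomial.map_sub, map_X, Polynomial.map_C,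
    map_ofNat]

omit [Fact q.Prime] [CharP k q] [CharP k' q] in
theorem hasseV₁_map : (hasseV₁ q k).map f = hasseV₁ q k' := by
  rw [hasseV₁, hasseV₁, Polynomial.map_mul, Polynomial.map_pow, map_X, hasseU₁_map]

end Natural

/-! ### coefficients in `𝔽_q` -/

section Frobenius

variable (q : ℕ) [Fact q.Prime] (k : Type*) [Field k] [CharP k q]

theorem ssPoly_map_frobenius (hq5 : 5 ≤ q) :
    (ssPoly q k hq5).map (frobenius k q) = ssPoly q k hq5 :=
  ssPoly_map q (frobenius k q) hq5

theorem hasseU₂_map_frobenius (hq5 : 5 ≤ q) :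
    (hasseU₂ q k hq5).map (frobenius k q) = hasseU₂ q k hq5 :=
  hasseU₂_map q (frobenius k q) hq5

theorem coeff_ssPoly_pow (hq5 : 5 ≤ q) (n : ℕ) :
    (ssPoly q k hq5).coeff n ^ q = (ssPoly q k hq5).coeff n := by
  have h := congrArg (fun P => P.coeff n) (ssPoly_map_frobenius q k hq5)
  simpa only [coeff_map, frobenius_def] using h

theorem coeff_hasseU₂_pow (hq5 : 5 ≤ q) (n : ℕ) :
    (hasseU₂ q k hq5).coeff n ^ q = (hasseU₂ q k hq5).coeff n := by
  have h := congrArg (fun P => P.coeff n) (hasseU₂_map_frobenius q k hq5)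
  simpa only [coeff_map, frobenius_def] using h

/-- a polynomial with Frobenius-fixed coefficients commutes with `y ↦ y^q` in characteristic `q` -/
theorem aeval_pow_char_of_map_frobenius {S : Type*} [CommRing S] [Algebra k S] [CharP S q]
    (P : k[X]) (hP : P.map (frobenius k q) = P) (y : S) :
    aeval (y ^ q) P = (aeval y P) ^ q := by
  have hcomp : (frobenius S q).comp (algebraMap k S) =
      (algebraMap k S).comp (frobenius k q) := by
    ext c : 1
    rw [RingHom.comp_apply, RingHom.comp_apply, frobenius_def, frobenius_def, map_pow]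
  have h1 : (aeval y P) ^ q = frobenius S q (aeval y P) := (frobenius_def q _).symm
  have h2 : frobenius S q (aeval y P) =
      eval₂ ((frobenius S q).comp (algebraMap k S)) (frobenius S q y) P := by
    rw [aeval_def]
    exact hom_eval₂ P (algebraMap k S) (frobenius S q) y
  have h3 : aeval (y ^ q) P = eval₂ ((algebraMap k S).comp (frobenius k q)) (y ^ q) P := by
    conv_lhs => rw [← hP]
    rw [aeval_def, eval₂_map]
  rw [h1, h2, h3, hcomp, frobenius_def]

/-- **`pH(y^q) = pH(y)^q`** -/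
theorem aeval_pow_char_ssPoly {S : Type*} [CommRing S] [Algebra k S] [CharP S q] (hq5 : 5 ≤ q)
    (y : S) : aeval (y ^ q) (ssPoly q k hq5) = (aeval y (ssPoly q k hq5)) ^ q :=
  aeval_pow_char_of_map_frobenius q k _ (ssPoly_map_frobenius q k hq5) y

theorem aeval_pow_char_hasseU₂ {S : Type*} [CommRing S] [Algebra k S] [CharP S q] (hq5 : 5 ≤ q)
    (y : S) : aeval (y ^ q) (hasseU₂ q k hq5) = (aeval y (hasseU₂ q k hq5)) ^ q :=
  aeval_pow_char_of_map_frobenius q k _ (hasseU₂_map_frobenius q k hq5) y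

end Frobenius

/-! ### integer lifts -/

section IntLift

variable (q : ℕ) [Fact q.Prime]

omit [Fact q.Prime] in
/-- the canonical map `ℤ → k` factors through `ZMod q` -/
theorem intCast_eq_comp (k : Type*) [Field k] [CharP k q] :
    Int.castRingHom k = (ZMod.castHom (dvd_refl q) k).comp (Int.castRingHom (ZMod q)) :=
  RingHom.ext_int _ _

/-- **integer lift of the supersingular polynomial**, uniform in `k` -/
theorem exists_int_lift_ssPoly (hq5 : 5 ≤ q) :
    ∃ P : ℤ[X], P.Monic ∧ P.natDegree = q - 1 ∧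
      ∀ (k : Type*) [Field k] [CharP k q], P.map (Int.castRingHom k) = ssPoly q k hq5 := by
  have hsurj : Function.Surjective (Int.castRingHom (ZMod q)) := ZMod.intCast_surjective
  have hmem : ssPoly q (ZMod q) hq5 ∈ lifts (Int.castRingHom (ZMod q)) := by
    rw [mem_lifts]
    exact map_surjective _ hsurj _
  obtain ⟨P, hP, hdeg, hmon⟩ :=
    lifts_and_natDegree_eq_and_monic hmem (monic_ssPoly q (ZMod q) hq5)
  refine ⟨P, hmon, by rw [hdeg, natDegree_ssPoly], ?_⟩
  intro k _ _
  rw [intCast_eq_comp q k, ← Polynomial.map_map, hP, ssPoly_map]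

/-- **integer lift of `U₂`**, uniform in `k` -/
theorem exists_int_lift_hasseU₂ (hq5 : 5 ≤ q) :
    ∃ U : ℤ[X], U.natDegree = (q - 1) / 2 ∧
      ∀ (k : Type*) [Field k] [CharP k q], U.map (Int.castRingHom k) = hasseU₂ q k hq5 := by
  have hsurj : Function.Surjective (Int.castRingHom (ZMod q)) := ZMod.intCast_surjective
  have hmem : hasseU₂ q (ZMod q) hq5 ∈ lifts (Int.castRingHom (ZMod q)) := by
    rw [mem_lifts]
    exact map_surjective _ hsurj _
  obtain ⟨U, hU, hdeg⟩ := exists_degree_eq_of_mem_lifts hmem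
  refine ⟨U, ?_, ?_⟩
  · have h0 : U ≠ 0 := by
      rintro rfl
      rw [Polynomial.map_zero] at hU
      exact hasseU₂_ne_zero' q (ZMod q) hq5 hU.symm
    have := natDegree_eq_of_degree_eq hdeg
    rw [this, natDegree_hasseU₂]
  · intro k _ _
    rw [intCast_eq_comp q k, ← Polynomial.map_map, hU, hasseU₂_map]

/-- **a fixed integer lift of `pH`** (monic of degree `q - 1`; one polynomial for all `k`) -/
def intSsPoly (hq5 : 5 ≤ q) : ℤ[X] := (exists_int_lift_ssPoly.{0} q hq5).choose

theorem monic_intSsPoly (hq5 : 5 ≤ q) : (intSsPoly q hq5).Monic :=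
  (exists_int_lift_ssPoly.{0} q hq5).choose_spec.1

theorem natDegree_intSsPoly (hq5 : 5 ≤ q) : (intSsPoly q hq5).natDegree = q - 1 :=
  (exists_int_lift_ssPoly.{0} q hq5).choose_spec.2.1

theorem intSsPoly_map_zmod (hq5 : 5 ≤ q) :
    (intSsPoly q hq5).map (Int.castRingHom (ZMod q)) = ssPoly q (ZMod q) hq5 :=
  (exists_int_lift_ssPoly.{0} q hq5).choose_spec.2.2 (ZMod q)

/-- **`intSsPoly ↦ ssPoly q k`** for EVERY field `k` of characteristic `q` (any universe) -/
theorem intSsPoly_map (hq5 : 5 ≤ q) (k : Type*) [Field k] [CharP k q] :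
    (intSsPoly q hq5).map (Int.castRingHom k) = ssPoly q k hq5 := by
  rw [intCast_eq_comp q k, ← Polynomial.map_map, intSsPoly_map_zmod, ssPoly_map]

/-- through any ring `R₀ → k`: `(intSsPoly.map (ℤ → R₀)).map ρ = ssPoly q k` -/
theorem intSsPoly_map_map (hq5 : 5 ≤ q) {R₀ : Type*} [CommRing R₀] (k : Type*) [Field k]
    [CharP k q] (ρ : R₀ →+* k) :
    ((intSsPoly q hq5).map (Int.castRingHom R₀)).map ρ = ssPoly q k hq5 := by
  rw [Polynomial.map_map, RingHom.ext_int (ρ.comp (Int.castRingHom R₀)) (Int.castRingHom k),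
    intSsPoly_map]

/-- **a fixed integer lift of `U₂`** (degree `(q - 1)/2`; one polynomial for all `k`) -/
def intU₂ (hq5 : 5 ≤ q) : ℤ[X] := (exists_int_lift_hasseU₂.{0} q hq5).choose

theorem natDegree_intU₂ (hq5 : 5 ≤ q) : (intU₂ q hq5).natDegree = (q - 1) / 2 :=
  (exists_int_lift_hasseU₂.{0} q hq5).choose_spec.1

theorem intU₂_map_zmod (hq5 : 5 ≤ q) :
    (intU₂ q hq5).map (Int.castRingHom (ZMod q)) = hasseU₂ q (ZMod q) hq5 :=
  (exists_int_lift_hasseU₂.{0} q hq5).choose_spec.2 (ZMod q)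

theorem intU₂_map (hq5 : 5 ≤ q) (k : Type*) [Field k] [CharP k q] :
    (intU₂ q hq5).map (Int.castRingHom k) = hasseU₂ q k hq5 := by
  rw [intCast_eq_comp q k, ← Polynomial.map_map, intU₂_map_zmod, hasseU₂_map]

theorem intU₂_map_map (hq5 : 5 ≤ q) {R₀ : Type*} [CommRing R₀] (k : Type*) [Field k]
    [CharP k q] (ρ : R₀ →+* k) :
    ((intU₂ q hq5).map (Int.castRingHom R₀)).map ρ = hasseU₂ q k hq5 := by
  rw [Polynomial.map_map, RingHom.ext_int (ρ.comp (Int.castRingHom R₀)) (Int.castRingHom k),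
    intU₂_map]

/-- reduction of values: `ρ (P̂(x)) = P(ρ x)` for the lifts -/
theorem map_eval_intSsPoly (hq5 : 5 ≤ q) {R₀ : Type*} [CommRing R₀] (k : Type*) [Field k]
    [CharP k q] (ρ : R₀ →+* k) (x : R₀) :
    ρ (((intSsPoly q hq5).map (Int.castRingHom R₀)).eval x) = (ssPoly q k hq5).eval (ρ x) := by
  rw [← intSsPoly_map_map q hq5 k ρ, eval_map, eval_map, hom_eval₂, eval₂_map]

theorem map_eval_intU₂ (hq5 : 5 ≤ q) {R₀ : Type*} [CommRing R₀] (k : Type*) [Field k]
    [CharP k q] (ρ : R₀ →+* k) (x : R₀) :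
    ρ (((intU₂ q hq5).map (Int.castRingHom R₀)).eval x) = (hasseU₂ q k hq5).eval (ρ x) := by
  rw [← intU₂_map_map q hq5 k ρ, eval_map, eval_map, hom_eval₂, eval₂_map]

/-- the integer form of `V₁` -/
def intV₁ : ℤ[X] := X ^ (q - 1) * (X - Polynomial.C 1728) ^ ((q - 1) / 2)

omit [Fact q.Prime] in
theorem intV₁_map (k : Type*) [Field k] : (intV₁ q).map (Int.castRingHom k) = hasseV₁ q k := by
  rw [intV₁, hasseV₁, hasseU₁, Polynomial.map_mul, Polynomial.map_pow, Polynomial.map_pow,
    Polynomial.map_sub, map_X, Polynomial.map_C]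
  simp

omit [Fact q.Prime] in
theorem monic_intV₁ : (intV₁ q).Monic := by
  rw [intV₁]
  exact (monic_X_pow _).mul ((monic_X_sub_C _).pow _)

end IntLift

end Fermat.Agent.GL.Thick
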