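/-
GATE-L / HASSE-NATURALITY, all primes `q` (helper63): helper95's `ssPolyAll q k`
(`= ssPoly q k hq5` for `5 ≤ q`, `= X^(q-1)` for `q ∈ {2,3}`) is natural in `k` and has a FIXED
monic integer lift `intSsPolyAll q : ℤ[X]` of degree `q - 1`:

* `ssPolyAll_map (f : k →+* k') : (ssPolyAll q k).map f = ssPolyAll q k'`;
* `intSsPolyAll_map k : (intSsPolyAll q).map (Int.castRingHom k) = ssPolyAll q k`;
* `intSsPolyAll_map_map ρ : ((intSsPolyAll q).map (ℤ → R₀)).map ρ = ssPolyAll q k` for `ρ : R₀ →+* k`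
  (= "p̃ ∈ R₀[X] a lift of `ssPolyAll`" of (C3)/(C6), with `p̃` monic of degree `q - 1`);
* `map_eval_intSsPolyAll`, `map_aeval_intSsPolyAll` : `ρ (p̃(x)) = pH(ρ x)`.
-/
import Fermat.Agent.GL.Thick.HasseMap
import Fermat.Agent.GL.Thick.SsPolyAll

set_option autoImplicit false

noncomputable section

namespace Fermat.Agent.GL.Thick

open Polynomial Fermat.Agent.GL.SmallQ

section Natural

variable (q : ℕ) [Fact q.Prime] {k k' : Type*} [Field k] [Field k'] [CharP k q] [CharP k' q]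
  (f : k →+* k')

/-- **naturality of `ssPolyAll`** -/
theorem ssPolyAll_map : (ssPolyAll q k).map f = ssPolyAll q k' := by
  by_cases hq5 : 5 ≤ q
  · rw [ssPolyAll_of_le q k hq5, ssPolyAll_of_le q k' hq5, ssPoly_map]
  · rw [ssPolyAll_of_not_le q k hq5, ssPolyAll_of_not_le q k' hq5, Polynomial.map_pow, map_X]

end Natural

section IntLift

variable (q : ℕ) [Fact q.Prime]

/-- **the fixed monic integer lift of `ssPolyAll`** -/
def intSsPolyAll : ℤ[X] := if h : 5 ≤ q then intSsPoly q h else X ^ (q - 1)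

theorem intSsPolyAll_of_le (hq5 : 5 ≤ q) : intSsPolyAll q = intSsPoly q hq5 := dif_pos hq5

theorem intSsPolyAll_of_not_le (hq : ¬ 5 ≤ q) : intSsPolyAll q = X ^ (q - 1) := dif_neg hq

theorem monic_intSsPolyAll : (intSsPolyAll q).Monic := by
  by_cases hq5 : 5 ≤ q
  · rw [intSsPolyAll_of_le q hq5]; exact monic_intSsPoly q hq5
  · rw [intSsPolyAll_of_not_le q hq5]; exact monic_X_pow _

theorem natDegree_intSsPolyAll : (intSsPolyAll q).natDegree = q - 1 := by
  by_cases hq5 : 5 ≤ q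
  · rw [intSsPolyAll_of_le q hq5, natDegree_intSsPoly]
  · rw [intSsPolyAll_of_not_le q hq5, natDegree_X_pow]

/-- **`intSsPolyAll ↦ ssPolyAll q k`** for every field `k` of characteristic `q` -/
theorem intSsPolyAll_map (k : Type*) [Field k] [CharP k q] :
    (intSsPolyAll q).map (Int.castRingHom k) = ssPolyAll q k := by
  by_cases hq5 : 5 ≤ q
  · rw [intSsPolyAll_of_le q hq5, ssPolyAll_of_le q k hq5, intSsPoly_map]
  · rw [intSsPolyAll_of_not_le q hq5, ssPolyAll_of_not_le q k hq5, Polynomial.map_pow, map_X]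

variable {R₀ : Type*} [CommRing R₀] (k : Type*) [Field k] [CharP k q] (ρ : R₀ →+* k)

/-- the lift over any ring `R₀` with a map `ρ : R₀ →+* k` -/
theorem intSsPolyAll_map_map :
    ((intSsPolyAll q).map (Int.castRingHom R₀)).map ρ = ssPolyAll q k := by
  rw [Polynomial.map_map, RingHom.ext_int (ρ.comp (Int.castRingHom R₀)) (Int.castRingHom k),
    intSsPolyAll_map]

theorem monic_intSsPolyAll_map : ((intSsPolyAll q).map (Int.castRingHom R₀)).Monic :=
  (monic_intSsPolyAll q).map _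

theorem natDegree_intSsPolyAll_map [Nontrivial R₀] :
    ((intSsPolyAll q).map (Int.castRingHom R₀)).natDegree = q - 1 := by
  rw [(monic_intSsPolyAll q).natDegree_map, natDegree_intSsPolyAll]

/-- `ρ (p̃(x)) = pH(ρ x)` -/
theorem map_eval_intSsPolyAll (x : R₀) :
    ρ (((intSsPolyAll q).map (Int.castRingHom R₀)).eval x) = (ssPolyAll q k).eval (ρ x) := by
  rw [← intSsPolyAll_map_map q k ρ, eval_map, eval_map, hom_eval₂, eval₂_map]

/-- `φ (p̃(x)) = pH(φ x)` for `x` in an `R₀`-algebra `B`, `φ : B →+* κ` into a `k`-algebra,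
compatible with `ρ` -/
theorem map_aeval_intSsPolyAll {B κ : Type*} [CommRing B] [Algebra R₀ B] [CommRing κ] [Algebra k κ]
    (φ : B →+* κ) (hφ : ∀ r : R₀, φ (algebraMap R₀ B r) = algebraMap k κ (ρ r)) (x : B) :
    φ (aeval x ((intSsPolyAll q).map (Int.castRingHom R₀))) = aeval (φ x) (ssPolyAll q k) := by
  have hcomp : φ.comp (algebraMap R₀ B) = (algebraMap k κ).comp ρ := RingHom.ext hφ
  rw [← intSsPolyAll_map_map q k ρ, aeval_def, aeval_def, hom_eval₂, hcomp]
  simp only [eval₂_map]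

end IntLift

end Fermat.Agent.GL.Thick
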