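/-
GATE-L / L5d-SERIES (helper63): the `q`-series half of REG3 (regularity along the non-reduced
component `C₃`; board 2486, BLUEPRINT v2 (V2) II, STACK RULING 1 (F3)), ABSTRACT form.

`B` a commutative ring, `ζ ∈ Bˣ`.  `twist ζ f (Q) = f(ζ Q)` (J3), `θ = thetaL B = Q d/dQ`.

* `exists_zpow_sub_one` : `ζ^n - 1 = (ζ - 1)(n + (ζ - 1) h_n)` for every `n : ℤ`;
* `exists_twist_sub`    : `f(ζQ) - f(Q) = (ζ - 1) (θ f + (ζ - 1) h)`;
* `exists_pow_pred_eq`  : if `1 + ζ + … + ζ^(q-1) = 0`, `q` prime: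
                          `(ζ - 1)^(q-1) = - q (1 + (ζ - 1) d)`   (Wilson-free form);
* `exists_twist_sub_pow` : `(f(ζQ) - f(Q))^(q-1) = q · (-(θ f)^(q-1) + (ζ - 1) E)`.

At the cusp `1/q` of level `q²`: `j(q²z) ↦ j(ζQ)`, `j(z) ↦ j(Q)`, so `y_t := t(q²z) - t(z)` has
`w₃(y_t) = v(ζ - 1)`, `rd₃(y_t/(ζ - 1)) = θ t̃` and `rd₃(y_t^(q-1)/q) = -(θ t̃)^(q-1)`.
Mathlib + J3 `twist` + `thetaL` only.
-/
import Fermat.Agent.GL.Thick.ThetaL
import Fermat.Agent.GJ.J3.QSeries

set_option autoImplicit false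

noncomputable section

namespace Fermat.Agent.GL.Thick

open HahnSeries ModularCurve Fermat.Agent.GJ.J3.QS

variable {B : Type*} [CommRing B]

/-- `ζ^n - 1 = (ζ - 1)(n + (ζ - 1) h)` for every integer `n` -/
theorem exists_zpow_sub_one (u : Bˣ) (n : ℤ) :
    ∃ h : B, ((u ^ n : Bˣ) : B) - 1 = ((u : B) - 1) * ((n : B) + ((u : B) - 1) * h) := by
  induction n using Int.induction_on with
  | zero => exact ⟨0, by simp⟩
  | succ n ih =>
    obtain ⟨h, hh⟩ := ih
    refine ⟨(n : B) + (u : B) * h, ?_⟩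
    have e : ((u ^ ((n : ℤ) + 1) : Bˣ) : B) = ((u ^ (n : ℤ) : Bˣ) : B) * (u : B) := by
      rw [zpow_add_one, Units.val_mul]
    rw [e]
    push_cast at hh ⊢
    linear_combination (u : B) * hh
  | pred n ih =>
    obtain ⟨h, hh⟩ := ih
    set v : B := ((u⁻¹ : Bˣ) : B) with hv
    refine ⟨h - v * (-(n : B) - 1 + ((u : B) - 1) * h), ?_⟩
    have e : ((u ^ (-(n : ℤ) - 1) : Bˣ) : B) = ((u ^ (-(n : ℤ)) : Bˣ) : B) * v := by
      rw [zpow_sub_one, Units.val_mul]
    have hu : (u : B) * v = 1 := by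
      rw [hv, ← Units.val_mul, mul_inv_cancel, Units.val_one]
    rw [e]
    push_cast at hh ⊢
    linear_combination v * hh + (1 + (-(n : B) - 1 + ((u : B) - 1) * h) * ((u : B) - 1)) * hu

/-- a choice of `h_n` -/
def twistH (u : Bˣ) (n : ℤ) : B := (exists_zpow_sub_one u n).choose

theorem twistH_spec (u : Bˣ) (n : ℤ) :
    ((u ^ n : Bˣ) : B) - 1 = ((u : B) - 1) * ((n : B) + ((u : B) - 1) * twistH u n) :=
  (exists_zpow_sub_one u n).choose_spec

/-- **`f(ζQ) - f(Q) = (ζ - 1)(θ f + (ζ - 1) h)`** -/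
theorem exists_twist_sub (u : Bˣ) (f : LaurentSeries B) :
    ∃ h : LaurentSeries B, twist u f - f =
      HahnSeries.C ((u : B) - 1) * (thetaL B f + HahnSeries.C ((u : B) - 1) * h) := by
  refine ⟨⟨fun n => twistH u n * f.coeff n, f.isPWO_support.mono (fun n hn => by
    simp only [Function.mem_support, ne_eq] at hn ⊢
    intro h0
    exact hn (by rw [h0, mul_zero]))⟩, ?_⟩
  ext n
  rw [coeff_sub, twist_coeff, HahnSeries.C_apply, coeff_single_zero_mul, coeff_add,
    coeff_thetaL, coeff_single_zero_mul]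
  have h := twistH_spec u n
  linear_combination f.coeff n * h

/-- the binomial identity `∑_{i<q} (1+Y)^i = ∑_{l<q} C(q,l+1) Y^l` in `ℤ[Y]` -/
theorem geom_sum_one_add (q : ℕ) :
    (∑ i ∈ Finset.range q, (1 + Polynomial.X : Polynomial ℤ) ^ i) =
      ∑ l ∈ Finset.range q, (Polynomial.C ((q.choose (l + 1) : ℕ) : ℤ)) * Polynomial.X ^ l := by
  have hX : (Polynomial.X : Polynomial ℤ) ≠ 0 := Polynomial.X_ne_zero
  apply mul_right_cancel₀ hX
  have h1 := geom_sum_mul (1 + Polynomial.X : Polynomial ℤ) q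
  have h2 : (1 + Polynomial.X : Polynomial ℤ) - 1 = Polynomial.X := by ring
  rw [h2] at h1
  rw [h1, add_comm (1 : Polynomial ℤ), add_pow, Finset.sum_range_succ', Finset.sum_mul]
  simp only [one_pow, mul_one, pow_zero, Nat.choose_zero_right, Nat.cast_one, add_sub_cancel_right]
  refine Finset.sum_congr rfl fun l _ => ?_
  rw [pow_succ]
  simp only [map_natCast]
  ring

/-- **`(ζ - 1)^(q-1) = -q (1 + (ζ - 1) d)`** for `1 + ζ + … + ζ^(q-1) = 0`, `q` prime -/
theorem exists_pow_pred_eq (q : ℕ) (hq : q.Prime) (z : B)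
    (hz : ∑ i ∈ Finset.range q, z ^ i = 0) :
    ∃ d : B, (z - 1) ^ (q - 1) = -((q : B) * (1 + (z - 1) * d)) := by
  have h := congrArg (Polynomial.aeval (z - 1)) (geom_sum_one_add q)
  simp only [map_sum, map_pow, map_add, map_one, Polynomial.aeval_X, map_mul,
    Polynomial.aeval_C, add_sub_cancel] at h
  rw [hz] at h
  -- split off `l = 0` and `l = q - 1`
  obtain ⟨m, rfl⟩ : ∃ m, q = m + 2 := ⟨q - 2, by have := hq.two_le; omega⟩
  rw [Finset.sum_range_succ, Finset.sum_range_succ'] at h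
  simp only [pow_zero, mul_one, zero_add, Nat.choose_one_right, Nat.choose_self] at h
  -- the middle terms are divisible by `q`
  have hmid : ∀ l ∈ Finset.range m, ∃ c : ℕ, (m + 2).choose (l + 1 + 1) = (m + 2) * c := by
    intro l hl
    have hl' : l < m := Finset.mem_range.mp hl
    exact hq.dvd_choose_self (by omega) (by omega)
  choose! c hc using hmid
  refine ⟨∑ l ∈ Finset.range m, (c l : B) * (z - 1) ^ l, ?_⟩
  have hsum : ∑ l ∈ Finset.range m,
      (algebraMap ℤ B) (((m + 2).choose (l + 1 + 1) : ℕ) : ℤ) * (z - 1) ^ (l + 1) =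
      ((m + 2 : ℕ) : B) * ((z - 1) * ∑ l ∈ Finset.range m, (c l : B) * (z - 1) ^ l) := by
    rw [Finset.mul_sum, Finset.mul_sum]
    refine Finset.sum_congr rfl fun l hl => ?_
    rw [hc l hl]
    simp only [eq_intCast]
    push_cast
    ring
  rw [hsum] at h
  have e : m + 2 - 1 = m + 1 := by omega
  rw [e]
  simp only [eq_intCast] at h
  push_cast at h ⊢
  linear_combination -h

/-- **`(f(ζQ) - f(Q))^(q-1) = q (-(θ f)^(q-1) + (ζ - 1) E)`** -/
theorem exists_twist_sub_pow (q : ℕ) (hq : q.Prime) (u : Bˣ)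
    (hu : ∑ i ∈ Finset.range q, (u : B) ^ i = 0) (f : LaurentSeries B) :
    ∃ E : LaurentSeries B, (twist u f - f) ^ (q - 1) =
      (q : LaurentSeries B) * (-(thetaL B f) ^ (q - 1) + HahnSeries.C ((u : B) - 1) * E) := by
  obtain ⟨h, hh⟩ := exists_twist_sub u f
  obtain ⟨d, hd⟩ := exists_pow_pred_eq q hq (u : B) hu
  set π : LaurentSeries B := HahnSeries.C ((u : B) - 1) with hπ
  set a := thetaL B f with ha
  -- `(a + π h)^(q-1) = a^(q-1) + π h c`
  obtain ⟨c, hc⟩ := sub_dvd_pow_sub_pow (a + π * h) a (q - 1)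
  have hπpow : π ^ (q - 1) = -((q : LaurentSeries B) * (1 + π * HahnSeries.C d)) := by
    rw [hπ, ← map_pow, hd, map_neg, map_mul, map_natCast, map_add, map_one, map_mul]
  refine ⟨-(h * c) - HahnSeries.C d * (a + π * h) ^ (q - 1), ?_⟩
  rw [hh, mul_pow, hπpow]
  have hc' : (a + π * h) ^ (q - 1) = a ^ (q - 1) + π * h * c := by
    have : a + π * h - a = π * h := by ring
    rw [this] at hc
    linear_combination hc
  rw [hc']
  ring

end Fermat.Agent.GL.Thick
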