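/-
GATE-L / SMALL-Q (helper95), file 4: `θ j̃` in characteristic `2` and `3` (REG3 / L5-II input).

For `q ≥ 5` helper63's `hasse_T : (θJ)^(q-1) · U₂(J) = V₁(J)` computes `(θ j̃)^(q-1)` as a rational
function of `j̃`.  For `q ∈ {2, 3}`: `240 = 504 = 0` in `k`, so `Ẽ₄ = Ẽ₆ = 1`, `j̃ = Δ̃⁻¹` and
GJ/Haupt/Theta6.thetaL_jqModC (`θ j = -E₄² E₆ / Δ`) gives

  `θ j̃ = -j̃`,   `(θ j̃)^(q-1) = j̃^(q-1)`,

a unit at EVERY point with `j̃ ∉ {0, ∞}`, i.e. at every ordinary non-cuspidal point: in REG3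
(2871 item 4) case (i) with `t = j` covers ALL ordinary points when `q ∈ {2, 3}`.

* `e6S_eq_one : (504 : R) = 0 → e6S R = 1`;
* `thetaL_jqModC_of_small : (240 : R) = 0 → (504 : R) = 0 → thetaL (jqModC R) = -jqModC R`;
* `thetaL_jqModC_char_small`, `thetaL_jqModC_pow_char_small` (`CharP k q`, `q` prime, `¬ 5 ≤ q`).
-/
import Fermat.Agent.GJ.Haupt.Theta6
import Fermat.Agent.GL.Thick.SsPolyAll

set_option autoImplicit false

noncomputable section

namespace Fermat.Agent.GL.SmallQ

open ModularCurve Fermat.Agent.S28 Fermat.Agent.GJ.Haupt Fermat.Agent.S16.L1h67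

section Series

variable (R : Type*) [CommRing R]

/-- `E₆ = 1 - 504 ∑ σ₅(n) qⁿ` is `1` as soon as `504 = 0` in the coefficient ring. -/
theorem e6Z_map_eq_one (h504 : (504 : R) = 0) : e6Z.map (Int.castRingHom R) = 1 := by
  rw [e6Z, map_sub, map_one, map_mul]
  have h : (PowerSeries.map (Int.castRingHom R)) (504 : PowerSeries ℤ) = 0 := by
    have h1 : (504 : PowerSeries ℤ) = PowerSeries.C (504 : ℤ) := by simp
    rw [h1, PowerSeries.map_C]
    have : (Int.castRingHom R) (504 : ℤ) = 0 := by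
      rw [eq_intCast]; push_cast; exact h504
    rw [this, map_zero]
  rw [h, zero_mul, sub_zero]

theorem e6S_eq_one (h504 : (504 : R) = 0) : e6S R = 1 := by
  rw [e6S, Fermat.Agent.S16.RAM.e6, e6Z_map_eq_one R h504, map_one]

/-- **`θ j̃ = -j̃`** when `240 = 504 = 0` (characteristic `2` or `3`) -/
theorem thetaL_jqModC_of_small (h240 : (240 : R) = 0) (h504 : (504 : R) = 0) :
    thetaL (jqModC R) = -jqModC R := by
  rw [thetaL_jqModC, e4S_eq_one R h240, e6S_eq_one R h504, jqModC_eq_deltaInvS R h240]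
  ring

end Series

section CharSmall

variable (q : ℕ) [hqp : Fact q.Prime] (k : Type*) [Field k] [CharP k q]

/-- `504 = 2³ · 3² · 7 = 0` in characteristic `q < 5` -/
theorem cast_504_eq_zero (hq : ¬ 5 ≤ q) : (504 : k) = 0 := by
  have hq2 : 2 ≤ q := hqp.out.two_le
  have hdvd : q ∣ 504 := by
    have : q = 2 ∨ q = 3 ∨ q = 4 := by omega
    rcases this with h | h | h
    · subst h; norm_num
    · subst h; norm_num
    · subst h; exact absurd hqp.out (by norm_num)
  have := (CharP.cast_eq_zero_iff k q 504).2 hdvd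
  exact_mod_cast this

/-- **`θ j̃ = -j̃`** in characteristic `q ∈ {2, 3}` -/
theorem thetaL_jqModC_char_small (hq : ¬ 5 ≤ q) : thetaL (jqModC k) = -jqModC k :=
  thetaL_jqModC_of_small k (cast_240_eq_zero q k hq) (cast_504_eq_zero q k hq)

/-- **`(θ j̃)^(q-1) = j̃^(q-1)`** in characteristic `q ∈ {2, 3}` -/
theorem thetaL_jqModC_pow_char_small (hq : ¬ 5 ≤ q) :
    thetaL (jqModC k) ^ (q - 1) = jqModC k ^ (q - 1) := by
  rw [thetaL_jqModC_char_small q k hq]
  have hq2 : 2 ≤ q := hqp.out.two_le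
  have : q = 2 ∨ q = 3 ∨ q = 4 := by omega
  rcases this with h | h | h
  · subst h
    have h2 : (2 : LaurentSeries k) = 0 := by
      have h0 : ((2 : ℕ) : k) = 0 := CharP.cast_eq_zero k 2
      have h' := congrArg (algebraMap k (LaurentSeries k)) h0
      rw [map_natCast, map_zero] at h'
      exact_mod_cast h'
    show (-jqModC k) ^ 1 = jqModC k ^ 1
    rw [pow_one, pow_one]
    linear_combination (-(jqModC k)) * h2
  · subst h
    show (-jqModC k) ^ 2 = jqModC k ^ 2
    ring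
  · subst h; exact absurd hqp.out (by norm_num)

end CharSmall

end Fermat.Agent.GL.SmallQ
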