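import Fermat.Agent.GL.Thick.EtaNodesAll
import Fermat.Agent.S05.RankOne

/-!
# GATE-L / L5-III inputs (helper65): `J' = rd₁(P'₂)` and  nodes = supersingular points, over `A`

Setting of `GL/Thick/{KRedB,EtaNodes}.lean`: `ℓ ∥ N = N' ℓ`, `A` over `ℓ`, `C = CRing N' A`,
`B = BRing N' ℓ A h`, `B~ = BT = gluedAlg Ψ J'`, `pH = ssPoly ℓ k`.

* `exists_lift_of_mem_ideal` : **`J' ⊆ rd₁(P'₂)`** — every `a ∈ J'` is `red₁ x` of some `x ∈ B`
  with `red₂ x = 0`;  `mem_ideal_iff_exists_lift` : `a ∈ J' ↔ ∃ x ∈ B, red₁ x = a ∧ red₂ x = 0`.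
* `exists_pair_lift` : `(c₁, c₂) ∈ gluedAlg Ψ J' ↔ ∃ x ∈ B, red₁ x = c₁ ∧ red₂ x = c₂`.
* `redC1Hom_surjective`, `redC2Hom_surjective` : `rd_i : B → C` is onto (J1-SURJ on `B`).
* `exists_pow_div_mem_Rw2` : `w₂(x) > 0 ⟹ ∃ M, x^M / ℓ ∈ Rw₂` (the value group of `A ⊂ ℚ̄` is
  archimedean, `S05/RankOne`; `Rw₂` is unramified over `A`).
* EVERY prime `ℓ` (`pH = ssPolyAll ℓ k` of helper95, `= ssPoly` for `ℓ ≥ 5`, `= X^(ℓ-1)` for
  `ℓ ∈ {2, 3}`):  `exists_pow_mem_span_ssPolyAll` : `a ∈ J' ⟹ ∃ n, pH(j~) ∣ a^n`, hence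
  `ideal_le_radical_span_ssPolyAll`, **`radical_ideal_eq_all`** : `√J' = √(pH(j~))`,
  **`le_prime_iff_ssPolyAll_mem`** : a prime `P` of `C` contains `J'` iff `pH(j~) ∈ P`,
  **`node_iff_ssPolyAll_eval`** : a `k`-point `φ` of `C` is a node iff `pH(φ j~) = 0`
  (nodes = supersingular points, NO count, NO `K₀`-descent),
  `node_iff_jtC_eq_zero` (`ℓ ∈ {2, 3}` : nodes = points over `j~ = 0`), `ideal_ne_bot`.
* the same for `ℓ ≥ 5` with helper63's `ssPoly`: `exists_pow_mem_span_ssPoly`, `radical_ideal_eq`,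
  `le_prime_iff_ssPoly_mem`, `node_iff_ssPoly_eval`.
-/

set_option autoImplicit false
set_option linter.unusedSectionVars false

noncomputable section

namespace Fermat.Agent.GL.Thick

open HahnSeries ModularCurve IsLocalRing Polynomial
open Fermat.Agent.S24 Fermat.Agent.GJ.J1 Fermat.Agent.GJ.J1.Val Fermat.Agent.S28
open Fermat.Agent.GK.AL Fermat.Agent.GK.QS Fermat.Agent.GK.FrobGlue Fermat.Agent.GL.Eta
open Fermat.Agent.GL.SmallQ

variable {N' : ℕ} [NeZero N'] {ℓ : ℕ} [Fact ℓ.Prime] [NeZero ℓ]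
variable {A : ValuationSubring Kbar} {h : ExactDvd ℓ (N' * ℓ)}
variable (hℓN : ¬ ℓ ∣ N') (hA : A.LiesOverPrime ℓ)

local notation "kA" => IsLocalRing.ResidueField A

/-! ### lifts of the elements of `J'` -/

/-- **`(c₁, c₂) ∈ B~` is the pair of reductions of some `x ∈ B`** -/
theorem exists_pair_lift {J' : Ideal (CRing N' A)}
    (hJ' : BT N' ℓ A h = gluedAlg (psiC N' ℓ A hℓN hA) J') (c₁ c₂ : CRing N' A) :
    c₁ - psiC N' ℓ A hℓN hA c₂ ∈ J' ↔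
      ∃ x : BRing N' ℓ A h, redC1 hℓN hA x = c₁ ∧ redC2 hℓN hA x = c₂ := by
  constructor
  · intro hc
    have h1 : ((c₁, c₂) : CRing N' A × CRing N' A) ∈ BT N' ℓ A h := by
      rw [hJ']; exact hc
    obtain ⟨x, hx1, hx2⟩ := (mem_BT N' ℓ A h).mp h1
    exact ⟨x, redC1_eq_of_cVal hℓN hA x hx1.symm, redC2_eq_of_cVal hℓN hA x hx2.symm⟩
  · rintro ⟨x, rfl, rfl⟩
    exact sub_psi_mem_of_BT_eq hℓN hA hJ' x

/-- **`J' ⊆ rd₁(P'₂)`**: every `a ∈ J'` is `red₁ x` for some `x ∈ B` with `red₂ x = 0` -/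
theorem exists_lift_of_mem_ideal {J' : Ideal (CRing N' A)}
    (hJ' : BT N' ℓ A h = gluedAlg (psiC N' ℓ A hℓN hA) J') {a : CRing N' A} (ha : a ∈ J') :
    ∃ x : BRing N' ℓ A h, redC1 hℓN hA x = a ∧ rho2 N' ℓ A h x = 0 := by
  have h0 : a - psiC N' ℓ A hℓN hA 0 ∈ J' := by rwa [map_zero, sub_zero]
  obtain ⟨x, hx1, hx2⟩ := (exists_pair_lift hℓN hA hJ' a 0).mp h0
  refine ⟨x, hx1, ?_⟩
  rw [← cVal_redC2 hℓN hA x, hx2, map_zero]

/-- `a ∈ J' ↔ a = red₁ x` for some `x ∈ B` with `red₂ x = 0` -/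
theorem mem_ideal_iff_exists_lift {J' : Ideal (CRing N' A)}
    (hJ' : BT N' ℓ A h = gluedAlg (psiC N' ℓ A hℓN hA) J') (a : CRing N' A) :
    a ∈ J' ↔ ∃ x : BRing N' ℓ A h, redC1 hℓN hA x = a ∧ rho2 N' ℓ A h x = 0 :=
  ⟨exists_lift_of_mem_ideal hℓN hA hJ', fun ⟨x, hx1, hx2⟩ =>
    hx1 ▸ mem_ideal_of_rho2_eq_zero hℓN hA hJ' x hx2⟩

/-- **`rd₁ : B → C` is onto** -/
theorem redC1Hom_surjective (h2 : ℓ = 2 → 3 ∣ N') (h3 : ℓ = 3 → 2 ∣ N') :
    Function.Surjective (redC1Hom (h := h) hℓN hA) := by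
  intro a
  obtain ⟨x, hx1, -⟩ := (mem_BT N' ℓ A h).mp (left_mem_BT N' ℓ A h hℓN hA h2 h3 a)
  exact ⟨x, redC1_eq_of_cVal hℓN hA x hx1.symm⟩

/-- **`rd₂ : B → C` is onto** -/
theorem redC2Hom_surjective (h2 : ℓ = 2 → 3 ∣ N') (h3 : ℓ = 3 → 2 ∣ N') :
    Function.Surjective (redC2Hom (h := h) hℓN hA) := by
  intro b
  obtain ⟨x, -, hx2⟩ := (mem_BT N' ℓ A h).mp (right_mem_BT N' ℓ A h hℓN hA h2 h3 b)
  exact ⟨x, redC2_eq_of_cVal hℓN hA x hx2.symm⟩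

/-! ### the archimedean power trick -/

/-- archimedean property of the valuation of `A ⊂ ℚ̄` over `ℓ` (as `GK/SS/FrobSqKer2`, restated
here to keep the import closure small) -/
theorem archimedean_val (hA : A.LiesOverPrime ℓ) {a b : Kbar} (ha : A.valuation a < 1)
    (hb : b ≠ 0) : ∃ M : ℕ, A.valuation (a ^ M) < A.valuation b := by
  have hq : ℓ.Prime := Fact.out
  have hbv : 0 < A.valuation b := zero_lt_iff.2 ((Valuation.ne_zero_iff _).2 hb)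
  by_cases ha0 : a = 0
  · exact ⟨1, by rw [ha0, pow_one, map_zero]; exact hbv⟩
  set ν := Fermat.Agent.S05.RankOne.qvalOfSubring A hq hA with hν
  have hpos : 0 < ν.v a :=
    (Fermat.Agent.S05.RankOne.qvalOfSubring_pos_iff A hq hA ha0).2
      ((ValuationSubring.mem_nonunits_iff A).2 ha)
  obtain ⟨M, hM⟩ := exists_nat_gt (ν.v b / ν.v a)
  rw [div_lt_iff₀ hpos] at hM
  refine ⟨M, ?_⟩
  have haM : a ^ M ≠ 0 := pow_ne_zero _ ha0
  have h1 : ν.v (a ^ M) = M * ν.v a := ν.map_pow ha0 M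
  rw [← not_le, ← Fermat.Agent.S05.RankOne.qvalOfSubring_le_iff A hq hA haM hb, not_le, ← hν, h1]
  exact hM

/-- **power trick, first valuation**: `w₁(y) > 0 ⟹ ∃ M, y^M / ℓ ∈ Rw₁` -/
theorem exists_pow_div_mem_Rw1 (hA : A.LiesOverPrime ℓ) (N : ℕ) [NeZero N] {y : FN N}
    (hy : y ∈ (redDataBar N A).Rw.nonunits) :
    ∃ M : ℕ, y ^ M / (ℓ : FN N) ∈ (redDataBar N A).Rw := by
  have hq : ℓ.Prime := Fact.out
  by_cases hy0 : y = 0
  · exact ⟨1, by rw [hy0, pow_one, zero_div]; exact zero_mem _⟩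
  obtain ⟨c, hc0, hu, hui⟩ := unramified A (modularFunctionFieldBar N) (hasGaussFrac_bar N A) y hy0
  have hc0' : algebraMap Kbar (FN N) c ≠ 0 := (_root_.map_ne_zero _).2 hc0
  set u : FN N := y / algebraMap Kbar (FN N) c with hu_def
  have hyu : y = algebraMap Kbar (FN N) c * u := by rw [hu_def, mul_div_cancel₀ _ hc0']
  -- `c` is a nonunit of `A`
  have hcA : c ∈ A := by
    have h1 : algebraMap Kbar (FN N) c ∈ (redDataBar N A).Rw := by
      have : algebraMap Kbar (FN N) c = y * u⁻¹ := by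
        rw [hyu, mul_assoc, mul_inv_cancel₀ (by
          rw [hu_def]; exact div_ne_zero hy0 hc0'), mul_one]
      rw [this]
      exact mul_mem (ValuationSubring.nonunits_le hy) hui
    exact (algebraMap_mem_Rw_iff (hGF := hasGaussFrac_bar N A) c).mp h1
  have hcn : A.valuation c < 1 := by
    by_contra hcon
    have hc1 : A.valuation c = 1 :=
      le_antisymm ((A.valuation_le_one_iff c).2 hcA) (not_lt.mp hcon)
    have hci : c⁻¹ ∈ A := by
      rw [← A.valuation_le_one_iff, map_inv₀, hc1, inv_one]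
    have hyi : y⁻¹ ∈ (redDataBar N A).Rw := by
      have : y⁻¹ = algebraMap Kbar (FN N) c⁻¹ * u⁻¹ := by
        rw [hyu, mul_inv, map_inv₀]
      rw [this]
      exact mul_mem ((algebraMap_mem_Rw_iff (hGF := hasGaussFrac_bar N A) c⁻¹).mpr hci) hui
    have hunit : y ∉ (redDataBar N A).Rw.nonunits := by
      rw [ValuationSubring.mem_nonunits_iff, not_lt]
      have h1 := ((redDataBar N A).Rw.valuation_le_one_iff y⁻¹).2 hyi
      rwa [map_inv₀, inv_le_one₀ (zero_lt_iff.2 ((Valuation.ne_zero_iff _).2 hy0))] at h1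
    exact hunit hy
  have hℓ0 : (ℓ : Kbar) ≠ 0 := Nat.cast_ne_zero.mpr hq.ne_zero
  obtain ⟨M, hM⟩ := archimedean_val hA hcn hℓ0
  refine ⟨M, ?_⟩
  have hdiv : c ^ M / (ℓ : Kbar) ∈ A := by
    rw [← A.valuation_le_one_iff, map_div₀]
    exact (div_le_one₀ (zero_lt_iff.2 ((Valuation.ne_zero_iff _).2 hℓ0))).2 hM.le
  have e : y ^ M / (ℓ : FN N) = algebraMap Kbar (FN N) (c ^ M / (ℓ : Kbar)) * u ^ M := by
    rw [hyu, mul_pow, map_div₀, map_pow, map_natCast]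
    ring
  rw [e]
  exact mul_mem ((algebraMap_mem_Rw_iff (hGF := hasGaussFrac_bar N A) _).mpr hdiv)
    (pow_mem hu M)

/-- **power trick, second valuation**: `w₂(x) > 0 ⟹ ∃ M, x^M / ℓ ∈ Rw₂` -/
theorem exists_pow_div_mem_Rw2 (hA : A.LiesOverPrime ℓ) (N : ℕ) [NeZero N] (h' : ExactDvd ℓ N)
    {x : FN N} (hx : x ∈ (redData2 N A h').Rw.nonunits) :
    ∃ M : ℕ, x ^ M / (ℓ : FN N) ∈ (redData2 N A h').Rw := by
  have hy := (mem_nonunits_Rw2_iff N A h' x).mp hx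
  obtain ⟨M, hM⟩ := exists_pow_div_mem_Rw1 hA N hy
  refine ⟨M, ?_⟩
  rw [mem_Rw2_iff, map_div₀, map_pow, map_natCast]
  exact hM

/-! ### nodes = supersingular points (every prime `ℓ`, `pH = ssPolyAll`) -/

/-- `P(j~) ≠ 0` in `C` for `P ≠ 0` -/
theorem aeval_jtC_ne_zero {P : kA[X]} (hP : P ≠ 0) : aeval (jtC N' A) P ≠ 0 := by
  intro h0
  have h1 : aeval (jqModC kA) P = 0 := by
    rw [← cVal_aeval N' A P, h0, map_zero]
  exact hP ((transcendental_iff.mp (transcendental_jqModC kA)) P h1)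

/-- **`a ∈ J' ⟹ pH(j~) ∣ a^n`** for some `n` (every prime `ℓ`) -/
theorem exists_pow_mem_span_ssPolyAll {J' : Ideal (CRing N' A)}
    (hJ' : BT N' ℓ A h = gluedAlg (psiC N' ℓ A hℓN hA) J') {a : CRing N' A} (ha : a ∈ J') :
    ∃ n : ℕ, aeval (jtC N' A) (@ssPolyAll ℓ _ kA _ (charP_residue A Fact.out hA)) ∣ a ^ n := by
  obtain ⟨x, hx1, hx2⟩ := exists_lift_of_mem_ideal hℓN hA hJ' ha
  -- `x` is a nonunit of `Rw₂`
  have hxn : (x : FN (N' * ℓ)) ∈ (redData2 (N' * ℓ) A h).Rw.nonunits := by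
    rw [RedData_mem_nonunits_iff]
    refine ⟨x.2.2.2, ?_⟩
    rw [rho2_apply] at hx2
    exact Subtype.ext hx2
  obtain ⟨M, hM⟩ := exists_pow_div_mem_Rw2 hA (N' * ℓ) h hxn
  have h1 := ssPolyAll_dvd_pow hℓN hA (x ^ M) (by
    rw [Subring.coe_pow]; exact hM)
  refine ⟨M * 12, ?_⟩
  have h2 : redC1 hℓN hA (x ^ M) = a ^ M := by
    rw [← redC1Hom_apply, map_pow, redC1Hom_apply, hx1]
  rwa [h2, ← pow_mul] at h1

/-- **`J' ≤ √(pH(j~))`** -/
theorem ideal_le_radical_span_ssPolyAll {J' : Ideal (CRing N' A)}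
    (hJ' : BT N' ℓ A h = gluedAlg (psiC N' ℓ A hℓN hA) J') :
    J' ≤ (Ideal.span {aeval (jtC N' A)
      (@ssPolyAll ℓ _ kA _ (charP_residue A Fact.out hA))}).radical := by
  intro a ha
  obtain ⟨n, hn⟩ := exists_pow_mem_span_ssPolyAll hℓN hA hJ' ha
  exact ⟨n, Ideal.mem_span_singleton.mpr hn⟩

/-- **`√J' = √(pH(j~))`** -/
theorem radical_ideal_eq_all {J' : Ideal (CRing N' A)}
    (hJ' : BT N' ℓ A h = gluedAlg (psiC N' ℓ A hℓN hA) J') :
    J'.radical = (Ideal.span {aeval (jtC N' A)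
      (@ssPolyAll ℓ _ kA _ (charP_residue A Fact.out hA))}).radical := by
  apply le_antisymm
  · exact Ideal.radical_le_radical_iff.mpr (ideal_le_radical_span_ssPolyAll hℓN hA hJ')
  · apply Ideal.radical_mono
    rw [Ideal.span_singleton_le_iff_mem]
    exact ssPolyAll_mem_ideal hℓN hA hJ'

/-- **a prime of `C` contains `J'` iff it contains `pH(j~)`** -/
theorem le_prime_iff_ssPolyAll_mem {J' : Ideal (CRing N' A)}
    (hJ' : BT N' ℓ A h = gluedAlg (psiC N' ℓ A hℓN hA) J')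
    (P : Ideal (CRing N' A)) [P.IsPrime] :
    J' ≤ P ↔ aeval (jtC N' A) (@ssPolyAll ℓ _ kA _ (charP_residue A Fact.out hA)) ∈ P := by
  constructor
  · intro hle
    exact hle (ssPolyAll_mem_ideal hℓN hA hJ')
  · intro hmem a ha
    obtain ⟨n, hn⟩ := exists_pow_mem_span_ssPolyAll hℓN hA hJ' ha
    exact Ideal.IsPrime.mem_of_pow_mem inferInstance n (Ideal.mem_of_dvd P hn hmem)

/-- **nodes = supersingular points**: a `k`-point `φ` of `C` kills `J'` iff `pH(φ j~) = 0` -/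
theorem node_iff_ssPolyAll_eval {J' : Ideal (CRing N' A)}
    (hJ' : BT N' ℓ A h = gluedAlg (psiC N' ℓ A hℓN hA) J')
    (φ : CRing N' A →ₐ[kA] kA) :
    J' ≤ RingHom.ker φ.toRingHom ↔
      (@ssPolyAll ℓ _ kA _ (charP_residue A Fact.out hA)).eval (φ (jtC N' A)) = 0 := by
  constructor
  · intro hle
    exact ssPolyAll_eval_node hℓN hA hJ' φ hle
  · intro h0 a ha
    obtain ⟨n, c, hc⟩ := exists_pow_mem_span_ssPolyAll hℓN hA hJ' ha
    have h1 : φ a ^ n = 0 := by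
      rw [← map_pow, hc, map_mul, eval_aeval_jtC, h0, zero_mul]
    exact pow_eq_zero_iff (by
      rintro rfl
      rw [pow_zero] at h1
      exact one_ne_zero h1) |>.mp h1

/-- for `ℓ ∈ {2, 3}`: **the nodes are exactly the points over `j~ = 0`** -/
theorem node_iff_jtC_eq_zero (hℓ : ¬ 5 ≤ ℓ) {J' : Ideal (CRing N' A)}
    (hJ' : BT N' ℓ A h = gluedAlg (psiC N' ℓ A hℓN hA) J')
    (φ : CRing N' A →ₐ[kA] kA) :
    J' ≤ RingHom.ker φ.toRingHom ↔ φ (jtC N' A) = 0 := by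
  have : CharP kA ℓ := charP_residue A Fact.out hA
  rw [node_iff_ssPolyAll_eval hℓN hA hJ' φ, ssPolyAll_eval_eq_zero_iff ℓ kA hℓ]

/-- `J' ≠ ⊥` -/
theorem ideal_ne_bot {J' : Ideal (CRing N' A)}
    (hJ' : BT N' ℓ A h = gluedAlg (psiC N' ℓ A hℓN hA) J') : J' ≠ ⊥ := by
  have : CharP kA ℓ := charP_residue A Fact.out hA
  intro hbot
  have h1 := ssPolyAll_mem_ideal hℓN hA hJ'
  rw [hbot, Ideal.mem_bot] at h1
  exact aeval_jtC_ne_zero (N' := N') (A := A) (ssPolyAll_ne_zero ℓ kA) h1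

/-! ### the same for `ℓ ≥ 5` with helper63's `ssPoly` -/

/-- **`a ∈ J' ⟹ pH(j~) ∣ a^n`** for some `n` -/
theorem exists_pow_mem_span_ssPoly (hq5 : 5 ≤ ℓ) {J' : Ideal (CRing N' A)}
    (hJ' : BT N' ℓ A h = gluedAlg (psiC N' ℓ A hℓN hA) J') {a : CRing N' A} (ha : a ∈ J') :
    ∃ n : ℕ, aeval (jtC N' A) (@ssPoly ℓ _ kA _ (charP_residue A Fact.out hA) hq5) ∣ a ^ n := by
  have : CharP kA ℓ := charP_residue A Fact.out hA
  have h1 := exists_pow_mem_span_ssPolyAll hℓN hA hJ' ha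
  rwa [ssPolyAll_of_le ℓ kA hq5] at h1

/-- **`√J' = √(pH(j~))`** -/
theorem radical_ideal_eq (hq5 : 5 ≤ ℓ) {J' : Ideal (CRing N' A)}
    (hJ' : BT N' ℓ A h = gluedAlg (psiC N' ℓ A hℓN hA) J') :
    J'.radical = (Ideal.span {aeval (jtC N' A)
      (@ssPoly ℓ _ kA _ (charP_residue A Fact.out hA) hq5)}).radical := by
  have : CharP kA ℓ := charP_residue A Fact.out hA
  have h1 := radical_ideal_eq_all hℓN hA hJ'
  rwa [ssPolyAll_of_le ℓ kA hq5] at h1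

/-- **a prime of `C` contains `J'` iff it contains `pH(j~)`** -/
theorem le_prime_iff_ssPoly_mem (hq5 : 5 ≤ ℓ) {J' : Ideal (CRing N' A)}
    (hJ' : BT N' ℓ A h = gluedAlg (psiC N' ℓ A hℓN hA) J')
    (P : Ideal (CRing N' A)) [P.IsPrime] :
    J' ≤ P ↔ aeval (jtC N' A) (@ssPoly ℓ _ kA _ (charP_residue A Fact.out hA) hq5) ∈ P := by
  have : CharP kA ℓ := charP_residue A Fact.out hA
  have h1 := le_prime_iff_ssPolyAll_mem hℓN hA hJ' P
  rwa [ssPolyAll_of_le ℓ kA hq5] at h1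

/-- **nodes = supersingular points**: a `k`-point `φ` of `C` kills `J'` iff `pH(φ j~) = 0` -/
theorem node_iff_ssPoly_eval (hq5 : 5 ≤ ℓ) {J' : Ideal (CRing N' A)}
    (hJ' : BT N' ℓ A h = gluedAlg (psiC N' ℓ A hℓN hA) J')
    (φ : CRing N' A →ₐ[kA] kA) :
    J' ≤ RingHom.ker φ.toRingHom ↔
      (@ssPoly ℓ _ kA _ (charP_residue A Fact.out hA) hq5).eval (φ (jtC N' A)) = 0 := by
  have : CharP kA ℓ := charP_residue A Fact.out hA
  have h1 := node_iff_ssPolyAll_eval hℓN hA hJ' φ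
  rwa [ssPolyAll_of_le ℓ kA hq5] at h1

end Fermat.Agent.GL.Thick
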