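/-
GATE-L / L5-SP (helper85), HEDGE for (DIV_c) [design-cell rulings 2871 / 2876, route (b)]:
SPECIALISATION OF ZERO DIVISORS along the L-space place reduction map of GJ/S37.

Abstract setting of `GJ/S37/LSpaceRed.lean`: `R : RedData K F k Ft`, `H : LSpaceHyp R g c`,
`rOf H : Place K F → Place k Ft`.  For `y ∈ Rw` with `red y ≠ 0`:

* `polar_le`      : `(red y)_∞ ≤ r_* (y)_∞`                       (no further hypothesis);
* `polar_eq`      : `(red y)_∞ = r_* (y)_∞`   if `deg (y)_∞ ≤ deg (red y)_∞` (degree preservation);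
* `zeros_eq`      : `(red y)_0 = r_* (y)_0`   under the same hypothesis;
* `dvd_ord_red`   : if `n ∣ ord_P y` at every zero `P` of `y`, then `n ∣ ord_Q (red y)` at every zero
                    `Q` of `red y`.

Concrete form (`dvd_ord_red_jF_sub`) at the modular level `M`, `ℓ ∤ M`: `y = j - a`.
-/
import Mathlib
import Fermat.Agent.GJ.S37.LSpaceRed
import Fermat.Agent.GJ.S37.PoleDeg
import Fermat.Agent.GJ.S37.LSpaceGateBar

set_option autoImplicit false

noncomputable section

open AlgebraicCurve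

namespace Fermat.Agent.GL.Thick.SpecDiv

open Fermat.Agent.RRh45 Fermat.Agent.GJ.S37MinDiv Fermat.Agent.GJ.J1 Fermat.Agent.GJ.S37LSpace

variable {K F k Ft : Type*} [Field K] [Field F] [Algebra K F] [Field k] [Field Ft] [Algebra k Ft]

/-! ### Finsupp bookkeeping -/

section Bookkeeping

theorem posPart_sub_negPart (D : Divisor K F) : (D ⊔ 0) - ((-D) ⊔ 0) = D := by
  ext P
  rw [Finsupp.sub_apply, Finsupp.sup_apply, Finsupp.sup_apply, Finsupp.neg_apply]
  simp only [Finsupp.coe_zero, Pi.zero_apply]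
  rcases le_total (D P) 0 with h | h
  · rw [sup_eq_right.mpr h, sup_eq_left.mpr (by omega : (0 : ℤ) ≤ -(D P))]; omega
  · rw [sup_eq_left.mpr h, sup_eq_right.mpr (by omega : -(D P) ≤ (0 : ℤ))]; omega

theorem negPart_apply (D : Divisor K F) (P : Place K F) : ((-D) ⊔ 0) P = max (-(D P)) 0 := by
  rw [Finsupp.sup_apply, Finsupp.neg_apply]; rfl

theorem posPart_apply (D : Divisor K F) (P : Place K F) : (D ⊔ 0) P = max (D P) 0 := by
  rw [Finsupp.sup_apply]; rfl

theorem ord_pow' (Q : Place K F) (f : F) (n : ℕ) : Q.ord (f ^ n) = n * Q.ord f := by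
  rw [← zpow_natCast, Q.ord_zpow]

/-- push-forward of an effective divisor is effective. -/
theorem mapDomain_nonneg {k Ft : Type*} [Field k] [Field Ft] [Algebra k Ft]
    (r : Place K F → Place k Ft) {D : Divisor K F} (hD : 0 ≤ D) :
    (0 : Divisor k Ft) ≤ Finsupp.mapDomain r D := by
  classical
  rw [Finsupp.mapDomain, Finsupp.sum]
  refine Finset.sum_nonneg fun P _ => Finsupp.single_nonneg.mpr ?_
  simpa using Finsupp.le_def.mp hD P

/-- the degree of a push-forward when all places have degree one. -/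
theorem degree_mapDomain {k Ft : Type*} [Field k] [Field Ft] [Algebra k Ft]
    (r : Place K F → Place k Ft) (hF : ∀ P : Place K F, P.deg = 1)
    (hFt : ∀ Q : Place k Ft, Q.deg = 1) (D : Divisor K F) :
    Divisor.degree (Finsupp.mapDomain r D) = Divisor.degree D := by
  classical
  induction D using Finsupp.induction_linear with
  | zero => simp
  | add D D' h h' => rw [Finsupp.mapDomain_add, map_add, map_add, h, h']
  | single P n =>
    rw [Finsupp.mapDomain_single, Divisor.degree_single, Divisor.degree_single, hF P, hFt (r P)]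

/-- divisibility passes to push-forwards. -/
theorem dvd_mapDomain_apply {k Ft : Type*} [Field k] [Field Ft] [Algebra k Ft]
    (r : Place K F → Place k Ft) {D : Divisor K F} {n : ℤ} (hD : ∀ P, n ∣ D P)
    (Q : Place k Ft) : n ∣ Finsupp.mapDomain r D Q := by
  classical
  rw [Finsupp.mapDomain, Finsupp.sum, Finsupp.finsetSum_apply]
  refine Finset.dvd_sum fun P _ => ?_
  rw [Finsupp.single_apply]
  split_ifs
  · exact hD P
  · exact dvd_zero n

end Bookkeeping

section Main

variable {R : RedData K F k Ft} {g c : ℤ}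
variable [FiniteResidues K F] [HasPrincipalDivisors K F] [Nonempty (Place K F)]
variable [FiniteResidues k Ft] [HasPrincipalDivisors k Ft] [Nonempty (Place k Ft)]
variable [Infinite k]

/-- **(SP0)** `r_* (div y) = div (red y)` as an equality of divisors. -/
theorem mapDomain_div_eq (H : LSpaceHyp R g c) {y : R.Rw} (hy : R.red y ≠ 0)
    {Dy : Divisor K F} (hDy : ∀ P : Place K F, Dy P = P.ord (y : F))
    {Dt : Divisor k Ft} (hDt : ∀ Q : Place k Ft, Dt Q = Q.ord (R.red y)) :
    Finsupp.mapDomain (rOf H) Dy = Dt :=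
  Finsupp.ext fun Q => by rw [mapDomain_rOf_principal H hy hDy Q, hDt Q]

/-- **(SP1a)** the polar divisor of the reduction is bounded by the push-forward of the polar
divisor. -/
theorem polar_le (H : LSpaceHyp R g c) {y : R.Rw} (hy : R.red y ≠ 0)
    {Dy : Divisor K F} (hDy : ∀ P : Place K F, Dy P = P.ord (y : F))
    {Dt : Divisor k Ft} (hDt : ∀ Q : Place k Ft, Dt Q = Q.ord (R.red y)) :
    (-Dt) ⊔ 0 ≤ Finsupp.mapDomain (rOf H) ((-Dy) ⊔ 0) := by
  classical
  have hc := H.c_nonneg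
  have hy0 : (y : F) ≠ 0 := fun h => hy (by rw [show y = 0 from Subtype.ext h, map_zero])
  have hpol0 : (0 : Divisor K F) ≤ (-Dy) ⊔ 0 := le_sup_right
  by_cases hz : (-Dy) ⊔ 0 = 0
  · -- no poles upstairs: no poles downstairs by `poleDeg`
    have h1 := H.poleDeg y Dy Dt hDy hDt hy
    rw [hz, map_zero] at h1
    have h2 : (0 : Divisor k Ft) ≤ (-Dt) ⊔ 0 := le_sup_right
    have h3 := degree_nonneg_of_nonneg h2
    have h4 : (-Dt) ⊔ 0 = 0 :=
      eq_zero_of_nonneg_of_degree_eq_zero h2 (le_antisymm h1 h3)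
    rw [h4, hz, Finsupp.mapDomain_zero]
  · -- the polar divisor has positive degree
    have hdeg1 : 1 ≤ Divisor.degree ((-Dy) ⊔ 0) := by
      have h3 := degree_nonneg_of_nonneg hpol0
      rcases h3.lt_or_eq with h | h
      · omega
      · exact absurd (eq_zero_of_nonneg_of_degree_eq_zero hpol0 h.symm) hz
    set M : ℕ := (c + 1).toNat with hM
    have hMc : (M : ℤ) = c + 1 := Int.toNat_of_nonneg (by omega)
    have hMpos : (0 : ℤ) < (M : ℤ) := by omega
    set D : Divisor K F := M • ((-Dy) ⊔ 0) with hD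
    have hD0 : 0 ≤ D := smul_nonneg (Nat.zero_le M) hpol0
    have hDdeg : c + 1 ≤ Divisor.degree D := by
      rw [hD, map_nsmul, nsmul_eq_mul]
      nlinarith
    obtain ⟨-, -, hVE⟩ := redSpace_eq H hD0 hDdeg
    -- `y ^ M ∈ L(D) ∩ Rw`
    have hmem : ((y ^ M : R.Rw) : F) ∈ riemannRochSpace D := by
      rw [mem_riemannRochSpace_iff]
      intro P
      right
      rw [hD, Finsupp.smul_apply, nsmul_eq_mul, negPart_apply, hDy P, SubmonoidClass.coe_pow,
        ord_pow']
      have : -(P.ord (y : F)) ≤ max (-(P.ord (y : F))) 0 := le_max_left _ _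
      nlinarith
    have hred : R.red (y ^ M) ∈ redSpace R D := ⟨y ^ M, hmem, rfl⟩
    rw [hVE, map_pow, mem_riemannRochSpace_iff] at hred
    rw [Finsupp.le_def]
    intro Q
    have hQ := (hred Q).resolve_left (pow_ne_zero M hy)
    rw [ord_pow', hD, Finsupp.mapDomain_smul, Finsupp.smul_apply, nsmul_eq_mul] at hQ
    have h0 : 0 ≤ Finsupp.mapDomain (rOf H) ((-Dy) ⊔ 0) Q := by
      simpa using Finsupp.le_def.mp (mapDomain_nonneg (rOf H) hpol0) Q
    rw [negPart_apply, hDt Q]
    refine max_le ?_ h0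
    nlinarith

/-- **(SP1b)** under degree preservation the polar divisor specialises. -/
theorem polar_eq (H : LSpaceHyp R g c) {y : R.Rw} (hy : R.red y ≠ 0)
    {Dy : Divisor K F} (hDy : ∀ P : Place K F, Dy P = P.ord (y : F))
    {Dt : Divisor k Ft} (hDt : ∀ Q : Place k Ft, Dt Q = Q.ord (R.red y))
    (hdeg : Divisor.degree ((-Dy) ⊔ 0) ≤ Divisor.degree ((-Dt) ⊔ 0)) :
    (-Dt) ⊔ 0 = Finsupp.mapDomain (rOf H) ((-Dy) ⊔ 0) := by
  have hle := polar_le H hy hDy hDt
  refine eq_of_le_of_degree_eq hle (le_antisymm (degree_mono hle) ?_)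
  rw [degree_mapDomain (rOf H) H.degF H.degFt]
  exact hdeg

/-- **(SP1c)** under degree preservation the divisor of zeros specialises:
`(red y)_0 = r_* (y)_0`. -/
theorem zeros_eq (H : LSpaceHyp R g c) {y : R.Rw} (hy : R.red y ≠ 0)
    {Dy : Divisor K F} (hDy : ∀ P : Place K F, Dy P = P.ord (y : F))
    {Dt : Divisor k Ft} (hDt : ∀ Q : Place k Ft, Dt Q = Q.ord (R.red y))
    (hdeg : Divisor.degree ((-Dy) ⊔ 0) ≤ Divisor.degree ((-Dt) ⊔ 0)) :
    Dt ⊔ 0 = Finsupp.mapDomain (rOf H) (Dy ⊔ 0) := by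
  have h1 := polar_eq H hy hDy hDt hdeg
  have h2 := mapDomain_div_eq H hy hDy hDt
  have h3 : Dt ⊔ 0 = Dt + ((-Dt) ⊔ 0) := sub_eq_iff_eq_add.mp (posPart_sub_negPart Dt)
  have h4 : Dy ⊔ 0 = Dy + ((-Dy) ⊔ 0) := sub_eq_iff_eq_add.mp (posPart_sub_negPart Dy)
  rw [h3, h4, Finsupp.mapDomain_add, h2, h1]

/-- **(SP2)** divisibility of the orders of vanishing passes to the reduction. -/
theorem dvd_ord_red (H : LSpaceHyp R g c) {y : R.Rw} (hy : R.red y ≠ 0)
    {Dy : Divisor K F} (hDy : ∀ P : Place K F, Dy P = P.ord (y : F))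
    {Dt : Divisor k Ft} (hDt : ∀ Q : Place k Ft, Dt Q = Q.ord (R.red y))
    (hdeg : Divisor.degree ((-Dy) ⊔ 0) ≤ Divisor.degree ((-Dt) ⊔ 0))
    {n : ℤ} (hn : ∀ P : Place K F, 0 < P.ord (y : F) → n ∣ P.ord (y : F))
    (Q : Place k Ft) (hQ : 0 < Q.ord (R.red y)) : n ∣ Q.ord (R.red y) := by
  have h1 := zeros_eq H hy hDy hDt hdeg
  have h2 : ∀ P : Place K F, n ∣ (Dy ⊔ 0) P := by
    intro P
    rw [posPart_apply, hDy P]
    rcases lt_or_ge 0 (P.ord (y : F)) with h | h
    · rw [max_eq_left h.le]; exact hn P h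
    · rw [max_eq_right h]; exact dvd_zero n
  have h3 := dvd_mapDomain_apply (rOf H) h2 Q
  rw [← h1, posPart_apply, hDt Q, max_eq_left hQ.le] at h3
  exact h3

/-- **(SP2')** the same with the principal divisors produced internally. -/
theorem dvd_ord_red' (H : LSpaceHyp R g c) {y : R.Rw} (hy : R.red y ≠ 0)
    (hdeg : ∀ (Dy : Divisor K F) (Dt : Divisor k Ft),
      (∀ P : Place K F, Dy P = P.ord (y : F)) → (∀ Q : Place k Ft, Dt Q = Q.ord (R.red y)) →
      Divisor.degree ((-Dy) ⊔ 0) ≤ Divisor.degree ((-Dt) ⊔ 0))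
    {n : ℤ} (hn : ∀ P : Place K F, 0 < P.ord (y : F) → n ∣ P.ord (y : F))
    (Q : Place k Ft) (hQ : 0 < Q.ord (R.red y)) : n ∣ Q.ord (R.red y) := by
  have hy0 : (y : F) ≠ 0 := fun h => hy (by rw [show y = 0 from Subtype.ext h, map_zero])
  obtain ⟨Dy, hDy, -⟩ := HasPrincipalDivisors.exists_divisor (K := K) (y : F) hy0
  obtain ⟨Dt, hDt, -⟩ := HasPrincipalDivisors.exists_divisor (K := k) (R.red y) hy
  exact dvd_ord_red H hy hDy hDt (hdeg Dy Dt hDy hDt) hn Q hQ

end Main

/-! ### Charts: `y = t - a` for a Gauss chart `t` with degree preservation -/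

section Chart

open IntermediateField Fermat.Agent.S24

theorem transcendental_sub_algebraMap {K F : Type*} [Field K] [Field F] [Algebra K F] {t : F}
    (ht : Transcendental K t) (a : K) : Transcendental K (t - algebraMap K F a) := by
  intro h
  apply ht
  have := h.add (isAlgebraic_algebraMap (R := K) (A := F) a)
  rwa [sub_add_cancel] at this

theorem adjoin_sub_algebraMap {K F : Type*} [Field K] [Field F] [Algebra K F] (t : F) (a : K) :
    K⟮t - algebraMap K F a⟯ = K⟮t⟯ := by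
  apply le_antisymm
  · rw [adjoin_simple_le_iff]
    exact sub_mem (mem_adjoin_simple_self K t) (IntermediateField.algebraMap_mem _ a)
  · rw [adjoin_simple_le_iff]
    have h1 : t - algebraMap K F a ∈ K⟮t - algebraMap K F a⟯ := mem_adjoin_simple_self K _
    have h2 : algebraMap K F a ∈ K⟮t - algebraMap K F a⟯ := IntermediateField.algebraMap_mem _ a
    have := add_mem h1 h2
    rwa [sub_add_cancel] at this

theorem finrank_adjoin_sub_algebraMap {K F : Type*} [Field K] [Field F] [Algebra K F] (t : F)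
    (a : K) : Module.finrank K⟮t - algebraMap K F a⟯ F = Module.finrank K⟮t⟯ F := by
  rw [adjoin_sub_algebraMap]

variable {R : RedData K F k Ft} {g c : ℤ}
variable [FiniteResidues K F] [HasPrincipalDivisors K F] [Nonempty (Place K F)]
variable [FiniteResidues k Ft] [HasPrincipalDivisors k Ft] [Nonempty (Place k Ft)]
variable [Infinite k]

/-- the element `t - a` of `Rw`. -/
def subConst (R : RedData K F k Ft) {t : F} (ht : t ∈ R.Rw) (a : R.A) : R.Rw :=
  ⟨t, ht⟩ - ⟨algebraMap K F (a : K), (R.mem_A_iff a).1 a.2⟩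

omit [FiniteResidues K F] [HasPrincipalDivisors K F] [Nonempty (Place K F)]
  [FiniteResidues k Ft] [HasPrincipalDivisors k Ft] [Nonempty (Place k Ft)] [Infinite k] in
@[simp] theorem coe_subConst {t : F} (ht : t ∈ R.Rw) (a : R.A) :
    ((subConst R ht a : R.Rw) : F) = t - algebraMap K F (a : K) := rfl

omit [FiniteResidues K F] [HasPrincipalDivisors K F] [Nonempty (Place K F)]
  [FiniteResidues k Ft] [HasPrincipalDivisors k Ft] [Nonempty (Place k Ft)] [Infinite k] in
theorem red_subConst {t : F} (ht : t ∈ R.Rw) (a : R.A) :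
    R.red (subConst R ht a) = R.red ⟨t, ht⟩ - algebraMap k Ft (R.res a) := by
  rw [subConst, map_sub, R.red_algebraMap]

/-- **(SP3-abs)** for a Gauss chart `t` with degree preservation and `a ∈ A`: divisibility of the
orders of vanishing of `t - a` passes to `red t - res a`. -/
theorem dvd_ord_red_chart_sub (H : LSpaceHyp R g c) (x₀ : F) [IsGen K x₀] (xt₀ : Ft) [IsGen k xt₀]
    {t : F} (ht : t ∈ R.Rw) (htr : Transcendental k (R.red ⟨t, ht⟩))
    (hdeg : Module.finrank K⟮t⟯ F ≤ Module.finrank k⟮R.red ⟨t, ht⟩⟯ Ft) (a : R.A)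
    {n : ℤ} (hn : ∀ P : Place K F, 0 < P.ord (t - algebraMap K F (a : K)) →
      n ∣ P.ord (t - algebraMap K F (a : K)))
    (Q : Place k Ft) (hQ : 0 < Q.ord (R.red ⟨t, ht⟩ - algebraMap k Ft (R.res a))) :
    n ∣ Q.ord (R.red ⟨t, ht⟩ - algebraMap k Ft (R.res a)) := by
  have htK : Transcendental K t := IntRed.transcendental_of_isGaussChart ⟨ht, htr⟩
  have hyK : Transcendental K (t - algebraMap K F (a : K)) := transcendental_sub_algebraMap htK _
  have hyk : Transcendental k (R.red ⟨t, ht⟩ - algebraMap k Ft (R.res a)) :=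
    transcendental_sub_algebraMap htr _
  have hred := red_subConst (R := R) ht a
  have hy : R.red (subConst R ht a) ≠ 0 := by
    rw [hred]
    intro h0
    exact hyk (h0 ▸ isAlgebraic_zero)
  rw [← hred] at hQ ⊢
  refine dvd_ord_red' H hy ?_ (by simpa using hn) Q hQ
  intro Dy Dt hDy hDt
  rw [Fermat.Agent.GJ.S37PoleDeg.degree_neg_sup_zero_eq_finrank x₀ (y := t - algebraMap K F (a : K))
      hyK (fun P => by rw [hDy P, coe_subConst]),
    Fermat.Agent.GJ.S37PoleDeg.degree_neg_sup_zero_eq_finrank xt₀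
      (y := R.red ⟨t, ht⟩ - algebraMap k Ft (R.res a)) hyk (fun P => by rw [hDt P, hred]),
    finrank_adjoin_sub_algebraMap, finrank_adjoin_sub_algebraMap]
  exact_mod_cast hdeg

end Chart

/-! ### The modular instance: level `M`, `ℓ ∤ M`, `y = j - a` -/

section Concrete

open ModularCurve IntermediateField Fermat.Agent.S24 Fermat.Agent.GJ.J1.Val
  Fermat.Agent.GJ.J1.Haupt

variable (M : ℕ) [NeZero M] {ℓ : ℕ} [Fact ℓ.Prime] (A : ValuationSubring Kbar)

local notation "kA" => IsLocalRing.ResidueField A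

/-- **(SP3) = (DIV_c) in `Place` language.** Level `M` with `ℓ ∤ M` (and the side conditions of J1 at
`ℓ = 2, 3`), `A` a valuation ring of `ℚ̄` over `ℓ`, `a ∈ A`: if `n` divides the order of vanishing
of `j - a` at every zero in characteristic zero, then `n` divides the order of vanishing of
`j~ - a~` at every zero on the residue curve `FresBar M A`. -/
theorem dvd_ord_red_jF_sub (hℓM : ¬ ℓ ∣ M) (hA : A.LiesOverPrime ℓ)
    (h2 : ℓ = 2 → 3 ∣ M) (h3 : ℓ = 3 → 2 ∣ M) (a : A) {n : ℤ}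
    (hn : ∀ w : Place Kbar (FN M), 0 < w.ord (jF M - algebraMap Kbar (FN M) (a : Kbar)) →
      n ∣ w.ord (jF M - algebraMap Kbar (FN M) (a : Kbar)))
    (Q : Place kA (FresBar M A))
    (hQ : 0 < Q.ord ((redDataBar M A).red ⟨jF M, jF_mem_Rw M A⟩ -
      algebraMap kA (FresBar M A) ((redDataBar M A).res a))) :
    n ∣ Q.ord ((redDataBar M A).red ⟨jF M, jF_mem_Rw M A⟩ -
      algebraMap kA (FresBar M A) ((redDataBar M A).res a)) := by
  have hℓ : ℓ.Prime := Fact.out
  obtain ⟨g, c, H⟩ := Fermat.Agent.GJ.S37LSpaceGateBar.lSpaceGate M hℓ hℓM h2 h3 A hA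
  have hgc := isGaussChart_jF M A
  have hdegle := Fermat.Agent.GJ.J1.K18Modular.hdeg_jF M A hℓM hA
  have hgenK : IsGen Kbar (jF M) := Fermat.Agent.S24_helper62.isGen_jF M
  obtain ⟨hfdk, -⟩ :=
    Fermat.Agent.GJ.S37.ResDeg.RedData.finrank_red_le (redDataBar M A) (jF_mem_Rw M A) hgc.2
  have hgenk : IsGen kA ((redDataBar M A).red ⟨jF M, jF_mem_Rw M A⟩) := ⟨hgc.2, hfdk⟩
  have hac : IsAlgClosed kA := Fermat.Agent.GJ.ResidueAlgClosed.isAlgClosed_residueField A
  have hFR : FiniteResidues Kbar (FN M) := Fermat.Agent.GJ.FF.finiteResidues (jF M)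
  have hPD : HasPrincipalDivisors Kbar (FN M) :=
    Fermat.Agent.GJ.FF.PrincipalOf.hasPrincipalDivisors_gen (jF M)
  have hNE : Nonempty (Place Kbar (FN M)) := Fermat.Agent.GJ.FF.nonempty_place (jF M)
  have hFRk : FiniteResidues kA (FresBar M A) :=
    Fermat.Agent.GJ.FF.finiteResidues ((redDataBar M A).red ⟨jF M, jF_mem_Rw M A⟩)
  have hPDk : HasPrincipalDivisors kA (FresBar M A) :=
    Fermat.Agent.GJ.FF.PrincipalOf.hasPrincipalDivisors_gen
      ((redDataBar M A).red ⟨jF M, jF_mem_Rw M A⟩)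
  have hNEk : Nonempty (Place kA (FresBar M A)) :=
    Fermat.Agent.GJ.FF.nonempty_place ((redDataBar M A).red ⟨jF M, jF_mem_Rw M A⟩)
  exact dvd_ord_red_chart_sub H (jF M) ((redDataBar M A).red ⟨jF M, jF_mem_Rw M A⟩)
    (jF_mem_Rw M A) hgc.2 hdegle a hn Q hQ

end Concrete

end Fermat.Agent.GL.Thick.SpecDiv
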