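/-
GATE-L / L5-SP (helper85), HEDGE for (DIV_c), final form: `SpecDiv` (specialisation of zero
divisors along the S37 place reduction) + helper25's `GL/Reg3/EllMult` (char-0 multiplicities).

Level `M` with `ℓ ∤ M` (and J1's side conditions at `ℓ = 2, 3`), `A` a valuation ring of `ℚ̄`
over `ℓ`, `k = A/𝔪`, residue curve `FresBar M A / k`, `j~ = red j`:

* `three_dvd_ord_red_jF`   : `M` has a prime factor `r ≡ 2 (mod 3)`  ⟹  `3 ∣ ord_Q (j~)` at every
                             zero `Q` of `j~`;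
* `two_dvd_ord_red_jF_sub` : `M` has a prime factor `r ≡ 3 (mod 4)`  ⟹  `2 ∣ ord_Q (j~ - 1728)` at
                             every zero `Q` of `j~ - 1728`.
(`r ≡ 11 (mod 12)` gives both.)  No regular local ring, no `K₀`, no frame.
-/
import Fermat.Agent.GL.Thick.SpecDiv
import Fermat.Agent.GL.Reg3.EllMult

set_option autoImplicit false

noncomputable section

open AlgebraicCurve

namespace Fermat.Agent.GL.Thick.SpecDiv

open ModularCurve IntermediateField Fermat.Agent.S24 Fermat.Agent.GJ.J1 Fermat.Agent.GJ.J1.Val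
  Fermat.Agent.GJ.J1.Haupt

variable (M : ℕ) [NeZero M] {ℓ : ℕ} [Fact ℓ.Prime] (A : ValuationSubring Kbar)

local notation "kA" => IsLocalRing.ResidueField A

/-- `n ∣ ord_Q (j~)` at every zero, from the same divisibility in characteristic zero. -/
theorem dvd_ord_red_jF (hℓM : ¬ ℓ ∣ M) (hA : A.LiesOverPrime ℓ)
    (h2 : ℓ = 2 → 3 ∣ M) (h3 : ℓ = 3 → 2 ∣ M) {n : ℤ}
    (hn : ∀ w : Place Kbar (FN M), 0 < w.ord (jF M) → n ∣ w.ord (jF M))
    (Q : Place kA (FresBar M A))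
    (hQ : 0 < Q.ord ((redDataBar M A).red ⟨jF M, jF_mem_Rw M A⟩)) :
    n ∣ Q.ord ((redDataBar M A).red ⟨jF M, jF_mem_Rw M A⟩) := by
  have e0 : algebraMap kA (FresBar M A) ((redDataBar M A).res (0 : A)) = 0 := by
    have h0 : (redDataBar M A).res (0 : A) = 0 := map_zero (redDataBar M A).res
    rw [h0, map_zero]
  have h := dvd_ord_red_jF_sub M A hℓM hA h2 h3 (0 : A) (n := n)
    (by simpa using hn) Q (by rw [e0, sub_zero]; exact hQ)
  rwa [e0, sub_zero] at h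

/-- `n ∣ ord_Q (j~ - 1728)` at every zero, from the same divisibility in characteristic zero. -/
theorem dvd_ord_red_jF_sub_1728 (hℓM : ¬ ℓ ∣ M) (hA : A.LiesOverPrime ℓ)
    (h2 : ℓ = 2 → 3 ∣ M) (h3 : ℓ = 3 → 2 ∣ M) {n : ℤ}
    (hn : ∀ w : Place Kbar (FN M), 0 < w.ord (jF M - algebraMap Kbar (FN M) 1728) →
      n ∣ w.ord (jF M - algebraMap Kbar (FN M) 1728))
    (Q : Place kA (FresBar M A))
    (hQ : 0 < Q.ord ((redDataBar M A).red ⟨jF M, jF_mem_Rw M A⟩ - 1728)) :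
    n ∣ Q.ord ((redDataBar M A).red ⟨jF M, jF_mem_Rw M A⟩ - 1728) := by
  have e1 : (((1728 : A) : A) : Kbar) = 1728 := rfl
  have e2 : algebraMap kA (FresBar M A) ((redDataBar M A).res (1728 : A)) = 1728 := by
    have h0 : (redDataBar M A).res (1728 : A) = 1728 := map_ofNat (redDataBar M A).res 1728
    rw [h0, map_ofNat]
  have h := dvd_ord_red_jF_sub M A hℓM hA h2 h3 (1728 : A) (n := n)
    (by rw [e1]; exact hn) Q (by rw [e2]; exact hQ)
  rwa [e2] at h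

/-- **(DIV_3)** `3 ∣ ord_Q (j~)` at every zero of `j~` on the residue curve of level `M`, when `M`
has a prime factor `r ≡ 2 (mod 3)`. -/
theorem three_dvd_ord_red_jF (hℓM : ¬ ℓ ∣ M) (hA : A.LiesOverPrime ℓ)
    (h2 : ℓ = 2 → 3 ∣ M) (h3 : ℓ = 3 → 2 ∣ M) {r : ℕ} (hr : r.Prime) (hrM : r ∣ M)
    (hr3 : r % 3 = 2) (Q : Place kA (FresBar M A))
    (hQ : 0 < Q.ord ((redDataBar M A).red ⟨jF M, jF_mem_Rw M A⟩)) :
    (3 : ℤ) ∣ Q.ord ((redDataBar M A).red ⟨jF M, jF_mem_Rw M A⟩) :=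
  dvd_ord_red_jF M A hℓM hA h2 h3
    (fun w hw => by rw [Fermat.Agent.GL.Reg3.EllMult.ord_jF_eq_three M hr hrM hr3 w hw]) Q hQ

/-- **(DIV_2)** `2 ∣ ord_Q (j~ - 1728)` at every zero of `j~ - 1728` on the residue curve of level
`M`, when `M` has a prime factor `r ≡ 3 (mod 4)`. -/
theorem two_dvd_ord_red_jF_sub (hℓM : ¬ ℓ ∣ M) (hA : A.LiesOverPrime ℓ)
    (h2 : ℓ = 2 → 3 ∣ M) (h3 : ℓ = 3 → 2 ∣ M) {r : ℕ} (hr : r.Prime) (hrM : r ∣ M)
    (hr4 : r % 4 = 3) (Q : Place kA (FresBar M A))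
    (hQ : 0 < Q.ord ((redDataBar M A).red ⟨jF M, jF_mem_Rw M A⟩ - 1728)) :
    (2 : ℤ) ∣ Q.ord ((redDataBar M A).red ⟨jF M, jF_mem_Rw M A⟩ - 1728) :=
  dvd_ord_red_jF_sub_1728 M A hℓM hA h2 h3
    (fun w hw => by rw [Fermat.Agent.GL.Reg3.EllMult.ord_jF_sub_eq_two M hr hrM hr4 w hw]) Q hQ

end Fermat.Agent.GL.Thick.SpecDiv
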