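import Fermat.Agent.GL.Thick.FixCNode
import Fermat.Agent.GL.Thick.SpecDivEll
import Fermat.Agent.GL.Thick.PlaceDictC

/-!
# GATE-L / L5-III (helper65): (DIV_c) on the HEDGE route ⟹ (III) and (T1) in `C` UNCONDITIONALLY

Level `N'` with `ℓ ∤ N'`, `A` a valuation ring of `ℚ̄` over `ℓ`, `C = CRing N' A`.  Inputs, all on
main:

* helper25 `GL/Reg3/EllMult` : on `X₀(N')/ℚ̄` every zero of `j` has multiplicity `3` and every zero
  of `j - 1728` has multiplicity `2` as soon as `N'` has a prime factor `r ≡ 2 mod 3` resp.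
  `r ≡ 3 mod 4`;
* helper85 `GL/Thick/SpecDiv(Ell)` : divisibility of the orders of the zeros of `j - a` specialises
  to the residue curve `FresBar N' A` (Place language);
* helper95 `GL/Thick/PlaceDictC` : Place language ⟹ `intValuation` binder on `CRing N' A`.

Outputs (`ns Fermat.Agent.GL.Thick.DivCHedge`), `v : HeightOneSpectrum (CRing N' A)`:

* **`hdiv0_of_places`**, **`hdiv1728_of_places`** : from the characteristic-zero divisibilities
  `H3 : ∀ w, 0 < w.ord j → 3 ∣ w.ord j`, `H2 : ∀ w, 0 < w.ord (j - 1728) → 2 ∣ w.ord (j - 1728)`,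
  the bodies of the two hypotheses `hdiv0`, `hdiv1728` of `FixCNode.ssPolyAll_mem_pow_twelve_of_div`,
  `FixCNode.exists_pow_eq_mul_notMem_all_nodes`, helper96 `EtaInstK0.exists_lift_pow_eq_K0`
  (use as `fun _ => hdiv0_of_places …`);
* **`hdiv0_of_aux`**, **`hdiv1728_of_aux`** : auxiliary-prime forms (`r ∣ N'`, `r % 3 = 2` resp.
  `r % 4 = 3`; `r ≡ 11 mod 12` gives both);
* **`ssPolyAll_mem_pow_twelve_of_aux`** : (III) `pH(j~) ∈ P ^ 12` at every node, every `ℓ`;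
* **`exists_pow_eq_mul_notMem_all_nodes_of_aux`** : (T1) in `C` at every node, every `ℓ`, with NO
  divisibility hypothesis left; `…_of_isMaximal` : the same for `P` a maximal ideal `⊇ J'`.
-/

set_option autoImplicit false
set_option linter.unusedSectionVars false
set_option linter.style.haveILetI false

noncomputable section

namespace Fermat.Agent.GL.Thick.DivCHedge

open ModularCurve IsLocalRing Polynomial AlgebraicCurve
open IsDedekindDomain IsDedekindDomain.HeightOneSpectrum WithZero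
open Fermat.Agent.S24 Fermat.Agent.GJ.J1 Fermat.Agent.GJ.J1.Val Fermat.Agent.S28
open Fermat.Agent.GK.AL hiding jt
open Fermat.Agent.GK.QS Fermat.Agent.GK.FrobGlue
open Fermat.Agent.GL.SmallQ Fermat.Agent.GL.Thick

/-! ### (DIV_c) in the `intValuation` binder -/

section Div

variable (N' : ℕ) [NeZero N'] {ℓ : ℕ} [Fact ℓ.Prime] (A : ValuationSubring Kbar)

local notation "kA" => IsLocalRing.ResidueField A

/-- **`hdiv0`** : `3 ∣ ord_P j~` at every maximal ideal `P` of `CRing N' A`, from the same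
divisibility at the zeros of `j` on `X₀(N')/ℚ̄`. -/
theorem hdiv0_of_places (hℓN : ¬ ℓ ∣ N') (hA : A.LiesOverPrime ℓ)
    (h2 : ℓ = 2 → 3 ∣ N') (h3 : ℓ = 3 → 2 ∣ N')
    (H3 : ∀ w : Place Kbar (FN N'), 0 < w.ord (jF N') → (3 : ℤ) ∣ w.ord (jF N'))
    [IsDedekindDomain (CRing N' A)] (v : HeightOneSpectrum (CRing N' A)) :
    ∀ n : ℕ, v.intValuation (jtC N' A) = exp (-(n : ℤ)) → 3 ∣ n := by
  haveI := isFractionRing_CRing N' A
  exact dvd_intValuation_jtC_of_places N' A v (c := 3) (fun Q hQ => by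
    exact_mod_cast Fermat.Agent.GL.Thick.SpecDiv.dvd_ord_red_jF N' A hℓN hA h2 h3 H3 Q hQ)

/-- **`hdiv1728`** : `2 ∣ ord_P (j~ - 1728)` at every maximal ideal `P` of `CRing N' A`, from the
same divisibility at the zeros of `j - 1728` on `X₀(N')/ℚ̄`. -/
theorem hdiv1728_of_places (hℓN : ¬ ℓ ∣ N') (hA : A.LiesOverPrime ℓ)
    (h2 : ℓ = 2 → 3 ∣ N') (h3 : ℓ = 3 → 2 ∣ N')
    (H2 : ∀ w : Place Kbar (FN N'), 0 < w.ord (jF N' - algebraMap Kbar (FN N') 1728) →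
      (2 : ℤ) ∣ w.ord (jF N' - algebraMap Kbar (FN N') 1728))
    [IsDedekindDomain (CRing N' A)] (v : HeightOneSpectrum (CRing N' A)) :
    ∀ n : ℕ, v.intValuation (jtC N' A - 1728) = exp (-(n : ℤ)) → 2 ∣ n := by
  haveI := isFractionRing_CRing N' A
  have key := dvd_intValuation_jtC_sub_of_places N' A v (1728 : kA) (c := 2) (fun Q hQ => by
    rw [map_ofNat] at hQ ⊢
    exact_mod_cast
      Fermat.Agent.GL.Thick.SpecDiv.dvd_ord_red_jF_sub_1728 N' A hℓN hA h2 h3 H2 Q hQ)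
  rwa [map_ofNat] at key

/-- `hdiv0`, auxiliary-prime form: `N'` has a prime factor `r ≡ 2 mod 3` -/
theorem hdiv0_of_aux (hℓN : ¬ ℓ ∣ N') (hA : A.LiesOverPrime ℓ)
    (h2 : ℓ = 2 → 3 ∣ N') (h3 : ℓ = 3 → 2 ∣ N')
    {r : ℕ} (hr : r.Prime) (hrN : r ∣ N') (hr3 : r % 3 = 2)
    [IsDedekindDomain (CRing N' A)] (v : HeightOneSpectrum (CRing N' A)) :
    ∀ n : ℕ, v.intValuation (jtC N' A) = exp (-(n : ℤ)) → 3 ∣ n :=
  hdiv0_of_places N' A hℓN hA h2 h3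
    (fun w hw => by rw [Fermat.Agent.GL.Reg3.EllMult.ord_jF_eq_three N' hr hrN hr3 w hw]) v

/-- `hdiv1728`, auxiliary-prime form: `N'` has a prime factor `r ≡ 3 mod 4` -/
theorem hdiv1728_of_aux (hℓN : ¬ ℓ ∣ N') (hA : A.LiesOverPrime ℓ)
    (h2 : ℓ = 2 → 3 ∣ N') (h3 : ℓ = 3 → 2 ∣ N')
    {r : ℕ} (hr : r.Prime) (hrN : r ∣ N') (hr4 : r % 4 = 3)
    [IsDedekindDomain (CRing N' A)] (v : HeightOneSpectrum (CRing N' A)) :
    ∀ n : ℕ, v.intValuation (jtC N' A - 1728) = exp (-(n : ℤ)) → 2 ∣ n :=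
  hdiv1728_of_places N' A hℓN hA h2 h3
    (fun w hw => by rw [Fermat.Agent.GL.Reg3.EllMult.ord_jF_sub_eq_two N' hr hrN hr4 w hw]) v

end Div

/-! ### (III) and (T1) in `C`, unconditional -/

section Thick

variable {N' : ℕ} [NeZero N'] {ℓ : ℕ} [Fact ℓ.Prime] [NeZero ℓ]
variable {A : ValuationSubring Kbar} {h : ExactDvd ℓ (N' * ℓ)}
variable (hℓN : ¬ ℓ ∣ N') (hA : A.LiesOverPrime ℓ)

local notation "kA" => IsLocalRing.ResidueField A

/-- **(III) at EVERY node, EVERY `ℓ`**, from the characteristic-zero multiplicities -/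
theorem ssPolyAll_mem_pow_twelve_of_places (h2 : ℓ = 2 → 3 ∣ N') (h3 : ℓ = 3 → 2 ∣ N')
    {J' : Ideal (CRing N' A)}
    (hJ' : BT N' ℓ A h = gluedAlg (psiC N' ℓ A hℓN hA) J')
    (H3 : ∀ w : Place Kbar (FN N'), 0 < w.ord (jF N') → (3 : ℤ) ∣ w.ord (jF N'))
    (H2 : ∀ w : Place Kbar (FN N'), 0 < w.ord (jF N' - algebraMap Kbar (FN N') 1728) →
      (2 : ℤ) ∣ w.ord (jF N' - algebraMap Kbar (FN N') 1728))
    [IsDedekindDomain (CRing N' A)] (v : HeightOneSpectrum (CRing N' A))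
    (hnode : J' ≤ v.asIdeal) :
    aeval (jtC N' A) (@ssPolyAll ℓ _ kA _ (charP_residue A Fact.out hA)) ∈ v.asIdeal ^ 12 :=
  ssPolyAll_mem_pow_twelve_of_div hℓN hA h2 h3 hJ' v hnode
    (fun _ => hdiv0_of_places N' A hℓN hA h2 h3 H3 v)
    (fun _ => hdiv1728_of_places N' A hℓN hA h2 h3 H2 v)

/-- **(III) at EVERY node, EVERY `ℓ`**, auxiliary prime `r ∣ N'`, `r ≡ 11 mod 12` -/
theorem ssPolyAll_mem_pow_twelve_of_aux (h2 : ℓ = 2 → 3 ∣ N') (h3 : ℓ = 3 → 2 ∣ N')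
    {J' : Ideal (CRing N' A)}
    (hJ' : BT N' ℓ A h = gluedAlg (psiC N' ℓ A hℓN hA) J')
    {r : ℕ} (hr : r.Prime) (hrN : r ∣ N') (hr3 : r % 3 = 2) (hr4 : r % 4 = 3)
    [IsDedekindDomain (CRing N' A)] (v : HeightOneSpectrum (CRing N' A))
    (hnode : J' ≤ v.asIdeal) :
    aeval (jtC N' A) (@ssPolyAll ℓ _ kA _ (charP_residue A Fact.out hA)) ∈ v.asIdeal ^ 12 :=
  ssPolyAll_mem_pow_twelve_of_div hℓN hA h2 h3 hJ' v hnode
    (fun _ => hdiv0_of_aux N' A hℓN hA h2 h3 hr hrN hr3 v)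
    (fun _ => hdiv1728_of_aux N' A hℓN hA h2 h3 hr hrN hr4 v)

/-- **(T1) in `C` at EVERY node, EVERY `ℓ`**, auxiliary prime `r ∣ N'`, `r ≡ 11 mod 12`: there is
`a ∈ J'` with `a ^ 12 = pH(j~) * c`, `c ∉ P`.  No divisibility hypothesis left. -/
theorem exists_pow_eq_mul_notMem_all_nodes_of_aux (h2 : ℓ = 2 → 3 ∣ N') (h3 : ℓ = 3 → 2 ∣ N')
    {J' : Ideal (CRing N' A)}
    (hJ : fixIdeal (psiC N' ℓ A hℓN hA) ≤ J')
    (hJ' : BT N' ℓ A h = gluedAlg (psiC N' ℓ A hℓN hA) J')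
    {r : ℕ} (hr : r.Prime) (hrN : r ∣ N') (hr3 : r % 3 = 2) (hr4 : r % 4 = 3)
    [IsDedekindDomain (CRing N' A)] (v : HeightOneSpectrum (CRing N' A))
    (hnode : J' ≤ v.asIdeal) :
    ∃ a ∈ J', ∃ c : CRing N' A,
      a ^ 12 = aeval (jtC N' A) (@ssPolyAll ℓ _ kA _ (charP_residue A Fact.out hA)) * c ∧
        c ∉ v.asIdeal :=
  exists_pow_eq_mul_notMem_all_nodes hℓN hA h2 h3 hJ hJ' v hnode
    (fun _ => hdiv0_of_aux N' A hℓN hA h2 h3 hr hrN hr3 v)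
    (fun _ => hdiv1728_of_aux N' A hℓN hA h2 h3 hr hrN hr4 v)

/-- the same for a maximal ideal `P ⊇ J'` of `CRing N' A` (no `HeightOneSpectrum`, no instance
argument) -/
theorem exists_pow_eq_mul_notMem_of_isMaximal (h2 : ℓ = 2 → 3 ∣ N') (h3 : ℓ = 3 → 2 ∣ N')
    {J' : Ideal (CRing N' A)}
    (hJ : fixIdeal (psiC N' ℓ A hℓN hA) ≤ J')
    (hJ' : BT N' ℓ A h = gluedAlg (psiC N' ℓ A hℓN hA) J')
    {r : ℕ} (hr : r.Prime) (hrN : r ∣ N') (hr3 : r % 3 = 2) (hr4 : r % 4 = 3)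
    (P : Ideal (CRing N' A)) (hP : P.IsMaximal) (hnode : J' ≤ P) :
    ∃ a ∈ J', ∃ c : CRing N' A,
      a ^ 12 = aeval (jtC N' A) (@ssPolyAll ℓ _ kA _ (charP_residue A Fact.out hA)) * c ∧
        c ∉ P := by
  haveI : IsDedekindDomain (CRing N' A) :=
    Fermat.Agent.GK.SS.Modular.isDedekindDomain_CRing N' ℓ A hA
  have hP0 : P ≠ ⊥ := Ring.ne_bot_of_isMaximal_of_not_isField hP
    (Fermat.Agent.GK.SS.Modular.not_isField_CRing N' A)
  exact exists_pow_eq_mul_notMem_all_nodes_of_aux hℓN hA h2 h3 hJ hJ' hr hrN hr3 hr4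
    ⟨P, hP.isPrime, hP0⟩ hnode

end Thick

end Fermat.Agent.GL.Thick.DivCHedge
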