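/-
GATE-L / MU-PH (helper38): lower bounds for the root multiplicities of the supersingular polynomial
`pH = ssPoly q k`, read off helper63's `hasse_rel : U₂^12 = X^(4(q-1)) · pH²` by taking root
multiplicities (= item (ii) of helper75's FIX C, board 2815; consumed by the ETA-route L5-III).

With `μ_a := rootMultiplicity a pH`:
* `rootMultiplicity_rel_of_ne_zero : a ≠ 0 → μ_a = 6 · ord_a U₂`      (so `6 ∣ μ_a`);
* `rootMultiplicity_rel_zero      : μ_0 + 2(q-1) = 6 · ord_0 U₂`;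
* `six_le_rootMultiplicity        : a ≠ 0 → pH(a) = 0 → 6 ≤ μ_a`;
* `rootMultiplicity_zero_mod_six  : q % 3 = 2 → μ_0 % 6 = 4`  (so `4 ≤ μ_0`, and `pH(0) = 0`);
* `rootMultiplicity_zero_dvd_six  : q % 3 = 1 → 6 ∣ μ_0`.
-/
import Fermat.Agent.GL.Thick.SsPoly

set_option autoImplicit false

noncomputable section

namespace Fermat.Agent.GL.Thick.SsPolyMult

open Polynomial Fermat.Agent.GL.Thick

section General

variable {K : Type*} [Field K]

/-- root multiplicity of a power (over a field) -/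
theorem rootMultiplicity_pow' {p : K[X]} (hp : p ≠ 0) (a : K) (n : ℕ) :
    (p ^ n).rootMultiplicity a = n * p.rootMultiplicity a := by
  induction n with
  | zero => simp
  | succ n ih =>
    rw [pow_succ, rootMultiplicity_mul (mul_ne_zero (pow_ne_zero _ hp) hp), ih]
    ring

theorem rootMultiplicity_X_of_ne_zero {a : K} (ha : a ≠ 0) :
    (X : K[X]).rootMultiplicity a = 0 := by
  rw [rootMultiplicity_eq_zero_iff]
  intro h
  rw [IsRoot, eval_X] at h
  exact absurd h ha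

theorem rootMultiplicity_X_zero : (X : K[X]).rootMultiplicity 0 = 1 := by
  classical
  have h := rootMultiplicity_X_sub_C (R := K) (x := 0) (y := 0)
  rw [C_0, sub_zero] at h
  simpa using h

end General

variable (q : ℕ) [Fact q.Prime] (k : Type*) [Field k] [CharP k q]

theorem hasseU₂_ne_zero (hq5 : 5 ≤ q) : hasseU₂ q k hq5 ≠ 0 := by
  intro h
  have hr := hasse_rel q k hq5
  rw [h, zero_pow (by norm_num)] at hr
  rcases mul_eq_zero.mp hr.symm with h1 | h1
  · exact (pow_ne_zero _ X_ne_zero) h1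
  · exact (pow_ne_zero _ (ssPoly_ne_zero q k hq5)) h1

/-- the multiplicity form of `hasse_rel` -/
theorem rootMultiplicity_rel (hq5 : 5 ≤ q) (a : k) :
    12 * (hasseU₂ q k hq5).rootMultiplicity a =
      4 * (q - 1) * (X : k[X]).rootMultiplicity a +
        2 * (ssPoly q k hq5).rootMultiplicity a := by
  have hU := hasseU₂_ne_zero q k hq5
  have hP := ssPoly_ne_zero q k hq5
  have hX : (X : k[X]) ≠ 0 := X_ne_zero
  have hr := congrArg (rootMultiplicity a) (hasse_rel q k hq5)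
  rw [rootMultiplicity_pow' hU,
    rootMultiplicity_mul (mul_ne_zero (pow_ne_zero _ hX) (pow_ne_zero _ hP)),
    rootMultiplicity_pow' hX, rootMultiplicity_pow' hP] at hr
  exact hr

/-- **`μ_a = 6 · ord_a U₂` for `a ≠ 0`** -/
theorem rootMultiplicity_rel_of_ne_zero (hq5 : 5 ≤ q) {a : k} (ha : a ≠ 0) :
    (ssPoly q k hq5).rootMultiplicity a = 6 * (hasseU₂ q k hq5).rootMultiplicity a := by
  have h := rootMultiplicity_rel q k hq5 a
  rw [rootMultiplicity_X_of_ne_zero ha] at h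
  omega

/-- **`6 ∣ μ_a` for `a ≠ 0`** -/
theorem six_dvd_rootMultiplicity (hq5 : 5 ≤ q) {a : k} (ha : a ≠ 0) :
    6 ∣ (ssPoly q k hq5).rootMultiplicity a :=
  ⟨_, rootMultiplicity_rel_of_ne_zero q k hq5 ha⟩

/-- **a nonzero root of `pH` has multiplicity `≥ 6`** (used at `a = 1728`) -/
theorem six_le_rootMultiplicity (hq5 : 5 ≤ q) {a : k} (ha : a ≠ 0)
    (hroot : (ssPoly q k hq5).IsRoot a) : 6 ≤ (ssPoly q k hq5).rootMultiplicity a := by
  have hpos := (rootMultiplicity_pos (ssPoly_ne_zero q k hq5)).mpr hroot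
  obtain ⟨c, hc⟩ := six_dvd_rootMultiplicity q k hq5 ha
  omega

/-- **`μ_0 + 2(q-1) = 6 · ord_0 U₂`** -/
theorem rootMultiplicity_rel_zero (hq5 : 5 ≤ q) :
    (ssPoly q k hq5).rootMultiplicity 0 + 2 * (q - 1) =
      6 * (hasseU₂ q k hq5).rootMultiplicity 0 := by
  have h := rootMultiplicity_rel q k hq5 0
  rw [rootMultiplicity_X_zero] at h
  omega

/-- **`q ≡ 2 mod 3 ⟹ μ_0 ≡ 4 mod 6`** -/
theorem rootMultiplicity_zero_mod_six (hq5 : 5 ≤ q) (hq3 : q % 3 = 2) :
    (ssPoly q k hq5).rootMultiplicity 0 % 6 = 4 := by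
  have h := rootMultiplicity_rel_zero q k hq5
  omega

/-- **`q ≡ 2 mod 3 ⟹ 4 ≤ μ_0`**; in particular `0` is a root of `pH` -/
theorem four_le_rootMultiplicity_zero (hq5 : 5 ≤ q) (hq3 : q % 3 = 2) :
    4 ≤ (ssPoly q k hq5).rootMultiplicity 0 := by
  have h := rootMultiplicity_zero_mod_six q k hq5 hq3
  omega

theorem isRoot_zero_of_mod_three (hq5 : 5 ≤ q) (hq3 : q % 3 = 2) :
    (ssPoly q k hq5).IsRoot 0 := by
  have h := four_le_rootMultiplicity_zero q k hq5 hq3
  exact (rootMultiplicity_pos (ssPoly_ne_zero q k hq5)).mp (by omega)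

/-- **`q ≡ 1 mod 3 ⟹ 6 ∣ μ_0`** (so `μ_0 > 0` would force `μ_0 ≥ 6`) -/
theorem rootMultiplicity_zero_dvd_six (hq5 : 5 ≤ q) (hq3 : q % 3 = 1) :
    6 ∣ (ssPoly q k hq5).rootMultiplicity 0 := by
  have h := rootMultiplicity_rel_zero q k hq5
  omega

/-- uniform lower bound at `0`: a root at `0` has multiplicity `≥ 4` (any `q ≥ 5`) -/
theorem four_le_rootMultiplicity_zero_of_isRoot (hq5 : 5 ≤ q)
    (hroot : (ssPoly q k hq5).IsRoot 0) : 4 ≤ (ssPoly q k hq5).rootMultiplicity 0 := by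
  have hpos := (rootMultiplicity_pos (ssPoly_ne_zero q k hq5)).mpr hroot
  have h := rootMultiplicity_rel_zero q k hq5
  have hp : q.Prime := Fact.out
  have h3 : q % 3 = 1 ∨ q % 3 = 2 := by
    have : ¬ 3 ∣ q := fun hd => by
      have := (Nat.prime_dvd_prime_iff_eq Nat.prime_three hp).mp hd
      omega
    omega
  omega

/-- **FIX C, STEP 2 at `a = 0`**: if `e = 3 n` (`n ≥ 1`: the char-`q` ramification of `j̃` at a point
over `0` is a positive multiple of `3`, from `j = u h³` in the regular level-`M` local ring) and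
`μ_0 · e ≤ 12` (integrality bound `pH(j̃) ∣ a^12`), then `e = 3`, `μ_0 = 4`, `μ_0 · e = 12`. -/
theorem thick_at_zero (hq5 : 5 ≤ q) (hroot : (ssPoly q k hq5).IsRoot 0) (e n : ℕ)
    (he : e = 3 * n) (hn : 0 < n) (hle : (ssPoly q k hq5).rootMultiplicity 0 * e ≤ 12) :
    e = 3 ∧ (ssPoly q k hq5).rootMultiplicity 0 = 4 ∧
      (ssPoly q k hq5).rootMultiplicity 0 * e = 12 := by
  have h4 := four_le_rootMultiplicity_zero_of_isRoot q k hq5 hroot
  set μ := (ssPoly q k hq5).rootMultiplicity 0 with hμ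
  subst he
  have hn1 : n = 1 := by
    by_contra hne
    have h2 : 2 ≤ n := by omega
    have : 4 * (3 * 2) ≤ μ * (3 * n) := Nat.mul_le_mul h4 (by omega)
    omega
  subst hn1
  have hμ4 : μ = 4 := by omega
  refine ⟨rfl, hμ4, ?_⟩
  rw [hμ4]

/-- **FIX C, STEP 2 at `a ≠ 0`** (used at `a = 1728`): if `e = 2 n` (`n ≥ 1`) and `μ_a · e ≤ 12`
at a root `a ≠ 0` of `pH`, then `e = 2`, `μ_a = 6`, `μ_a · e = 12`. -/
theorem thick_at_ne_zero (hq5 : 5 ≤ q) {a : k} (ha : a ≠ 0)
    (hroot : (ssPoly q k hq5).IsRoot a) (e n : ℕ)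
    (he : e = 2 * n) (hn : 0 < n) (hle : (ssPoly q k hq5).rootMultiplicity a * e ≤ 12) :
    e = 2 ∧ (ssPoly q k hq5).rootMultiplicity a = 6 ∧
      (ssPoly q k hq5).rootMultiplicity a * e = 12 := by
  have h6 := six_le_rootMultiplicity q k hq5 ha hroot
  obtain ⟨c, hc⟩ := six_dvd_rootMultiplicity q k hq5 ha
  set μ := (ssPoly q k hq5).rootMultiplicity a with hμ
  subst he
  have hn1 : n = 1 := by
    by_contra hne
    have h2 : 2 ≤ n := by omega
    have : 6 * (2 * 2) ≤ μ * (2 * n) := Nat.mul_le_mul h6 (by omega)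
    omega
  subst hn1
  have hμ6 : μ = 6 := by omega
  refine ⟨rfl, hμ6, ?_⟩
  rw [hμ6]

/-- generic case in the same shape: `μ_a = 12`, `e ≥ 1`, `μ_a · e ≤ 12` gives `e = 1`. -/
theorem thick_generic {μ e : ℕ} (hμ : μ = 12) (he : 0 < e) (hle : μ * e ≤ 12) :
    e = 1 ∧ μ * e = 12 := by
  subst hμ
  have : e = 1 := by omega
  subst this
  exact ⟨rfl, rfl⟩

end Fermat.Agent.GL.Thick.SsPolyMult
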