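import Fermat.Agent.GL.Thick.KRedB
import Fermat.Agent.GL.Thick.ThetaG
import Fermat.Agent.GK.Flat.BallTwo
import Fermat.Agent.GJ.J1.Val.DegExport
import Fermat.Agent.GJ.J1.ChartAKLB
import Fermat.Agent.GK.AL.SecondValGal

/-!
# GATE-L / L5b-ASM (b) (helper65): the element `β = ((j^q − j_q)/q) · (j − j_q^q)`

`q ∥ N`, `A` a valuation subring of `ℚ̄` over `q`, `k` its residue field, `J = jqModC k`.

* `gE N h = (j^q − j_q)/q ∈ F_N` has the INTEGRAL `q`-expansion `GZ q` (Kronecker, helper63), hence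
  `w₁ (gE) ≥ 0` and `red₁ gE = Gk q k` (`isRed1_gE`);
* `betaE N h = gE · (j − j_q^q)` is `W_q`-invariant (`wAut_betaE`), regular off the cusps
  (`regFin_betaE`), and `red₁ β = red₂ β = Gk q k · (J − J^(q²))` (`isRed1_betaE`, `isRed2_betaE`);
* at level `N = N' q` : `betaB ∈ BRing`, `rho1 betaB = rho2 betaB = Gk q k · (J − J^(q²))`;
* `exists_pol` : `Gk q k · (J − J^(q²)) = Pol(J)` for a polynomial `Pol ∈ k[X]` (descent to level `1`,
  where the residue field is `k(J)`): the CONSUMER INPUT of helper63's `thick_series`.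
-/

set_option autoImplicit false
set_option linter.unusedSectionVars false

noncomputable section

namespace Fermat.Agent.GL.Thick

open HahnSeries ModularCurve IntermediateField IsLocalRing
open Fermat.Agent.S24 Fermat.Agent.S24_helper62 Fermat.Agent.GJ.J1 Fermat.Agent.GJ.J1.Val
open Fermat.Agent.GJ.J1.Haupt Fermat.Agent.GK.AL Fermat.Agent.GK.CuspSep Fermat.Agent.GK.BallTwo
open Fermat.Agent.GK.QS

section General

variable {q : ℕ} [Fact q.Prime] [NeZero q] (N : ℕ) [NeZero N] (A : ValuationSubring Kbar)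
  (h : ExactDvd q N)

local notation "𝕜" => ResidueField A

/-- `G = (j^q − j_q)/q` in `F_N` -/
def gE : FN N := (jF N ^ q - jdF N q h.dvd) * ((q : FN N))⁻¹

/-- `β = G · (j − j_q^q)` -/
def betaE : FN N := gE N h * (jF N - jdF N q h.dvd ^ q)

theorem natCast_mul_gE : (q : FN N) * gE N h = jF N ^ q - jdF N q h.dvd := by
  have hq0 : (q : FN N) ≠ 0 := Nat.cast_ne_zero.mpr (NeZero.ne q)
  rw [gE]
  field_simp

/-- the `q`-expansion of `G` is the integral series `GZ q` -/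
theorem coe_gE :
    ((gE N h : FN N) : LaurentSeries Kbar) = emb A (coeffMap (Int.castRingHom A) (GZ q)) := by
  have hq0' : (q : FN N) ≠ 0 := Nat.cast_ne_zero.mpr (NeZero.ne q)
  have hq0 : ((q : ℕ) : LaurentSeries Kbar) ≠ 0 := by
    intro h0
    apply hq0'
    apply Subtype.ext
    push_cast
    exact h0
  apply mul_left_cancel₀ hq0
  have h1 : (((q : FN N) * gE N h : FN N) : LaurentSeries Kbar) =
      ((jF N ^ q - jdF N q h.dvd : FN N) : LaurentSeries Kbar) :=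
    congrArg Subtype.val (natCast_mul_gE N h)
  push_cast at h1
  rw [h1, Fermat.Agent.S24.Degree.coe_jF', Fermat.Agent.S24.Degree.coe_jdF, Fermat.Agent.S24.Degree.jdSeries_eq]
  have h2 : ((q : ℕ) : LaurentSeries Kbar) * emb A (coeffMap (Int.castRingHom A) (GZ q)) =
      emb A (coeffMap (Int.castRingHom A) ((q : LaurentSeries ℤ) * GZ q)) := by
    rw [map_mul, map_mul, map_natCast, map_natCast]
  rw [h2, natCast_mul_GZ, map_sub, map_sub, map_pow, map_pow, coeffMap_qExpand, coeffMap_qExpand,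
    coeffMap_jqModC, emb, coeffMap_jqModC]

omit [NeZero N] in
/-- `ℤ → A → k` is `ℤ → k` -/
theorem residue_comp_intCast :
    (residue A).comp (Int.castRingHom A) = Int.castRingHom 𝕜 := RingHom.ext_int _ _

include h in
/-- the integral `q`-expansion of `G` lies in the function field -/
theorem emb_GZ_mem : emb A (coeffMap (Int.castRingHom A) (GZ q)) ∈ modularFunctionFieldBar N := by
  rw [← coe_gE N A h]
  exact (gE N h).2

/-- `w₁ (G) ≥ 0` -/
theorem gE_mem_Rw1 : gE N h ∈ (redDataBar N A).Rw := by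
  have h1 : gE N h = ⟨emb A (coeffMap (Int.castRingHom A) (GZ q)), emb_GZ_mem N A h⟩ :=
    Subtype.ext (coe_gE N A h)
  rw [h1]
  exact int_mem_Rw (hGF := hasGaussFrac_bar N A) _

/-- `red₁ G = G̃ = Gk q k` -/
theorem coe_red1_gE (hx : gE N h ∈ (redDataBar N A).Rw) :
    (((redDataBar N A).red ⟨gE N h, hx⟩ : FresBar N A) : LaurentSeries 𝕜) = Gk q 𝕜 := by
  have h1 : (⟨gE N h, hx⟩ : (redDataBar N A).Rw) =
      ⟨⟨emb A (coeffMap (Int.castRingHom A) (GZ q)), emb_GZ_mem N A h⟩,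
        int_mem_Rw (hGF := hasGaussFrac_bar N A) (emb_GZ_mem N A h)⟩ :=
    Subtype.ext (Subtype.ext (coe_gE N A h))
  rw [h1]
  refine (redL_int (hGF := hasGaussFrac_bar N A) _).trans ?_
  rw [rd, coeffMap_coeffMap, residue_comp_intCast, Gk]

/-- the reduction `G̃` as an element of the residue field -/
def GtF : FresBar N A := (redDataBar N A).red ⟨gE N h, gE_mem_Rw1 N A h⟩

theorem coe_GtF : ((GtF N A h : FresBar N A) : LaurentSeries 𝕜) = Gk q 𝕜 :=
  coe_red1_gE N A h _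

theorem isRed1_gE : (redDataBar N A).IsRed (gE N h) (GtF N A h) := ⟨gE_mem_Rw1 N A h, rfl⟩

variable (hA : A.LiesOverPrime q)

include hA in
/-- `red₁ (j − j_q^q) = τ − τ^(q²)` -/
theorem isRed1_sub_pow :
    (redDataBar N A).IsRed (jF N - jdF N q h.dvd ^ q) (tauF N A - (tauF N A ^ q) ^ q) :=
  Disc.isRed_sub (Fermat.Agent.GK.CuspSep.isRed1_jF N A)
    (Disc.isRed_pow (Fermat.Agent.GK.CuspSep.isRed1_jq N A h hA) q)

include hA in
/-- **`red₁ β = G̃ · (τ − τ^(q²))`** -/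
theorem isRed1_betaE :
    (redDataBar N A).IsRed (betaE N h) (GtF N A h * (tauF N A - (tauF N A ^ q) ^ q)) :=
  Disc.isRed_mul (isRed1_gE N A h) (isRed1_sub_pow N A h hA)

/-- **`β` is `W_q`-invariant** -/
theorem wAut_betaE : wAut h (betaE N h) = betaE N h := by
  have hq0 : (q : FN N) ≠ 0 := Nat.cast_ne_zero.mpr (NeZero.ne q)
  have h1 : wAut h (jF N) = jdF N q h.dvd := by rw [wAut_jF, jQ_eq_jdF]
  have h2 : wAut h (jdF N q h.dvd) = jF N := by rw [← jQ_eq_jdF N h, wAut_jQ]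
  rw [betaE, gE, map_mul, map_mul, map_sub, map_sub, map_pow, map_pow, map_inv₀, map_natCast,
    h1, h2]
  ring

include hA in
/-- **`red₂ β = red₁ β`** -/
theorem isRed2_betaE :
    (redData2 N A h).IsRed (betaE N h) (GtF N A h * (tauF N A - (tauF N A ^ q) ^ q)) := by
  show (redDataBar N A).IsRed (wAut h (betaE N h)) _
  rw [wAut_betaE]
  exact isRed1_betaE N A h hA

/-- **`β` is regular off the cusps** -/
theorem regFin_betaE : RegFin Kbar (jF N) (betaE N h) := by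
  have hj : RegFin Kbar (jF N) (jF N) := regFin_self _
  have hjq : RegFin Kbar (jF N) (jdF N q h.dvd) := regFin_jdF N h.dvd
  have hc : RegFin Kbar (jF N) ((q : FN N))⁻¹ := by
    have : ((q : FN N))⁻¹ = algebraMap Kbar (FN N) ((q : Kbar))⁻¹ := by
      rw [map_inv₀, map_natCast]
    rw [this]
    exact regFin_algebraMap _ _
  exact (((hj.pow q).sub hjq).mul hc).mul (hj.sub (hjq.pow q))

end General

section Level

variable (N' : ℕ) [NeZero N'] (ℓ : ℕ) [Fact ℓ.Prime] [NeZero ℓ]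
variable (A : ValuationSubring Kbar) (h : ExactDvd ℓ (N' * ℓ)) (hA : A.LiesOverPrime ℓ)

local notation "kA" => IsLocalRing.ResidueField A

include hA in
/-- **`β ∈ B`** -/
theorem betaE_mem_BRing : betaE (N' * ℓ) h ∈ BRing N' ℓ A h :=
  ⟨regFin_betaE (N' * ℓ) h, (isRed1_betaE (N' * ℓ) A h hA).1, (isRed2_betaE (N' * ℓ) A h hA).1⟩

/-- `β` as an element of the ring `B` -/
def betaB : BRing N' ℓ A h := ⟨betaE (N' * ℓ) h, betaE_mem_BRing N' ℓ A h hA⟩

/-- the Laurent series of `G̃ · (τ − τ^(ℓ²))` -/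
theorem coe_GtF_mul :
    ((GtF (N' * ℓ) A h * (tauF (N' * ℓ) A - (tauF (N' * ℓ) A ^ ℓ) ^ ℓ) : FresBar (N' * ℓ) A) :
      LaurentSeries kA) = Gk ℓ kA * (jqModC kA - jqModC kA ^ (ℓ ^ 2)) := by
  push_cast
  rw [coe_GtF, coe_tauF, ← pow_mul, sq]

/-- **`red₁ β = G̃ · (J − J^(ℓ²))`** -/
theorem rho1_betaB :
    rho1 N' ℓ A h (betaB N' ℓ A h hA) = Gk ℓ kA * (jqModC kA - jqModC kA ^ (ℓ ^ 2)) := by
  obtain ⟨hx, hred⟩ := isRed1_betaE (N' * ℓ) A h hA
  rw [rho1_apply, ← coe_GtF_mul N' ℓ A h]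
  exact congrArg (fun y : FresBar (N' * ℓ) A => (y : LaurentSeries kA)) hred

/-- **`red₂ β = G̃ · (J − J^(ℓ²))`** -/
theorem rho2_betaB :
    rho2 N' ℓ A h (betaB N' ℓ A h hA) = Gk ℓ kA * (jqModC kA - jqModC kA ^ (ℓ ^ 2)) := by
  obtain ⟨hx, hred⟩ := isRed2_betaE (N' * ℓ) A h hA
  rw [rho2_apply, ← coe_GtF_mul N' ℓ A h]
  exact congrArg (fun y : FresBar (N' * ℓ) A => (y : LaurentSeries kA)) hred

end Level

section Pol

variable (ℓ : ℕ) [Fact ℓ.Prime] [NeZero ℓ] (A : ValuationSubring Kbar) (hA : A.LiesOverPrime ℓ)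

local notation "kA" => IsLocalRing.ResidueField A

omit [Fact ℓ.Prime] [NeZero ℓ] in
/-- the function field of level `1` over `k` is `k(J)` -/
theorem fullC_one_eq : modularFunctionFieldFullC kA 1 = kA⟮jqModC kA⟯ := by
  unfold modularFunctionFieldFullC
  congr 1
  ext x
  constructor
  · rintro ⟨d, hd, hd1, rfl⟩
    have : d = 1 := Nat.dvd_one.mp hd1
    subst this
    rw [qExpand_one_apply]
    exact Set.mem_singleton _
  · intro hx
    rw [Set.mem_singleton_iff] at hx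
    subst hx
    exact ⟨1, inferInstance, dvd_rfl, (qExpand_one_apply _).symm⟩

include hA in
/-- **the consumer input of `thick_series`**: `G̃ · (J − J^(ℓ²))` is a POLYNOMIAL in `J` -/
theorem exists_pol :
    ∃ Pol : Polynomial kA,
      Gk ℓ kA * (jqModC kA - jqModC kA ^ (ℓ ^ 2)) = Polynomial.aeval (jqModC kA) Pol := by
  have hℓ1 : ¬ ℓ ∣ 1 := Nat.Prime.not_dvd_one Fact.out
  have h1 : ExactDvd ℓ (1 * ℓ) := Fermat.Agent.GK.Val.TwoVal.exactDvd 1 ℓ hℓ1
  set c : CRing 1 A := redC1 hℓ1 hA (betaB 1 ℓ A h1 hA) with hc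
  have hcv : ((c : FresBar 1 A) : LaurentSeries kA) =
      Gk ℓ kA * (jqModC kA - jqModC kA ^ (ℓ ^ 2)) := by
    rw [← rho1_betaB 1 ℓ A h1 hA, ← cVal_redC1 hℓ1 hA, cVal_apply]
  -- membership in `k(J)`
  have hmem : ((c : FresBar 1 A) : LaurentSeries kA) ∈ kA⟮jqModC kA⟯ := by
    rw [← fullC_one_eq A, ← Fermat.Agent.GJ.J1.Res.FresBar_eq_fullC 1 A hℓ1 hA]
    exact (c : FresBar 1 A).2
  -- integrality over `k[J]`
  have hreg : RegFin kA (jqModC kA) ((c : FresBar 1 A) : LaurentSeries kA) := by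
    have := regFin_map_of_algHom (FresBar 1 A).val c.2
    rwa [IntermediateField.val_mk, IntermediateField.val_mk, Fermat.Agent.GK.QS.coe_jt] at this
  have h2 := (regFin_coe_iff (K := kA) (jqModC kA) ⟨_, hmem⟩).mp hreg
  obtain ⟨⟨y, hy⟩, hyc⟩ := h2
  have h3 : y = ((c : FresBar 1 A) : LaurentSeries kA) :=
    congrArg (fun z : kA⟮jqModC kA⟯ => (z : LaurentSeries kA)) hyc
  rw [Algebra.adjoin_singleton_eq_range_aeval] at hy
  obtain ⟨Pol, hPol⟩ := hy
  exact ⟨Pol, by rw [← hcv, ← h3]; exact hPol.symm⟩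

end Pol

end Fermat.Agent.GL.Thick
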