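/-
GATE-L / FIX-C-ABS (helper75): the abstract half of FIX C (cell ruling on the thickness count).

At a closed point `P` of the smooth level-`M` model over a value `a ∈ {0, 1728}` the local ring `A`
is regular, hence a UFD; every prime factor of `x = j - a` in `A` is horizontal and has
multiplicity exactly `c` (`c = 3`, `2`: no elliptic points in characteristic `0`).  Then

* `exists_unit_mul_pow` : `x = u · h ^ c` with `u` a unit of `A`;
* `map_eq_unit_mul_pow`, `ord_map_eq` : for every ring hom `φ : A → D` (reduction mod `q`) and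
  every additive order function `ord` on `D`, `ord (φ x) = c · ord (φ h)`:
  the ramification index `e_P = ord_P (j~ - a)` in characteristic `q` is a multiple of `c`;
* `thick_numerics` : `μ · e ≤ 12`, `e = c · n`, `n ≥ 1`, `12 ≤ μ · c` force `n = 1`, `e = c`,
  `μ · e = 12`;
* `thick_numerics_two` : the `q = 3` variant (`3 ∣ e`, `2 ∣ e`, `2 e ≤ 12` force `e = 6`).

Mathlib only.
-/
import Mathlib

set_option autoImplicit false

namespace Fermat.Agent.GL.Thick.FixC

section UFD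

variable {A : Type*} [CommRing A] [IsDomain A] [UniqueFactorizationMonoid A]

/-- **In a UFD, an element all of whose prime factors have multiplicity exactly `c` is a unit
times a `c`-th power.** -/
theorem exists_unit_mul_pow {c : ℕ} (hc : 0 < c) (x : A)
    (hmult : ∀ p : A, Prime p → p ∣ x → p ^ c ∣ x ∧ ¬ p ^ (c + 1) ∣ x) :
    ∃ u : Aˣ, ∃ h : A, x = u * h ^ c := by
  revert hmult
  induction x using UniqueFactorizationMonoid.induction_on_coprime with
  | h0 =>
    intro _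
    exact ⟨1, 0, by rw [zero_pow hc.ne', mul_zero]⟩
  | h1 hx =>
    intro _
    exact ⟨hx.unit, 1, by rw [one_pow, mul_one, IsUnit.unit_spec]⟩
  | hpr i hp =>
    rename_i p
    intro hmult
    rcases Nat.eq_zero_or_pos i with rfl | hi
    · exact ⟨1, 1, by rw [pow_zero, one_pow, Units.val_one, mul_one]⟩
    · obtain ⟨h1, h2⟩ := hmult p hp (dvd_pow_self p hi.ne')
      rw [pow_dvd_pow_iff hp.ne_zero hp.not_isUnit] at h1 h2
      have hic : i = c := by omega
      exact ⟨1, p, by rw [hic, Units.val_one, one_mul]⟩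
  | hcp hrel ihx ihy =>
    rename_i x y
    intro hmult
    have hx : ∀ p : A, Prime p → p ∣ x → p ^ c ∣ x ∧ ¬ p ^ (c + 1) ∣ x := by
      intro p hp hpx
      have hpy : ¬ p ∣ y := fun hpy => hp.not_isUnit (hrel hpx hpy)
      obtain ⟨h1, h2⟩ := hmult p hp (hpx.mul_right y)
      exact ⟨hp.pow_dvd_of_dvd_mul_right c hpy h1, fun h => h2 (h.mul_right y)⟩
    have hy : ∀ p : A, Prime p → p ∣ y → p ^ c ∣ y ∧ ¬ p ^ (c + 1) ∣ y := by
      intro p hp hpy
      have hpx : ¬ p ∣ x := fun hpx => hp.not_isUnit (hrel hpx hpy)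
      obtain ⟨h1, h2⟩ := hmult p hp (hpy.mul_left x)
      exact ⟨hp.pow_dvd_of_dvd_mul_left c hpx h1, fun h => h2 (h.mul_left x)⟩
    obtain ⟨u, h, rfl⟩ := ihx hx
    obtain ⟨u', h', rfl⟩ := ihy hy
    exact ⟨u * u', h * h', by rw [Units.val_mul, mul_pow]; ring⟩

/-- the image of `x = u h^c` under a ring hom -/
theorem map_eq_unit_mul_pow {D : Type*} [CommRing D] (φ : A →+* D) {c : ℕ} (hc : 0 < c) (x : A)
    (hmult : ∀ p : A, Prime p → p ∣ x → p ^ c ∣ x ∧ ¬ p ^ (c + 1) ∣ x) :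
    ∃ v : Dˣ, ∃ h : D, φ x = v * h ^ c := by
  obtain ⟨u, h, rfl⟩ := exists_unit_mul_pow hc x hmult
  exact ⟨Units.map (φ : A →* D) u, φ h, by rw [map_mul, map_pow]; rfl⟩

end UFD

section Ord

variable {D : Type*} [CommRing D]

/-- **`e = c · n`**: for an additive order function (`ord (a b) = ord a + ord b`, units have order
`0`) the order of `v · h ^ c` is `c · ord h`. -/
theorem ord_unit_mul_pow {Γ : Type*} [AddCommMonoid Γ] (ord : D → Γ)
    (hmul : ∀ a b, ord (a * b) = ord a + ord b) (hunit : ∀ v : Dˣ, ord v = 0)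
    (v : Dˣ) (h : D) (c : ℕ) : ord (v * h ^ c) = c • ord h := by
  rw [hmul, hunit, zero_add]
  induction c with
  | zero =>
    rw [pow_zero, zero_smul]
    exact hunit 1
  | succ c ih => rw [pow_succ, hmul, ih, succ_nsmul]

/-- the ramification index of the reduction of `x` is a multiple of `c` -/
theorem ord_map_eq {A : Type*} [CommRing A] [IsDomain A] [UniqueFactorizationMonoid A]
    (φ : A →+* D) {Γ : Type*} [AddCommMonoid Γ] (ord : D → Γ)
    (hmul : ∀ a b, ord (a * b) = ord a + ord b) (hunit : ∀ v : Dˣ, ord v = 0)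
    {c : ℕ} (hc : 0 < c) (x : A)
    (hmult : ∀ p : A, Prime p → p ∣ x → p ^ c ∣ x ∧ ¬ p ^ (c + 1) ∣ x) :
    ∃ h : D, ord (φ x) = c • ord h := by
  obtain ⟨v, h, hx⟩ := map_eq_unit_mul_pow φ hc x hmult
  exact ⟨h, by rw [hx, ord_unit_mul_pow ord hmul hunit]⟩

end Ord

section Numerics

/-- **thickness numerics**: `μ e ≤ 12`, `e = c n`, `n ≥ 1`, `12 ≤ μ c` force `n = 1`, `e = c` and
`μ e = 12`. -/
theorem thick_numerics {μ c n e : ℕ} (he : e = c * n) (hn : 1 ≤ n) (hle : μ * e ≤ 12)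
    (hge : 12 ≤ μ * c) : n = 1 ∧ e = c ∧ μ * e = 12 := by
  subst he
  have h1 : μ * c * n ≤ 12 := by rw [mul_assoc]; exact hle
  have hn1 : n = 1 := by
    by_contra hne
    have h2 : 2 ≤ n := by omega
    have h3 : μ * c * 2 ≤ μ * c * n := Nat.mul_le_mul_left _ h2
    omega
  subst hn1
  refine ⟨rfl, by rw [mul_one], ?_⟩
  rw [mul_one] at hle ⊢
  omega

/-- the variant for `q = 3` (`a = 0 = 1728`, `μ = 2`): `3 ∣ e`, `2 ∣ e`, `e ≥ 1`, `2 e ≤ 12` force
`e = 6`. -/
theorem thick_numerics_two {e : ℕ} (h3 : 3 ∣ e) (h2 : 2 ∣ e) (hpos : 1 ≤ e) (hle : 2 * e ≤ 12) :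
    e = 6 := by
  obtain ⟨a, rfl⟩ := h3
  obtain ⟨b, hb⟩ := h2
  omega

/-- the variant for `q = 2` (`μ = 1`): `3 ∣ e`, `4 ∣ e`, `e ≥ 1`, `e ≤ 12` force `e = 12`. -/
theorem thick_numerics_three {e : ℕ} (h3 : 3 ∣ e) (h4 : 4 ∣ e) (hpos : 1 ≤ e) (hle : e ≤ 12) :
    e = 12 := by
  obtain ⟨a, rfl⟩ := h3
  obtain ⟨b, hb⟩ := h4
  omega

end Numerics

end Fermat.Agent.GL.Thick.FixC
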