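/-
GATE-L / HASSE integer lifts, FACTORED forms for REG3 (B) (helper63): the shapes of the integer
lifts `intSsPoly`, `intU₂`, `intV₁` at the elliptic values `a = 0`, `a = 1728`.

* `eval_ssPoly_map`, `eval_hasseU₂_map` : `P_{k'}(f a) = f (P_k(a))`;
* ordinarity of `0`, `1728` does not depend on the field: `ssPoly_eval_zero_eq_zero_iff`,
  `ssPoly_eval_1728_eq_zero_iff`, and in integer form `ssPoly_eval_zero_eq_zero_iff_dvd`,
  `ssPoly_eval_1728_eq_zero_iff_dvd` (`⟺ q ∣ P̂(0)` resp. `q ∣ P̂(1728)`);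
* `exists_eq_add_C_mul_of_map_eq` : two integer polynomials with the same reduction mod `q` differ
  by `C q * W`;
* `exists_intU₂_factor_zero` : `0` ordinary ⟹ `intU₂ = X^((q-1)/3) · U' + q · W`, `q ∤ U'(0)`,
  `X^((q-1)/3) · U'` is again a lift of `U₂` for every `k`;
* `not_dvd_eval_intU₂_1728` : `1728` ordinary ⟹ `q ∤ intU₂(1728)`.
-/
import Fermat.Agent.GL.Thick.HasseMap

set_option autoImplicit false

noncomputable section

namespace Fermat.Agent.GL.Thick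

open Polynomial

section Eval

variable (q : ℕ) [Fact q.Prime] {k k' : Type*} [Field k] [Field k'] [CharP k q] [CharP k' q]
  (f : k →+* k')

theorem eval_ssPoly_map (hq5 : 5 ≤ q) (a : k) :
    (ssPoly q k' hq5).eval (f a) = f ((ssPoly q k hq5).eval a) := by
  rw [← ssPoly_map q f hq5, eval_map_apply]

theorem eval_hasseU₂_map (hq5 : 5 ≤ q) (a : k) :
    (hasseU₂ q k' hq5).eval (f a) = f ((hasseU₂ q k hq5).eval a) := by
  rw [← hasseU₂_map q f hq5, eval_map_apply]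

include f in
/-- **ordinarity of `j = 0` does not depend on the field** -/
theorem ssPoly_eval_zero_eq_zero_iff (hq5 : 5 ≤ q) :
    (ssPoly q k' hq5).eval 0 = 0 ↔ (ssPoly q k hq5).eval 0 = 0 := by
  have h := eval_ssPoly_map q f hq5 0
  rw [map_zero] at h
  rw [h, map_eq_zero]

include f in
/-- **ordinarity of `j = 1728` does not depend on the field** -/
theorem ssPoly_eval_1728_eq_zero_iff (hq5 : 5 ≤ q) :
    (ssPoly q k' hq5).eval 1728 = 0 ↔ (ssPoly q k hq5).eval 1728 = 0 := by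
  have h := eval_ssPoly_map q f hq5 1728
  rw [map_ofNat] at h
  rw [h, map_eq_zero]

end Eval

section IntForms

variable (q : ℕ) [Fact q.Prime]

/-- `(P̂(n) : k) = pH(n)` -/
theorem intCast_eval_intSsPoly (hq5 : 5 ≤ q) (k : Type*) [Field k] [CharP k q] (n : ℤ) :
    (((intSsPoly q hq5).eval n : ℤ) : k) = (ssPoly q k hq5).eval (n : k) := by
  rw [← intSsPoly_map q hq5 k, ← eq_intCast (Int.castRingHom k), ← eq_intCast (Int.castRingHom k) n,
    eval_map_apply]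

theorem intCast_eval_intU₂ (hq5 : 5 ≤ q) (k : Type*) [Field k] [CharP k q] (n : ℤ) :
    (((intU₂ q hq5).eval n : ℤ) : k) = (hasseU₂ q k hq5).eval (n : k) := by
  rw [← intU₂_map q hq5 k, ← eq_intCast (Int.castRingHom k), ← eq_intCast (Int.castRingHom k) n,
    eval_map_apply]

/-- **`pH(0) = 0 ⟺ q ∣ P̂(0)`** -/
theorem ssPoly_eval_zero_eq_zero_iff_dvd (hq5 : 5 ≤ q) (k : Type*) [Field k] [CharP k q] :
    (ssPoly q k hq5).eval 0 = 0 ↔ (q : ℤ) ∣ (intSsPoly q hq5).eval 0 := by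
  have h := intCast_eval_intSsPoly q hq5 k 0
  rw [Int.cast_zero] at h
  rw [← h, CharP.intCast_eq_zero_iff k q]

/-- **`pH(1728) = 0 ⟺ q ∣ P̂(1728)`** -/
theorem ssPoly_eval_1728_eq_zero_iff_dvd (hq5 : 5 ≤ q) (k : Type*) [Field k] [CharP k q] :
    (ssPoly q k hq5).eval 1728 = 0 ↔ (q : ℤ) ∣ (intSsPoly q hq5).eval 1728 := by
  have h := intCast_eval_intSsPoly q hq5 k 1728
  rw [Int.cast_ofNat] at h
  rw [← h, CharP.intCast_eq_zero_iff k q]

/-- two integer polynomials with the same reduction mod `q` differ by a multiple of `q` -/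
theorem exists_eq_add_C_mul_of_map_eq (P P' : ℤ[X])
    (h : P.map (Int.castRingHom (ZMod q)) = P'.map (Int.castRingHom (ZMod q))) :
    ∃ W : ℤ[X], P = P' + C (q : ℤ) * W := by
  have hd : C (q : ℤ) ∣ P - P' := by
    rw [C_dvd_iff_dvd_coeff]
    intro i
    have hi := congrArg (fun R => R.coeff i) h
    simp only [coeff_map, eq_intCast] at hi
    rw [coeff_sub, ← ZMod.intCast_zmod_eq_zero_iff_dvd, Int.cast_sub, hi, sub_self]
  obtain ⟨W, hW⟩ := hd
  exact ⟨W, by rw [← hW]; ring⟩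

/-- **`1728` ordinary ⟹ `q ∤ Û₂(1728)`** -/
theorem not_dvd_eval_intU₂_1728 (hq5 : 5 ≤ q)
    (h : ¬ (q : ℤ) ∣ (intSsPoly q hq5).eval 1728) : ¬ (q : ℤ) ∣ (intU₂ q hq5).eval 1728 := by
  intro hd
  have h1 : (ssPoly q (ZMod q) hq5).eval 1728 ≠ 0 := fun h0 =>
    h ((ssPoly_eval_1728_eq_zero_iff_dvd q hq5 (ZMod q)).mp h0)
  have h2 := hasseU₂_eval_1728_ne_zero q (ZMod q) hq5 h1
  apply h2
  have h3 := intCast_eval_intU₂ q hq5 (ZMod q) 1728
  rw [Int.cast_ofNat] at h3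
  rw [← h3, CharP.intCast_eq_zero_iff (ZMod q) q]
  exact hd

/-- **`0` ordinary ⟹ `Û₂ = X^((q-1)/3) · U' + q · W`, `q ∤ U'(0)`**, and `X^((q-1)/3) · U'` is a
lift of `U₂` over every `k` -/
theorem exists_intU₂_factor_zero (hq5 : 5 ≤ q)
    (h : ¬ (q : ℤ) ∣ (intSsPoly q hq5).eval 0) :
    ∃ U' W : ℤ[X], intU₂ q hq5 = X ^ ((q - 1) / 3) * U' + C (q : ℤ) * W ∧
      ¬ (q : ℤ) ∣ U'.eval 0 ∧ 3 ∣ q - 1 := by
  have h1 : (ssPoly q (ZMod q) hq5).eval 0 ≠ 0 := fun h0 =>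
    h ((ssPoly_eval_zero_eq_zero_iff_dvd q hq5 (ZMod q)).mp h0)
  obtain ⟨U₀, hU₀, hU₀0⟩ := exists_hasseU₂_factor_zero q (ZMod q) hq5 h1
  obtain ⟨U', hU'⟩ := map_surjective (Int.castRingHom (ZMod q)) ZMod.intCast_surjective U₀
  have hmap : (intU₂ q hq5).map (Int.castRingHom (ZMod q)) =
      (X ^ ((q - 1) / 3) * U').map (Int.castRingHom (ZMod q)) := by
    rw [intU₂_map_zmod, Polynomial.map_mul, Polynomial.map_pow, map_X, hU', hU₀]
  obtain ⟨W, hW⟩ := exists_eq_add_C_mul_of_map_eq q _ _ hmap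
  refine ⟨U', W, hW, ?_, three_dvd_of_ssPoly_zero q (ZMod q) hq5 h1⟩
  intro hd
  apply hU₀0
  have h2 : U₀.eval 0 = (Int.castRingHom (ZMod q)) (U'.eval 0) := by
    rw [← hU', ← eval_map_apply, map_zero]
  rw [h2, eq_intCast, ZMod.intCast_zmod_eq_zero_iff_dvd]
  exact hd

/-- in any ring `B` with `q ∈ P` (an ideal): `Û₂(x) ≡ x^((q-1)/3) · U'(x)` modulo `P` -/
theorem aeval_intU₂_sub_mem {B : Type*} [CommRing B] (P : Ideal B) (hqP : (q : B) ∈ P)
    (hq5 : 5 ≤ q) {U' W : ℤ[X]}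
    (hUW : intU₂ q hq5 = X ^ ((q - 1) / 3) * U' + C (q : ℤ) * W) (x : B) :
    aeval x (intU₂ q hq5) - x ^ ((q - 1) / 3) * aeval x U' ∈ P := by
  rw [hUW, map_add, map_mul, map_mul, map_pow, aeval_X, aeval_C, add_sub_cancel_left]
  have : (algebraMap ℤ B) (q : ℤ) = (q : B) := by simp
  rw [this]
  exact P.mul_mem_right _ hqP

end IntForms

end Fermat.Agent.GL.Thick
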