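/-
GATE-L / SMALL-Q (helper95), file 9: ADAPTER from the (S4)/FIX C output to the `hdiv` hypothesis
of GL/Thick/SmallQThick (`∀ n, v.intValuation j = exp (-n) → c ∣ n`), in a Dedekind domain `C`.

* `dvd_of_mul_eq_mul_pow` : fraction-free form `s * j = u * h ^ c`, `s, u ∉ P`;
* `dvd_of_associated_pow` : `j` associated to a `c`-th power times something outside `P`;
* `dvd_of_map_eq` : localised form — `φ : C →+* D` with `D` ANY domain carrying a valuation `w`
  extending `v.intValuation` on `C` (e.g. `D` = the localisation / the DVR `O ⧸ (q)` of the frame),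
  `φ j = u * h ^ c` with `w u = 1`, `w h = exp (-m)`.
-/
import Mathlib

set_option autoImplicit false

noncomputable section

namespace Fermat.Agent.GL.SmallQ

open IsDedekindDomain IsDedekindDomain.HeightOneSpectrum WithZero

variable {C : Type*} [CommRing C] [IsDedekindDomain C] (v : HeightOneSpectrum C)

theorem intValuation_eq_one_of_notMem {s : C} (hs : s ∉ v.asIdeal) : v.intValuation s = 1 := by
  rcases (v.intValuation_le_one s).lt_or_eq with hlt | heq
  · exact absurd ((v.intValuation_lt_one_iff_mem s).1 hlt) hs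
  · exact heq

/-- **fraction-free (DIV_c)**: `s * j = u * h ^ c` with `s, u ∉ P` ⟹ `c ∣ ord_P j`. -/
theorem dvd_of_mul_eq_mul_pow {j s u h : C} {c : ℕ} (hs : s ∉ v.asIdeal) (hu : u ∉ v.asIdeal)
    (hj0 : j ≠ 0) (hrel : s * j = u * h ^ c) :
    ∀ n : ℕ, v.intValuation j = exp (-(n : ℤ)) → c ∣ n := by
  intro n hn
  have hvs := intValuation_eq_one_of_notMem v hs
  have hvu := intValuation_eq_one_of_notMem v hu
  have h1 : v.intValuation j = v.intValuation h ^ c := by
    have := congrArg v.intValuation hrel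
    rwa [map_mul, map_mul, hvs, hvu, one_mul, one_mul, map_pow] at this
  rcases Nat.eq_zero_or_pos c with hc | hc
  · subst hc
    rw [pow_zero, hn] at h1
    have h2 : (-(n : ℤ)) = 0 := exp_injective (M := ℤ) (by rw [exp_zero]; exact h1)
    have h3 : n = 0 := by omega
    rw [h3]
  have hh0 : h ≠ 0 := by
    rintro rfl
    rw [map_zero, zero_pow hc.ne'] at h1
    exact absurd h1 (v.intValuation_ne_zero j hj0)
  set m := (Associates.mk v.asIdeal).count (Associates.mk (Ideal.span {h} : Ideal C)).factors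
  have hvh : v.intValuation h = exp (-(m : ℤ)) := v.intValuation_if_neg hh0
  rw [hn, hvh, ← exp_nsmul, exp_inj] at h1
  refine ⟨m, ?_⟩
  have : (-(n : ℤ)) = c • (-(m : ℤ)) := h1
  rw [nsmul_eq_mul] at this
  have h2 : (n : ℤ) = c * m := by linarith
  exact_mod_cast h2

/-- `j = u * h ^ c` in `C` itself with `u ∉ P`. -/
theorem dvd_of_eq_mul_pow {j u h : C} {c : ℕ} (hu : u ∉ v.asIdeal) (hj0 : j ≠ 0)
    (hrel : j = u * h ^ c) : ∀ n : ℕ, v.intValuation j = exp (-(n : ℤ)) → c ∣ n :=
  dvd_of_mul_eq_mul_pow v (s := 1) (fun h1 => v.isPrime.ne_top ((Ideal.eq_top_iff_one _).2 h1)) hu hj0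
    (by rw [one_mul, hrel])

/-- **localised (DIV_c)**: `φ : C →+* D`, `w` a `ℤᵐ⁰`-valued valuation on `D` with
`w ∘ φ = v.intValuation`; `φ j = u * h ^ c`, `w u = 1`  ⟹  `c ∣ ord_P j`. -/
theorem dvd_of_map_eq {D : Type*} [CommRing D] (φ : C →+* D) (w : Valuation D ℤᵐ⁰)
    (hw : ∀ x : C, w (φ x) = v.intValuation x) {j : C} {u h : D} {c : ℕ} (hu : w u = 1)
    (hrel : φ j = u * h ^ c) : ∀ n : ℕ, v.intValuation j = exp (-(n : ℤ)) → c ∣ n := by
  intro n hn
  have h1 : v.intValuation j = w h ^ c := by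
    rw [← hw, hrel, map_mul, hu, one_mul, map_pow]
  rcases Nat.eq_zero_or_pos c with hc | hc
  · subst hc
    rw [pow_zero, hn] at h1
    have h2 : (-(n : ℤ)) = 0 := exp_injective (M := ℤ) (by rw [exp_zero]; exact h1)
    have h3 : n = 0 := by omega
    rw [h3]
  rcases eq_or_ne (w h) 0 with h0 | h0
  · rw [h0, zero_pow hc.ne'] at h1
    rw [h1] at hn
    exact absurd hn.symm exp_ne_zero
  · have hwh : w h = exp (log (w h)) := (exp_log h0).symm
    rw [hn, hwh, ← exp_nsmul, exp_inj, nsmul_eq_mul] at h1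
    have h2 : (n : ℤ) = c * (-log (w h)) := by linarith
    have h3 : (c : ℤ) ∣ (n : ℤ) := ⟨_, h2⟩
    exact_mod_cast h3

end Fermat.Agent.GL.SmallQ
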