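/-
GATE-L / ETA-route input for the SMALL primes `q ∈ {2, 3}` (helper81): the twin of helper63's
`GL/Thick/SsPoly.lean` (`5 ≤ q`) for the primes where the level-one Hasse polynomial does not exist.

In characteristic `2`, `3` (and `5`) one has `240 = 0`, hence `E₄ = 1`, hence `J = E₄³ Δ⁻¹ = Δ⁻¹`, so

  `red₁ (Δ(z)/Δ(qz)) = Δ̃^{-(q-1)} = J̃^{q-1}`,

i.e. the "supersingular polynomial" of the ETA-route (BLUEPRINT v2, 2677 (V2) III (1)) is `X^{q-1}`
(`j = 0 = 1728` is the only supersingular invariant, with multiplicity `q - 1 = 12 / |Aut/±1|`).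

* `e4S_eq_one` : `(240 : R) = 0 → e4S R = 1`;
* `jqModC_eq_deltaInvS` : `(240 : R) = 0 → jqModC R = deltaInvS R`;
* `uInvS_eq_pow_of_small`, `uInvS_eq_ssPolySmall` : `uInvS k q = J^{q-1} = aeval J (X^{q-1})` for `q ≤ 5`;
* `exists_ssPoly_all` : for EVERY prime `q` there is a monic `P` of degree `q - 1` with
  `uInvS k q = aeval J P` and `deltaInvS k ^ (q-1) = aeval J P` (helper63's `ssPoly` for `5 ≤ q`, `X^{q-1}` else).
-/
import Fermat.Agent.GL.Thick.SsPoly

set_option autoImplicit false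
set_option linter.unusedSectionVars false

noncomputable section

namespace Fermat.Agent.GL.Thick.Small

open HahnSeries ModularCurve Polynomial Fermat.Agent.S28

section Ring

variable (R : Type*) [CommRing R]

/-- `E₄ = 1` as soon as `240 = 0` (characteristics `2`, `3`, `5`) -/
theorem eisenstein4_map_eq_one (h : (240 : R) = 0) :
    eisenstein4.map (Int.castRingHom R) = 1 := by
  ext n
  rw [PowerSeries.coeff_map, eisenstein4, PowerSeries.coeff_mk, PowerSeries.coeff_one]
  by_cases hn : n = 0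
  · simp [hn]
  · rw [if_neg hn, if_neg hn, map_mul]
    have : (Int.castRingHom R) 240 = 0 := by
      rw [eq_intCast]; exact_mod_cast h
    rw [this, zero_mul]

theorem e4S_eq_one (h : (240 : R) = 0) : e4S R = 1 := by
  rw [e4S, eisenstein4_map_eq_one R h, map_one]

/-- `J = Δ⁻¹` as soon as `240 = 0` -/
theorem jqModC_eq_deltaInvS (h : (240 : R) = 0) : jqModC R = deltaInvS R := by
  rw [jqModC_eq_e4S_deltaInvS, e4S_eq_one R h, one_pow, one_mul]

end Ring

section CharQ

variable (q : ℕ) [Fact q.Prime] (k : Type*) [Field k] [CharP k q]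

/-- `240 = 0` in characteristic `q ≤ 5` -/
theorem cast_240_eq_zero (hq : q ≤ 5) : (240 : k) = 0 := by
  have hq' : q.Prime := Fact.out
  have hdvd : q ∣ 240 := by
    have h2 := hq'.two_le
    interval_cases q
    · decide
    · decide
    · exact absurd hq' (by decide)
    · decide
  have := (CharP.cast_eq_zero_iff k q 240).mpr hdvd
  exact_mod_cast this

/-- **`Δ̃^{-(q-1)} = J^{q-1}`** for `q ∈ {2, 3, 5}` -/
theorem deltaInvS_pow_eq_pow_of_small (hq : q ≤ 5) :
    deltaInvS k ^ (q - 1) = jqModC k ^ (q - 1) := by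
  rw [jqModC_eq_deltaInvS k (cast_240_eq_zero q k hq)]

/-- **`Δ(Q)/Δ(Q^q) = J^{q-1}`** in characteristic `q ∈ {2, 3, 5}` (`= red₁` of the eta quotient) -/
theorem uInvS_eq_pow_of_small [NeZero q] (hq : q ≤ 5) :
    uInvS k q = jqModC k ^ (q - 1) := by
  rw [Fermat.Agent.GK.Cusp.uInvS_char, deltaInvS_pow_eq_pow_of_small q k hq]

/-- the "supersingular polynomial" of the small primes: `X^{q-1}` -/
def ssPolySmall : k[X] := X ^ (q - 1)

theorem aeval_ssPolySmall : aeval (jqModC k) (ssPolySmall q k) = jqModC k ^ (q - 1) := by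
  rw [ssPolySmall, map_pow, aeval_X]

theorem natDegree_ssPolySmall : (ssPolySmall q k).natDegree = q - 1 := by
  rw [ssPolySmall, natDegree_X_pow]

theorem monic_ssPolySmall : (ssPolySmall q k).Monic := by
  rw [ssPolySmall]; exact monic_X_pow _

theorem uInvS_eq_ssPolySmall [NeZero q] (hq : q ≤ 5) :
    uInvS k q = aeval (jqModC k) (ssPolySmall q k) := by
  rw [aeval_ssPolySmall, uInvS_eq_pow_of_small q k hq]

theorem deltaInvS_pow_eq_ssPolySmall (hq : q ≤ 5) :
    deltaInvS k ^ (q - 1) = aeval (jqModC k) (ssPolySmall q k) := by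
  rw [aeval_ssPolySmall, deltaInvS_pow_eq_pow_of_small q k hq]

/-- the only root of the small supersingular polynomial is `0` (for `q ≠ 1`, i.e. always) -/
theorem ssPolySmall_eval_eq_zero_iff (a : k) : (ssPolySmall q k).eval a = 0 ↔ a = 0 := by
  have hq' : q.Prime := Fact.out
  rw [ssPolySmall, eval_pow, eval_X, pow_eq_zero_iff (by have := hq'.two_le; omega)]

/-- multiplicity of the root `0`: `q - 1` -/
theorem rootMultiplicity_ssPolySmall : (ssPolySmall q k).rootMultiplicity 0 = q - 1 := by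
  rw [ssPolySmall]
  have := rootMultiplicity_X_sub_C_pow (0 : k) (q - 1)
  rwa [C_0, sub_zero] at this

/-- **ALL primes**: `Δ(Q)/Δ(Q^q) = Δ̃^{-(q-1)} = P(J)` with `P` monic of degree `q - 1`
(helper63's `ssPoly` for `5 ≤ q`, `X^{q-1}` for `q ∈ {2,3}`). -/
theorem exists_ssPoly_all [NeZero q] :
    ∃ P : k[X], P.Monic ∧ P.natDegree = q - 1 ∧ uInvS k q = aeval (jqModC k) P ∧
      deltaInvS k ^ (q - 1) = aeval (jqModC k) P := by
  by_cases hq5 : 5 ≤ q
  · exact ⟨ssPoly q k hq5, monic_ssPoly q k hq5, natDegree_ssPoly q k hq5,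
      uInvS_eq_ssPoly q k hq5, deltaInvS_pow_eq_ssPoly q k hq5⟩
  · have hq : q ≤ 5 := by omega
    exact ⟨ssPolySmall q k, monic_ssPolySmall q k, natDegree_ssPolySmall q k,
      uInvS_eq_ssPolySmall q k hq, deltaInvS_pow_eq_ssPolySmall q k hq⟩

end CharQ

end Fermat.Agent.GL.Thick.Small
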